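import Fermat.Agent.S36.Squares
import Fermat.Agent.GalRep.Input

/-!
# Hecke and Galois equivariance of the degeneracy push-forwards
-/

set_option autoImplicit false
set_option linter.style.haveILetI false
set_option linter.unusedSectionVars false

noncomputable section

open HahnSeries ModularCurve AlgebraicCurve IntermediateField Fermat.Agent.RR Fermat.Agent.TEll
  Fermat.Agent.X0Emb Fermat.Agent.HeckeComm Fermat.Agent.QX4 Fermat.Agent.GalRep

namespace Fermat.Agent.S36red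

local notation "KK" => AlgebraicClosure ℚ

section Fun

variable (N q ℓ : ℕ) [NeZero N] [NeZero q] [NeZero ℓ]

/-- `α_* T_ℓ = T_ℓ α_*` on functions. -/
theorem al_TEll (hq : q.Prime) (hqℓ : ¬ q ∣ ℓ) (f : modularFunctionFieldBar (N * q)) :
    normAlong (heckeAlphaBar KK N q) (TEll.TEll KK (N * q) ℓ f) =
      TEll.TEll KK N ℓ (normAlong (heckeAlphaBar KK N q) f) := by
  rw [TEll_apply, TEll_apply, beta_normAlong N q ℓ hq hqℓ,
    ← HeckeComm.normAlong_comp _ _ (finAlpha N q) (finAlpha (N * q) ℓ),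
    ← HeckeComm.normAlong_comp _ _ (finAlpha N ℓ) (finAlpha (N * ℓ) q)]
  symm
  refine HeckeComm.normAlong_equiv _ _ (swapLevel N q ℓ) (fun x => Subtype.ext ?_) _
  rw [coe_swapLevel, AlgHom.comp_apply, AlgHom.comp_apply, coe_heckeAlphaBar, coe_heckeAlphaBar,
    coe_heckeAlphaBar, coe_heckeAlphaBar]

/-- `β_* T_ℓ = T_ℓ β_*` on functions. -/
theorem be_TEll (hℓ : ℓ.Prime) (hℓN : ¬ ℓ ∣ N) (hqℓ : Nat.Coprime q ℓ)
    (f : modularFunctionFieldBar (N * q)) :
    normAlong (heckeBetaBar KK N q) (TEll.TEll KK (N * q) ℓ f) =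
      TEll.TEll KK N ℓ (normAlong (heckeBetaBar KK N q) f) := by
  rw [TEll_apply, TEll_apply, beta_norm_beta N q ℓ hℓ hℓN hqℓ,
    ← HeckeComm.normAlong_comp _ _ (finBeta N q) (finAlpha (N * q) ℓ),
    ← HeckeComm.normAlong_comp _ _ (finAlpha N ℓ) (finBeta (N * ℓ) q)]
  symm
  refine HeckeComm.normAlong_equiv _ _ (swapLevel N q ℓ) (fun x => Subtype.ext ?_) _
  rw [coe_swapLevel, AlgHom.comp_apply, AlgHom.comp_apply, coe_heckeAlphaBar, coe_heckeBetaBar,
    coe_heckeBetaBar, coe_heckeAlphaBar]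

end Fun

section Divisors

variable (N q ℓ : ℕ) [NeZero N] [NeZero q] [NeZero ℓ]

theorem al_heckeDiv (hq : q.Prime) (hqℓ : ¬ q ∣ ℓ)
    (D : Divisor KK (modularFunctionFieldBar (N * q))) :
    Divisor.pushforwardAlong (heckeAlphaBar KK N q) (intA N q) (heckeDiv (N * q) ℓ D) =
      heckeDiv N ℓ (Divisor.pushforwardAlong (heckeAlphaBar KK N q) (intA N q) D) := by
  have hrow : ∀ (M m : ℕ) [NeZero M] [NeZero m], FiniteRows (heckeDiv M m) := fun M m _ _ =>
    finiteRows_correspondence _ _ _ _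
  have h1 : (Divisor.pushforwardAlong (heckeAlphaBar KK N q) (intA N q)).comp
      (heckeDiv (N * q) ℓ) =
      (heckeDiv N ℓ).comp (Divisor.pushforwardAlong (heckeAlphaBar KK N q) (intA N q)) := by
    refine eq_of_principal ((finiteRows_pushforwardAlong _ _).comp (hrow (N * q) ℓ))
      ((hrow N ℓ).comp (finiteRows_pushforwardAlong _ _)) fun f hf => ?_
    rw [AddMonoidHom.comp_apply, AddMonoidHom.comp_apply, heckeDiv_div hf,
      pushforwardAlong_div _ _ (finAlpha N q) (nfAlpha N q)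
        (TEll_ne_zero _ (N * q) ℓ (finAlpha (N * q) ℓ) hf),
      pushforwardAlong_div _ _ (finAlpha N q) (nfAlpha N q) hf,
      heckeDiv_div (normAlong_ne_zero _ (finAlpha N q) hf), al_TEll N q ℓ hq hqℓ]
  exact DFunLike.congr_fun h1 D

theorem be_heckeDiv (hℓ : ℓ.Prime) (hℓN : ¬ ℓ ∣ N) (hqℓ : Nat.Coprime q ℓ)
    (D : Divisor KK (modularFunctionFieldBar (N * q))) :
    Divisor.pushforwardAlong (heckeBetaBar KK N q) (intB N q) (heckeDiv (N * q) ℓ D) =
      heckeDiv N ℓ (Divisor.pushforwardAlong (heckeBetaBar KK N q) (intB N q) D) := by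
  have hrow : ∀ (M m : ℕ) [NeZero M] [NeZero m], FiniteRows (heckeDiv M m) := fun M m _ _ =>
    finiteRows_correspondence _ _ _ _
  have h1 : (Divisor.pushforwardAlong (heckeBetaBar KK N q) (intB N q)).comp
      (heckeDiv (N * q) ℓ) =
      (heckeDiv N ℓ).comp (Divisor.pushforwardAlong (heckeBetaBar KK N q) (intB N q)) := by
    refine eq_of_principal ((finiteRows_pushforwardAlong _ _).comp (hrow (N * q) ℓ))
      ((hrow N ℓ).comp (finiteRows_pushforwardAlong _ _)) fun f hf => ?_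
    rw [AddMonoidHom.comp_apply, AddMonoidHom.comp_apply, heckeDiv_div hf,
      pushforwardAlong_div _ _ (finBeta N q) (nfBeta N q)
        (TEll_ne_zero _ (N * q) ℓ (finAlpha (N * q) ℓ) hf),
      pushforwardAlong_div _ _ (finBeta N q) (nfBeta N q) hf,
      heckeDiv_div (normAlong_ne_zero _ (finBeta N q) hf), be_TEll N q ℓ hℓ hℓN hqℓ]
  exact DFunLike.congr_fun h1 D

end Divisors

section Pic

variable (N q : ℕ) [NeZero N] [NeZero q]

theorem alPush_hecke (hq : q.Prime) (ℓ : Nat.Primes) (hqℓ : ¬ q ∣ ℓ) (x : JZero (N * q)) :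
    alPush N q (heckeOperatorBar (N * q) ℓ x) = heckeOperatorBar N ℓ (alPush N q x) := by
  haveI : NeZero (ℓ : ℕ) := ⟨ℓ.2.ne_zero⟩
  obtain ⟨D, rfl⟩ := Pic0.mk_surjective x
  obtain ⟨D₁, h1, h1'⟩ := heckeOperatorBar_mk ℓ D
  rw [h1']
  unfold alPush
  rw [pushPic0_mk, pushPic0_mk]
  obtain ⟨D₂, h2, h2'⟩ := heckeOperatorBar_mk ℓ
    (pushDegZero (heckeAlphaBar KK N q) (intA N q) D)
  rw [h2']
  refine congrArg Pic0.mk (Subtype.ext ?_)
  rw [h2, coe_pushDegZero, coe_pushDegZero, h1, al_heckeDiv N q ℓ hq hqℓ]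

theorem bePush_hecke (ℓ : Nat.Primes) (hℓN : ¬ (ℓ : ℕ) ∣ N) (hqℓ : Nat.Coprime q ℓ)
    (x : JZero (N * q)) :
    bePush N q (heckeOperatorBar (N * q) ℓ x) = heckeOperatorBar N ℓ (bePush N q x) := by
  haveI : NeZero (ℓ : ℕ) := ⟨ℓ.2.ne_zero⟩
  obtain ⟨D, rfl⟩ := Pic0.mk_surjective x
  obtain ⟨D₁, h1, h1'⟩ := heckeOperatorBar_mk ℓ D
  rw [h1']
  unfold bePush
  rw [pushPic0_mk, pushPic0_mk]
  obtain ⟨D₂, h2, h2'⟩ := heckeOperatorBar_mk ℓ
    (pushDegZero (heckeBetaBar KK N q) (intB N q) D)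
  rw [h2']
  refine congrArg Pic0.mk (Subtype.ext ?_)
  rw [h2, coe_pushDegZero, coe_pushDegZero, h1, be_heckeDiv N q ℓ ℓ.2 hℓN hqℓ]

/-- The push-forward along an intertwining homomorphism. -/
theorem pushPic0_smul {K F F' : Type*} [Field K] [Field F] [Field F'] [Algebra K F] [Algebra K F']
    [HasPrincipalDivisors K F] [HasPrincipalDivisors K F']
    (φ : F →ₐ[K] F') (hφ : φ.toRingHom.IsIntegral) (hfin : FiniteAlong K φ)
    (hN : NormFormulaAlong K φ hfin) (g : SemilinearAut K F) (g' : SemilinearAut K F')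
    (h : SemilinearAut.IntertwinesAlong (φ : F →+* F') g g') (x : Pic0 K F') :
    pushPic0 φ hφ hfin hN (g' • x) = g • pushPic0 φ hφ hfin hN x := by
  obtain ⟨D, rfl⟩ := Pic0.mk_surjective x
  rw [SemilinearAut.pic0_smul_mk, pushPic0_mk, pushPic0_mk, SemilinearAut.pic0_smul_mk]
  refine congrArg Pic0.mk (Subtype.ext ?_)
  rw [coe_pushDegZero, SemilinearAut.coe_degZeroSMulHom, SemilinearAut.coe_degZeroSMulHom,
    coe_pushDegZero, pushforwardAlong_smul φ hφ hfin hN g g' h]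

theorem alPush_galois (σ : GQ) (x : JZero (N * q)) :
    alPush N q (σ • x) = σ • alPush N q x :=
  pushPic0_smul (heckeAlphaBar KK N q) (intA N q) (finAlpha N q) (nfAlpha N q)
    (arithmeticGalois (modularFunctionFieldFull N) σ)
    (arithmeticGalois (modularFunctionFieldFull (N * q)) σ) (intertwines_alpha N q σ) x

theorem bePush_galois (σ : GQ) (x : JZero (N * q)) :
    bePush N q (σ • x) = σ • bePush N q x :=
  pushPic0_smul (heckeBetaBar KK N q) (intB N q) (finBeta N q) (nfBeta N q)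
    (arithmeticGalois (modularFunctionFieldFull N) σ)
    (arithmeticGalois (modularFunctionFieldFull (N * q)) σ) (intertwines_beta N q σ) x

end Pic

section HeckeAlgebra

/-- Equivariance for Hecke polynomials from equivariance for the generators. -/
theorem map_inclS_smul (S : Set ℕ) {J J' : Type*} [AddCommGroup J] [Module HeckeAlg J]
    [AddCommGroup J'] [Module HeckeAlg J'] (f : J →+ J')
    (h : ∀ ℓ : Nat.Primes, (ℓ : ℕ) ∉ S → ∀ x : J, f (heckeGen ℓ • x) = heckeGen ℓ • f x)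
    (t : HeckeAlgS S) (x : J) : f (inclS S t • x) = inclS S t • f x := by
  induction t using MvPolynomial.induction_on generalizing x with
  | C a =>
    have h1 : inclS S (MvPolynomial.C a) = (a : HeckeAlg) := by
      rw [inclS, MvPolynomial.rename_C, ← MvPolynomial.algebraMap_eq, eq_intCast]
    rw [h1, Int.cast_smul_eq_zsmul, Int.cast_smul_eq_zsmul, map_zsmul]
  | add p q hp hq => rw [map_add, add_smul, add_smul, map_add, hp, hq]
  | mul_X p ℓ hp =>
    have h1 : inclS S (MvPolynomial.X ℓ) = heckeGen ℓ.1 := by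
      rw [inclS, MvPolynomial.rename_X]; rfl
    rw [map_mul, mul_smul, mul_smul, hp, h1, h ℓ.1 ℓ.2]

variable (N q : ℕ) [NeZero N] [NeZero q]

theorem alPush_inclS (hq : q.Prime) (S : Set ℕ) (hS : ∀ r : ℕ, r.Prime → r ∣ N * q → r ∈ S)
    (t : HeckeAlgS S) (x : JZero (N * q)) :
    letI := heckeModuleBar N
    letI := heckeModuleBar (N * q)
    alPush N q (inclS S t • x) = inclS S t • alPush N q x := by
  letI := heckeModuleBar N
  letI := heckeModuleBar (N * q)
  refine map_inclS_smul S (alPush N q) (fun ℓ hℓ x => ?_) t x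
  have h1 : heckeGen ℓ • x = heckeOperatorBar (N * q) ℓ x :=
    heckeModuleBar_heckeGen_smul (heckeOperatorsCommuteBar (N * q)) ℓ x
  have h2 : heckeGen ℓ • alPush N q x = heckeOperatorBar N ℓ (alPush N q x) :=
    heckeModuleBar_heckeGen_smul (heckeOperatorsCommuteBar N) ℓ _
  rw [h1, h2]
  refine alPush_hecke N q hq ℓ (fun hd => hℓ ?_) x
  rw [← (Nat.prime_dvd_prime_iff_eq hq ℓ.2).mp hd]
  exact hS q hq (Dvd.intro_left N rfl)

theorem bePush_inclS (hq : q.Prime) (S : Set ℕ) (hS : ∀ r : ℕ, r.Prime → r ∣ N * q → r ∈ S)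
    (t : HeckeAlgS S) (x : JZero (N * q)) :
    letI := heckeModuleBar N
    letI := heckeModuleBar (N * q)
    bePush N q (inclS S t • x) = inclS S t • bePush N q x := by
  letI := heckeModuleBar N
  letI := heckeModuleBar (N * q)
  refine map_inclS_smul S (bePush N q) (fun ℓ hℓ x => ?_) t x
  have h1 : heckeGen ℓ • x = heckeOperatorBar (N * q) ℓ x :=
    heckeModuleBar_heckeGen_smul (heckeOperatorsCommuteBar (N * q)) ℓ x
  have h2 : heckeGen ℓ • bePush N q x = heckeOperatorBar N ℓ (bePush N q x) :=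
    heckeModuleBar_heckeGen_smul (heckeOperatorsCommuteBar N) ℓ _
  rw [h1, h2]
  refine bePush_hecke N q ℓ (fun hd => hℓ (hS ℓ ℓ.2 (Dvd.dvd.mul_right hd q))) ?_ x
  refine (Nat.Prime.coprime_iff_not_dvd hq).mpr (fun hd => hℓ ?_)
  rw [← (Nat.prime_dvd_prime_iff_eq hq ℓ.2).mp hd]
  exact hS q hq (Dvd.intro_left N rfl)

end HeckeAlgebra

end Fermat.Agent.S36red

end
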