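import Fermat.Agent.S36.InvRep
import Fermat.Agent.TEll.Inputs
import Fermat.Prelude.Thm_ModularCurve_coeffMap_qExpand
import Fermat.Prelude.Def_ModularCurve_ArithmeticGalois

set_option autoImplicit false
set_option linter.style.haveILetI false

/-!
# Descent of the function representing an invariant torsion class
-/

noncomputable section

open AlgebraicCurve ModularCurve Fermat.Agent.TEll Fermat.Agent.QX4

namespace Fermat.Agent.S36desc

/-- The absolute Galois group of `ℚ`. -/
abbrev GQ := AlgebraicClosure ℚ ≃ₐ[ℚ] AlgebraicClosure ℚ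

/-! ### Finite orbits -/

section FiniteOrbit

theorem finite_range_alg (a : AlgebraicClosure ℚ) : (Set.range (fun σ : GQ => σ a)).Finite := by
  have ha : IsIntegral ℚ a := ((AlgebraicClosure.isAlgebraic ℚ).isAlgebraic a).isIntegral
  refine Set.Finite.subset ((minpoly ℚ a).rootSet_finite (AlgebraicClosure ℚ)) ?_
  rintro _ ⟨σ, rfl⟩
  rw [Polynomial.mem_rootSet]
  refine ⟨minpoly.ne_zero ha, ?_⟩
  have := Polynomial.aeval_algHom_apply (σ : AlgebraicClosure ℚ →ₐ[ℚ] AlgebraicClosure ℚ) a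
    (minpoly ℚ a)
  rw [minpoly.aeval, map_zero] at this
  exact this

/-- The subfield of elements with finite orbit under a family of endomorphisms. -/
def finOrb {ι L : Type*} [Field L] (φ : ι → L →+* L) : Subfield L where
  carrier := {x | (Set.range (fun σ => φ σ x)).Finite}
  mul_mem' {x y} hx hy := by
    refine Set.Finite.subset (Set.Finite.image2 (fun a b => a * b) hx hy) ?_
    rintro _ ⟨σ, rfl⟩
    exact ⟨_, ⟨σ, rfl⟩, _, ⟨σ, rfl⟩, (map_mul _ _ _).symm⟩
  one_mem' := by
    refine Set.Finite.subset (Set.finite_singleton 1) ?_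
    rintro _ ⟨σ, rfl⟩
    exact map_one _
  add_mem' {x y} hx hy := by
    refine Set.Finite.subset (Set.Finite.image2 (fun a b => a + b) hx hy) ?_
    rintro _ ⟨σ, rfl⟩
    exact ⟨_, ⟨σ, rfl⟩, _, ⟨σ, rfl⟩, (map_add _ _ _).symm⟩
  zero_mem' := by
    refine Set.Finite.subset (Set.finite_singleton 0) ?_
    rintro _ ⟨σ, rfl⟩
    exact map_zero _
  neg_mem' {x} hx := by
    refine Set.Finite.subset (Set.Finite.image (fun a => -a) hx) ?_
    rintro _ ⟨σ, rfl⟩
    exact ⟨_, ⟨σ, rfl⟩, (map_neg _ _).symm⟩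
  inv_mem' x hx := by
    refine Set.Finite.subset (Set.Finite.image (fun a => a⁻¹) hx) ?_
    rintro _ ⟨σ, rfl⟩
    exact ⟨_, ⟨σ, rfl⟩, (map_inv₀ _ _).symm⟩

theorem mem_finOrb {ι L : Type*} [Field L] (φ : ι → L →+* L) (x : L) :
    x ∈ finOrb φ ↔ (Set.range (fun σ => φ σ x)).Finite := Iff.rfl

/-- The Galois orbit of an element of `F_N(ℚ̄)` is finite. -/
theorem finite_range_coeffMap (F₀ : IntermediateField ℚ (LaurentSeries ℚ))
    {x : LaurentSeries (AlgebraicClosure ℚ)}
    (hx : x ∈ laurentBaseChange (AlgebraicClosure ℚ) F₀) :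
    (Set.range (fun σ : GQ => coeffMap (σ : AlgebraicClosure ℚ →+* AlgebraicClosure ℚ) x)).Finite := by
  rw [mem_laurentBaseChange_iff] at hx
  have hle : Subfield.closure
        (Set.range (algebraMap (AlgebraicClosure ℚ) (LaurentSeries (AlgebraicClosure ℚ))) ∪
          (⇑(coeffEmb (AlgebraicClosure ℚ)) '' (F₀ : Set (LaurentSeries ℚ)))) ≤
      finOrb (fun σ : GQ => coeffMap (σ : AlgebraicClosure ℚ →+* AlgebraicClosure ℚ)) := by
    rw [Subfield.closure_le]
    rintro y (⟨a, rfl⟩ | ⟨z, hz, rfl⟩)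
    · rw [SetLike.mem_coe, mem_finOrb]
      refine Set.Finite.subset ((finite_range_alg a).image
          (algebraMap (AlgebraicClosure ℚ) (LaurentSeries (AlgebraicClosure ℚ)))) ?_
      rintro y ⟨σ, hy⟩
      have e := coeffMap_algebraMap (σ : AlgebraicClosure ℚ →+* AlgebraicClosure ℚ) a
      have e2 : y = algebraMap (AlgebraicClosure ℚ) (LaurentSeries (AlgebraicClosure ℚ)) (σ a) :=
        hy.symm.trans e
      rw [e2]
      exact Set.mem_image_of_mem _ (Set.mem_range_self (f := fun τ : GQ => τ a) σ)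
    · rw [SetLike.mem_coe, mem_finOrb]
      refine Set.Finite.subset (Set.finite_singleton (coeffEmb (AlgebraicClosure ℚ) z)) ?_
      rintro y ⟨σ, hy⟩
      exact hy.symm.trans (coeffMap_coeffEmb σ z)
  exact hle hx

end FiniteOrbit

/-! ### Normalisation at the cusp `∞` -/

section Leading

theorem orderTop_coeffMap {R S : Type*} [Field R] [Field S] (g : R →+* S) (x : LaurentSeries R) :
    (coeffMap g x).orderTop = x.orderTop := by
  rcases eq_or_ne x 0 with rfl | hx
  · simp
  have hg : Function.Injective g := g.injective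
  have hx' : coeffMap g x ≠ 0 := by
    intro h
    apply hx
    ext k
    have := congrArg (fun y : LaurentSeries S => y.coeff k) h
    simp only [coeffMap_coeff, HahnSeries.coeff_zero] at this
    exact (map_eq_zero g).1 this
  have h1 : (coeffMap g x).order = x.order := by
    apply le_antisymm
    · apply HahnSeries.order_le_of_coeff_ne_zero
      rw [coeffMap_coeff]
      intro h
      exact (HahnSeries.coeff_order_eq_zero.not.2 hx) ((map_eq_zero g).1 h)
    · apply HahnSeries.order_le_of_coeff_ne_zero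
      intro h
      have h2 := HahnSeries.coeff_order_eq_zero.not.2 hx'
      rw [coeffMap_coeff, h, map_zero] at h2
      exact h2 rfl
  rw [← HahnSeries.order_eq_orderTop_of_ne_zero hx, ← HahnSeries.order_eq_orderTop_of_ne_zero hx',
    h1]

theorem leadingCoeff_coeffMap {R S : Type*} [Field R] [Field S] (g : R →+* S)
    (x : LaurentSeries R) : (coeffMap g x).leadingCoeff = g x.leadingCoeff := by
  rcases eq_or_ne x 0 with rfl | hx
  · simp
  have hx' : coeffMap g x ≠ 0 := by
    intro h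
    have h1 := orderTop_coeffMap g x
    rw [h, HahnSeries.orderTop_zero] at h1
    exact hx (HahnSeries.orderTop_eq_top.1 h1.symm)
  have h1 : (coeffMap g x).order = x.order := by
    have := orderTop_coeffMap g x
    rw [← HahnSeries.order_eq_orderTop_of_ne_zero hx,
      ← HahnSeries.order_eq_orderTop_of_ne_zero hx'] at this
    exact_mod_cast this
  rw [HahnSeries.leadingCoeff_eq, HahnSeries.leadingCoeff_eq, h1, coeffMap_coeff]

end Leading

/-! ### The modular instance -/

section Modular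

variable (N : ℕ) [NeZero N]

/-- The function field of `X₀(N)` over `ℚ̄`. -/
abbrev FQ (N : ℕ) := modularFunctionFieldBar N

/-- Leading coefficient of the `q`-expansion. -/
def lead (N : ℕ) : Lead (AlgebraicClosure ℚ) (modularFunctionFieldBar N) where
  lc f := (f : LaurentSeries (AlgebraicClosure ℚ)).leadingCoeff
  lc_mul x y := by
    rw [show ((x * y : modularFunctionFieldBar N) : LaurentSeries (AlgebraicClosure ℚ)) =
      (x : LaurentSeries (AlgebraicClosure ℚ)) * (y : LaurentSeries (AlgebraicClosure ℚ)) from rfl]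
    exact HahnSeries.leadingCoeff_mul _ _
  lc_const c := by
    have h : ((algebraMap (AlgebraicClosure ℚ) (modularFunctionFieldBar N) c :
        modularFunctionFieldBar N) : LaurentSeries (AlgebraicClosure ℚ)) =
        HahnSeries.single 0 c := algebraMap_laurentSeries_eq_single _ c
    rw [h]
    exact HahnSeries.leadingCoeff_of_single
  lc_ne_zero x hx := by
    rw [Ne, HahnSeries.leadingCoeff_eq_zero]
    intro h
    exact hx (Subtype.ext h)

/-- The Galois action on `F_N(ℚ̄)` of a subgroup of `G_ℚ`. -/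
def gal (I : Subgroup GQ) : I →* SemilinearAut (AlgebraicClosure ℚ) (modularFunctionFieldBar N) :=
  (arithmeticGalois (modularFunctionFieldFull N)).comp I.subtype

theorem coe_gal_smul (I : Subgroup GQ) (σ : I) (f : modularFunctionFieldBar N) :
    ((gal N I σ • f : modularFunctionFieldBar N) : LaurentSeries (AlgebraicClosure ℚ)) =
      coeffMap (((σ : GQ) : AlgebraicClosure ℚ ≃ₐ[ℚ] AlgebraicClosure ℚ) :
        AlgebraicClosure ℚ →+* AlgebraicClosure ℚ) (f : LaurentSeries (AlgebraicClosure ℚ)) := rfl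

theorem lead_gal (I : Subgroup GQ) (σ : I) (f : modularFunctionFieldBar N)
    (h : (lead N).lc f = 1) : (lead N).lc (gal N I σ • f) = 1 := by
  change ((gal N I σ • f : modularFunctionFieldBar N) :
    LaurentSeries (AlgebraicClosure ℚ)).leadingCoeff = 1
  rw [coe_gal_smul, leadingCoeff_coeffMap]
  change (f : LaurentSeries (AlgebraicClosure ℚ)).leadingCoeff = 1 at h
  rw [h, map_one]

theorem finite_gal (I : Subgroup GQ) (f : modularFunctionFieldBar N) :
    (Set.range (fun σ : I => gal N I σ • f)).Finite := by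
  have h := finite_range_coeffMap (modularFunctionFieldFull N) f.2
  have hinj : Function.Injective (Subtype.val : modularFunctionFieldBar N →
    LaurentSeries (AlgebraicClosure ℚ)) := Subtype.val_injective
  refine Set.Finite.of_finite_image (f := (Subtype.val : modularFunctionFieldBar N →
    LaurentSeries (AlgebraicClosure ℚ))) ?_ hinj.injOn
  refine Set.Finite.subset h ?_
  rintro _ ⟨_, ⟨σ, rfl⟩, rfl⟩
  exact ⟨(σ : GQ), (coe_gal_smul N I σ f).symm⟩

/-- **Invariant representatives on `J₀(N)`.** -/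
theorem exists_fixed_rep (I : Subgroup GQ) {n : ℕ} (hn : 0 < n) (x : JZero N) (hx : n • x = 0)
    (hI : ∀ σ ∈ I, σ • x = x) :
    ∃ (D : Divisor.degZero (K := AlgebraicClosure ℚ) (F := modularFunctionFieldBar N))
      (f : modularFunctionFieldBar N), f ≠ 0 ∧ x = Pic0.mk D ∧
      (∀ v : Place (AlgebraicClosure ℚ) (modularFunctionFieldBar N),
        v.ord f = n * (D : Divisor _ _) v) ∧ ∀ σ : I, gal N I σ • f = f := by
  obtain ⟨D, f, hf, hx', ho, -, hG⟩ := exists_invariant_rep (gal N I) (lead N) (lead_gal N I)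
    (finite_gal N I) hn x hx (fun σ => hI σ σ.2)
  exact ⟨D, f, hf, hx', ho, hG⟩

end Modular

/-! ### Norms -/

section Norms

variable {K E F : Type*} [Field K] [Field E] [Field F] [Algebra K E] [Algebra K F]

/-- The norm along a homomorphism is equivariant. -/
theorem normAlong_equivariant (φ : E →ₐ[K] F) (e₁ : E ≃+* E) (e₂ : F ≃+* F)
    (h : ∀ x, e₂ (φ x) = φ (e₁ x)) (f : F) : normAlong φ (e₂ f) = e₁ (normAlong φ f) := by
  letI := algebraAlong φ
  have h1 := Algebra.norm_eq_of_equiv_equiv (A₁ := E) (B₁ := F) (A₂ := E) (B₂ := F) e₁ e₂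
    (RingHom.ext fun x => (h x).symm) f
  have h2 : e₁ (Algebra.norm E f) = Algebra.norm E (e₂ f) := by
    rw [h1, RingEquiv.apply_symm_apply]
  exact h2.symm

variable {G : Type*} [Group G] (ρE : G →* SemilinearAut K E) (ρF : G →* SemilinearAut K F)
  (Λ : Lead K E)

/-- If `φ_* x = 0` then the norm of the invariant function is an invariant constant times the
`n`-th power of an invariant function. -/
theorem exists_norm_eq [IsAlgClosed K] [FF.IsFF K E] [FF.IsFF K F]
    (φ : E →ₐ[K] F) (hφ : φ.toRingHom.IsIntegral) (hfin : FiniteAlong K φ)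
    (hN : NormFormulaAlong K φ hfin)
    (hcomm : ∀ (σ : G) (e : E), ρF σ • φ e = φ (ρE σ • e))
    (hlc : ∀ (σ : G) (f : E), Λ.lc f = 1 → Λ.lc (ρE σ • f) = 1) {n : ℕ} (hn : 0 < n)
    (D : Divisor.degZero (K := K) (F := F)) (hD : pushPic0 φ hφ hfin hN (Pic0.mk D) = 0)
    {f : F} (hf : f ≠ 0) (hfo : ∀ v : Place K F, v.ord f = n * (D : Divisor K F) v)
    (hfG : ∀ σ : G, ρF σ • f = f) :
    ∃ (c : K) (g : E), c ≠ 0 ∧ g ≠ 0 ∧ normAlong φ f = algebraMap K E c * g ^ n ∧
      (∀ σ : G, SemilinearAut.baseAut (ρE σ) c = c) ∧ ∀ σ : G, ρE σ • g = g := by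
  rw [pushPic0_mk] at hD
  obtain ⟨h, hh0, hh⟩ := (mk_eq_zero_iff _).mp hD
  obtain ⟨g, hg0, hgo, hgl, -⟩ := Λ.exists_normalised hh0
  have hNf0 : normAlong φ f ≠ 0 := normAlong_ne_zero φ hfin hf
  have hNf : ∀ v : Place K E, v.ord (normAlong φ f) = n * v.ord g := by
    intro v
    have h1 : ∀ v' : Place K F, ((n • D : Divisor.degZero (K := K) (F := F)) : Divisor K F) v' =
        v'.ord f := by
      intro v'
      rw [hfo v']
      simp
    have h2 := pushforwardAlong_eq_ord φ hφ hfin hN hf h1 v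
    rw [← h2]
    have h3 : Divisor.pushforwardAlong φ hφ
        ((n • D : Divisor.degZero (K := K) (F := F)) : Divisor K F) =
        n • Divisor.pushforwardAlong φ hφ (D : Divisor K F) := by
      rw [← map_nsmul]; rfl
    rw [h3, hgo]
    have h4 := hh v
    rw [coe_pushDegZero] at h4
    simp [← h4]
  have hNG : ∀ σ : G, ρE σ • normAlong φ f = normAlong φ f := by
    intro σ
    have h1 := normAlong_equivariant φ (SemilinearAut.toRingAut (ρE σ))
      (SemilinearAut.toRingAut (ρF σ)) (fun x => hcomm σ x) f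
    have h2 : SemilinearAut.toRingAut (ρF σ) f = f := hfG σ
    rw [h2] at h1
    exact h1.symm
  have hn' : (n : ℤ) ≠ 0 := by exact_mod_cast hn.ne'
  have hgG : ∀ σ : G, ρE σ • g = g := by
    refine invariant_of_ord ρE Λ hlc hg0 hgl (fun σ v => ?_)
    have h1 := hNf ((ρE σ)⁻¹ • v)
    have h2 := hNf v
    have h3 : v.ord (normAlong φ f) = ((ρE σ)⁻¹ • v).ord (normAlong φ f) := by
      conv_lhs => rw [← hNG σ]
      exact ord_smul' _ _ _
    rw [h1, h2] at h3
    exact (mul_left_cancel₀ hn' h3).symm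
  have hratio : ∀ v : Place K E, v.ord (normAlong φ f * (g ^ n)⁻¹) = 0 := by
    intro v
    rw [v.ord_mul hNf0 (inv_ne_zero (pow_ne_zero n hg0)), v.ord_inv, ← zpow_natCast, v.ord_zpow,
      hNf v]
    ring
  obtain ⟨c, hc⟩ := exists_const_of_ord_eq_zero
    (mul_ne_zero hNf0 (inv_ne_zero (pow_ne_zero n hg0))) hratio
  have hNfg : normAlong φ f = algebraMap K E c * g ^ n := by
    rw [hc, mul_assoc, inv_mul_cancel₀ (pow_ne_zero n hg0), mul_one]
  have hc0 : c ≠ 0 := by
    rintro rfl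
    rw [map_zero, zero_mul] at hNfg
    exact hNf0 hNfg
  refine ⟨c, g, hc0, hg0, hNfg, fun σ => ?_, hgG⟩
  have h1 := hNG σ
  rw [hNfg, smul_mul', smul_pow', hgG, SemilinearAut.smul_algebraMap] at h1
  have h2 := mul_right_cancel₀ (pow_ne_zero n hg0) h1
  exact (algebraMap K E).injective h2

end Norms

section Final

variable (N ℓ : ℕ) [NeZero N] [NeZero ℓ]

theorem gal_alpha (I : Subgroup GQ) (σ : I) (e : modularFunctionFieldBar N) :
    gal (N * ℓ) I σ • heckeAlphaBar (AlgebraicClosure ℚ) N ℓ e =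
      heckeAlphaBar (AlgebraicClosure ℚ) N ℓ (gal N I σ • e) := by
  apply Subtype.ext
  rw [coe_gal_smul, coe_heckeAlphaBar, coe_heckeAlphaBar, coe_gal_smul]

theorem gal_beta (I : Subgroup GQ) (σ : I) (e : modularFunctionFieldBar N) :
    gal (N * ℓ) I σ • heckeBetaBar (AlgebraicClosure ℚ) N ℓ e =
      heckeBetaBar (AlgebraicClosure ℚ) N ℓ (gal N I σ • e) := by
  apply Subtype.ext
  rw [coe_gal_smul, coe_heckeBetaBar, coe_heckeBetaBar, coe_gal_smul]
  exact ModularCurve.coeffMap_qExpand _ _ _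

/-- **Descent.** -/
theorem exists_descended (I : Subgroup GQ) {n : ℕ} (hn : 0 < n) (x : JZero (N * ℓ))
    (hx : n • x = 0) (hI : ∀ σ ∈ I, σ • x = x)
    (hα : pushPic0 (heckeAlphaBar (AlgebraicClosure ℚ) N ℓ) (FF.isIntegralAlong _)
      (FF.finiteAlong _) (FF.normFormulaAlong _ _) x = 0)
    (hβ : pushPic0 (heckeBetaBar (AlgebraicClosure ℚ) N ℓ) (FF.isIntegralAlong _)
      (FF.finiteAlong _) (FF.normFormulaAlong _ _) x = 0) :
    ∃ (D : Divisor.degZero (K := AlgebraicClosure ℚ) (F := modularFunctionFieldBar (N * ℓ)))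
      (f : modularFunctionFieldBar (N * ℓ)), f ≠ 0 ∧ x = Pic0.mk D ∧
      (∀ v : Place (AlgebraicClosure ℚ) (modularFunctionFieldBar (N * ℓ)),
        v.ord f = n * (D : Divisor _ _) v) ∧ (∀ σ : I, gal (N * ℓ) I σ • f = f) ∧
      (∃ (c : AlgebraicClosure ℚ) (g : modularFunctionFieldBar N), c ≠ 0 ∧ g ≠ 0 ∧
        normAlong (heckeAlphaBar (AlgebraicClosure ℚ) N ℓ) f = algebraMap _ _ c * g ^ n ∧
        (∀ σ ∈ I, σ c = c) ∧ ∀ σ : I, gal N I σ • g = g) ∧
      (∃ (c : AlgebraicClosure ℚ) (g : modularFunctionFieldBar N), c ≠ 0 ∧ g ≠ 0 ∧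
        normAlong (heckeBetaBar (AlgebraicClosure ℚ) N ℓ) f = algebraMap _ _ c * g ^ n ∧
        (∀ σ ∈ I, σ c = c) ∧ ∀ σ : I, gal N I σ • g = g) := by
  obtain ⟨D, f, hf, rfl, ho, hG⟩ := exists_fixed_rep (N * ℓ) I hn x hx hI
  obtain ⟨c, g, hc, hg, hNf, hcG, hgG⟩ := exists_norm_eq (gal N I) (gal (N * ℓ) I) (lead N)
    (heckeAlphaBar (AlgebraicClosure ℚ) N ℓ) (FF.isIntegralAlong _) (FF.finiteAlong _)
    (FF.normFormulaAlong _ _) (gal_alpha N ℓ I) (lead_gal N I) hn D hα hf ho hG
  obtain ⟨c', g', hc', hg', hNf', hcG', hgG'⟩ := exists_norm_eq (gal N I) (gal (N * ℓ) I) (lead N)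
    (heckeBetaBar (AlgebraicClosure ℚ) N ℓ) (FF.isIntegralAlong _) (FF.finiteAlong _)
    (FF.normFormulaAlong _ _) (gal_beta N ℓ I) (lead_gal N I) hn D hβ hf ho hG
  exact ⟨D, f, hf, rfl, ho, hG, ⟨c, g, hc, hg, hNf, fun σ hσ => hcG ⟨σ, hσ⟩, hgG⟩,
    ⟨c', g', hc', hg', hNf', fun σ hσ => hcG' ⟨σ, hσ⟩, hgG'⟩⟩

end Final

end Fermat.Agent.S36desc
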