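import Mathlib

set_option autoImplicit false

/-!
# Discrete valuations with a residue map

A small interface: a discrete valuation ring of a field `F` together with a reduction map to a
field `κ`, and the (total) reduction function `red`.
-/

namespace Fermat.Agent.S36norm

/-- A discrete valuation on `F` together with a reduction map. -/
structure DV (F κ : Type*) [Field F] [Field κ] where
  O : ValuationSubring F
  ρ : O →+* κ
  ρ_eq_zero_iff : ∀ x : O, ρ x = 0 ↔ (x : F) ∈ O.nonunits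
  ord : F → ℤ
  ord_mul : ∀ x y : F, x ≠ 0 → y ≠ 0 → ord (x * y) = ord x + ord y
  mem_iff : ∀ x : F, x ≠ 0 → (x ∈ O ↔ 0 ≤ ord x)

namespace DV

variable {F κ : Type*} [Field F] [Field κ] (v : DV F κ)

open Classical in
/-- The total reduction function. -/
noncomputable def red (x : F) : κ := if h : x ∈ v.O then v.ρ ⟨x, h⟩ else 0

theorem red_of_mem {x : F} (h : x ∈ v.O) : v.red x = v.ρ ⟨x, h⟩ := dif_pos h

theorem red_mul {x y : F} (hx : x ∈ v.O) (hy : y ∈ v.O) : v.red (x * y) = v.red x * v.red y := by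
  rw [v.red_of_mem hx, v.red_of_mem hy, v.red_of_mem (mul_mem hx hy), ← map_mul]; rfl

theorem red_add {x y : F} (hx : x ∈ v.O) (hy : y ∈ v.O) : v.red (x + y) = v.red x + v.red y := by
  rw [v.red_of_mem hx, v.red_of_mem hy, v.red_of_mem (add_mem hx hy), ← map_add]; rfl

theorem red_sub {x y : F} (hx : x ∈ v.O) (hy : y ∈ v.O) : v.red (x - y) = v.red x - v.red y := by
  rw [v.red_of_mem hx, v.red_of_mem hy, v.red_of_mem (sub_mem hx hy), ← map_sub]; rfl

theorem red_one : v.red 1 = 1 := by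
  rw [v.red_of_mem (one_mem _)]
  exact map_one v.ρ

theorem red_zero : v.red 0 = 0 := by
  rw [v.red_of_mem (zero_mem _)]
  exact map_zero v.ρ

theorem red_pow {x : F} (hx : x ∈ v.O) (n : ℕ) : v.red (x ^ n) = v.red x ^ n := by
  rw [v.red_of_mem hx, v.red_of_mem (pow_mem hx n), ← map_pow]; rfl

theorem red_natCast (n : ℕ) : v.red (n : F) = n := by
  rw [v.red_of_mem (natCast_mem _ n)]
  exact map_natCast v.ρ n

theorem ord_one : v.ord 1 = 0 := by
  have := v.ord_mul 1 1 one_ne_zero one_ne_zero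
  rw [one_mul] at this
  omega

theorem ord_inv {x : F} (hx : x ≠ 0) : v.ord x⁻¹ = - v.ord x := by
  have := v.ord_mul x x⁻¹ hx (inv_ne_zero hx)
  rw [mul_inv_cancel₀ hx, v.ord_one] at this
  omega

theorem ord_pow {x : F} (hx : x ≠ 0) (n : ℕ) : v.ord (x ^ n) = n * v.ord x := by
  induction n with
  | zero => simp [v.ord_one]
  | succ n ih =>
    rw [pow_succ, v.ord_mul _ _ (pow_ne_zero _ hx) hx, ih]
    push_cast; ring

theorem ord_div {x y : F} (hx : x ≠ 0) (hy : y ≠ 0) : v.ord (x / y) = v.ord x - v.ord y := by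
  rw [div_eq_mul_inv, v.ord_mul _ _ hx (inv_ne_zero hy), v.ord_inv hy]; ring

theorem mem_of_ord_eq_zero {x : F} (hx : x ≠ 0) (h : v.ord x = 0) : x ∈ v.O :=
  (v.mem_iff x hx).2 h.ge

theorem inv_mem_of_ord_eq_zero {x : F} (hx : x ≠ 0) (h : v.ord x = 0) : x⁻¹ ∈ v.O :=
  (v.mem_iff _ (inv_ne_zero hx)).2 (by rw [v.ord_inv hx, h]; simp)

theorem red_ne_zero_iff {x : F} (hx : x ≠ 0) (hxO : x ∈ v.O) : v.red x ≠ 0 ↔ v.ord x = 0 := by
  rw [v.red_of_mem hxO, Ne, v.ρ_eq_zero_iff]
  constructor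
  · intro h
    have h1 : IsUnit (⟨x, hxO⟩ : v.O) := by
      by_contra h2
      exact h ((ValuationSubring.coe_mem_nonunits_iff (A := v.O) (a := ⟨x, hxO⟩)).2
        ((IsLocalRing.mem_maximalIdeal _).2 h2))
    obtain ⟨u, hu⟩ := h1
    have h3 : x⁻¹ ∈ v.O := by
      have h4 : ((u⁻¹ : v.Oˣ) : v.O) * (u : v.O) = 1 := Units.inv_mul u
      have h5 : (((u⁻¹ : v.Oˣ) : v.O) : F) * x = 1 := by
        have := congrArg (Subtype.val) h4
        rw [hu] at this
        exact this
      rw [← eq_inv_of_mul_eq_one_left h5]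
      exact ((u⁻¹ : v.Oˣ) : v.O).2
    have h6 := (v.mem_iff _ (inv_ne_zero hx)).1 h3
    have h7 := (v.mem_iff _ hx).1 hxO
    rw [v.ord_inv hx] at h6
    omega
  · intro h h1
    have h3 := v.inv_mem_of_ord_eq_zero hx h
    rw [ValuationSubring.mem_nonunits_iff] at h1
    have h4 := (ValuationSubring.valuation_le_one_iff _ _).2 h3
    rw [map_inv₀] at h4
    have h5 : v.O.valuation x ≠ 0 := (Valuation.ne_zero_iff _).2 hx
    have h6 : 1 < (v.O.valuation x)⁻¹ := (one_lt_inv₀ (zero_lt_iff.2 h5)).2 h1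
    exact absurd h4 (not_le.2 h6)

theorem red_ne_zero {x : F} (hx : x ≠ 0) (h : v.ord x = 0) : v.red x ≠ 0 :=
  (v.red_ne_zero_iff hx (v.mem_of_ord_eq_zero hx h)).2 h

theorem red_inv {x : F} (hx : x ≠ 0) (h : v.ord x = 0) : v.red x⁻¹ = (v.red x)⁻¹ := by
  have h1 := v.red_mul (v.mem_of_ord_eq_zero hx h) (v.inv_mem_of_ord_eq_zero hx h)
  rw [mul_inv_cancel₀ hx, v.red_one] at h1
  exact (eq_inv_of_mul_eq_one_right h1.symm)

theorem red_div {x y : F} (hx : x ∈ v.O) (hy0 : y ≠ 0) (hy : v.ord y = 0) :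
    v.red (x / y) = v.red x / v.red y := by
  rw [div_eq_mul_inv, v.red_mul hx (v.inv_mem_of_ord_eq_zero hy0 hy), v.red_inv hy0 hy,
    div_eq_mul_inv]

theorem div_mem {x y : F} (hx : x ∈ v.O) (hy0 : y ≠ 0) (hy : v.ord y = 0) : x / y ∈ v.O := by
  rw [div_eq_mul_inv]
  exact mul_mem hx (v.inv_mem_of_ord_eq_zero hy0 hy)

/-- An element whose `n`-th power is integral is integral. -/
theorem mem_of_pow_mem {x : F} {n : ℕ} (hn : n ≠ 0) (h : x ^ n ∈ v.O) : x ∈ v.O := by
  rcases eq_or_ne x 0 with rfl | hx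
  · exact zero_mem _
  rw [v.mem_iff _ (pow_ne_zero n hx), v.ord_pow hx] at h
  rw [v.mem_iff _ hx]
  have hn' : (0 : ℤ) < n := by exact_mod_cast Nat.pos_of_ne_zero hn
  by_contra h1
  push Not at h1
  nlinarith

/-- The ideal of elements of valuation at least `a`. -/
theorem ord_add_ge {x y : F} {a : ℤ} (hx : x = 0 ∨ a ≤ v.ord x) (hy : y = 0 ∨ a ≤ v.ord y)
    : x + y = 0 ∨ a ≤ v.ord (x + y) := by
  rcases hx with rfl | hx
  · simpa using hy
  rcases hy with rfl | hy
  · simpa using Or.inr hx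
  by_cases hx0 : x = 0
  · subst hx0; simpa using Or.inr hy
  by_cases hy0 : y = 0
  · subst hy0; simpa using Or.inr hx
  by_cases hxy : x + y = 0
  · exact Or.inl hxy
  right
  -- wlog the smaller one divides
  rcases le_total (v.ord x) (v.ord y) with h | h
  · have h1 : y / x ∈ v.O := by
      rw [v.mem_iff _ (div_ne_zero hy0 hx0), v.ord_div hy0 hx0]; omega
    have h2 : 1 + y / x ∈ v.O := add_mem (one_mem _) h1
    have h3 : x + y = x * (1 + y / x) := by field_simp
    have h4 : 1 + y / x ≠ 0 := by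
      intro h5; rw [h3, h5, mul_zero] at hxy; exact hxy rfl
    rw [h3, v.ord_mul _ _ hx0 h4]
    have := (v.mem_iff _ h4).1 h2
    omega
  · have h1 : x / y ∈ v.O := by
      rw [v.mem_iff _ (div_ne_zero hx0 hy0), v.ord_div hx0 hy0]; omega
    have h2 : x / y + 1 ∈ v.O := add_mem h1 (one_mem _)
    have h3 : x + y = y * (x / y + 1) := by field_simp
    have h4 : x / y + 1 ≠ 0 := by
      intro h5; rw [h3, h5, mul_zero] at hxy; exact hxy rfl
    rw [h3, v.ord_mul _ _ hy0 h4]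
    have := (v.mem_iff _ h4).1 h2
    omega

end DV

end Fermat.Agent.S36norm
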