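import Fermat.Agent.S36.NormsHensel

set_option autoImplicit false

/-!
# Constancy of the gluing constants

The roots of unity comparing the local `n`-th roots at the supersingular points are shown to be
independent of the point, up to a bounded power, by using the two norms.
-/

namespace Fermat.Agent.S36norm

open Setup

/-- Gluing data at the supersingular points, at levels `q² m` (ring `B ⊆ F`) and `q m`
(ring `Bq ⊆ E`). -/
structure GlueData {K E F κ k : Type*} [Field K] [Field E] [Field F] [Field κ] [Field k]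
    [Algebra K E] [Algebra K F] [Algebra k κ] {q : ℕ} (X : Setup K E F κ k q) (S : Type*) where
  Bt : Subring κ
  const_mem : ∀ c : k, algebraMap k κ c ∈ Bt
  mem_of_pow : ∀ (x : κ) (n : ℕ), n ≠ 0 → x ^ n ∈ Bt → x ∈ Bt
  Vq_mem : ∀ x ∈ Bt, X.Vq x ∈ Bt
  ev : S → Bt →+* k
  ev_const : ∀ (P : S) (c : k), ev P ⟨algebraMap k κ c, const_mem c⟩ = c
  frob : S → S
  ev_frob : ∀ (P : S) (x : κ) (hx : x ∈ Bt), ev (frob P) ⟨x, hx⟩ = ev P ⟨X.Vq x, Vq_mem x hx⟩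
  ev_VV : ∀ (P : S) (x : κ) (hx : x ∈ Bt),
    ev P ⟨X.Vq (X.Vq x), Vq_mem _ (Vq_mem x hx)⟩ = ev P ⟨x, hx⟩
  B : Subring F
  B_const : ∀ c : K, (c = 0 ∨ 0 ≤ X.ordK c) → algebraMap K F c ∈ B
  B_le0 : ∀ b ∈ B, b ∈ X.V0.O
  B_le1 : ∀ b ∈ B, b ∈ X.V1.O
  B_le2 : ∀ b ∈ B, b ∈ X.V2.O
  B_red0 : ∀ b ∈ B, X.V0.red b ∈ Bt
  B_red1 : ∀ b ∈ B, X.V1.red b ∈ Bt
  B_red2 : ∀ b ∈ B, X.V2.red b ∈ Bt
  glue01 : ∀ (P : S) (b : F) (hb : b ∈ B),
    ev P ⟨X.V0.red b, B_red0 b hb⟩ = ev P ⟨X.V1.red b, B_red1 b hb⟩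
  glue02 : ∀ (P : S) (b : F) (hb : b ∈ B),
    ev P ⟨X.V0.red b, B_red0 b hb⟩ = ev P ⟨X.V2.red b, B_red2 b hb⟩
  Bq : Subring E
  Bq_const : ∀ c : K, (c = 0 ∨ 0 ≤ X.ordK c) → algebraMap K E c ∈ Bq
  Bq_mem_of_pow : ∀ (y : E) (n : ℕ), n ≠ 0 → y ^ n ∈ Bq → y ∈ Bq
  Bq_le0 : ∀ b ∈ Bq, b ∈ X.W0.O
  Bq_le1 : ∀ b ∈ Bq, b ∈ X.W1.O
  Bq_red0 : ∀ b ∈ Bq, X.W0.red b ∈ Bt
  Bq_red1 : ∀ b ∈ Bq, X.W1.red b ∈ Bt
  glueq : ∀ (P : S) (b : E) (hb : b ∈ Bq),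
    ev P ⟨X.W0.red b, Bq_red0 b hb⟩ = ev P ⟨X.Vq (X.W1.red b), Vq_mem _ (Bq_red1 b hb)⟩
  Na_mem : ∀ b ∈ B, X.Na b ∈ Bq
  Nb_mem : ∀ b ∈ B, X.Nb b ∈ Bq

namespace GlueData

variable {K E F κ k : Type*} [Field K] [Field E] [Field F] [Field κ] [Field k]
    [Algebra K E] [Algebra K F] [Algebra k κ] {q : ℕ} {X : Setup K E F κ k q} {S : Type*}
    (G : GlueData X S)

open Classical in
/-- The total evaluation function. -/
noncomputable def evt (P : S) (x : κ) : k := if h : x ∈ G.Bt then G.ev P ⟨x, h⟩ else 0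

theorem evt_of_mem (P : S) {x : κ} (h : x ∈ G.Bt) : G.evt P x = G.ev P ⟨x, h⟩ := dif_pos h

theorem evt_mul (P : S) {x y : κ} (hx : x ∈ G.Bt) (hy : y ∈ G.Bt) :
    G.evt P (x * y) = G.evt P x * G.evt P y := by
  rw [G.evt_of_mem P hx, G.evt_of_mem P hy, G.evt_of_mem P (mul_mem hx hy), ← map_mul]; rfl

theorem evt_add (P : S) {x y : κ} (hx : x ∈ G.Bt) (hy : y ∈ G.Bt) :
    G.evt P (x + y) = G.evt P x + G.evt P y := by
  rw [G.evt_of_mem P hx, G.evt_of_mem P hy, G.evt_of_mem P (add_mem hx hy), ← map_add]; rfl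

theorem evt_pow (P : S) {x : κ} (hx : x ∈ G.Bt) (n : ℕ) :
    G.evt P (x ^ n) = G.evt P x ^ n := by
  rw [G.evt_of_mem P hx, G.evt_of_mem P (pow_mem hx n), ← map_pow]; rfl

theorem evt_const (P : S) (c : k) : G.evt P (algebraMap k κ c) = c := by
  rw [G.evt_of_mem P (G.const_mem c), G.ev_const]

theorem evt_zero (P : S) : G.evt P 0 = 0 := by
  have := G.evt_const P 0
  rwa [map_zero] at this

theorem evt_frob (P : S) {x : κ} (hx : x ∈ G.Bt) : G.evt (G.frob P) x = G.evt P (X.Vq x) := by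
  rw [G.evt_of_mem _ hx, G.evt_of_mem _ (G.Vq_mem x hx), G.ev_frob]

theorem evt_VV (P : S) {x : κ} (hx : x ∈ G.Bt) : G.evt P (X.Vq (X.Vq x)) = G.evt P x := by
  rw [G.evt_of_mem _ hx, G.evt_of_mem _ (G.Vq_mem _ (G.Vq_mem x hx)), G.ev_VV]

theorem glue01' (P : S) {b : F} (hb : b ∈ G.B) : G.evt P (X.V0.red b) = G.evt P (X.V1.red b) := by
  rw [G.evt_of_mem P (G.B_red0 b hb), G.evt_of_mem P (G.B_red1 b hb), G.glue01 P b hb]

theorem glue02' (P : S) {b : F} (hb : b ∈ G.B) : G.evt P (X.V0.red b) = G.evt P (X.V2.red b) := by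
  rw [G.evt_of_mem P (G.B_red0 b hb), G.evt_of_mem P (G.B_red2 b hb), G.glue02 P b hb]

theorem glueq' (P : S) {b : E} (hb : b ∈ G.Bq) :
    G.evt P (X.W0.red b) = G.evt P (X.Vq (X.W1.red b)) := by
  rw [G.evt_of_mem P (G.Bq_red0 b hb), G.evt_of_mem P (G.Vq_mem _ (G.Bq_red1 b hb)), G.glueq P b hb]

/-- The twisted space `{h : v_i(h) ≥ 0, hⁿ / φ ∈ B}`. -/
def MM (n : ℕ) (φ : F) : Set F :=
  {h | (h ∈ X.V0.O ∧ h ∈ X.V1.O ∧ h ∈ X.V2.O) ∧ h ^ n * φ⁻¹ ∈ G.B}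

/-- All three reductions of `φ` are `1`. -/
def RedOne (X : Setup K E F κ k q) (φ : F) : Prop :=
  (X.V0.ord φ = 0 ∧ X.V1.ord φ = 0 ∧ X.V2.ord φ = 0) ∧
    X.V0.red φ = 1 ∧ X.V1.red φ = 1 ∧ X.V2.red φ = 1

theorem RedOne.pow {φ : F} (hφ : φ ≠ 0) (h : RedOne X φ) (a : ℕ) : RedOne X (φ ^ a) := by
  obtain ⟨⟨h0, h1, h2⟩, r0, r1, r2⟩ := h
  refine ⟨⟨?_, ?_, ?_⟩, ?_, ?_, ?_⟩
  · rw [X.V0.ord_pow hφ, h0, mul_zero]
  · rw [X.V1.ord_pow hφ, h1, mul_zero]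
  · rw [X.V2.ord_pow hφ, h2, mul_zero]
  · rw [X.V0.red_pow (X.V0.mem_of_ord_eq_zero hφ h0), r0, one_pow]
  · rw [X.V1.red_pow (X.V1.mem_of_ord_eq_zero hφ h1), r1, one_pow]
  · rw [X.V2.red_pow (X.V2.mem_of_ord_eq_zero hφ h2), r2, one_pow]

section

variable {n : ℕ} {φ : F}

theorem red0_pow (hφ : φ ≠ 0) (h1 : RedOne X φ) {h : F} (hh : h ∈ G.MM n φ) :
    X.V0.red h ^ n = X.V0.red (h ^ n * φ⁻¹) := by
  obtain ⟨⟨h0, _, _⟩, r0, _, _⟩ := h1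
  rw [X.V0.red_mul (pow_mem hh.1.1 n) (X.V0.inv_mem_of_ord_eq_zero hφ h0), X.V0.red_inv hφ h0, r0,
    X.V0.red_pow hh.1.1, inv_one, mul_one]

theorem red1_pow (hφ : φ ≠ 0) (h1 : RedOne X φ) {h : F} (hh : h ∈ G.MM n φ) :
    X.V1.red h ^ n = X.V1.red (h ^ n * φ⁻¹) := by
  obtain ⟨⟨_, h0, _⟩, _, r0, _⟩ := h1
  rw [X.V1.red_mul (pow_mem hh.1.2.1 n) (X.V1.inv_mem_of_ord_eq_zero hφ h0), X.V1.red_inv hφ h0, r0,
    X.V1.red_pow hh.1.2.1, inv_one, mul_one]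

theorem red2_pow (hφ : φ ≠ 0) (h1 : RedOne X φ) {h : F} (hh : h ∈ G.MM n φ) :
    X.V2.red h ^ n = X.V2.red (h ^ n * φ⁻¹) := by
  obtain ⟨⟨_, _, h0⟩, _, _, r0⟩ := h1
  rw [X.V2.red_mul (pow_mem hh.1.2.2 n) (X.V2.inv_mem_of_ord_eq_zero hφ h0), X.V2.red_inv hφ h0, r0,
    X.V2.red_pow hh.1.2.2, inv_one, mul_one]

theorem red0_mem (hn : n ≠ 0) (hφ : φ ≠ 0) (h1 : RedOne X φ) {h : F} (hh : h ∈ G.MM n φ) :
    X.V0.red h ∈ G.Bt :=
  G.mem_of_pow _ n hn (by rw [G.red0_pow hφ h1 hh]; exact G.B_red0 _ hh.2)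

theorem red1_mem (hn : n ≠ 0) (hφ : φ ≠ 0) (h1 : RedOne X φ) {h : F} (hh : h ∈ G.MM n φ) :
    X.V1.red h ∈ G.Bt :=
  G.mem_of_pow _ n hn (by rw [G.red1_pow hφ h1 hh]; exact G.B_red1 _ hh.2)

theorem red2_mem (hn : n ≠ 0) (hφ : φ ≠ 0) (h1 : RedOne X φ) {h : F} (hh : h ∈ G.MM n φ) :
    X.V2.red h ∈ G.Bt :=
  G.mem_of_pow _ n hn (by rw [G.red2_pow hφ h1 hh]; exact G.B_red2 _ hh.2)

theorem pow_eq01 (hn : n ≠ 0) (hφ : φ ≠ 0) (h1 : RedOne X φ) {h : F} (hh : h ∈ G.MM n φ) (P : S) :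
    G.evt P (X.V0.red h) ^ n = G.evt P (X.V1.red h) ^ n := by
  rw [← G.evt_pow P (G.red0_mem hn hφ h1 hh), ← G.evt_pow P (G.red1_mem hn hφ h1 hh),
    G.red0_pow hφ h1 hh, G.red1_pow hφ h1 hh, G.glue01' P hh.2]

theorem pow_eq02 (hn : n ≠ 0) (hφ : φ ≠ 0) (h1 : RedOne X φ) {h : F} (hh : h ∈ G.MM n φ) (P : S) :
    G.evt P (X.V0.red h) ^ n = G.evt P (X.V2.red h) ^ n := by
  rw [← G.evt_pow P (G.red0_mem hn hφ h1 hh), ← G.evt_pow P (G.red2_mem hn hφ h1 hh),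
    G.red0_pow hφ h1 hh, G.red2_pow hφ h1 hh, G.glue02' P hh.2]

theorem zero_mem_MM (hn : n ≠ 0) : (0 : F) ∈ G.MM n φ := by
  refine ⟨⟨zero_mem _, zero_mem _, zero_mem _⟩, ?_⟩
  rw [zero_pow hn, zero_mul]; exact zero_mem _

theorem const_mul_mem {c : K} (hc : c = 0 ∨ 0 ≤ X.ordK c) {h : F} (hh : h ∈ G.MM n φ) :
    algebraMap K F c * h ∈ G.MM n φ := by
  have hb := G.B_const c hc
  refine ⟨⟨mul_mem (G.B_le0 _ hb) hh.1.1, mul_mem (G.B_le1 _ hb) hh.1.2.1,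
    mul_mem (G.B_le2 _ hb) hh.1.2.2⟩, ?_⟩
  rw [mul_pow, mul_assoc]
  exact mul_mem (pow_mem hb n) hh.2

/-- **Line lemma.** -/
theorem line01 (hn : n ≠ 0) (hφ : φ ≠ 0) (h1 : RedOne X φ)
    (hadd : ∀ h ∈ G.MM n φ, ∀ h' ∈ G.MM n φ, h + h' ∈ G.MM n φ) {h h' : F} (hh : h ∈ G.MM n φ)
    (hh' : h' ∈ G.MM n φ) (P : S) :
    G.evt P (X.V0.red h) * G.evt P (X.V1.red h') =
      G.evt P (X.V1.red h) * G.evt P (X.V0.red h') := by
  by_cases hb : G.evt P (X.V0.red h') = 0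
  · have h2 := G.pow_eq01 hn hφ h1 hh' P
    rw [hb, zero_pow hn] at h2
    rw [hb, pow_eq_zero_iff hn |>.1 h2.symm]; simp
  obtain ⟨c, hc, hcr⟩ := X.res_surj (-(G.evt P (X.V0.red h) / G.evt P (X.V0.red h')))
  have hch := G.const_mul_mem hc hh'
  have hs := hadd _ hh _ hch
  have e0 : G.evt P (X.V0.red (h + algebraMap K F c * h')) = 0 := by
    rw [X.V0.red_add hh.1.1 hch.1.1, X.V0.red_mul (G.B_le0 _ (G.B_const c hc)) hh'.1.1,
      X.V0_red_const c hc, hcr, G.evt_add P (G.red0_mem hn hφ h1 hh)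
        (mul_mem (G.const_mem _) (G.red0_mem hn hφ h1 hh')),
      G.evt_mul P (G.const_mem _) (G.red0_mem hn hφ h1 hh'), G.evt_const]
    field_simp
    ring
  have e1 := G.pow_eq01 hn hφ h1 hs P
  rw [e0, zero_pow hn] at e1
  have e2 := (pow_eq_zero_iff hn).1 e1.symm
  rw [X.V1.red_add hh.1.2.1 hch.1.2.1, X.V1.red_mul (G.B_le1 _ (G.B_const c hc)) hh'.1.2.1,
      X.V1_red_const c hc, hcr, G.evt_add P (G.red1_mem hn hφ h1 hh)
        (mul_mem (G.const_mem _) (G.red1_mem hn hφ h1 hh')),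
      G.evt_mul P (G.const_mem _) (G.red1_mem hn hφ h1 hh'), G.evt_const] at e2
  field_simp at e2
  linear_combination -e2

theorem line02 (hn : n ≠ 0) (hφ : φ ≠ 0) (h1 : RedOne X φ)
    (hadd : ∀ h ∈ G.MM n φ, ∀ h' ∈ G.MM n φ, h + h' ∈ G.MM n φ) {h h' : F} (hh : h ∈ G.MM n φ)
    (hh' : h' ∈ G.MM n φ) (P : S) :
    G.evt P (X.V0.red h) * G.evt P (X.V2.red h') =
      G.evt P (X.V2.red h) * G.evt P (X.V0.red h') := by
  by_cases hb : G.evt P (X.V0.red h') = 0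
  · have h2 := G.pow_eq02 hn hφ h1 hh' P
    rw [hb, zero_pow hn] at h2
    rw [hb, pow_eq_zero_iff hn |>.1 h2.symm]; simp
  obtain ⟨c, hc, hcr⟩ := X.res_surj (-(G.evt P (X.V0.red h) / G.evt P (X.V0.red h')))
  have hch := G.const_mul_mem hc hh'
  have hs := hadd _ hh _ hch
  have e0 : G.evt P (X.V0.red (h + algebraMap K F c * h')) = 0 := by
    rw [X.V0.red_add hh.1.1 hch.1.1, X.V0.red_mul (G.B_le0 _ (G.B_const c hc)) hh'.1.1,
      X.V0_red_const c hc, hcr, G.evt_add P (G.red0_mem hn hφ h1 hh)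
        (mul_mem (G.const_mem _) (G.red0_mem hn hφ h1 hh')),
      G.evt_mul P (G.const_mem _) (G.red0_mem hn hφ h1 hh'), G.evt_const]
    field_simp
    ring
  have e1 := G.pow_eq02 hn hφ h1 hs P
  rw [e0, zero_pow hn] at e1
  have e2 := (pow_eq_zero_iff hn).1 e1.symm
  rw [X.V2.red_add hh.1.2.2 hch.1.2.2, X.V2.red_mul (G.B_le2 _ (G.B_const c hc)) hh'.1.2.2,
      X.V2_red_const c hc, hcr, G.evt_add P (G.red2_mem hn hφ h1 hh)
        (mul_mem (G.const_mem _) (G.red2_mem hn hφ h1 hh')),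
      G.evt_mul P (G.const_mem _) (G.red2_mem hn hφ h1 hh'), G.evt_const] at e2
  field_simp at e2
  linear_combination -e2

/-- Normalise the root `g` in `y = c gⁿ` so that it is a unit at both `W0` and `W1`. -/
theorem exists_normalised {y : E} (hn : n ≠ 0) (hy : IsKPow K n y) (hy0 : y ≠ 0)
    (h0 : X.W0.ord y = 0) (h1 : X.W1.ord y = 0) :
    ∃ (c : K) (g : E), c ≠ 0 ∧ g ≠ 0 ∧ y = algebraMap K E c * g ^ n ∧ X.ordK c = 0 ∧
      X.W0.ord g = 0 ∧ X.W1.ord g = 0 := by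
  obtain ⟨c, g, hc, hg, rfl⟩ := hy
  have hE : ∀ {c : K}, c ≠ 0 → algebraMap K E c ≠ 0 := fun h => by simpa using h
  rw [X.W0.ord_mul _ _ (hE hc) (pow_ne_zero _ hg), X.W0_ord_const _ hc, X.W0.ord_pow hg] at h0
  rw [X.W1.ord_mul _ _ (hE hc) (pow_ne_zero _ hg), X.W1_ord_const _ hc, X.W1.ord_pow hg] at h1
  obtain ⟨d, hd, hdv⟩ := X.exists_ordK (X.W0.ord g)
  have hn' : (n : ℤ) ≠ 0 := by exact_mod_cast hn
  have hgg : X.W1.ord g = X.W0.ord g := by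
    apply mul_left_cancel₀ hn'; linarith
  refine ⟨c * d ^ n, algebraMap K E d⁻¹ * g, mul_ne_zero hc (pow_ne_zero _ hd),
    mul_ne_zero (hE (inv_ne_zero hd)) hg, ?_, ?_, ?_, ?_⟩
  · have hdE := hE hd
    simp only [map_mul, map_pow, map_inv₀]
    rw [mul_pow, inv_pow]
    field_simp
  · rw [X.ordK_mul _ _ hc (pow_ne_zero _ hd), X.ordK_pow hd, hdv]; linarith
  · rw [X.W0.ord_mul _ _ (hE (inv_ne_zero hd)) hg, X.W0_ord_const _ (inv_ne_zero hd),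
      X.ordK_inv hd, hdv]; ring
  · rw [X.W1.ord_mul _ _ (hE (inv_ne_zero hd)) hg, X.W1_ord_const _ (inv_ne_zero hd),
      X.ordK_inv hd, hdv, hgg]; ring

/-- The relation coming from the norm `Na`. -/
theorem relation_a [IsAlgClosed k] (hn : n ≠ 0) (hφ : φ ≠ 0) (h1 : RedOne X φ)
    (ha : IsKPow K n (X.Na φ)) :
    ∃ C : k, C ≠ 0 ∧ ∀ h ∈ G.MM n φ, ∀ P : S,
      G.evt P (X.V0.red h) * G.evt P (X.V1.red h) ^ (q - 1) =
        C * G.evt P (X.V2.red h) ^ q := by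
  obtain ⟨⟨o0, o1, o2⟩, r0, r1, r2⟩ := id h1
  have m0 := X.V0.mem_of_ord_eq_zero hφ o0
  have m1 := X.V1.mem_of_ord_eq_zero hφ o1
  have m2 := X.V2.mem_of_ord_eq_zero hφ o2
  have hNφ := X.Na_ne_zero φ hφ
  have w0 : X.W0.ord (X.Na φ) = 0 := by rw [X.W0_ord_Na _ hφ, o0, o1]; rfl
  have w1 : X.W1.ord (X.Na φ) = 0 := by rw [X.W1_ord_Na _ hφ, o2]; simp
  obtain ⟨c, g, hc, hg, hcg, hc0, hg0, hg1⟩ := exists_normalised (X := X) hn ha hNφ w0 w1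
  have hE : ∀ {c : K}, c ≠ 0 → algebraMap K E c ≠ 0 := fun h => by simpa using h
  have hcE := hE hc
  have hcB : algebraMap K E c ∈ G.Bq := G.Bq_const c (Or.inr hc0.ge)
  have hgm0 := X.W0.mem_of_ord_eq_zero hg hg0
  have hgm1 := X.W1.mem_of_ord_eq_zero hg hg1
  -- reductions of `g` are constants
  have q0 : algebraMap k κ (X.res c) * X.W0.red g ^ n = 1 := by
    rw [← X.W0_red_const c (Or.inr hc0.ge), ← X.W0.red_pow hgm0,
      ← X.W0.red_mul (G.Bq_le0 _ hcB) (pow_mem hgm0 n), ← hcg, X.W0_red_Na _ m0 m1, r0, r1]; simp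
  have q1 : algebraMap k κ (X.res c) * X.W1.red g ^ n = 1 := by
    rw [← X.W1_red_const c (Or.inr hc0.ge), ← X.W1.red_pow hgm1,
      ← X.W1.red_mul (G.Bq_le1 _ hcB) (pow_mem hgm1 n), ← hcg, X.W1_red_Na _ m2, r2]; simp
  have hres : X.res c ≠ 0 := by
    intro h; rw [h, map_zero, zero_mul] at q0; exact zero_ne_one q0
  obtain ⟨g0, hg0'⟩ := exists_const_of_pow (k := k) (κ := κ) hn (x := X.W0.red g)
    (c := (X.res c)⁻¹) (by
      rw [map_inv₀]; exact (eq_inv_of_mul_eq_one_right q0))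
  obtain ⟨g1, hg1'⟩ := exists_const_of_pow (k := k) (κ := κ) hn (x := X.W1.red g)
    (c := (X.res c)⁻¹) (by
      rw [map_inv₀]; exact (eq_inv_of_mul_eq_one_right q1))
  have hg00 : g0 ≠ 0 := by
    rintro rfl
    rw [map_zero] at hg0'
    exact X.W0.red_ne_zero hg hg0 hg0'.symm
  have hg10 : g1 ≠ 0 := by
    rintro rfl
    rw [map_zero] at hg1'
    exact X.W1.red_ne_zero hg hg1 hg1'.symm
  refine ⟨g0 / g1, div_ne_zero hg00 hg10, fun h hh P => ?_⟩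
  by_cases hh0 : h = 0
  · subst hh0
    have hq : q ≠ 0 := by
      rintro rfl
      have h3 := X.Vq_σ 0
      rw [map_zero, map_zero, pow_zero] at h3
      exact zero_ne_one h3
    rw [X.V0.red_zero, X.V2.red_zero, G.evt_zero, zero_pow hq]; simp
  -- `γ = Na h / g ∈ Bq`
  have hγ : X.Na h * g⁻¹ ∈ G.Bq := by
    apply G.Bq_mem_of_pow _ n hn
    have e : (X.Na h * g⁻¹) ^ n = algebraMap K E c * X.Na (h ^ n * φ⁻¹) := by
      have e1 : X.Na φ * X.Na φ⁻¹ = 1 := by rw [← map_mul, mul_inv_cancel₀ hφ, map_one]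
      have e2 : X.Na φ⁻¹ = (algebraMap K E c * g ^ n)⁻¹ := by
        rw [← hcg]; exact eq_inv_of_mul_eq_one_right e1
      rw [map_mul, map_pow, e2, mul_pow, inv_pow, mul_inv]
      field_simp
    rw [e]
    exact mul_mem hcB (G.Na_mem _ hh.2)
  have hNh0 : X.Na h ∈ X.W0.O := by
    have := mul_mem (G.Bq_le0 _ hγ) hgm0
    rwa [inv_mul_cancel_right₀ hg] at this
  have hNh1 : X.Na h ∈ X.W1.O := by
    have := mul_mem (G.Bq_le1 _ hγ) hgm1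
    rwa [inv_mul_cancel_right₀ hg] at this
  have glue := G.glueq' P hγ
  have t0 := G.red0_mem hn hφ h1 hh
  have t1 := G.red1_mem hn hφ h1 hh
  have t2 := G.red2_mem hn hφ h1 hh
  rw [X.W0.red_mul hNh0 (X.W0.inv_mem_of_ord_eq_zero hg hg0), X.W0.red_inv hg hg0,
    X.W1.red_mul hNh1 (X.W1.inv_mem_of_ord_eq_zero hg hg1), X.W1.red_inv hg hg1,
    X.W0_red_Na _ hh.1.1 hh.1.2.1, X.W1_red_Na _ hh.1.2.2, map_mul, X.Vq_σ, ← hg0', ← hg1',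
    ← map_inv₀ (algebraMap k κ), ← map_inv₀ (algebraMap k κ), AlgHom.commutes,
    G.evt_mul P (mul_mem t0 (pow_mem t1 _)) (G.const_mem _), G.evt_mul P t0 (pow_mem t1 _),
    G.evt_mul P (pow_mem t2 _) (G.const_mem _), G.evt_pow P t1, G.evt_pow P t2, G.evt_const,
    G.evt_const] at glue
  field_simp at glue ⊢
  linear_combination glue

/-- The relation coming from the norm `Nb`. -/
theorem relation_b [IsAlgClosed k] (hn : n ≠ 0) (hφ : φ ≠ 0) (h1 : RedOne X φ)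
    (hb : IsKPow K n (X.Nb φ)) :
    ∃ C : k, C ≠ 0 ∧ ∀ h ∈ G.MM n φ, ∀ P : S,
      G.evt P (X.V0.red h) ^ q =
        C * (G.evt P (X.V2.red h) * G.evt P (X.V1.red h) ^ (q - 1)) := by
  obtain ⟨⟨o0, o1, o2⟩, r0, r1, r2⟩ := id h1
  have m0 := X.V0.mem_of_ord_eq_zero hφ o0
  have m1 := X.V1.mem_of_ord_eq_zero hφ o1
  have m2 := X.V2.mem_of_ord_eq_zero hφ o2
  have hNφ := X.Nb_ne_zero φ hφ
  have w1 : X.W1.ord (X.Nb φ) = 0 := by rw [X.W1_ord_Nb _ hφ, o2, o1]; rfl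
  have w0 : X.W0.ord (X.Nb φ) = 0 := by rw [X.W0_ord_Nb _ hφ, o0]; simp
  obtain ⟨c, g, hc, hg, hcg, hc0, hg0, hg1⟩ := exists_normalised (X := X) hn hb hNφ w0 w1
  have hE : ∀ {c : K}, c ≠ 0 → algebraMap K E c ≠ 0 := fun h => by simpa using h
  have hcE := hE hc
  have hcB : algebraMap K E c ∈ G.Bq := G.Bq_const c (Or.inr hc0.ge)
  have hgm0 := X.W0.mem_of_ord_eq_zero hg hg0
  have hgm1 := X.W1.mem_of_ord_eq_zero hg hg1
  have q0 : algebraMap k κ (X.res c) * X.W0.red g ^ n = 1 := by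
    rw [← X.W0_red_const c (Or.inr hc0.ge), ← X.W0.red_pow hgm0,
      ← X.W0.red_mul (G.Bq_le0 _ hcB) (pow_mem hgm0 n), ← hcg, X.W0_red_Nb _ m0, r0]; simp
  have q1 : algebraMap k κ (X.res c) * X.W1.red g ^ n = 1 := by
    rw [← X.W1_red_const c (Or.inr hc0.ge), ← X.W1.red_pow hgm1,
      ← X.W1.red_mul (G.Bq_le1 _ hcB) (pow_mem hgm1 n), ← hcg, X.W1_red_Nb _ m2 m1, r2, r1]; simp
  obtain ⟨g0, hg0'⟩ := exists_const_of_pow (k := k) (κ := κ) hn (x := X.W0.red g)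
    (c := (X.res c)⁻¹) (by
      rw [map_inv₀]; exact (eq_inv_of_mul_eq_one_right q0))
  obtain ⟨g1, hg1'⟩ := exists_const_of_pow (k := k) (κ := κ) hn (x := X.W1.red g)
    (c := (X.res c)⁻¹) (by
      rw [map_inv₀]; exact (eq_inv_of_mul_eq_one_right q1))
  have hg00 : g0 ≠ 0 := by
    rintro rfl
    rw [map_zero] at hg0'
    exact X.W0.red_ne_zero hg hg0 hg0'.symm
  have hg10 : g1 ≠ 0 := by
    rintro rfl
    rw [map_zero] at hg1'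
    exact X.W1.red_ne_zero hg hg1 hg1'.symm
  refine ⟨g0 / g1, div_ne_zero hg00 hg10, fun h hh P => ?_⟩
  by_cases hh0 : h = 0
  · subst hh0
    have hq : q ≠ 0 := by
      rintro rfl
      have h3 := X.Vq_σ 0
      rw [map_zero, map_zero, pow_zero] at h3
      exact zero_ne_one h3
    rw [X.V0.red_zero, X.V2.red_zero, G.evt_zero, zero_pow hq]; simp
  have hγ : X.Nb h * g⁻¹ ∈ G.Bq := by
    apply G.Bq_mem_of_pow _ n hn
    have e : (X.Nb h * g⁻¹) ^ n = algebraMap K E c * X.Nb (h ^ n * φ⁻¹) := by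
      have e1 : X.Nb φ * X.Nb φ⁻¹ = 1 := by rw [← map_mul, mul_inv_cancel₀ hφ, map_one]
      have e2 : X.Nb φ⁻¹ = (algebraMap K E c * g ^ n)⁻¹ := by
        rw [← hcg]; exact eq_inv_of_mul_eq_one_right e1
      rw [map_mul, map_pow, e2, mul_pow, inv_pow, mul_inv]
      field_simp
    rw [e]
    exact mul_mem hcB (G.Nb_mem _ hh.2)
  have hNh0 : X.Nb h ∈ X.W0.O := by
    have := mul_mem (G.Bq_le0 _ hγ) hgm0
    rwa [inv_mul_cancel_right₀ hg] at this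
  have hNh1 : X.Nb h ∈ X.W1.O := by
    have := mul_mem (G.Bq_le1 _ hγ) hgm1
    rwa [inv_mul_cancel_right₀ hg] at this
  have glue := G.glueq' (G.frob P) hγ
  have t0 := G.red0_mem hn hφ h1 hh
  have t1 := G.red1_mem hn hφ h1 hh
  have t2 := G.red2_mem hn hφ h1 hh
  rw [G.evt_frob P (G.Bq_red0 _ hγ), G.evt_frob P (G.Vq_mem _ (G.Bq_red1 _ hγ)),
    G.evt_VV P (G.Bq_red1 _ hγ), X.W0.red_mul hNh0 (X.W0.inv_mem_of_ord_eq_zero hg hg0),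
    X.W0.red_inv hg hg0, X.W1.red_mul hNh1 (X.W1.inv_mem_of_ord_eq_zero hg hg1),
    X.W1.red_inv hg hg1, X.W1_red_Nb _ hh.1.2.2 hh.1.2.1, X.W0_red_Nb _ hh.1.1, map_mul, X.Vq_σ,
    ← hg0', ← hg1', ← map_inv₀ (algebraMap k κ), ← map_inv₀ (algebraMap k κ), AlgHom.commutes,
    G.evt_mul P (mul_mem t2 (pow_mem t1 _)) (G.const_mem _), G.evt_mul P t2 (pow_mem t1 _),
    G.evt_mul P (pow_mem t0 _) (G.const_mem _), G.evt_pow P t1, G.evt_pow P t0, G.evt_const,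
    G.evt_const] at glue
  field_simp at glue ⊢
  linear_combination glue

end

theorem pow_mem_MM {n : ℕ} {φ : F} {h : F} (hh : h ∈ G.MM n φ) (a : ℕ) : h ^ a ∈ G.MM n (φ ^ a) := by
  refine ⟨⟨pow_mem hh.1.1 a, pow_mem hh.1.2.1 a, pow_mem hh.1.2.2 a⟩, ?_⟩
  have : (h ^ a) ^ n * (φ ^ a)⁻¹ = (h ^ n * φ⁻¹) ^ a := by
    rw [mul_pow, ← pow_mul, ← pow_mul, mul_comm a n, inv_pow]
  rw [this]
  exact pow_mem hh.2 a

theorem RedOne.of_cong {φ : F} (h0 : X.V0.Cong 1 φ 1) (h1 : X.V1.Cong 1 φ 1)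
    (h2 : X.V2.Cong 1 φ 1) : RedOne X φ := by
  obtain ⟨_, a0, b0⟩ := red_of_cong_one h0
  obtain ⟨_, a1, b1⟩ := red_of_cong_one h1
  obtain ⟨_, a2, b2⟩ := red_of_cong_one h2
  exact ⟨⟨a0, a1, a2⟩, b0, b1, b2⟩

theorem RedOne.cong {φ : F} (hφ : φ ≠ 0) (h : RedOne X φ) :
    X.V0.Cong 1 φ 1 ∧ X.V1.Cong 1 φ 1 ∧ X.V2.Cong 1 φ 1 :=
  ⟨cong_one_of_red (X.V0.mem_of_ord_eq_zero hφ h.1.1) h.2.1,
    cong_one_of_red (X.V1.mem_of_ord_eq_zero hφ h.1.2.1) h.2.2.1,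
    cong_one_of_red (X.V2.mem_of_ord_eq_zero hφ h.1.2.2) h.2.2.2⟩

/-- The congruence at all three valuations. -/
def CongAll (X : Setup K E F κ k q) (N : ℤ) (φ : F) : Prop :=
  X.V0.Cong N φ 1 ∧ X.V1.Cong N φ 1 ∧ X.V2.Cong N φ 1

/-- The gluing condition for the local roots of `φ`. -/
def ZT (n : ℕ) (φ : F) : Prop :=
  ∀ (P : S), ∀ h ∈ G.MM n φ, G.evt P (X.V0.red h) = G.evt P (X.V1.red h) ∧
    G.evt P (X.V0.red h) = G.evt P (X.V2.red h)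

/-- **Step 4.**  The gluing constants are independent of the point, up to a bounded power. -/
theorem exists_glued [IsAlgClosed k] {n : ℕ} (hn : n ≠ 0) (hnk : (n : κ) ≠ 0) {φ : F}
    (hφ : φ ≠ 0) (h1 : RedOne X φ) (ha : IsKPow K n (X.Na φ)) (hb : IsKPow K n (X.Nb φ)) (N : ℕ)
    (hadd : ∀ (a : ℕ) (ψ : F), RelPow K n φ ψ a → ∀ h ∈ G.MM n ψ, ∀ h' ∈ G.MM n ψ,
      h + h' ∈ G.MM n ψ)
    (hfull : ∀ (P : S), ∃ h ∈ G.MM n φ, G.evt P (X.V1.red h) ≠ 0) :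
    ∃ ψ : F, RelPow K n φ ψ ((q + 1) * (q - 1)) ∧ CongAll X N ψ ∧ G.ZT n ψ := by
  have hq : q ≠ 0 := by
    rintro rfl
    have h3 := X.Vq_σ 0
    rw [map_zero, map_zero, pow_zero] at h3
    exact zero_ne_one h3
  set a : ℕ := (q + 1) * (q - 1) with hadef
  -- the constants
  obtain ⟨D1, D2, hD1, hD2, hD1n, hD2n, hD⟩ : ∃ D1 D2 : k, D1 ≠ 0 ∧ D2 ≠ 0 ∧ D1 ^ n = 1 ∧
      D2 ^ n = 1 ∧ ∀ (P : S), ∀ h ∈ G.MM n (φ ^ a),
        G.evt P (X.V1.red h) = D1 * G.evt P (X.V0.red h) ∧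
        G.evt P (X.V2.red h) = D2 * G.evt P (X.V0.red h) := by
    rcases isEmpty_or_nonempty S with hS | ⟨⟨P₀⟩⟩
    · exact ⟨1, 1, one_ne_zero, one_ne_zero, one_pow _, one_pow _, fun P => (hS.false P).elim⟩
    obtain ⟨C, hC, hCa⟩ := G.relation_a hn hφ h1 ha
    obtain ⟨C', hC', hCb⟩ := G.relation_b hn hφ h1 hb
    choose hP hPM hP1 using hfull
    have hP0 : ∀ P, G.evt P (X.V0.red (hP P)) ≠ 0 := by
      intro P h0
      have := G.pow_eq01 hn hφ h1 (hPM P) P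
      rw [h0, zero_pow hn] at this
      exact hP1 P ((pow_eq_zero_iff hn).1 this.symm)
    have hP2 : ∀ P, G.evt P (X.V2.red (hP P)) ≠ 0 := by
      intro P h0
      have := G.pow_eq02 hn hφ h1 (hPM P) P
      rw [h0, zero_pow hn] at this
      exact hP0 P ((pow_eq_zero_iff hn).1 this)
    have key2 : ∀ P, (C * C') * G.evt P (X.V2.red (hP P)) ^ (q + 1) =
        G.evt P (X.V0.red (hP P)) ^ (q + 1) := by
      intro P
      have e1 := hCa _ (hPM P) P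
      have e2 := hCb _ (hPM P) P
      rw [pow_succ, pow_succ]
      linear_combination (-(C' * G.evt P (X.V2.red (hP P)))) * e1 -
        G.evt P (X.V0.red (hP P)) * e2
    have key1 : ∀ P, C' * (G.evt P (X.V1.red (hP P)) ^ (q - 1) * G.evt P (X.V2.red (hP P))) =
        G.evt P (X.V0.red (hP P)) ^ (q - 1) * G.evt P (X.V0.red (hP P)) := by
      intro P
      have e2 := hCb _ (hPM P) P
      have e3 : G.evt P (X.V0.red (hP P)) ^ (q - 1) * G.evt P (X.V0.red (hP P)) =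
          G.evt P (X.V0.red (hP P)) ^ q := by
        rw [← pow_succ]; congr 1; omega
      rw [e3, e2]; ring
    -- `z2 ^ a` and `z1 ^ a`
    have z2 : ∀ P, G.evt P (X.V2.red (hP P)) ^ a =
        ((C * C')⁻¹) ^ (q - 1) * G.evt P (X.V0.red (hP P)) ^ a := by
      intro P
      have e1 : G.evt P (X.V2.red (hP P)) ^ (q + 1) =
          (C * C')⁻¹ * G.evt P (X.V0.red (hP P)) ^ (q + 1) := by
        rw [← key2 P]; field_simp
      rw [hadef, pow_mul, pow_mul, e1, mul_pow]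
    have z1 : ∀ P, G.evt P (X.V1.red (hP P)) ^ a =
        (C * C' * (C'⁻¹) ^ (q + 1)) * G.evt P (X.V0.red (hP P)) ^ a := by
      intro P
      have e1 := congrArg (fun x => x ^ (q + 1)) (key1 P)
      simp only [mul_pow, ← pow_mul] at e1
      have e2 := key2 P
      have h2' := pow_ne_zero (q + 1) (hP2 P)
      have h0' := pow_ne_zero (q + 1) (hP0 P)
      have hC'' := pow_ne_zero (q + 1) hC'
      have e3 : (q - 1) * (q + 1) = a := by rw [hadef, mul_comm]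
      rw [e3] at e1
      rw [← e2] at e1
      have e4 : C' ^ (q + 1) * G.evt P (X.V1.red (hP P)) ^ a =
          G.evt P (X.V0.red (hP P)) ^ a * (C * C') := by
        apply mul_right_cancel₀ h2'
        linear_combination e1
      rw [inv_pow]
      field_simp
      linear_combination e4
    have hφa : φ ^ a ≠ 0 := pow_ne_zero _ hφ
    have h1a : RedOne X (φ ^ a) := h1.pow hφ a
    have hadda := hadd a (φ ^ a) (RelPow.pow a)
    have hmem : ∀ P, hP P ^ a ∈ G.MM n (φ ^ a) := fun P => G.pow_mem_MM (hPM P) a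
    have r0 : ∀ P, G.evt P (X.V0.red (hP P ^ a)) = G.evt P (X.V0.red (hP P)) ^ a := fun P => by
      rw [X.V0.red_pow (hPM P).1.1, G.evt_pow P (G.red0_mem hn hφ h1 (hPM P))]
    have r1 : ∀ P, G.evt P (X.V1.red (hP P ^ a)) = G.evt P (X.V1.red (hP P)) ^ a := fun P => by
      rw [X.V1.red_pow (hPM P).1.2.1, G.evt_pow P (G.red1_mem hn hφ h1 (hPM P))]
    have r2 : ∀ P, G.evt P (X.V2.red (hP P ^ a)) = G.evt P (X.V2.red (hP P)) ^ a := fun P => by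
      rw [X.V2.red_pow (hPM P).1.2.2, G.evt_pow P (G.red2_mem hn hφ h1 (hPM P))]
    refine ⟨C * C' * (C'⁻¹) ^ (q + 1), ((C * C')⁻¹) ^ (q - 1),
      mul_ne_zero (mul_ne_zero hC hC') (pow_ne_zero _ (inv_ne_zero hC')),
      pow_ne_zero _ (inv_ne_zero (mul_ne_zero hC hC')), ?_, ?_, fun P h hh => ⟨?_, ?_⟩⟩
    · have e := G.pow_eq01 hn hφa h1a (hmem P₀) P₀
      rw [r0, r1, z1, mul_pow] at e
      have h0 : (G.evt P₀ (X.V0.red (hP P₀)) ^ a) ^ n ≠ 0 :=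
        pow_ne_zero _ (pow_ne_zero _ (hP0 P₀))
      apply mul_right_cancel₀ h0
      rw [← e, one_mul]
    · have e := G.pow_eq02 hn hφa h1a (hmem P₀) P₀
      rw [r0, r2, z2, mul_pow] at e
      have h0 : (G.evt P₀ (X.V0.red (hP P₀)) ^ a) ^ n ≠ 0 :=
        pow_ne_zero _ (pow_ne_zero _ (hP0 P₀))
      apply mul_right_cancel₀ h0
      rw [← e, one_mul]
    · have e := G.line01 hn hφa h1a hadda hh (hmem P) P
      rw [r0, r1, z1] at e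
      have h0 : G.evt P (X.V0.red (hP P)) ^ a ≠ 0 := pow_ne_zero _ (hP0 P)
      apply mul_right_cancel₀ h0
      linear_combination -e
    · have e := G.line02 hn hφa h1a hadda hh (hmem P) P
      rw [r0, r2, z2] at e
      have h0 : G.evt P (X.V0.red (hP P)) ^ a ≠ 0 := pow_ne_zero _ (hP0 P)
      apply mul_right_cancel₀ h0
      linear_combination -e
  -- rescale
  have hκ : ∀ {c : k}, c ≠ 0 → algebraMap k κ c ≠ 0 := fun h => by simpa using h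
  obtain ⟨g, hg, ⟨g0, g1, g2⟩, hr0, hr1, hr2⟩ := X.approx_red 1 (algebraMap k κ D1)⁻¹
    (algebraMap k κ D2)⁻¹ one_ne_zero (inv_ne_zero (hκ hD1)) (inv_ne_zero (hκ hD2))
  have hφa : φ ^ a ≠ 0 := pow_ne_zero _ hφ
  have h1a : RedOne X (φ ^ a) := h1.pow hφ a
  have hgn : g ^ n ≠ 0 := pow_ne_zero _ hg
  have hgO0 := X.V0.mem_of_ord_eq_zero hg g0
  have hgO1 := X.V1.mem_of_ord_eq_zero hg g1
  have hgO2 := X.V2.mem_of_ord_eq_zero hg g2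
  set φ4 : F := φ ^ a * g ^ n with hφ4
  have hφ40 : φ4 ≠ 0 := mul_ne_zero hφa hgn
  have h14 : RedOne X φ4 := by
    obtain ⟨⟨o0, o1, o2⟩, s0, s1, s2⟩ := h1a
    refine ⟨⟨?_, ?_, ?_⟩, ?_, ?_, ?_⟩
    · rw [hφ4, X.V0.ord_mul _ _ hφa hgn, o0, X.V0.ord_pow hg, g0]; simp
    · rw [hφ4, X.V1.ord_mul _ _ hφa hgn, o1, X.V1.ord_pow hg, g1]; simp
    · rw [hφ4, X.V2.ord_mul _ _ hφa hgn, o2, X.V2.ord_pow hg, g2]; simp
    · rw [hφ4, X.V0.red_mul (X.V0.mem_of_ord_eq_zero hφa o0) (pow_mem hgO0 n), s0,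
        X.V0.red_pow hgO0, hr0]; simp
    · rw [hφ4, X.V1.red_mul (X.V1.mem_of_ord_eq_zero hφa o1) (pow_mem hgO1 n), s1,
        X.V1.red_pow hgO1, hr1, inv_pow, ← map_pow, hD1n]; simp
    · rw [hφ4, X.V2.red_mul (X.V2.mem_of_ord_eq_zero hφa o2) (pow_mem hgO2 n), s2,
        X.V2.red_pow hgO2, hr2, inv_pow, ← map_pow, hD2n]; simp
  have zt4 : G.ZT n φ4 := by
    intro P h hh
    have hh' : h * g⁻¹ ∈ G.MM n (φ ^ a) := by
      refine ⟨⟨mul_mem hh.1.1 (X.V0.inv_mem_of_ord_eq_zero hg g0),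
        mul_mem hh.1.2.1 (X.V1.inv_mem_of_ord_eq_zero hg g1),
        mul_mem hh.1.2.2 (X.V2.inv_mem_of_ord_eq_zero hg g2)⟩, ?_⟩
      have : (h * g⁻¹) ^ n * (φ ^ a)⁻¹ = h ^ n * φ4⁻¹ := by
        rw [hφ4, mul_pow, inv_pow, mul_inv]; ring
      rw [this]; exact hh.2
    obtain ⟨e1, e2⟩ := hD P _ hh'
    have t0 := G.red0_mem hn hφ40 h14 hh
    have t1 := G.red1_mem hn hφ40 h14 hh
    have t2 := G.red2_mem hn hφ40 h14 hh
    rw [X.V0.red_mul hh.1.1 (X.V0.inv_mem_of_ord_eq_zero hg g0), X.V0.red_inv hg g0, hr0, inv_one,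
      mul_one] at e1 e2
    rw [X.V1.red_mul hh.1.2.1 (X.V1.inv_mem_of_ord_eq_zero hg g1), X.V1.red_inv hg g1, hr1,
      inv_inv, G.evt_mul P t1 (G.const_mem _), G.evt_const] at e1
    rw [X.V2.red_mul hh.1.2.2 (X.V2.inv_mem_of_ord_eq_zero hg g2), X.V2.red_inv hg g2, hr2,
      inv_inv, G.evt_mul P t2 (G.const_mem _), G.evt_const] at e2
    constructor
    · apply mul_left_cancel₀ hD1; rw [← e1, mul_comm]
    · apply mul_left_cancel₀ hD2; rw [← e2, mul_comm]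
  -- Hensel
  obtain ⟨c0, c1, c2⟩ := h14.cong hφ40
  obtain ⟨g', hg', ⟨g0', g1', g2'⟩, ⟨s0, s1, s2⟩, d0, d1, d2⟩ :=
    X.exists_cong_one hnk c0 c1 c2 N
  refine ⟨φ4 * (g' ^ n)⁻¹, ?_, ⟨d0, d1, d2⟩, ?_⟩
  · refine ⟨1, g * g'⁻¹, one_ne_zero, mul_ne_zero hg (inv_ne_zero hg'), ?_⟩
    rw [hφ4, mul_pow, inv_pow, map_one, one_mul, mul_assoc]
  · intro P h hh
    have hh' : h * g' ∈ G.MM n φ4 := by
      refine ⟨⟨mul_mem hh.1.1 (X.V0.mem_of_ord_eq_zero hg' g0'),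
        mul_mem hh.1.2.1 (X.V1.mem_of_ord_eq_zero hg' g1'),
        mul_mem hh.1.2.2 (X.V2.mem_of_ord_eq_zero hg' g2')⟩, ?_⟩
      have : (h * g') ^ n * φ4⁻¹ = h ^ n * (φ4 * (g' ^ n)⁻¹)⁻¹ := by
        rw [mul_inv φ4 (g' ^ n)⁻¹, inv_inv, mul_pow]; ring
      rw [this]; exact hh.2
    obtain ⟨e1, e2⟩ := zt4 P _ hh'
    rw [X.V0.red_mul hh.1.1 (X.V0.mem_of_ord_eq_zero hg' g0'), s0, mul_one] at e1 e2
    rw [X.V1.red_mul hh.1.2.1 (X.V1.mem_of_ord_eq_zero hg' g1'), s1, mul_one] at e1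
    rw [X.V2.red_mul hh.1.2.2 (X.V2.mem_of_ord_eq_zero hg' g2'), s2, mul_one] at e2
    exact ⟨e1, e2⟩

/-- **Main theorem of the norm comparison.** -/
theorem main [IsAlgClosed k] {n : ℕ} (hn : n ≠ 0) (hqn : Nat.Coprime q n) (hnk : (n : κ) ≠ 0)
    {f : F} (hf : f ≠ 0) (ha : IsKPow K n (X.Na f)) (hb : IsKPow K n (X.Nb f)) (N : ℕ)
    (hadd : ∀ (a : ℕ) (ψ : F), RelPow K n f ψ a → ∀ h ∈ G.MM n ψ, ∀ h' ∈ G.MM n ψ,
      h + h' ∈ G.MM n ψ)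
    (hfull : ∀ (a : ℕ) (ψ : F), RelPow K n f ψ a → CongAll X (N + 1) ψ →
      ∀ (P : S), ∃ h ∈ G.MM n ψ, G.evt P (X.V1.red h) ≠ 0) :
    ∃ ψ : F, RelPow K n f ψ (((q + 1) * (q - 1)) ^ 2) ∧ CongAll X (N + 1) ψ ∧ G.ZT n ψ := by
  obtain ⟨φ1, hr1, ho, hred⟩ := X.exists_red_one hn hqn hf ha hb
  have hφ1 := hr1.ne_zero hf
  obtain ⟨c0, c1, c2⟩ := RedOne.cong (X := X) hφ1 ⟨ho, hred⟩
  obtain ⟨g, hg, ⟨g0, g1, g2⟩, ⟨s0, s1, s2⟩, d0, d1, d2⟩ := X.exists_cong_one hnk c0 c1 c2 (N + 1)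
  set φ2 : F := φ1 * (g ^ n)⁻¹ with hφ2
  have hrel2 : RelPow K n f φ2 ((q + 1) * (q - 1)) := by
    have := hr1.trans (RelPow.mul_pow_right (K := K) (n := n) (f := φ1) (inv_ne_zero hg))
    rwa [mul_one, inv_pow] at this
  have hφ20 := hrel2.ne_zero hf
  have hN1 : (1 : ℤ) ≤ ((N + 1 : ℕ) : ℤ) := by push_cast; omega
  have hone : RedOne X φ2 := RedOne.of_cong (d0.mono hN1) (d1.mono hN1) (d2.mono hN1)
  have hca : CongAll X (N + 1) φ2 := by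
    refine ⟨?_, ?_, ?_⟩
    · exact_mod_cast d0
    · exact_mod_cast d1
    · exact_mod_cast d2
  obtain ⟨ψ, hψ, hc, hz⟩ := G.exists_glued hn hnk hφ20 hone (ha.Na_of_relPow X hrel2)
    (hb.Nb_of_relPow X hrel2) (N + 1)
    (fun a ψ h => hadd _ ψ (hrel2.trans h)) (hfull _ φ2 hrel2 hca)
  refine ⟨ψ, ?_, ?_, hz⟩
  · rw [sq]; exact hrel2.trans hψ
  · refine ⟨?_, ?_, ?_⟩
    · exact_mod_cast hc.1
    · exact_mod_cast hc.2.1
    · exact_mod_cast hc.2.2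

end GlueData

end Fermat.Agent.S36norm
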