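import Fermat.Agent.TriComp.IC
import Fermat.Agent.TriComp.Defs
import Fermat.Agent.S36.NormsGlue

/-!
# The gluing data from the three-component data

`Bti D` = integral closure of `k[j]` in `F'`, `BB D` = elements of `O` integral over `K[j]`,
points = `k`-algebra maps `Bti D → k` killing `ũ`.
-/

set_option autoImplicit false

open Polynomial

namespace Fermat.Agent.S36norm

open Fermat.Agent.TriComp

/-! ### Integrality lemmas -/

section Integral

variable {R A : Type*} [CommRing R] [CommRing A] [Algebra R A]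

theorem isIntegral_of_subalgebra_le {S T : Subalgebra R A} (h : S ≤ T) {x : A}
    (hx : IsIntegral S x) : IsIntegral T x := by
  let _ := (Subalgebra.inclusion h).toRingHom.toAlgebra
  have : IsScalarTower S T A := IsScalarTower.of_algebraMap_eq fun _ => rfl
  exact hx.tower_top

theorem isIntegral_adjoin_trans {x y z : A} (hz : IsIntegral (Algebra.adjoin R {x}) z)
    (hx : IsIntegral (Algebra.adjoin R {y}) x) : IsIntegral (Algebra.adjoin R {y}) z := by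
  let C : Subalgebra R A := (integralClosure (Algebra.adjoin R {y}) A).restrictScalars R
  have h1 : Algebra.adjoin R {x} ≤ C := by
    rw [Algebra.adjoin_le_iff, Set.singleton_subset_iff]
    exact hx
  have h2 : IsIntegral C z := isIntegral_of_subalgebra_le h1 hz
  have h3 : IsIntegral (integralClosure (Algebra.adjoin R {y}) A) z := h2
  exact isIntegral_trans z h3

theorem isIntegral_self_pow (x : A) {n : ℕ} (hn : n ≠ 0) :
    IsIntegral (Algebra.adjoin R {x ^ n}) x :=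
  IsIntegral.of_pow (Nat.pos_of_ne_zero hn)
    (isIntegral_algebraMap (x := (⟨x ^ n, Algebra.self_mem_adjoin_singleton R _⟩ :
      Algebra.adjoin R {x ^ n})))

theorem isIntegral_pow_self (x : A) (n : ℕ) :
    IsIntegral (Algebra.adjoin R {x}) (x ^ n) :=
  isIntegral_algebraMap (x := (⟨x ^ n, pow_mem (Algebra.self_mem_adjoin_singleton R _) n⟩ :
      Algebra.adjoin R {x}))

theorem isIntegral_adjoin_map {B : Type*} [CommRing B] [Algebra R B] (φ : A →ₐ[R] B) {x z : A}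
    (h : IsIntegral (Algebra.adjoin R {x}) z) : IsIntegral (Algebra.adjoin R {φ x}) (φ z) := by
  have h2 : ∀ y : Algebra.adjoin R {x}, φ (y : A) ∈ Algebra.adjoin R {φ x} := by
    rintro ⟨y, hy⟩
    have h3 : (Algebra.adjoin R {x}).map φ = Algebra.adjoin R {φ x} := by
      rw [AlgHom.map_adjoin, Set.image_singleton]
    rw [← h3]
    exact ⟨y, hy, rfl⟩
  let ψ : Algebra.adjoin R {x} →ₐ[R] Algebra.adjoin R {φ x} :=
    (φ.comp (Algebra.adjoin R {x}).val).codRestrict _ h2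
  exact IsIntegral.map_of_comp_eq (ψ : Algebra.adjoin R {x} →+* Algebra.adjoin R {φ x})
    (φ : A →+* B) (RingHom.ext fun z => rfl) h

theorem isIntegral_adjoin_of_map {B : Type*} [CommRing B] [Nontrivial B] [Algebra R B]
    (φ : A →ₐ[R] B)
    (hφ : Function.Injective φ) {x z : A}
    (h : IsIntegral (Algebra.adjoin R {φ x}) (φ z)) : IsIntegral (Algebra.adjoin R {x}) z := by
  obtain ⟨p, hp, hp0⟩ := h
  have h3 : (Algebra.adjoin R {x}).map φ = Algebra.adjoin R {φ x} := by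
    rw [AlgHom.map_adjoin, Set.image_singleton]
  have h4 : ∀ y : Algebra.adjoin R {φ x}, ∃ w : Algebra.adjoin R {x}, φ (w : A) = y := by
    rintro ⟨y, hy⟩
    rw [← h3] at hy
    obtain ⟨w, hw, rfl⟩ := hy
    exact ⟨⟨w, hw⟩, rfl⟩
  have h2 : ∀ y : Algebra.adjoin R {x}, φ (y : A) ∈ Algebra.adjoin R {φ x} := by
    rintro ⟨y, hy⟩
    rw [← h3]
    exact ⟨y, hy, rfl⟩
  let ψ : Algebra.adjoin R {x} →+* Algebra.adjoin R {φ x} :=
    ((φ.comp (Algebra.adjoin R {x}).val).codRestrict _ h2 :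
      Algebra.adjoin R {x} →ₐ[R] Algebra.adjoin R {φ x})
  have hψ : Function.Surjective ψ := by
    intro y
    obtain ⟨w, hw⟩ := h4 y
    exact ⟨w, Subtype.ext hw⟩
  obtain ⟨p', hp', hdeg, hmon⟩ :=
    Polynomial.lifts_and_degree_eq_and_monic (f := ψ) (p := p)
      (by
        obtain ⟨p0, hp0⟩ := Polynomial.map_surjective ψ hψ p
        exact (Polynomial.mem_lifts p).2 ⟨p0, hp0⟩) hp
  refine ⟨p', hmon, hφ ?_⟩
  rw [map_zero, ← hp0, ← hp', Polynomial.eval₂_map]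
  change (φ : A →+* B) _ = _
  rw [Polynomial.hom_eval₂]
  rfl

end Integral

/-! ### Points and gluing -/

section Points

variable {K F k Er F' : Type*} [Field K] [Field F] [Algebra K F] [Field k] [CommRing Er]
    [Algebra k Er] [Field F'] [Algebra k F'] {q : ℕ} (D : Data K F k Er F' q)

/-- The integral closure of `k[j]` in `F'`. -/
abbrev Bti : Subalgebra k F' := ic k D.jt

theorem mem_Bti {x : F'} : x ∈ Bti D ↔ IsIntegral (Algebra.adjoin k {D.jt}) x := Iff.rfl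

theorem mem_Bti_of_pow {x : F'} {n : ℕ} (hn : n ≠ 0) (h : x ^ n ∈ Bti D) : x ∈ Bti D :=
  IsIntegral.of_pow (Nat.pos_of_ne_zero hn) h

/-- `ũ = Δ^{1-q}`. -/
noncomputable def ut : F' := aeval D.jt D.Pu

theorem ut_mem : ut D ∈ Bti D :=
  isIntegral_algebraMap (x := (⟨ut D, Polynomial.aeval_mem_adjoin_singleton k D.jt⟩ :
    Algebra.adjoin k {D.jt}))

theorem ut_ne_zero : ut D ≠ 0 := by
  intro h
  exact D.jt_transcendental ⟨D.Pu, D.Pu_ne_zero, h⟩

/-- The elements of `O` integral over `K[j]`. -/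
def BB : Subring F := D.R.O ⊓ (integralClosure (Algebra.adjoin K {D.j}) F).toSubring

theorem mem_BB {f : F} : f ∈ BB D ↔ f ∈ D.R.O ∧ IsIntegral (Algebra.adjoin K {D.j}) f := Iff.rfl

theorem mem_vO {f : F} (hf : f ∈ BB D) (i : Fin 3) : f ∈ (D.v i).O := (D.mem_O_iff f).1 hf.1 i

theorem red_mem_Bti {f : F} (hf : f ∈ BB D) (i : Fin 3) : (D.v i).red f ∈ Bti D := by
  have h := D.isIntegral_red f hf.1 hf.2 i
  rw [mem_Bti]
  fin_cases i
  · exact D.red_j0 ▸ h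
  · exact D.red_j1 ▸ h
  · have h2 : IsIntegral (Algebra.adjoin k {D.jt ^ (q ^ 2)}) ((D.v 2).red f) := D.red_j2 ▸ h
    exact isIntegral_adjoin_trans h2 (isIntegral_pow_self _ _)

theorem mem_BB_of_pow {f : F} {n : ℕ} (hn : n ≠ 0) (h : f ^ n ∈ BB D) : f ∈ BB D := by
  refine ⟨(D.mem_O_iff f).2 fun i => (D.v i).mem_of_pow_mem hn (mem_vO D h i), ?_⟩
  exact IsIntegral.of_pow (Nat.pos_of_ne_zero hn) h.2

theorem one_le_ord {f : F} (hf : f ≠ 0) {i : Fin 3} (hO : f ∈ (D.v i).O) (h : (D.v i).red f = 0) :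
    1 ≤ (D.v i).ord f := by
  have h1 := ((D.v i).mem_iff f hf).1 hO
  have h2 : (D.v i).ord f ≠ 0 := fun h3 => ((D.v i).red_ne_zero_iff hf hO).2 h3 h
  omega

theorem isIntegral_const (c : K) : IsIntegral (Algebra.adjoin K {D.j}) (algebraMap K F c) :=
  isIntegral_algebraMap (x := algebraMap K (Algebra.adjoin K {D.j}) c)

include D in
theorem q_ne : (q : F) ≠ 0 := by
  have h := D.q_ne_zero
  have h2 : algebraMap K F (q : K) = (q : F) := map_natCast _ q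
  rw [← h2]
  exact (map_ne_zero_iff _ (algebraMap K F).injective).2 h

variable {D} (P : Bti D →ₐ[k] k) (hP : P ⟨ut D, ut_mem D⟩ = 0)

include hP

/-- `P ∘ red₁` kills the kernel of `red₀`. -/
theorem point_of_red0 {b : F} (hb : b ∈ BB D) (h0 : (D.v 0).red b = 0) :
    P ⟨(D.v 1).red b, red_mem_Bti D hb 1⟩ = 0 := by
  rcases eq_or_ne b 0 with rfl | hb0
  · have h1 : (⟨(D.v 1).red 0, red_mem_Bti D hb 1⟩ : Bti D) = 0 :=
      Subtype.ext (D.v 1).red_zero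
    rw [h1, map_zero]
  have hq := q_ne D
  have hq12 : (q : F) ^ 12 ≠ 0 := pow_ne_zero _ hq
  have hu : D.u₂ / (q : F) ^ 12 ≠ 0 := div_ne_zero D.u₂_ne_zero hq12
  set f : F := b ^ 12 * (D.u₂ / (q : F) ^ 12) with hf
  have hf0 : f ≠ 0 := mul_ne_zero (pow_ne_zero _ hb0) hu
  have hord : ∀ i, (D.v i).ord f = 12 * (D.v i).ord b + ((D.v i).ord D.u₂ - 12 * (D.v i).ord (q : F)) := by
    intro i
    rw [hf, (D.v i).ord_mul _ _ (pow_ne_zero _ hb0) hu, (D.v i).ord_pow hb0,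
      (D.v i).ord_div D.u₂_ne_zero hq12, (D.v i).ord_pow hq]
    push_cast; ring
  have hbi : ∀ i, 0 ≤ (D.v i).ord b := fun i => ((D.v i).mem_iff b hb0).1 (mem_vO D hb i)
  have hord1 : (D.v 1).ord (D.u₂ / (q : F) ^ 12) = 0 := by
    rw [(D.v 1).ord_div D.u₂_ne_zero hq12, (D.v 1).ord_pow hq, D.ord_u₂, D.ord_q1]
    simp
  have hfB : f ∈ BB D := by
    refine ⟨(D.mem_O_iff f).2 fun i => ?_, ?_⟩
    · rw [(D.v i).mem_iff f hf0, hord, D.ord_u₂]
      have h1 := hbi i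
      fin_cases i
      · have h2 := one_le_ord D hb0 (mem_vO D hb 0) h0
        have h3 := D.ord_q0
        simp only [Fin.zero_eta, Fin.isValue, ↓reduceIte]
        rw [h3]; linarith
      · have h3 := D.ord_q1
        simp only [Fin.mk_one, Fin.isValue, one_ne_zero, ↓reduceIte]
        rw [h3]
        have h4 : 0 ≤ (D.v 1).ord b := h1
        linarith
      · have h3 := D.ord_q2
        have h4 : 0 ≤ (D.v 2).ord b := h1
        rw [if_neg (by decide), if_neg (by decide)]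
        change 0 ≤ 12 * (D.v 2).ord b + (12 - 12 * (D.v 2).ord (q : F))
        rw [h3]
        linarith
    · rw [hf, div_eq_mul_inv, ← inv_pow]
      refine (hb.2.pow 12).mul (D.isIntegral_u₂.mul (IsIntegral.pow ?_ 12))
      have h1 := isIntegral_const D ((q : K)⁻¹)
      rwa [map_inv₀, map_natCast] at h1
  have h1 : (D.v 1).red b ^ 12 = (D.v 1).red f * ut D := by
    have h2 : (D.v 1).red f = (D.v 1).red b ^ 12 * (ut D)⁻¹ := by
      rw [hf, (D.v 1).red_mul (pow_mem (mem_vO D hb 1) 12) ((D.v 1).mem_of_ord_eq_zero hu hord1),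
        (D.v 1).red_pow (mem_vO D hb 1), D.red_u₂_div_q]
      rfl
    rw [h2, mul_assoc, inv_mul_cancel₀ (ut_ne_zero D), mul_one]
  have h2 : (⟨(D.v 1).red b, red_mem_Bti D hb 1⟩ : Bti D) ^ 12 =
      ⟨(D.v 1).red f, red_mem_Bti D hfB 1⟩ * ⟨ut D, ut_mem D⟩ := Subtype.ext h1
  have h3 := congrArg P h2
  rw [map_pow, map_mul, hP, mul_zero] at h3
  exact pow_eq_zero_iff (by norm_num) |>.1 h3

/-- `P ∘ red₁` kills the kernel of `red₂`. -/
theorem point_of_red2 {b : F} (hb : b ∈ BB D) (h0 : (D.v 2).red b = 0) :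
    P ⟨(D.v 1).red b, red_mem_Bti D hb 1⟩ = 0 := by
  rcases eq_or_ne b 0 with rfl | hb0
  · have h1 : (⟨(D.v 1).red 0, red_mem_Bti D hb 1⟩ : Bti D) = 0 :=
      Subtype.ext (D.v 1).red_zero
    rw [h1, map_zero]
  have hu : D.u₁⁻¹ ≠ 0 := inv_ne_zero D.u₁_ne_zero
  set f : F := b ^ 12 * D.u₁⁻¹ with hf
  have hf0 : f ≠ 0 := mul_ne_zero (pow_ne_zero _ hb0) hu
  have hord : ∀ i, (D.v i).ord f = 12 * (D.v i).ord b - (D.v i).ord D.u₁ := by
    intro i
    rw [hf, (D.v i).ord_mul _ _ (pow_ne_zero _ hb0) hu, (D.v i).ord_pow hb0,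
      (D.v i).ord_inv D.u₁_ne_zero]
    push_cast; ring
  have hbi : ∀ i, 0 ≤ (D.v i).ord b := fun i => ((D.v i).mem_iff b hb0).1 (mem_vO D hb i)
  have hord1' : (D.v 1).ord D.u₁ = 0 := by
    rw [D.ord_u₁]; simp
  have hfB : f ∈ BB D := by
    refine ⟨(D.mem_O_iff f).2 fun i => ?_, (hb.2.pow 12).mul D.isIntegral_u₁_inv⟩
    rw [(D.v i).mem_iff f hf0, hord, D.ord_u₁]
    have h1 := hbi i
    fin_cases i
    · have h4 : 0 ≤ (D.v 0).ord b := h1
      rw [if_neg (by decide), sub_zero]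
      exact mul_nonneg (by norm_num) h4
    · have h4 : 0 ≤ (D.v 1).ord b := h1
      rw [if_neg (by decide), sub_zero]
      exact mul_nonneg (by norm_num) h4
    · have h2 := one_le_ord D hb0 (mem_vO D hb 2) h0
      simp only [Fin.reduceFinMk, Fin.isValue, ↓reduceIte]
      linarith
  have h1 : (D.v 1).red b ^ 12 = (D.v 1).red f * ut D := by
    have h2 : (D.v 1).red f = (D.v 1).red b ^ 12 * (ut D)⁻¹ := by
      rw [hf, (D.v 1).red_mul (pow_mem (mem_vO D hb 1) 12)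
        ((D.v 1).inv_mem_of_ord_eq_zero D.u₁_ne_zero hord1'),
        (D.v 1).red_pow (mem_vO D hb 1), (D.v 1).red_inv D.u₁_ne_zero hord1', D.red_u₁]
      rfl
    rw [h2, mul_assoc, inv_mul_cancel₀ (ut_ne_zero D), mul_one]
  have h2 : (⟨(D.v 1).red b, red_mem_Bti D hb 1⟩ : Bti D) ^ 12 =
      ⟨(D.v 1).red f, red_mem_Bti D hfB 1⟩ * ⟨ut D, ut_mem D⟩ := Subtype.ext h1
  have h3 := congrArg P h2
  rw [map_pow, map_mul, hP, mul_zero] at h3
  exact pow_eq_zero_iff (by norm_num) |>.1 h3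

end Points

/-- The lifts from level `m`. -/
structure GlueMod {K F k Er F' : Type*} [Field K] [Field F] [Algebra K F] [Field k] [CommRing Er]
    [Algebra k Er] [Field F'] [Algebra k F'] {q : ℕ} (D : Data K F k Er F' q)
    (Vq : F' →ₐ[k] F') : Prop where
  Vq_jt : Vq D.jt = D.jt ^ q
  Vq_ut : Vq (aeval D.jt D.Pu) = aeval D.jt D.Pu ^ q
  al : ∀ g : F', IsIntegral (Algebra.adjoin k {D.jt}) g → ∃ f ∈ D.R.O,
    IsIntegral (Algebra.adjoin K {D.j}) f ∧ (D.v 0).red f = g ∧ (D.v 1).red f = g ∧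
      (D.v 2).red f = Vq (Vq g)
  be : ∀ g : F', IsIntegral (Algebra.adjoin k {D.jt}) g → ∃ f ∈ D.R.O,
    IsIntegral (Algebra.adjoin K {D.j}) f ∧ (D.v 1).red f = g ∧ (D.v 2).red f = g

namespace GlueMod

variable {K F k Er F' : Type*} [Field K] [Field F] [Algebra K F] [Field k] [CommRing Er]
    [Algebra k Er] [Field F'] [Algebra k F'] {q : ℕ} {D : Data K F k Er F' q}
    {Vq : F' →ₐ[k] F'} (M : GlueMod D Vq)

include M

theorem Vq_mem {x : F'} (hx : x ∈ Bti D) : Vq x ∈ Bti D := by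
  have h1 := isIntegral_adjoin_map Vq hx
  rw [M.Vq_jt] at h1
  exact isIntegral_adjoin_trans h1 (isIntegral_pow_self _ _)

theorem mem_of_Vq_mem {x : F'} (hx : Vq x ∈ Bti D) : x ∈ Bti D := by
  have hq := D.q_two_le
  apply isIntegral_adjoin_of_map Vq Vq.injective
  rw [M.Vq_jt]
  exact isIntegral_adjoin_trans hx (isIntegral_self_pow _ (by omega))

variable (P : Bti D →ₐ[k] k) (hP : P ⟨ut D, ut_mem D⟩ = 0)

include hP in
theorem glue01 {b : F} (hb : b ∈ BB D) :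
    P ⟨(D.v 0).red b, red_mem_Bti D hb 0⟩ = P ⟨(D.v 1).red b, red_mem_Bti D hb 1⟩ := by
  obtain ⟨f, hfO, hfint, h0, h1, -⟩ := M.al _ (red_mem_Bti D hb 0)
  have hf : f ∈ BB D := ⟨hfO, hfint⟩
  have hbf := (BB D).sub_mem hb hf
  have h2 := point_of_red0 P hP hbf (by
    rw [(D.v 0).red_sub (mem_vO D hb 0) (mem_vO D hf 0), h0, sub_self])
  have h3 : (⟨(D.v 1).red (b - f), red_mem_Bti D hbf 1⟩ : Bti D) =
      ⟨(D.v 1).red b, red_mem_Bti D hb 1⟩ - ⟨(D.v 0).red b, red_mem_Bti D hb 0⟩ :=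
    Subtype.ext (by
      change (D.v 1).red (b - f) = (D.v 1).red b - (D.v 0).red b
      rw [(D.v 1).red_sub (mem_vO D hb 1) (mem_vO D hf 1), h1])
  rw [h3, map_sub, sub_eq_zero] at h2
  exact h2.symm

include hP in
theorem glue12 {b : F} (hb : b ∈ BB D) :
    P ⟨(D.v 1).red b, red_mem_Bti D hb 1⟩ = P ⟨(D.v 2).red b, red_mem_Bti D hb 2⟩ := by
  obtain ⟨f, hfO, hfint, h1, h2'⟩ := M.be _ (red_mem_Bti D hb 2)
  have hf : f ∈ BB D := ⟨hfO, hfint⟩
  have hbf := (BB D).sub_mem hb hf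
  have h2 := point_of_red2 P hP hbf (by
    rw [(D.v 2).red_sub (mem_vO D hb 2) (mem_vO D hf 2), h2', sub_self])
  have h3 : (⟨(D.v 1).red (b - f), red_mem_Bti D hbf 1⟩ : Bti D) =
      ⟨(D.v 1).red b, red_mem_Bti D hb 1⟩ - ⟨(D.v 2).red b, red_mem_Bti D hb 2⟩ :=
    Subtype.ext (by
      change (D.v 1).red (b - f) = (D.v 1).red b - (D.v 2).red b
      rw [(D.v 1).red_sub (mem_vO D hb 1) (mem_vO D hf 1), h1])
  rw [h3, map_sub, sub_eq_zero] at h2
  exact h2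

include hP in
theorem glue02 {b : F} (hb : b ∈ BB D) :
    P ⟨(D.v 0).red b, red_mem_Bti D hb 0⟩ = P ⟨(D.v 2).red b, red_mem_Bti D hb 2⟩ :=
  (M.glue01 P hP hb).trans (M.glue12 P hP hb)

include hP in
theorem point_VV {x : F'} (hx : x ∈ Bti D) :
    P ⟨Vq (Vq x), M.Vq_mem (M.Vq_mem hx)⟩ = P ⟨x, hx⟩ := by
  obtain ⟨f, hfO, hfint, h0, h1, h2⟩ := M.al _ hx
  have hf : f ∈ BB D := ⟨hfO, hfint⟩
  have h3 := M.glue02 P hP hf
  have h4 : (⟨(D.v 0).red f, red_mem_Bti D hf 0⟩ : Bti D) = ⟨x, hx⟩ := Subtype.ext h0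
  have h5 : (⟨(D.v 2).red f, red_mem_Bti D hf 2⟩ : Bti D) =
    ⟨Vq (Vq x), M.Vq_mem (M.Vq_mem hx)⟩ := Subtype.ext h2
  rw [h4, h5] at h3
  exact h3.symm

/-- The Frobenius (Verschiebung) twist of a point. -/
noncomputable def frobPt : Bti D →ₐ[k] k :=
  P.comp ((Vq.comp (Bti D).val).codRestrict (Bti D) fun x => M.Vq_mem x.2)

theorem frobPt_apply {x : F'} (hx : x ∈ Bti D) :
    M.frobPt P ⟨x, hx⟩ = P ⟨Vq x, M.Vq_mem hx⟩ := rfl

include hP in
theorem frobPt_ut : M.frobPt P ⟨ut D, ut_mem D⟩ = 0 := by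
  have hq := D.q_two_le
  rw [frobPt_apply]
  have h1 : (⟨Vq (ut D), M.Vq_mem (ut_mem D)⟩ : Bti D) = ⟨ut D, ut_mem D⟩ ^ q :=
    Subtype.ext M.Vq_ut
  rw [h1, map_pow, hP, zero_pow (by omega)]

end GlueMod

/-- The supersingular points. -/
def SSP {K F k Er F' : Type*} [Field K] [Field F] [Algebra K F] [Field k] [CommRing Er]
    [Algebra k Er] [Field F'] [Algebra k F'] {q : ℕ} (D : Data K F k Er F' q) : Type _ :=
  {P : Bti D →ₐ[k] k // P ⟨ut D, ut_mem D⟩ = 0}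

/-- The comparison between level `q² m` and level `q m`. -/
structure LevelQ {K F k Er F' E : Type*} [Field K] [Field F] [Algebra K F] [Field k] [CommRing Er]
    [Algebra k Er] [Field F'] [Algebra k F'] [Field E] [Algebra K E] {q : ℕ}
    (D : Data K F k Er F' q) (X : Setup K E F F' k q) where
  V0_eq : X.V0 = D.v 0
  V1_eq : X.V1 = D.v 1
  V2_eq : X.V2 = D.v 2
  al : E →ₐ[K] F
  mem0 : ∀ y : E, al y ∈ X.V0.O ↔ y ∈ X.W0.O
  mem1 : ∀ y ∈ X.W0.O, al y ∈ X.V1.O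
  mem2 : ∀ y : E, al y ∈ X.V2.O ↔ y ∈ X.W1.O
  red0 : ∀ y ∈ X.W0.O, X.V0.red (al y) = X.W0.red y
  red2 : ∀ y ∈ X.W1.O, X.V2.red (al y) = X.Vq (X.W1.red y)
  Na_int : ∀ b : F, IsIntegral (Algebra.adjoin K {D.j}) b →
    IsIntegral (Algebra.adjoin K {D.j}) (al (X.Na b))
  Nb_int : ∀ b : F, IsIntegral (Algebra.adjoin K {D.j}) b →
    IsIntegral (Algebra.adjoin K {D.j}) (al (X.Nb b))

namespace LevelQ

variable {K F k Er F' E : Type*} [Field K] [Field F] [Algebra K F] [Field k] [CommRing Er]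
    [Algebra k Er] [Field F'] [Algebra k F'] [Field E] [Algebra K E] {q : ℕ}
    {D : Data K F k Er F' q} {X : Setup K E F F' k q} (L : LevelQ D X)

include L in
theorem const_mem {c : K} (hc : c = 0 ∨ 0 ≤ X.ordK c) : algebraMap K F c ∈ BB D := by
  rcases eq_or_ne c 0 with rfl | hc0
  · rw [map_zero]; exact zero_mem _
  have hc1 := hc.resolve_left hc0
  have hF : algebraMap K F c ≠ 0 := by simpa using hc0
  have hq := D.q_two_le
  refine ⟨(D.mem_O_iff _).2 fun i => ?_, isIntegral_const D c⟩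
  rw [(D.v i).mem_iff _ hF]
  fin_cases i
  · change 0 ≤ (D.v 0).ord _
    rw [← L.V0_eq, X.V0_ord_const c hc0]; exact hc1
  · change 0 ≤ (D.v 1).ord _
    rw [← L.V1_eq, X.V1_ord_const c hc0]
    have h : (2 : ℤ) ≤ q := by exact_mod_cast hq
    exact mul_nonneg (by linarith) hc1
  · change 0 ≤ (D.v 2).ord _
    rw [← L.V2_eq, X.V2_ord_const c hc0]; exact hc1

/-- The ring of level `q m`. -/
def Bq : Subring E := (BB D).comap (L.al : E →+* F)

theorem mem_Bq {y : E} : y ∈ L.Bq ↔ L.al y ∈ BB D := Iff.rfl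

theorem mem_Bq_iff {y : E} : y ∈ L.Bq ↔ y ∈ X.W0.O ∧ y ∈ X.W1.O ∧
    IsIntegral (Algebra.adjoin K {D.j}) (L.al y) := by
  rw [mem_Bq, mem_BB, D.mem_O_iff]
  constructor
  · rintro ⟨h1, h2⟩
    refine ⟨(L.mem0 y).1 (L.V0_eq ▸ h1 0), (L.mem2 y).1 (L.V2_eq ▸ h1 2), h2⟩
  · rintro ⟨h1, h2, h3⟩
    refine ⟨fun i => ?_, h3⟩
    fin_cases i
    · exact L.V0_eq ▸ (L.mem0 y).2 h1
    · exact L.V1_eq ▸ L.mem1 y h1
    · exact L.V2_eq ▸ (L.mem2 y).2 h2

include L in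
theorem red0_eq (b : F) : X.V0.red b = (D.v 0).red b := by rw [L.V0_eq]

include L in
theorem red1_eq (b : F) : X.V1.red b = (D.v 1).red b := by rw [L.V1_eq]

include L in
theorem red2_eq (b : F) : X.V2.red b = (D.v 2).red b := by rw [L.V2_eq]

include L in
theorem red0_mem {b : F} (hb : b ∈ BB D) : X.V0.red b ∈ Bti D :=
  L.V0_eq ▸ red_mem_Bti D hb 0

include L in
theorem red1_mem {b : F} (hb : b ∈ BB D) : X.V1.red b ∈ Bti D :=
  L.V1_eq ▸ red_mem_Bti D hb 1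

include L in
theorem red2_mem {b : F} (hb : b ∈ BB D) : X.V2.red b ∈ Bti D :=
  L.V2_eq ▸ red_mem_Bti D hb 2

theorem Bq_red0 {b : E} (hb : b ∈ L.Bq) : X.W0.red b ∈ Bti D := by
  rw [← L.red0 b (L.mem_Bq_iff.1 hb).1]
  exact L.red0_mem hb

theorem Bq_red1 (M : GlueMod D X.Vq) {b : E} (hb : b ∈ L.Bq) : X.W1.red b ∈ Bti D := by
  apply M.mem_of_Vq_mem
  rw [← L.red2 b (L.mem_Bq_iff.1 hb).2.1]
  exact L.red2_mem hb

theorem Na_mem {b : F} (hb : b ∈ BB D) : X.Na b ∈ L.Bq := by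
  rw [L.mem_Bq_iff]
  rcases eq_or_ne (X.Na b) 0 with h0 | h0
  · rw [h0]
    refine ⟨zero_mem _, zero_mem _, ?_⟩
    rw [map_zero]
    exact isIntegral_zero
  have hb0 : b ≠ 0 ∨ b = 0 := (ne_or_eq b 0)
  rcases hb0 with hb0 | rfl
  · have m0 := mem_vO D hb 0
    have m1 := mem_vO D hb 1
    have m2 := mem_vO D hb 2
    rw [← L.V0_eq, X.V0.mem_iff b hb0] at m0
    rw [← L.V1_eq, X.V1.mem_iff b hb0] at m1
    rw [← L.V2_eq, X.V2.mem_iff b hb0] at m2
    refine ⟨?_, ?_, L.Na_int b hb.2⟩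
    · rw [X.W0.mem_iff _ h0, X.W0_ord_Na b hb0]
      exact add_nonneg m0 m1
    · rw [X.W1.mem_iff _ h0, X.W1_ord_Na b hb0]
      exact mul_nonneg (Int.natCast_nonneg _) m2
  · -- `Na 0` is a constant whose square is itself
    obtain ⟨c, hc⟩ := X.Na_const 0
    rw [map_zero] at hc
    have hsq : X.Na 0 * X.Na 0 = X.Na 0 := by rw [← map_mul, mul_zero]
    have h1 : X.Na 0 = 1 := by
      have := mul_right_cancel₀ h0 (hsq.trans (one_mul _).symm)
      exact this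
    rw [h1]
    refine ⟨one_mem _, one_mem _, ?_⟩
    rw [map_one]
    exact isIntegral_one

theorem Nb_mem {b : F} (hb : b ∈ BB D) : X.Nb b ∈ L.Bq := by
  rw [L.mem_Bq_iff]
  rcases eq_or_ne (X.Nb b) 0 with h0 | h0
  · rw [h0]
    refine ⟨zero_mem _, zero_mem _, ?_⟩
    rw [map_zero]
    exact isIntegral_zero
  rcases ne_or_eq b 0 with hb0 | rfl
  · have m0 := mem_vO D hb 0
    have m1 := mem_vO D hb 1
    have m2 := mem_vO D hb 2
    rw [← L.V0_eq, X.V0.mem_iff b hb0] at m0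
    rw [← L.V1_eq, X.V1.mem_iff b hb0] at m1
    rw [← L.V2_eq, X.V2.mem_iff b hb0] at m2
    refine ⟨?_, ?_, L.Nb_int b hb.2⟩
    · rw [X.W0.mem_iff _ h0, X.W0_ord_Nb b hb0]
      exact mul_nonneg (Int.natCast_nonneg _) m0
    · rw [X.W1.mem_iff _ h0, X.W1_ord_Nb b hb0]
      exact add_nonneg m2 m1
  · have hsq : X.Nb 0 * X.Nb 0 = X.Nb 0 := by rw [← map_mul, mul_zero]
    have h1 : X.Nb 0 = 1 := by
      have := mul_right_cancel₀ h0 (hsq.trans (one_mul _).symm)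
      exact this
    rw [h1]
    refine ⟨one_mem _, one_mem _, ?_⟩
    rw [map_one]
    exact isIntegral_one

/-- **The gluing data.** -/
noncomputable def glueData (M : GlueMod D X.Vq) : GlueData X (SSP D) where
  Bt := (Bti D).toSubring
  const_mem c := (Bti D).algebraMap_mem c
  mem_of_pow _ _ hn h := mem_Bti_of_pow D hn h
  Vq_mem _ hx := M.Vq_mem hx
  ev P := (P.1 : Bti D →+* k)
  ev_const P c := P.1.commutes c
  frob P := ⟨M.frobPt P.1, M.frobPt_ut P.1 P.2⟩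
  ev_frob _ _ _ := rfl
  ev_VV P _ hx := M.point_VV P.1 P.2 hx
  B := BB D
  B_const _ hc := L.const_mem hc
  B_le0 _ hb := L.V0_eq ▸ mem_vO D hb 0
  B_le1 _ hb := L.V1_eq ▸ mem_vO D hb 1
  B_le2 _ hb := L.V2_eq ▸ mem_vO D hb 2
  B_red0 _ hb := L.red0_mem hb
  B_red1 _ hb := L.red1_mem hb
  B_red2 _ hb := L.red2_mem hb
  glue01 P b hb := by
    have h := M.glue01 P.1 P.2 hb
    have h0 : (⟨X.V0.red b, L.red0_mem hb⟩ : Bti D) = ⟨(D.v 0).red b, red_mem_Bti D hb 0⟩ :=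
      Subtype.ext (L.red0_eq b)
    have h1 : (⟨X.V1.red b, L.red1_mem hb⟩ : Bti D) = ⟨(D.v 1).red b, red_mem_Bti D hb 1⟩ :=
      Subtype.ext (L.red1_eq b)
    change P.1 ⟨X.V0.red b, L.red0_mem hb⟩ = P.1 ⟨X.V1.red b, L.red1_mem hb⟩
    rw [h0, h1]
    exact h
  glue02 P b hb := by
    have h := M.glue02 P.1 P.2 hb
    have h0 : (⟨X.V0.red b, L.red0_mem hb⟩ : Bti D) = ⟨(D.v 0).red b, red_mem_Bti D hb 0⟩ :=
      Subtype.ext (L.red0_eq b)
    have h1 : (⟨X.V2.red b, L.red2_mem hb⟩ : Bti D) = ⟨(D.v 2).red b, red_mem_Bti D hb 2⟩ :=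
      Subtype.ext (L.red2_eq b)
    change P.1 ⟨X.V0.red b, L.red0_mem hb⟩ = P.1 ⟨X.V2.red b, L.red2_mem hb⟩
    rw [h0, h1]
    exact h
  Bq := L.Bq
  Bq_const c hc := by
    rw [mem_Bq, AlgHom.commutes]
    exact L.const_mem hc
  Bq_mem_of_pow y n hn h := by
    rw [mem_Bq, map_pow] at h
    exact mem_BB_of_pow D hn h
  Bq_le0 _ hb := (L.mem_Bq_iff.1 hb).1
  Bq_le1 _ hb := (L.mem_Bq_iff.1 hb).2.1
  Bq_red0 _ hb := L.Bq_red0 hb
  Bq_red1 _ hb := L.Bq_red1 M hb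
  glueq P b hb := by
    have h := M.glue02 P.1 P.2 (b := L.al b) hb
    have h0 : (⟨X.W0.red b, L.Bq_red0 hb⟩ : Bti D) =
        ⟨(D.v 0).red (L.al b), red_mem_Bti D hb 0⟩ :=
      Subtype.ext ((L.red0 b (L.mem_Bq_iff.1 hb).1).symm.trans (L.red0_eq _))
    have h1 : (⟨X.Vq (X.W1.red b), M.Vq_mem (L.Bq_red1 M hb)⟩ : Bti D) =
        ⟨(D.v 2).red (L.al b), red_mem_Bti D hb 2⟩ :=
      Subtype.ext ((L.red2 b (L.mem_Bq_iff.1 hb).2.1).symm.trans (L.red2_eq _))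
    change P.1 ⟨X.W0.red b, L.Bq_red0 hb⟩ = P.1 ⟨X.Vq (X.W1.red b), M.Vq_mem (L.Bq_red1 M hb)⟩
    rw [h0, h1]
    exact h
  Na_mem _ hb := L.Na_mem hb
  Nb_mem _ hb := L.Nb_mem hb

end LevelQ

/-! ### Additivity of `MM` -/

/-- In a root-closed subring, `{h | h ^ n / φ ∈ B}` is closed under addition. -/
theorem add_pow_mem_of_rootClosed {F : Type*} [Field F] (B : Subring F)
    (hB : ∀ (x : F) (n : ℕ), n ≠ 0 → x ^ n ∈ B → x ∈ B) {n : ℕ} (hn : n ≠ 0) {φ h h' : F}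
    (h1 : h ^ n * φ⁻¹ ∈ B) (h2 : h' ^ n * φ⁻¹ ∈ B) : (h + h') ^ n * φ⁻¹ ∈ B := by
  rw [add_pow, Finset.sum_mul]
  refine sum_mem fun a ha => ?_
  have ha' : a ≤ n := by
    have := Finset.mem_range.1 ha; omega
  have h3 : h ^ a * h' ^ (n - a) * φ⁻¹ ∈ B := by
    apply hB _ n hn
    have h4 : (h ^ a * h' ^ (n - a) * φ⁻¹) ^ n =
        (h ^ n * φ⁻¹) ^ a * (h' ^ n * φ⁻¹) ^ (n - a) := by
      have h5 : φ⁻¹ ^ n = φ⁻¹ ^ a * φ⁻¹ ^ (n - a) := by rw [← pow_add]; congr 1; omega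
      rw [mul_pow, mul_pow, mul_pow, mul_pow, h5, ← pow_mul, ← pow_mul, ← pow_mul, ← pow_mul,
        mul_comm a n, mul_comm (n - a) n]
      ring
    rw [h4]
    exact mul_mem (pow_mem h1 _) (pow_mem h2 _)
  have h6 : h ^ a * h' ^ (n - a) * (n.choose a : F) * φ⁻¹ =
      (n.choose a : F) * (h ^ a * h' ^ (n - a) * φ⁻¹) := by ring
  rw [h6]
  exact mul_mem (natCast_mem _ _) h3

theorem LevelQ.MM_add {K F k Er F' E : Type*} [Field K] [Field F] [Algebra K F] [Field k]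
    [CommRing Er] [Algebra k Er] [Field F'] [Algebra k F'] [Field E] [Algebra K E] {q : ℕ}
    {D : Data K F k Er F' q} {X : Setup K E F F' k q} (L : LevelQ D X) (M : GlueMod D X.Vq)
    {n : ℕ} (hn : n ≠ 0) (ψ : F) (h : F) (hh : h ∈ (L.glueData M).MM n ψ) (h' : F)
    (hh' : h' ∈ (L.glueData M).MM n ψ) : h + h' ∈ (L.glueData M).MM n ψ := by
  obtain ⟨⟨a0, a1, a2⟩, a3⟩ := hh
  obtain ⟨⟨b0, b1, b2⟩, b3⟩ := hh'
  exact ⟨⟨add_mem a0 b0, add_mem a1 b1, add_mem a2 b2⟩,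
    add_pow_mem_of_rootClosed (BB D) (fun x m hm hx => mem_BB_of_pow D hm hx) hn a3 b3⟩

end Fermat.Agent.S36norm
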