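import Fermat.Agent.S36.GlueInst
import Fermat.Agent.TriComp.Main

/-!
# Abstract form of Theorem A

Combination of the norm comparison, the count and the injectivity of reduction on torsion.
-/

set_option autoImplicit false

open Polynomial Module AlgebraicCurve
open scoped IntermediateField

namespace Fermat.Agent.S36norm

open Fermat.Agent.TriComp Fermat.Agent.QX Fermat.Agent.RR Fermat.Agent.FF

section

variable {K F k Er F' E : Type*} [Field K] [Field F] [Algebra K F] [Field k] [CommRing Er]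
    [Algebra k Er] [Field F'] [Algebra k F'] [Field E] [Algebra K E] {q : ℕ}
    {D : Data K F k Er F' q} {X : Setup K E F F' k q}

/-- `CongAll` gives the normalisation used by the count. -/
theorem LevelQ.tw_of_congAll (L : LevelQ D X) {n : ℕ} (hn : n ≠ 0) {ψ : F} (hψ : ψ ≠ 0) {N : ℤ}
    (hN : 1 ≤ N) (h : GlueData.CongAll X N ψ) : D.Tw n ψ := by
  obtain ⟨h0, h1, h2⟩ := h
  rw [L.V0_eq] at h0
  rw [L.V1_eq] at h1
  rw [L.V2_eq] at h2
  have hc : ∀ i, (D.v i).Cong N ψ 1 := by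
    intro i
    fin_cases i
    · exact h0
    · exact h1
    · exact h2
  have h3 : ∀ i, ψ ∈ (D.v i).O ∧ (D.v i).red ψ = 1 := by
    intro i
    have h4 : ψ - 1 = 0 ∨ 1 ≤ (D.v i).ord (ψ - 1) := by
      rcases hc i with h | h
      · exact Or.inl (sub_eq_zero.2 h)
      · exact Or.inr (hN.trans h)
    have h5 : ψ - 1 ∈ (D.v i).O := (D.v i).mem_of_ord_nonneg (h4.imp_right fun h => by omega)
    have h6 : ψ = (ψ - 1) + 1 := by ring
    refine ⟨by rw [h6]; exact add_mem h5 (one_mem _), ?_⟩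
    rw [h6, (D.v i).red_add h5 (one_mem _), (D.v i).red_eq_zero_of_one_le h4, (D.v i).red_one,
      zero_add]
  exact ⟨hn, hψ, fun i => ((D.v i).red_ne_zero_iff hψ (h3 i).1).1
    (by rw [(h3 i).2]; exact one_ne_zero), fun i => (h3 i).2⟩

theorem LevelQ.mem_O_of_congAll (L : LevelQ D X) {ψ : F} {N : ℤ}
    (hN : (q : ℤ) ≤ N) (h : GlueData.CongAll X N ψ) : (ψ - 1) / (q : F) ∈ D.R.O := by
  obtain ⟨h0, h1, h2⟩ := h
  rw [L.V0_eq] at h0
  rw [L.V1_eq] at h1
  rw [L.V2_eq] at h2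
  have hc : ∀ i, (D.v i).Cong N ψ 1 := by
    intro i
    fin_cases i
    · exact h0
    · exact h1
    · exact h2
  rw [D.mem_O_iff]
  intro i
  rcases hc i with h | h
  · rw [h, sub_self, zero_div]
    exact zero_mem _
  · rcases eq_or_ne (ψ - 1) 0 with h3 | h3
    · rw [h3, zero_div]
      exact zero_mem _
    · rw [(D.v i).mem_iff _ (div_ne_zero h3 (q_ne D)), (D.v i).ord_div h3 (q_ne D)]
      have := (D.ord_q_pos i).2
      omega

theorem LevelQ.r_of_congAll (L : LevelQ D X) {ψ : F} {N : ℤ}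
    (hN : (q : ℤ) ≤ N) (h : GlueData.CongAll X N ψ) : ψ ∈ D.R.O ∧ D.datum.r ψ = 1 := by
  have h1 := L.mem_O_of_congAll hN h
  have h2 : ψ - 1 ∈ D.R.O := by
    have h3 := mul_mem D.q_mem_O h1
    rwa [mul_div_cancel₀ _ (q_ne D)] at h3
  have h3 : ψ ∈ D.R.O := by
    have := add_mem h2 (one_mem D.R.O)
    rwa [sub_add_cancel] at this
  refine ⟨h3, ?_⟩
  have h4 : D.datum.r (ψ - 1) = 0 := by
    rw [D.r_surj_of h2, D.ρ_eq_zero_iff]
    exact h1
  have h5 := D.datum.r_sub h3 (one_mem D.R.O)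
  rw [h4, D.datum.r_one] at h5
  exact (sub_eq_zero.1 h5.symm)

/-- The numerical hypotheses. -/
structure Numerics (D : Data K F k Er F' q) [IsFF K F] [IsFF k F'] : Prop where
  j_tr : Transcendental K D.j
  finrank_j : finrank K⟮D.j⟯ F = q * (q + 1) * D.ψ
  ell_zero : ell (0 : Divisor K F) = 1
  genus : 12 * ((genusFF K F : ℤ) - 1) = (q + 1) * (12 * ((genusFF k F' : ℤ) - 1)) +
    ((q : ℤ) ^ 2 - 1) * D.ψ

variable [IsFF K F]

theorem adm_of_mem_LL {n : ℕ} (hn : n ≠ 0) {φ : F} (hφ : φ ≠ 0) {Dv : Divisor K F}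
    (hD : ∀ v : Place K F, (n : ℤ) * Dv v = v.ord φ) {r : ℕ} {h : F}
    (hh : h ∈ LL D.j Dv r 0) : D.Adm n φ r h := by
  rcases eq_or_ne h 0 with rfl | hh0
  · constructor
    · rw [zero_pow hn, zero_div]; exact isIntegral_zero
    · rw [zero_pow hn, zero_div, zero_mul]; exact isIntegral_zero
  have h1 := pow_mem_LL hφ hD hh
  have h2 : h ^ n / φ ≠ 0 := div_ne_zero (pow_ne_zero _ hh0) hφ
  rw [mem_LL h2] at h1
  have hj := D.j_ne_zero
  constructor
  · have h3 : h ^ n / φ ∈ ic K D.j := by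
      rw [mem_ic_iff_place hj h2]
      intro w hw
      have h4 := h1 w
      rw [max_eq_right (show -w.ord D.j ≤ 0 by omega)] at h4
      simpa using h4
    exact h3
  · have hji : D.j⁻¹ ≠ 0 := inv_ne_zero hj
    have h3 : h ^ n / φ * D.j⁻¹ ^ (n * r) ∈ ic K D.j⁻¹ := by
      rw [mem_ic_iff_place hji (mul_ne_zero h2 (pow_ne_zero _ hji))]
      intro w hw
      rw [w.ord_inv] at hw
      have h4 := h1 w
      rw [w.ord_mul h2 (pow_ne_zero _ hji), QX.ord_pow, w.ord_inv]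
      rw [max_eq_left (show 0 ≤ -w.ord D.j by omega)] at h4
      push_cast at h4 ⊢
      simp only [Pi.zero_apply, mul_zero, zero_mul, sub_zero, zero_sub] at h4
      linarith
    exact h3

variable [IsFF k F']

/-- **Existence of sections with reduction one.** -/
theorem exists_section [IsAlgClosed k] (Nm : Numerics D) {n : ℕ} {φ : F} (T : D.Tw n φ)
    {Dv : Divisor K F} (hD0 : Divisor.degree Dv = 0)
    (hD : ∀ v : Place K F, (n : ℤ) * Dv v = v.ord φ) :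
    ∃ h ∈ D.R.O, h ^ n / φ ∈ ic K D.j ∧ (D.v 1).red h = 1 := by
  obtain ⟨r₀, h₀⟩ := D.exists_red_one
  set r : ℕ := max r₀ (rrBound K F 0) with hr
  have hdim := finrank_LL (K := K) Nm.j_tr (D := Dv) (a := r) (b := 0)
    (by rw [hD0]; simp [hr])
  obtain ⟨h, h1, h2, h3⟩ := h₀ r (le_max_left _ _) n φ T (LL D.j Dv r 0)
    (fun h hh => adm_of_mem_LL T.n_ne_zero T.φ_ne_zero hD hh) (genusFF K F) Nm.genus (by
      rw [hdim, Nm.finrank_j, Nm.ell_zero, hD0]
      push_cast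
      ring)
  exact ⟨h, h2, (adm_of_mem_LL T.n_ne_zero T.φ_ne_zero hD h1).fin, h3⟩

/-- The conclusion of the injectivity of reduction on torsion. -/
def TorsInj (D : Data K F k Er F' q) : Prop :=
  ∀ (n : ℕ) (φ : F) (Dv : Divisor K F), (n : k) ≠ 0 → Divisor.degree Dv = 0 →
    (∀ v : Place K F, (n : ℤ) * Dv v = v.ord φ) → φ ∈ D.R.O → D.datum.r φ = 1 →
    (∀ P : ic k D.jt →ₐ[k] k, ev P (aeval D.jt D.Pu) = 0 → ∀ h ∈ D.R.O, h ^ n / φ ∈ ic K D.j →
      ∀ i, ev P ((D.v i).red h) = ev P ((D.v 1).red h)) → Divisor.IsPrincipal Dv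

/-- **Abstract form of Theorem A.** -/
theorem LevelQ.isPrincipal [IsAlgClosed k] (L : LevelQ D X) (M : GlueMod D X.Vq)
    (Nm : Numerics D) (TI : TorsInj D) {n : ℕ} (hn : (n : k) ≠ 0) (hqn : Nat.Coprime q n)
    {Dv : Divisor K F} (hD0 : Divisor.degree Dv = 0) {f : F} (hf : f ≠ 0)
    (hD : ∀ v : Place K F, (n : ℤ) * Dv v = v.ord f) (ha : Setup.IsKPow K n (X.Na f))
    (hb : Setup.IsKPow K n (X.Nb f)) :
    Divisor.IsPrincipal (((((q + 1) * (q - 1)) ^ 2 : ℕ) : ℤ) • Dv) := by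
  have hn0 : n ≠ 0 := by
    rintro rfl
    simp at hn
  have hnF' : (n : F') ≠ 0 := by
    intro h
    apply hn
    have h2 : algebraMap k F' (n : k) = 0 := by rw [map_natCast, h]
    exact (map_eq_zero_iff _ (algebraMap k F').injective).1 h2
  -- divisors of related functions
  have hrel : ∀ (a : ℕ) (ψ : F), Setup.RelPow K n f ψ a → ∃ Dv' : Divisor K F,
      Divisor.degree Dv' = 0 ∧ (∀ v : Place K F, (n : ℤ) * Dv' v = v.ord ψ) ∧
        Divisor.IsPrincipal (Dv' - (a : ℤ) • Dv) := by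
    rintro a ψ ⟨c, g, hc, hg, rfl⟩
    have hcF : algebraMap K F c ≠ 0 := by simpa using hc
    refine ⟨(a : ℤ) • Dv + divOf g, ?_, fun v => ?_, ?_⟩
    · rw [map_add, map_zsmul, hD0, degree_divOf, smul_zero, add_zero]
    · rw [Finsupp.add_apply, Finsupp.smul_apply, divOf_apply, smul_eq_mul,
        v.ord_mul (mul_ne_zero hcF (pow_ne_zero _ hf)) (pow_ne_zero _ hg),
        v.ord_mul hcF (pow_ne_zero _ hf), FF.ord_algebraMap, QX.ord_pow, QX.ord_pow, ← hD v]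
      ring
    · refine ⟨g, hg, fun v => ?_⟩
      rw [add_sub_cancel_left, divOf_apply]
  obtain ⟨ψ, hψ, hcong, hz⟩ := (L.glueData M).main hn0 hqn hnF' hf ha hb q
    (fun a ψ _ h hh h' hh' => L.MM_add M hn0 ψ h hh h' hh')
    (fun a ψ hψ hcong P => by
      obtain ⟨Dv', hd0, hd, -⟩ := hrel a ψ hψ
      have hψ0 := hψ.ne_zero hf
      have T := L.tw_of_congAll (D := D) hn0 hψ0 (by omega) hcong
      obtain ⟨h, hO, hint, h1⟩ := exists_section Nm T hd0 hd
      have hinv : ψ⁻¹ ∈ D.R.O := by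
        rw [D.mem_O_iff]
        exact fun i => (D.v i).inv_mem_of_ord_eq_zero hψ0 (T.ord i)
      refine ⟨h, ⟨⟨L.V0_eq ▸ (D.mem_O_iff h).1 hO 0, L.V1_eq ▸ (D.mem_O_iff h).1 hO 1,
        L.V2_eq ▸ (D.mem_O_iff h).1 hO 2⟩, ?_⟩, ?_⟩
      · refine ⟨mul_mem (pow_mem hO n) hinv, ?_⟩
        rw [← div_eq_mul_inv]
        exact hint
      · rw [L.red1_eq, h1]
        have h2 : (1 : F') ∈ (L.glueData M).Bt := one_mem _
        rw [(L.glueData M).evt_of_mem P h2]
        have h3 : (L.glueData M).ev P ⟨1, h2⟩ = 1 := map_one _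
        rw [h3]
        exact one_ne_zero)
  have hψ0 := hψ.ne_zero hf
  obtain ⟨Dv', hd0, hd, hpr⟩ := hrel _ ψ hψ
  obtain ⟨hψO, hψr⟩ := L.r_of_congAll (D := D) (by omega) hcong
  have T := L.tw_of_congAll (D := D) hn0 hψ0 (by omega) hcong
  have hinv : ψ⁻¹ ∈ D.R.O := by
    rw [D.mem_O_iff]
    exact fun i => (D.v i).inv_mem_of_ord_eq_zero hψ0 (T.ord i)
  have h1 : Divisor.IsPrincipal Dv' := by
    refine TI n ψ Dv' hn hd0 hd hψO hψr fun P hP h hO hint i => ?_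
    have hP' : P ⟨ut D, ut_mem D⟩ = 0 := by
      rw [← ev_of_mem P (ut_mem D)]
      exact hP
    have hMM : h ∈ (L.glueData M).MM n ψ := by
      refine ⟨⟨L.V0_eq ▸ (D.mem_O_iff h).1 hO 0, L.V1_eq ▸ (D.mem_O_iff h).1 hO 1,
        L.V2_eq ▸ (D.mem_O_iff h).1 hO 2⟩, mul_mem (pow_mem hO n) hinv, ?_⟩
      rw [← div_eq_mul_inv]
      exact hint
    have hz' := hz (⟨P, hP'⟩ : SSP D) h hMM
    have hevt : ∀ x : F', (L.glueData M).evt (⟨P, hP'⟩ : SSP D) x = ev P x := by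
      intro x
      by_cases hx : x ∈ ic k D.jt
      · rw [ev_of_mem P hx]
        exact (L.glueData M).evt_of_mem (⟨P, hP'⟩ : SSP D) (show x ∈ (L.glueData M).Bt from hx)
      · rw [ev, dif_neg hx, GlueData.evt]
        exact dif_neg hx
    rw [hevt, hevt, hevt, L.red0_eq, L.red1_eq, L.red2_eq] at hz'
    fin_cases i
    · exact hz'.1
    · rfl
    · exact hz'.2.symm.trans hz'.1
  obtain ⟨g1, hg1, e1⟩ := h1
  obtain ⟨g2, hg2, e2⟩ := hpr
  refine ⟨g1 * g2⁻¹, mul_ne_zero hg1 (inv_ne_zero hg2), fun v => ?_⟩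
  have h3 := e1 v
  have h4 := e2 v
  rw [v.ord_mul hg1 (inv_ne_zero hg2), v.ord_inv, ← h3, ← h4, Finsupp.sub_apply]
  ring

theorem numerics_of_num [IsAlgClosed k] (Nm : D.Num) : Numerics D :=
  ⟨Nm.tr, Nm.finrank_F, Nm.ell_zero, Nm.genus⟩

theorem torsInj_of_num [IsAlgClosed k] (Nm : D.Num) (G : D.Glue) : TorsInj D := by
  intro n φ Dv hn hD0 hD hφ hr hz
  exact Data.isPrincipal (n := n) (φ := φ) Nm G ⟨hn, hD0, hD, hφ, hr⟩ hz

/-- **Abstract form of Theorem A.** -/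
theorem LevelQ.isPrincipal_final [IsAlgClosed k] (L : LevelQ D X) (M : GlueMod D X.Vq)
    (Nm : D.Num) (G : D.Glue) {n : ℕ} (hn : (n : k) ≠ 0) (hqn : Nat.Coprime q n)
    {Dv : Divisor K F} (hD0 : Divisor.degree Dv = 0) {f : F} (hf : f ≠ 0)
    (hD : ∀ v : Place K F, (n : ℤ) * Dv v = v.ord f) (ha : Setup.IsKPow K n (X.Na f))
    (hb : Setup.IsKPow K n (X.Nb f)) :
    Divisor.IsPrincipal (((((q + 1) * (q - 1)) ^ 2 : ℕ) : ℤ) • Dv) :=
  L.isPrincipal M (numerics_of_num Nm) (torsInj_of_num Nm G) hn hqn hD0 hf hD ha hb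

end

end Fermat.Agent.S36norm
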