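import Fermat.Agent.TriGauss.E1
import Fermat.Agent.TriVal.Base
import Fermat.Agent.TEll.Along
import Fermat.Agent.TEll.FinrankAlong

set_option autoImplicit false
set_option linter.style.haveILetI false

/-!
# Norms as products over embeddings
-/

noncomputable section

open AlgebraicCurve ModularCurve HahnSeries Fermat.Agent.TEll Fermat.Agent.TriGauss
  Fermat.Agent.TriVal Fermat.Agent.X0Emb

namespace Fermat.Agent.S36norm

section General

/-- The norm is the product over any complete set of embeddings. -/
theorem norm_eq_prod {E F Ω ι : Type*} [Field E] [Field F] [Field Ω] [Algebra E F] [CharZero E]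
    [FiniteDimensional E F] [Fintype ι] (i₀ : E →+* Ω) (e : ι → F →+* Ω)
    (he : ∀ i x, e i (algebraMap E F x) = i₀ x) (hinj : Function.Injective e)
    (hcard : Fintype.card ι = Module.finrank E F) (f : F) :
    i₀ (Algebra.norm E f) = ∏ i, e i f := by
  classical
  let Ωb := AlgebraicClosure Ω
  let j : Ω →+* Ωb := algebraMap Ω Ωb
  letI : Algebra E Ω := i₀.toAlgebra
  have h1 := Algebra.norm_eq_prod_embeddings E Ωb f
  let t : ι → (F →ₐ[E] Ωb) := fun i =>
    { j.comp (e i) with
      commutes' := fun x => by
        change j (e i (algebraMap E F x)) = j (i₀ x)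
        rw [he] }
  have ht : ∀ i x, t i x = j (e i x) := fun i x => rfl
  have htinj : Function.Injective t := by
    intro a b hab
    apply hinj
    ext x
    apply j.injective
    rw [← ht, ← ht, hab]
  have hcard2 : Fintype.card (F →ₐ[E] Ωb) = Module.finrank E F := AlgHom.card E F Ωb
  have htbij : Function.Bijective t :=
    (Fintype.bijective_iff_injective_and_card t).2 ⟨htinj, hcard.trans hcard2.symm⟩
  have h2 : ∏ σ : F →ₐ[E] Ωb, σ f = ∏ i, t i f := by
    rw [← (Equiv.ofBijective t htbij).prod_comp]
    rfl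
  apply j.injective
  rw [map_prod]
  have h3 : j (i₀ (Algebra.norm E f)) = algebraMap E Ωb (Algebra.norm E f) := rfl
  rw [h3, h1, h2]
  exact Finset.prod_congr rfl fun i _ => ht i f

theorem normAlong_eq_prod {K E F Ω ι : Type*} [Field K] [Field E] [Field F] [Field Ω]
    [Algebra K E] [Algebra K F] [CharZero E] [Fintype ι] (φ : E →ₐ[K] F)
    (i₀ : E →+* Ω) (e : ι → F →+* Ω) (he : ∀ i x, e i (φ x) = i₀ x)
    (hinj : Function.Injective e) (hcard : Fintype.card ι = finrankAlong K φ)
    (hpos : 0 < Fintype.card ι) (f : F) :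
    i₀ (normAlong φ f) = ∏ i, e i f := by
  letI := algebraAlong φ
  have h1 : Fintype.card ι = Module.finrank E F := hcard
  haveI : FiniteDimensional E F := Module.finite_of_finrank_pos (by omega)
  exact norm_eq_prod i₀ e he hinj h1 f

end General

section Modular

variable (K : Type*) [Field K] (N ℓ : ℕ) [NeZero N] [NeZero ℓ] [NeZero (N * ℓ)]

/-- `f(τ) ↦ f(τ)` from level `N` to level `N ℓ`. -/
def alphaC : modularFunctionFieldFullC K N →ₐ[K] modularFunctionFieldFullC K (N * ℓ) :=
  IntermediateField.inclusion (full_degeneracyC_le K (dvd_mul_right N ℓ))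

@[simp] theorem coe_alphaC (x : modularFunctionFieldFullC K N) :
    (alphaC K N ℓ x : LaurentSeries K) = (x : LaurentSeries K) :=
  IntermediateField.coe_inclusion _ x

/-- `f(τ) ↦ f(ℓ τ)` from level `N` to level `N ℓ`. -/
def betaC : modularFunctionFieldFullC K N →ₐ[K] modularFunctionFieldFullC K (N * ℓ) where
  toFun x := ⟨qExpand K ℓ (x : LaurentSeries K),
    full_degeneracyC_map_le K N ℓ ⟨x, x.2, rfl⟩⟩
  map_one' := Subtype.ext (map_one (qExpand K ℓ))
  map_mul' _ _ := Subtype.ext (map_mul (qExpand K ℓ) _ _)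
  map_zero' := Subtype.ext (map_zero (qExpand K ℓ))
  map_add' _ _ := Subtype.ext (map_add (qExpand K ℓ) _ _)
  commutes' a := Subtype.ext <| by
    change qExpand K ℓ (algebraMap K (LaurentSeries K) a) = algebraMap K (LaurentSeries K) a
    rw [algebraMap_laurentSeries_eq_single, qExpand_single, mul_zero]

@[simp] theorem coe_betaC (x : modularFunctionFieldFullC K N) :
    (betaC K N ℓ x : LaurentSeries K) = qExpand K ℓ (x : LaurentSeries K) := rfl

variable {K N}

/-- Two homomorphisms out of the function field which agree on constants and on the `j_d` are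
equal. -/
theorem fullC_ringHom_ext {Ω : Type*} [Field Ω] {g h : modularFunctionFieldFullC K N →+* Ω}
    (hc : ∀ c : K, g (algebraMap K _ c) = h (algebraMap K _ c))
    (hj : ∀ (d : ℕ) [NeZero d] (hd : d ∣ N), g (jd K N d hd) = h (jd K N d hd)) : g = h := by
  letI : Algebra K Ω := (g.comp (algebraMap K (modularFunctionFieldFullC K N))).toAlgebra
  let g' : modularFunctionFieldFullC K N →ₐ[K] Ω := { g with commutes' := fun c => rfl }
  let h' : modularFunctionFieldFullC K N →ₐ[K] Ω := { h with commutes' := fun c => (hc c).symm }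
  have : g' = h' := by
    apply IntermediateField.algHom_ext_of_eq_adjoin K (S := modularFunctionFieldFullC K N)
      (s := divisorExpansionsC K N) rfl
    rintro _ ⟨d, hne, hd, rfl⟩
    exact hj d hd
  ext x
  exact congrArg (fun t : modularFunctionFieldFullC K N →ₐ[K] Ω => t x) this

end Modular

section Formulas

variable {K L : Type*} [Field K] [Field L] [Algebra K L] [CharZero K]
variable {m q : ℕ} [NeZero m] [NeZero q] [NeZero (m * q)] [NeZero (m * q * q)]

theorem coeffMap_jd (d : ℕ) [NeZero d] : coeffMap (algebraMap K L) (TwoGauss.jd K d) =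
    TwoGauss.jd L d := TwoGauss.coeffMap_jd _ d

theorem twist_coeff (c : Lˣ) (G : LaurentSeries L) (n : ℤ) :
    (twist c G).coeff n = ((c ^ n : Lˣ) : L) * G.coeff n := rfl

theorem coeff_jd_neg (d : ℕ) [NeZero d] : (TwoGauss.jd L d).coeff (-(d : ℤ)) = 1 := by
  have h : (-(d : ℤ)) = (d : ℤ) * (-1) := by ring
  rw [TwoGauss.jd, h, qExpand_coeff_mul, coeff_jqModC_neg_one]

/-- **The norm along `α` from level `q² m` to level `q m`.** -/
theorem coe_norm_alpha (hq : q.Prime) (hm : ¬ q ∣ m) (ζ : Lˣ) (hζ : IsPrimitiveRoot ζ q)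
    (hdeg : finrankAlong K (alphaC K (m * q) q) = q)
    (e : Fin (q - 1) → modularFunctionFieldFullC K (m * q * q) →+* LaurentSeries L)
    (hc : ∀ k c, e k (algebraMap K _ c) = algebraMap L (LaurentSeries L) (algebraMap K L c))
    (hj : ∀ k (d : ℕ) [NeZero d] (hd : d ∣ m * q * q),
      e k (TriVal.jd K (m * q * q) d hd) = S1 (ζ ^ ((k : ℕ) + 1)) ⟨d, hd⟩)
    (f : modularFunctionFieldFullC K (m * q * q)) :
    coeffMap (algebraMap K L) (normAlong (alphaC K (m * q) q) f : LaurentSeries K) =
      coeffMap (algebraMap K L) (f : LaurentSeries K) * ∏ k, e k f := by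
  classical
  let i₀ : modularFunctionFieldFullC K (m * q) →+* LaurentSeries L :=
    (coeffMap (algebraMap K L)).comp
      (algebraMap (modularFunctionFieldFullC K (m * q)) (LaurentSeries K))
  let e₀ : modularFunctionFieldFullC K (m * q * q) →+* LaurentSeries L :=
    (coeffMap (algebraMap K L)).comp
      (algebraMap (modularFunctionFieldFullC K (m * q * q)) (LaurentSeries K))
  have he₀ : ∀ f, e₀ f = coeffMap (algebraMap K L) (f : LaurentSeries K) := fun f => rfl
  have hi₀ : ∀ f, i₀ f = coeffMap (algebraMap K L) (f : LaurentSeries K) := fun f => rfl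
  let t : Option (Fin (q - 1)) → modularFunctionFieldFullC K (m * q * q) →+* LaurentSeries L :=
    fun o => o.elim e₀ e
  have ht : ∀ o x, t o (alphaC K (m * q) q x) = i₀ x := by
    rintro (_ | k) x
    · change coeffMap (algebraMap K L) (alphaC K (m * q) q x : LaurentSeries K) =
        coeffMap (algebraMap K L) (x : LaurentSeries K)
      rw [coe_alphaC]
    · have : (e k).comp (alphaC K (m * q) q : modularFunctionFieldFullC K (m * q) →+*
          modularFunctionFieldFullC K (m * q * q)) = i₀ := by
        apply fullC_ringHom_ext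
        · intro c
          change e k (alphaC K (m * q) q (algebraMap K _ c)) = _
          rw [AlgHom.commutes, hc]
          exact (coeffMap_algebraMap' K L c).symm
        · intro d hne hd
          have hd' : d ∣ m * q * q := hd.mul_right _
          change e k (alphaC K (m * q) q (TriVal.jd K (m * q) d hd)) = _
          have h1 : alphaC K (m * q) q (TriVal.jd K (m * q) d hd) =
              TriVal.jd K (m * q * q) d hd' := by
            apply Subtype.ext
            rw [coe_alphaC]; rfl
          rw [h1, hj, S1_of_dvd_mq hq hm _ ⟨d, hd'⟩ hd]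
          exact (coeffMap_jd d).symm
      exact congrArg (fun g : modularFunctionFieldFullC K (m * q) →+* LaurentSeries L => g x) this
  -- the test function `j_{q²}`
  have hqq : q * q ∣ m * q * q := ⟨m, by ring⟩
  haveI : NeZero (q * q) := ⟨Nat.mul_ne_zero hq.ne_zero hq.ne_zero⟩
  have hek : ∀ k : Fin (q - 1), (e k (TriVal.jd K (m * q * q) (q * q) hqq)).coeff (-1) =
      (((ζ ^ ((k : ℕ) + 1)) ^ (-1 : ℤ) : Lˣ) : L) := by
    intro k
    have hqq' : q * q * 1 ∣ m * q * q := by rwa [mul_one]
    have h2 : (⟨q * q, hqq⟩ : TwoGauss.Dv (m * q * q)) = ⟨q * q * 1, hqq'⟩ :=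
      Subtype.ext (mul_one _).symm
    rw [hj, h2, S1_sq_mul hq _ 1 hqq', twist_coeff]
    have h3 := coeff_jd_neg (L := L) 1
    rw [Nat.cast_one] at h3
    rw [h3, mul_one]
  have he0' : (e₀ (TriVal.jd K (m * q * q) (q * q) hqq)).coeff (-1) = 0 := by
    rw [he₀, TriVal.coe_jd]
    have h3 := coeffMap_jd (K := K) (L := L) (q * q)
    rw [TwoGauss.jd, TwoGauss.jd] at h3
    rw [h3]
    apply qExpand_coeff_of_not_dvd
    intro h4
    have h5 : ((q * q : ℕ) : ℤ) ∣ 1 := by simpa using h4
    have h6 : q * q ∣ 1 := by exact_mod_cast h5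
    have h7 := Nat.le_of_dvd one_pos h6
    have := hq.two_le
    nlinarith
  have hinj : Function.Injective t := by
    rintro (_ | k) (_ | l) hkl
    · rfl
    · exfalso
      have h1 : e₀ = e l := hkl
      have h2 := hek l
      rw [← h1, he0'] at h2
      exact (Units.ne_zero _) h2.symm
    · exfalso
      have h1 : e k = e₀ := hkl
      have h2 := hek k
      rw [h1, he0'] at h2
      exact (Units.ne_zero _) h2.symm
    · have h1 : e k = e l := hkl
      have h2 := hek k
      rw [h1, hek l, Units.val_inj] at h2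
      rw [zpow_neg_one, zpow_neg_one, inv_inj] at h2
      have hk := k.2
      have hl := l.2
      have h3 := hζ.pow_inj (i := (l : ℕ) + 1) (j := (k : ℕ) + 1) (by omega) (by omega) h2
      congr 1
      apply Fin.ext
      omega
  have hq1 := hq.one_lt
  have hcard : Fintype.card (Option (Fin (q - 1))) = finrankAlong K (alphaC K (m * q) q) := by
    rw [hdeg, Fintype.card_option, Fintype.card_fin]; omega
  have hpos : 0 < Fintype.card (Option (Fin (q - 1))) := Fintype.card_pos
  haveI : CharZero (modularFunctionFieldFullC K (m * q)) :=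
    charZero_of_injective_algebraMap (algebraMap K (modularFunctionFieldFullC K (m * q))).injective
  have := normAlong_eq_prod (alphaC K (m * q) q) i₀ t ht hinj hcard hpos f
  rw [Fintype.prod_option] at this
  exact this

/-- **The norm along `β` from level `q² m` to level `q m`.** -/
theorem coe_norm_beta (hq : q.Prime) (ζ : Lˣ) (hζ : IsPrimitiveRoot ζ q)
    (hdeg : finrankAlong K (betaC K (m * q) q) = q)
    (f : modularFunctionFieldFullC K (m * q * q)) :
    qExpand L q (coeffMap (algebraMap K L)
      (normAlong (betaC K (m * q) q) f : LaurentSeries K)) =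
      ∏ k : Fin q, twist (ζ ^ (k : ℕ)) (coeffMap (algebraMap K L) (f : LaurentSeries K)) := by
  classical
  let i₀ : modularFunctionFieldFullC K (m * q) →+* LaurentSeries L :=
    ((qExpand L q).comp (coeffMap (algebraMap K L))).comp
      (algebraMap (modularFunctionFieldFullC K (m * q)) (LaurentSeries K))
  have hi₀ : ∀ f, i₀ f = qExpand L q (coeffMap (algebraMap K L) (f : LaurentSeries K)) :=
    fun f => rfl
  let t : Fin q → modularFunctionFieldFullC K (m * q * q) →+* LaurentSeries L := fun k =>
    ((twist (ζ ^ (k : ℕ))).comp (coeffMap (algebraMap K L))).comp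
      (algebraMap (modularFunctionFieldFullC K (m * q * q)) (LaurentSeries K))
  have ht' : ∀ k f, t k f = twist (ζ ^ (k : ℕ)) (coeffMap (algebraMap K L)
    (f : LaurentSeries K)) := fun k f => rfl
  have htw : ∀ (k : ℕ) (G : LaurentSeries L), twist (ζ ^ k) (qExpand L q G) = qExpand L q G := by
    intro k G
    ext n
    rw [twist_coeff]
    by_cases hn : (q : ℤ) ∣ n
    · obtain ⟨l, rfl⟩ := hn
      have : ((ζ ^ k) ^ ((q : ℤ) * l) : Lˣ) = 1 := by
        rw [zpow_mul, zpow_natCast, ← pow_mul, mul_comm k q, pow_mul, hζ.pow_eq_one, one_pow,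
          one_zpow]
      rw [this, Units.val_one, one_mul]
    · rw [qExpand_coeff_of_not_dvd _ _ hn, mul_zero]
  have ht : ∀ k x, t k (betaC K (m * q) q x) = i₀ x := by
    intro k x
    rw [ht', coe_betaC, ModularCurve.coeffMap_qExpand, htw, hi₀]
  have h1d : (1 : ℕ) ∣ m * q * q := one_dvd _
  have hek : ∀ k : Fin q, (t k (TriVal.jd K (m * q * q) 1 h1d)).coeff (-1) =
      (((ζ ^ (k : ℕ)) ^ (-1 : ℤ) : Lˣ) : L) := by
    intro k
    rw [ht', TriVal.coe_jd]
    have h3 := coeffMap_jd (K := K) (L := L) 1
    rw [TwoGauss.jd, TwoGauss.jd] at h3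
    rw [h3, twist_coeff]
    have h4 := coeff_jd_neg (L := L) 1
    rw [TwoGauss.jd, Nat.cast_one] at h4
    rw [h4, mul_one]
  have hinj : Function.Injective t := by
    intro k l h1
    have h2 := hek k
    rw [h1, hek l, Units.val_inj, zpow_neg_one, zpow_neg_one, inv_inj] at h2
    exact Fin.ext (hζ.pow_inj l.2 k.2 h2).symm
  have hcard : Fintype.card (Fin q) = finrankAlong K (betaC K (m * q) q) := by
    rw [hdeg, Fintype.card_fin]
  have hpos : 0 < Fintype.card (Fin q) := by rw [Fintype.card_fin]; exact hq.pos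
  haveI : CharZero (modularFunctionFieldFullC K (m * q)) :=
    charZero_of_injective_algebraMap (algebraMap K (modularFunctionFieldFullC K (m * q))).injective
  have := normAlong_eq_prod (betaC K (m * q) q) i₀ t ht hinj hcard hpos f
  exact this

end Formulas

end Fermat.Agent.S36norm
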