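import Fermat.Agent.TEll.HeckeDiv
import Fermat.Agent.QX4.Defs
import Fermat.Prelude.Def_ModularCurve_HeckeModule
import Fermat.Prelude.Def_FLTPrelim_Ramification

/-!
# The statement of Theorem A

`ThmA N q lam A`: the classes in `J₀(N q)(ℚ̄)[lam^∞]` which are invariant under the inertia group
of `A` and killed by both push-forwards to `J₀(N)` have bounded exponent.
-/

set_option autoImplicit false

noncomputable section

open ModularCurve AlgebraicCurve Fermat.Agent.TEll Fermat.Agent.QX4

namespace Fermat.Agent.S36red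

section

variable (N q : ℕ) [NeZero N] [NeZero q]

theorem intA : (heckeAlphaBar (AlgebraicClosure ℚ) N q).toRingHom.IsIntegral := intAlpha N q

theorem intB : (heckeBetaBar (AlgebraicClosure ℚ) N q).toRingHom.IsIntegral := intBeta N q

theorem finBeta : FiniteAlong (AlgebraicClosure ℚ) (heckeBetaBar (AlgebraicClosure ℚ) N q) :=
  Fermat.Agent.FF.finiteAlong _

theorem nfBeta : NormFormulaAlong (AlgebraicClosure ℚ)
    (heckeBetaBar (AlgebraicClosure ℚ) N q) (finBeta N q) :=
  Fermat.Agent.FF.normFormulaAlong _ _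

/-- the push-forward `J₀(N q)(ℚ̄) → J₀(N)(ℚ̄)` along the degeneracy map `α`. -/
def alPush : JZero (N * q) →+ JZero N :=
  pushPic0 (heckeAlphaBar (AlgebraicClosure ℚ) N q) (intA N q) (finAlpha N q) (nfAlpha N q)

/-- the push-forward `J₀(N q)(ℚ̄) → J₀(N)(ℚ̄)` along the degeneracy map `β`. -/
def bePush : JZero (N * q) →+ JZero N :=
  pushPic0 (heckeBetaBar (AlgebraicClosure ℚ) N q) (intB N q) (finBeta N q) (nfBeta N q)

/-- **The statement of Theorem A** for the level `N q` at the place `A`. -/
def ThmA (lam : ℕ) (A : ValuationSubring (AlgebraicClosure ℚ)) : Prop :=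
  ∃ c : ℕ, ∀ (n : ℕ) (x : JZero (N * q)), lam ^ n • x = 0 →
    (∀ σ ∈ A.inertiaSubgroupIn ℚ, σ • x = x) → alPush N q x = 0 → bePush N q x = 0 →
      lam ^ c • x = 0

end

end Fermat.Agent.S36red

end
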