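import Fermat.Agent.S36.K0Places
import Fermat.Agent.S36.AbsMain
import Fermat.Agent.S36.NormProd
import Fermat.Agent.S36.ThmADef
import Fermat.Agent.S36.Descent
import Fermat.Agent.TriVal.GlueK0
import Fermat.Agent.HeckeComm.Norm

/-!
# From the abstract Theorem A to Theorem A for `J₀(q²m)`
-/

set_option autoImplicit false

open AlgebraicCurve WithZero Module Polynomial ModularCurve
open scoped IntermediateField
open Fermat.Agent.FF Fermat.Agent.TwoComp Fermat.Agent.LocE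
open Fermat.Agent.TriVal hiding Qb
open Fermat.Agent.TriDim Fermat.Agent.TriComp Fermat.Agent.Deuring Fermat.Agent.QX
open Fermat.Agent.TEll Fermat.Agent.S36norm Fermat.Agent.S36K0

noncomputable section

namespace Fermat.Agent.S36mile

section Bcb

variable (L : Type*) [Field L] [Algebra L Qb] (N : ℕ)

/-- Base change to `modularFunctionFieldBar`. -/
def bcb : modularFunctionFieldFullC L N →+* modularFunctionFieldBar N where
  toFun x := ⟨(bc L Qb N x : LaurentSeries Qb), by rw [fullC_eq_bar]; exact (bc L Qb N x).2⟩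
  map_one' := Subtype.ext (by rw [map_one]; rfl)
  map_mul' x y := Subtype.ext (by rw [map_mul]; rfl)
  map_zero' := Subtype.ext (by rw [map_zero]; rfl)
  map_add' x y := Subtype.ext (by rw [map_add]; rfl)

@[simp] theorem coe_bcb (x : modularFunctionFieldFullC L N) :
    (bcb L N x : LaurentSeries Qb) = coeffMap (algebraMap L Qb) (x : LaurentSeries L) := rfl

theorem bcb_algebraMap (c : L) : bcb L N (algebraMap L _ c) = algebraMap Qb _ (algebraMap L Qb c) := by
  apply Subtype.ext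
  have h := congrArg (Subtype.val) (bc_algebraMap L Qb N c)
  exact h

variable {L N}

theorem bcb_injective : Function.Injective (bcb L N) := (bcb L N).injective

/-- Generation. -/
theorem subfield_eq_top (S : Subfield (modularFunctionFieldBar N))
    (hc : ∀ c : Qb, algebraMap Qb (modularFunctionFieldBar N) c ∈ S)
    (hj : ∀ x : modularFunctionFieldFullC L N, bcb L N x ∈ S) : S = ⊤ := by
  let T : IntermediateField Qb (LaurentSeries Qb) :=
    { carrier := {y | ∃ x ∈ S, (x : LaurentSeries Qb) = y}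
      mul_mem' := by
        rintro _ _ ⟨x, hx, rfl⟩ ⟨y, hy, rfl⟩
        exact ⟨x * y, mul_mem hx hy, rfl⟩
      one_mem' := ⟨1, one_mem _, rfl⟩
      add_mem' := by
        rintro _ _ ⟨x, hx, rfl⟩ ⟨y, hy, rfl⟩
        exact ⟨x + y, add_mem hx hy, rfl⟩
      zero_mem' := ⟨0, zero_mem _, rfl⟩
      algebraMap_mem' := fun c => ⟨_, hc c, rfl⟩
      inv_mem' := by
        rintro _ ⟨x, hx, rfl⟩
        exact ⟨x⁻¹, inv_mem hx, rfl⟩ }
  have h1 : modularFunctionFieldFullC Qb N ≤ T := by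
    rw [modularFunctionFieldFullC, IntermediateField.adjoin_le_iff]
    rintro _ ⟨d, hne, hd, rfl⟩
    refine ⟨bcb L N (TriVal.jd L N d hd), hj _, ?_⟩
    have h2 := congrArg (Subtype.val) (bc_jd (L := L) (K := Qb) N d hd)
    exact h2
  rw [eq_top_iff]
  intro x _
  have hx : (x : LaurentSeries Qb) ∈ modularFunctionFieldFullC Qb N := by
    rw [← fullC_eq_bar]; exact x.2
  obtain ⟨y, hy, hyx⟩ := h1 hx
  have : y = x := Subtype.ext hyx
  exact this ▸ hy

end Bcb

/-- Transport of degrees along equality of fields. -/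
theorem finrank_transport {K Ω : Type*} [Field K] [Field Ω] [Algebra K Ω]
    {E E' : IntermediateField K Ω} (h : E = E') (x : E) (x' : E') (hx : (x : Ω) = x') :
    finrank K⟮x⟯ E = finrank K⟮x'⟯ E' := by
  subst h
  have : x = x' := Subtype.ext hx
  subst this
  rfl

section Norm

variable {L : Type*} [Field L] [Algebra L Qb] {N ℓ : ℕ}

/-- Base change of norms along homomorphisms of the function fields. -/
theorem bcb_normAlong (φ : modularFunctionFieldFullC L N →ₐ[L] modularFunctionFieldFullC L (N * ℓ))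
    (ψ : modularFunctionFieldBar N →ₐ[Qb] modularFunctionFieldBar (N * ℓ))
    (h : ∀ x, bcb L (N * ℓ) (φ x) = ψ (bcb L N x)) (hφ : FiniteAlong L φ) (hψ : FiniteAlong Qb ψ)
    (hdeg : finrankAlong Qb ψ = finrankAlong L φ) (f : modularFunctionFieldFullC L (N * ℓ)) :
    bcb L N (normAlong φ f) = normAlong ψ (bcb L (N * ℓ) f) := by
  let _ := algebraAlong φ
  let _ := algebraAlong ψ
  have : Module.Finite (modularFunctionFieldFullC L N) (modularFunctionFieldFullC L (N * ℓ)) := hφ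
  have : Module.Finite (modularFunctionFieldBar N) (modularFunctionFieldBar (N * ℓ)) := hψ
  refine HeckeComm.norm_baseChange (E := modularFunctionFieldFullC L N)
    (E' := modularFunctionFieldFullC L (N * ℓ)) (G := modularFunctionFieldBar N)
    (G' := modularFunctionFieldBar (N * ℓ)) (bcb L N) (bcb L (N * ℓ)) h hdeg
    (fun S h1 h2 => ?_) f
  refine subfield_eq_top (L := L) S (fun c => ?_) fun x => h2 ⟨x, rfl⟩
  exact h1 ⟨algebraMap Qb _ c, ψ.commutes c⟩

variable [NeZero N] [NeZero ℓ] [NeZero (N * ℓ)]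

theorem bcb_alphaC (x : modularFunctionFieldFullC L N) :
    bcb L (N * ℓ) (alphaC L N ℓ x) = heckeAlphaBar Qb N ℓ (bcb L N x) := by
  apply Subtype.ext
  rw [coe_bcb, coe_alphaC, coe_heckeAlphaBar, coe_bcb]

theorem bcb_betaC (x : modularFunctionFieldFullC L N) :
    bcb L (N * ℓ) (betaC L N ℓ x) = heckeBetaBar Qb N ℓ (bcb L N x) := by
  apply Subtype.ext
  rw [coe_bcb, coe_betaC, coe_heckeBetaBar, coe_bcb, ModularCurve.coeffMap_qExpand]

theorem finrankAlong_alphaC_eq : dedekindPsi N * finrankAlong L (alphaC L N ℓ) =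
    dedekindPsi (N * ℓ) := by
  have h := finrank_mul_finrankAlong (alphaC L N ℓ) (jE L N)
  have h1 : alphaC L N ℓ (jE L N) = jE L (N * ℓ) := Subtype.ext (coe_alphaC L N ℓ _)
  rw [h1, finrank_jE L N (natCast_ne_zero_of_algebra L N),
    finrank_jE L (N * ℓ) (natCast_ne_zero_of_algebra L (N * ℓ))] at h
  exact h

theorem finrankAlong_alpha_eq :
    finrankAlong Qb (heckeAlphaBar Qb N ℓ) = finrankAlong L (alphaC L N ℓ) := by
  have h1 := finrankAlong_alphaC_eq (L := L) (N := N) (ℓ := ℓ)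
  have h2 := dedekindPsi_mul_finrankAlong N ℓ
  exact Nat.eq_of_mul_eq_mul_left (TriDim.dedekindPsi_pos N) (h2.trans h1.symm)

theorem bcb_norm_alpha (f : modularFunctionFieldFullC L (N * ℓ)) :
    bcb L N (normAlong (alphaC L N ℓ) f) =
      normAlong (heckeAlphaBar Qb N ℓ) (bcb L (N * ℓ) f) := by
  have := isFF_full L N (natCast_ne_zero_of_algebra L N)
  have := isFF_full L (N * ℓ) (natCast_ne_zero_of_algebra L (N * ℓ))
  exact bcb_normAlong _ _ bcb_alphaC (FF.finiteAlong _) (FF.finiteAlong _)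
    finrankAlong_alpha_eq f

theorem finrankAlong_beta_eq (Γ : Set (Qb →+* Qb))
    (hΓ : ∀ x : Qb, (∀ σ ∈ Γ, σ x = x) → x ∈ Set.range (algebraMap L Qb))
    (hΓL : ∀ σ ∈ Γ, ∀ a : L, σ (algebraMap L Qb a) = algebraMap L Qb a) :
    finrankAlong Qb (heckeBetaBar Qb N ℓ) = finrankAlong L (betaC L N ℓ) := by
  have := isFF_full L N (natCast_ne_zero_of_algebra L N)
  have := isFF_full L (N * ℓ) (natCast_ne_zero_of_algebra L (N * ℓ))
  have h := finrank_mul_finrankAlong (betaC L N ℓ) (jE L N)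
  rw [finrank_jE L N (natCast_ne_zero_of_algebra L N)] at h
  have hb : bc L Qb (N * ℓ) (betaC L N ℓ (jE L N)) = betaC Qb N ℓ (jE Qb N) := by
    apply Subtype.ext
    rw [coe_bc, coe_betaC, coe_betaC, ModularCurve.coeffMap_qExpand]
    congr 1
    exact coeffMap_jqModC _
  have htr : Transcendental Qb (bc L Qb (N * ℓ) (betaC L N ℓ (jE L N))) := by
    rw [hb]
    intro h2
    exact transcendental_jE Qb N
      ((isAlgebraic_algHom_iff (betaC Qb N ℓ) (betaC Qb N ℓ).injective).1 h2)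
  have h3 := finrank_bc Γ hΓ hΓL htr
  have h4 := finrank_mul_finrankAlong (heckeBetaBar Qb N ℓ) (bcb L N (jE L N))
  have h5 : finrank Qb⟮bcb L N (jE L N)⟯ (modularFunctionFieldBar N) = dedekindPsi N := by
    rw [← finrank_jE Qb N (natCast_ne_zero_of_algebra Qb N)]
    apply finrank_transport (fullC_eq_bar N)
    rw [coe_bcb]
    exact coeffMap_jqModC _
  have h6 : finrank Qb⟮heckeBetaBar Qb N ℓ (bcb L N (jE L N))⟯ (modularFunctionFieldBar (N * ℓ)) =
      finrank Qb⟮bc L Qb (N * ℓ) (betaC L N ℓ (jE L N))⟯ (modularFunctionFieldFullC Qb (N * ℓ)) := by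
    apply finrank_transport (fullC_eq_bar (N * ℓ))
    rw [← bcb_betaC]
    rfl
  rw [h5, h6, ← h3, ← h] at h4
  exact Nat.eq_of_mul_eq_mul_left (TriDim.dedekindPsi_pos N) h4

theorem bcb_norm_beta (Γ : Set (Qb →+* Qb))
    (hΓ : ∀ x : Qb, (∀ σ ∈ Γ, σ x = x) → x ∈ Set.range (algebraMap L Qb))
    (hΓL : ∀ σ ∈ Γ, ∀ a : L, σ (algebraMap L Qb a) = algebraMap L Qb a)
    (f : modularFunctionFieldFullC L (N * ℓ)) :
    bcb L N (normAlong (betaC L N ℓ) f) =
      normAlong (heckeBetaBar Qb N ℓ) (bcb L (N * ℓ) f) := by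
  have := isFF_full L N (natCast_ne_zero_of_algebra L N)
  have := isFF_full L (N * ℓ) (natCast_ne_zero_of_algebra L (N * ℓ))
  exact bcb_normAlong _ _ bcb_betaC (FF.finiteAlong _) (FF.finiteAlong _)
    (finrankAlong_beta_eq Γ hΓ hΓL) f

end Norm

/-! ### Descent of the divisor -/

section Div

variable {L : Type*} [Field L] [Algebra L Qb] {N : ℕ} [NeZero N] (Γ : Set (Qb →+* Qb))
    (hΓ : ∀ x : Qb, (∀ σ ∈ Γ, σ x = x) → x ∈ Set.range (algebraMap L Qb))
    (hΓL : ∀ σ ∈ Γ, ∀ a : L, σ (algebraMap L Qb a) = algebraMap L Qb a)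

include hΓ

/-- Fixed elements are rational. -/
theorem exists_bcb_eq {x : modularFunctionFieldBar N}
    (hx : ∀ σ ∈ Γ, coeffMap σ (x : LaurentSeries Qb) = x) :
    ∃ y : modularFunctionFieldFullC L N, bcb L N y = x := by
  have hmem : (x : LaurentSeries Qb) ∈ modularFunctionFieldFullC Qb N := by
    rw [← fullC_eq_bar]; exact x.2
  obtain ⟨y, hy⟩ := (mem_range_bc_iff (L := L) (K := Qb) (N := N)
    (x := ⟨(x : LaurentSeries Qb), hmem⟩)).2 (fun n => hΓ _ fun σ hσ => by
      have h := congrArg (fun z : LaurentSeries Qb => z.coeff n) (hx σ hσ)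
      exact h)
  refine ⟨y, Subtype.ext ?_⟩
  have h := congrArg (Subtype.val) hy
  exact h

include hΓL in
theorem descend_divisor_aux [IsFF L (modularFunctionFieldFullC L N)]
    {E : IntermediateField Qb (LaurentSeries Qb)} (hE : modularFunctionFieldFullC Qb N = E)
    {n : ℕ} (hn : 0 < n) {f : E} {D : Divisor Qb E} (hD : ∀ v : Place Qb E, v.ord f = n * D v)
    {f₀ : modularFunctionFieldFullC L N} (hf₀ : f₀ ≠ 0)
    (hf : (f : LaurentSeries Qb) = coeffMap (algebraMap L Qb) (f₀ : LaurentSeries L)) :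
    ∃ D₀ : Divisor L (modularFunctionFieldFullC L N), Divisor.degree D₀ = 0 ∧
      (∀ v : Place L (modularFunctionFieldFullC L N), (n : ℤ) * D₀ v = v.ord f₀) ∧
      ∀ a : ℤ, Divisor.IsPrincipal (a • D₀) → Divisor.IsPrincipal (a • D) := by
  subst hE
  have hf' : f = bc L Qb N f₀ := Subtype.ext hf
  subst hf'
  obtain ⟨D₀, h1, h2⟩ := S36K0.exists_divisor Γ hΓ hΓL hn hf₀ (fun v => ⟨D v, hD v⟩)
  exact ⟨D₀, h1, h2, fun a ha => S36K0.isPrincipal_of hn hf₀ hD h2 ha⟩

end Div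

/-! ### The final step -/

/-- elementary: `lam ^ n • x = 0` and `a • x = 0`, `a ≠ 0`. -/
theorem pow_smul_eq_zero {G : Type*} [AddCommGroup G] {lam a n : ℕ} (hlam : lam.Prime)
    (ha : a ≠ 0) {x : G} (h1 : lam ^ n • x = 0) (h2 : a • x = 0) :
    lam ^ (a.factorization lam) • x = 0 := by
  set c := a.factorization lam with hc
  obtain ⟨b, hb⟩ : lam ^ c ∣ a := Nat.ordProj_dvd a lam
  have hcop : Nat.Coprime (lam ^ n) b := by
    apply Nat.Coprime.pow_left
    rw [Nat.Prime.coprime_iff_not_dvd hlam]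
    intro hd
    have h3 : lam ^ (c + 1) ∣ a := by
      rw [hb, pow_succ]
      exact mul_dvd_mul_left _ hd
    exact Nat.pow_succ_factorization_not_dvd ha hlam h3
  set y := lam ^ c • x with hy
  have h3 : lam ^ n • y = 0 := by rw [hy, smul_comm, h1, smul_zero]
  have h4 : b • y = 0 := by rw [hy, ← mul_smul, mul_comm, ← hb, h2]
  have h5 : (Nat.gcd (lam ^ n) b) • y = 0 := by
    have h6 : ((Nat.gcd (lam ^ n) b : ℕ) : ℤ) • y = 0 := by
      rw [Nat.gcd_eq_gcd_ab, add_smul, mul_comm, mul_smul, natCast_zsmul, h3, smul_zero,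
        mul_comm, mul_smul, natCast_zsmul, h4, smul_zero, add_zero]
    rwa [natCast_zsmul] at h6
  rw [hcop, one_smul] at h5
  exact h5

/-- **Theorem A from the three-component data.** -/
theorem thmA_of {m q : ℕ} [NeZero m] [NeZero q] (hq : q.Prime) {A : ValuationSubring Qb}
    {L : Type*} [Field L] [Algebra L Qb]
    (hL : ∀ x : Qb, x ∈ Set.range (algebraMap L Qb) ↔ x ∈ K0 A)
    [IsFF L (modularFunctionFieldFullC L (m * q * q))]
    {k Er F' : Type*} [Field k] [CommRing Er] [Algebra k Er] [Field F'] [Algebra k F']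
    [IsAlgClosed k] [CharP k q] [IsFF k F']
    (D : Data L (modularFunctionFieldFullC L (m * q * q)) k Er F' q)
    (X : Setup L (modularFunctionFieldFullC L (m * q)) (modularFunctionFieldFullC L (m * q * q))
      F' k q) (Lv : LevelQ D X) (M : GlueMod D X.Vq) (Nm : D.Num) (G : D.Glue)
    (hNa : ∀ f, X.Na f = normAlong (alphaC L (m * q) q) f)
    (hNb : ∀ f, X.Nb f = normAlong (betaC L (m * q) q) f)
    {lam : ℕ} (hlam : lam.Prime) (hne : q ≠ lam) : S36red.ThmA (m * q) q lam A := by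
  have hmq : NeZero (m * q) := ⟨mul_ne_zero (NeZero.ne m) (NeZero.ne q)⟩
  have hmqq : NeZero (m * q * q) := ⟨mul_ne_zero (NeZero.ne (m * q)) (NeZero.ne q)⟩
  have hΓ : ∀ x : Qb, (∀ σ ∈ inertiaSet A, σ x = x) → x ∈ Set.range (algebraMap L Qb) := by
    intro x hx
    rw [hL]
    obtain ⟨y, hy⟩ := inertiaSet_fixed A x hx
    rw [← hy]
    exact y.2
  have hΓL : ∀ σ ∈ inertiaSet A, ∀ a : L, σ (algebraMap L Qb a) = algebraMap L Qb a := by
    intro σ hσ a
    exact inertiaSet_algebraMap A σ hσ ⟨_, (hL _).1 ⟨a, rfl⟩⟩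
  set a : ℕ := ((q + 1) * (q - 1)) ^ 2 with ha
  have ha0 : a ≠ 0 := by
    have := hq.two_le
    exact pow_ne_zero _ (mul_ne_zero (by omega) (by omega))
  refine ⟨a.factorization lam, fun n x hx hI hα hβ => ?_⟩
  refine pow_smul_eq_zero hlam ha0 hx ?_
  have hn : 0 < lam ^ n := pow_pos hlam.pos n
  obtain ⟨Dx, f, hf, rfl, hord, hfix, ⟨ca, ga, hca, hga, hNf, hcaG, hgaG⟩,
    ⟨cb, gb, hcb, hgb, hNf', hcbG, hgbG⟩⟩ :=
    S36desc.exists_descended (m * q) q (A.inertiaSubgroupIn ℚ) hn x hx hI hα hβ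
  have hgal : ∀ (N : ℕ) (y : modularFunctionFieldBar N),
      (∀ σ : A.inertiaSubgroupIn ℚ, S36desc.gal N (A.inertiaSubgroupIn ℚ) σ • y = y) →
      ∀ σ ∈ inertiaSet A, coeffMap σ (y : LaurentSeries Qb) = y := by
    rintro N y hy _ ⟨σ, hσ, rfl⟩
    have h := congrArg (Subtype.val) (hy ⟨σ, hσ⟩)
    exact h
  obtain ⟨f₀, rfl⟩ := exists_bcb_eq (L := L) (inertiaSet A) hΓ (hgal _ f hfix)
  obtain ⟨ga₀, rfl⟩ := exists_bcb_eq (L := L) (inertiaSet A) hΓ (hgal _ ga hgaG)
  obtain ⟨gb₀, rfl⟩ := exists_bcb_eq (L := L) (inertiaSet A) hΓ (hgal _ gb hgbG)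
  obtain ⟨ca₀, rfl⟩ := hΓ ca (by rintro _ ⟨σ, hσ, rfl⟩; exact hcaG σ hσ)
  obtain ⟨cb₀, rfl⟩ := hΓ cb (by rintro _ ⟨σ, hσ, rfl⟩; exact hcbG σ hσ)
  have hf₀ : f₀ ≠ 0 := by
    rintro rfl
    exact hf (map_zero _)
  have hKa : Setup.IsKPow L (lam ^ n) (X.Na f₀) := by
    refine ⟨ca₀, ga₀, ?_, ?_, ?_⟩
    · rintro rfl
      exact hca (map_zero _)
    · rintro rfl
      exact hga (map_zero _)
    · rw [hNa]
      apply bcb_injective
      rw [bcb_norm_alpha, hNf, map_mul, map_pow, bcb_algebraMap]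
  have hKb : Setup.IsKPow L (lam ^ n) (X.Nb f₀) := by
    refine ⟨cb₀, gb₀, ?_, ?_, ?_⟩
    · rintro rfl
      exact hcb (map_zero _)
    · rintro rfl
      exact hgb (map_zero _)
    · rw [hNb]
      apply bcb_injective
      rw [bcb_norm_beta _ hΓ hΓL, hNf', map_mul, map_pow, bcb_algebraMap]
  obtain ⟨D₀, hdeg, hD₀, hpr⟩ := descend_divisor_aux (inertiaSet A) hΓ hΓL
    (fullC_eq_bar (m * q * q)).symm hn hord hf₀ rfl
  have hk : ((lam ^ n : ℕ) : k) ≠ 0 := by
    intro h
    rw [CharP.cast_eq_zero_iff k q] at h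
    exact hne ((Nat.prime_dvd_prime_iff_eq hq hlam).1 (hq.dvd_of_dvd_pow h))
  have hcop : Nat.Coprime q (lam ^ n) :=
    Nat.Coprime.pow_right _ ((Nat.coprime_primes hq hlam).2 hne)
  have h1 := hpr _ (Lv.isPrincipal_final M Nm G hk hcop hdeg hf₀ hD₀ hKa hKb)
  have h2 : a • Pic0.mk Dx = Pic0.mk (a • Dx) := rfl
  rw [h2]
  change (QuotientAddGroup.mk (a • Dx) : Pic0 _ _) = 0
  rw [QuotientAddGroup.eq_zero_iff, AddSubgroup.mem_addSubgroupOf]
  have h3 : ((a • Dx : Divisor.degZero (K := Qb) (F := modularFunctionFieldBar (m * q * q))) :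
      Divisor Qb (modularFunctionFieldBar (m * q * q))) = ((a : ℕ) : ℤ) • (Dx : Divisor _ _) := by
    rw [natCast_zsmul]; rfl
  rw [h3]
  exact h1

end Fermat.Agent.S36mile
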