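import Fermat.Agent.S36.SetupDef
import Fermat.Agent.S36.LastMile
import Fermat.Agent.TriVal.V

set_option autoImplicit false
set_option linter.unusedSectionVars false
set_option linter.style.haveILetI false

/-!
# The inputs of `Setup` over the fixed field of inertia
-/

noncomputable section

open AlgebraicCurve ModularCurve HahnSeries Fermat.Agent.TEll Fermat.Agent.TriGauss
  Fermat.Agent.TriVal Fermat.Agent.LocE Fermat.Agent.GaussVal Fermat.Agent.TwoGauss
  Fermat.Agent.TriComp Module
open scoped IntermediateField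

namespace Fermat.Agent.S36norm

variable {A : ValuationSubring Qb} {L : Type*} [Field L] [Algebra L Qb] {m q : ℕ}
    [NeZero m] [NeZero q] [NeZero (m * q)] [NeZero (m * q * q)]
    (hq : q.Prime) (hm : ¬ q ∣ m) (hA : A.LiesOverPrime q) (hL : TriGlue.IsK0 A L)

include hq hA hL in
theorem isK0_of : IsK0 A q L where
  fix σ hσ c := mem_K0_iff.mp ((hL _).mp ⟨c, rfl⟩) σ hσ
  unif :=
    { ne_zero := (isUnif_K0 hq hA).ne_zero
      lt_one := (isUnif_K0 hq hA).lt_one
      exists_zpow := fun x hx hx0 =>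
        (isUnif_K0 hq hA).exists_zpow x ((hL _).mp (RingHom.mem_fieldRange.mp hx)) hx0 }

theorem emb1_I1 (L : Type*) [Field L] [Algebra L Qb] : Emb1 L m q (zt q) (I1 hq hm L) where
  const c := I1_algebraMap hq hm c
  jd d _ hd := I1_jd hq hm ⟨d, hd⟩

/-- an embedding of `L` into `ℂ` -/
def iotaL (L : Type*) [Field L] [Algebra L Qb] : L →+* ℂ := iotaBar.comp (algebraMap L Qb)

include hq hm in
theorem finrankAlong_alphaC_q (L : Type*) [Field L] [Algebra L Qb] :
    finrankAlong L (alphaC L (m * q) q) = q := by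
  have h := S36mile.finrankAlong_alphaC_eq (L := L) (N := m * q) (ℓ := q)
  rw [TriDim.dedekindPsi_mul_sq hq hm, TriDim.dedekindPsi_mul_prime hq hm] at h
  have h1 : 0 < (q + 1) * dedekindPsi m := Nat.mul_pos (by omega) (TriDim.dedekindPsi_pos m)
  apply Nat.eq_of_mul_eq_mul_left h1
  rw [h]
  ring

/-- the degree of `β` equals the degree of `α`. -/
theorem finrankAlong_beta_of_alpha {L : Type*} [Field L] [Algebra L Qb]
    {w : modularFunctionFieldFullC L (m * q * q) ≃ₐ[L] modularFunctionFieldFullC L (m * q * q)}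
    {w' : modularFunctionFieldFullC L (m * q) ≃ₐ[L] modularFunctionFieldFullC L (m * q)}
    (hw : IsSwap L (m * q * q) (q * q) m w) (hw' : IsSwap L (m * q) q m w') :
    finrankAlong L (betaC L (m * q) q) = finrankAlong L (alphaC L (m * q) q) := by
  have h1 := finrank_mul_finrankAlong (betaC L (m * q) q) (TriDim.jE L (m * q))
  have h2 := finrank_mul_finrankAlong (alphaC L (m * q) q) (w' (TriDim.jE L (m * q)))
  have h3 := swap_beta hw hw' (TriDim.jE L (m * q))
  rw [← h3, finrank_adjoin_equiv, finrank_adjoin_equiv, ← h1,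
    TriDim.finrank_jE L (m * q) (S36K0.natCast_ne_zero_of_algebra L (m * q))] at h2
  exact (Nat.eq_of_mul_eq_mul_left (TriDim.dedekindPsi_pos (m * q)) h2).symm

/-- The Atkin--Lehner involution over `L` and the expansion `I2`. -/
theorem exists_w (L : Type*) [Field L] [Algebra L Qb] :
    ∃ (w : modularFunctionFieldFullC L (m * q * q) ≃ₐ[L] modularFunctionFieldFullC L (m * q * q))
      (w' : modularFunctionFieldFullC L (m * q) ≃ₐ[L] modularFunctionFieldFullC L (m * q)),
      IsSwap L (m * q * q) (q * q) m w ∧ IsSwap L (m * q) q m w' ∧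
      I2 hq hm L = (e0 L (m * q * q)).comp (RingHomClass.toRingHom w) := by
  have : CharZero L := (algebraMap L Qb).charZero
  obtain ⟨w, hw, -⟩ := exists_w_full (m := m) (iotaL L) hq (mul_assoc _ _ _) (qq_ne_zero hq)
    (coprime_sq hq hm)
  obtain ⟨w', hw'⟩ := exists_isSwap L (iotaL L) (N := m * q) (Q := q) (m := m) rfl hq.ne_zero
    ((Nat.Prime.coprime_iff_not_dvd hq).mpr hm)
  refine ⟨w, w', IsSwap.of_swapQ hw, hw', ?_⟩
  apply fullC_ringHom_ext
  · intro c
    rw [I2_algebraMap]
    change _ = e0 L (m * q * q) (w (algebraMap L _ c))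
    rw [AlgEquiv.commutes, e0_algebraMap]
  · intro d hne hd
    have h1 := I2_jd hq hm (L := L) ⟨d, hd⟩
    have h2 := hw ⟨d, hd⟩
    refine h1.trans ?_
    change _ = e0 L (m * q * q) (w (TriVal.jd L _ d hd))
    rw [h2, e0_jd]
    rfl

include hA in
/-- **The level input.** -/
theorem levelInput (hL : TriGlue.IsK0 A L)
    {w : modularFunctionFieldFullC L (m * q * q) ≃ₐ[L] modularFunctionFieldFullC L (m * q * q)}
    {w' : modularFunctionFieldFullC L (m * q) ≃ₐ[L] modularFunctionFieldFullC L (m * q)}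
    (hw : IsSwap L (m * q * q) (q * q) m w) (hw' : IsSwap L (m * q) q m w') :
    LevelInput A L m q (zt q) (I1 hq hm L) w w' where
  hq := hq
  hm := hm
  hA := hA
  hK := isK0_of hq hA hL
  hζ := zt_spec hq
  he₁ := emb1_I1 hq hm L
  hw := hw
  hw' := hw'
  dega := finrankAlong_alphaC_q hq hm L
  degb := (finrankAlong_beta_of_alpha hw hw').trans (finrankAlong_alphaC_q hq hm L)

/-! ### The three Gauss valuations -/

theorem isGauss_vv0 : IsGauss A (q : Qb) (e0 L (m * q * q)) (vv hq hm hA hL 0) (RingHom.id _) :=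
  isGauss_gdv hq hA (isUnif_K0 hq hA) _ (i0_mem hL)

theorem isGauss_vv1 : IsGauss A (((zt q : Qbˣ) : Qb) - 1) (I1 hq hm L) (vv hq hm hA hL 1)
    (RingHom.id _) :=
  isGauss_gdv hq hA (isUnif_K1 hq hA (zt_spec' hq)) _ (I1_mem hq hm hL)

theorem isGauss_vv2 : IsGauss A (q : Qb) (I2 hq hm L) (vv hq hm hA hL 2) (RingHom.id _) :=
  isGauss_gdv hq hA (isUnif_K0 hq hA) _ (I2_mem hq hm hL)

/-- **The input on valuations**, from the exhaustion data. -/
theorem triInput
    {P : Pre L (modularFunctionFieldFullC L (m * q * q)) (IsLocalRing.ResidueField A)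
      (LaurentSeries (IsLocalRing.ResidueField A)) (Fin 3)} (hP : P.v = vv hq hm hA hL)
    (H : Exh P (modularFunctionFieldFullC (IsLocalRing.ResidueField A) m))
    {Er : Type*} [CommRing Er] [Algebra (IsLocalRing.ResidueField A) Er]
    {D : Data L (modularFunctionFieldFullC L (m * q * q)) (IsLocalRing.ResidueField A) Er
      (modularFunctionFieldFullC (IsLocalRing.ResidueField A) m) q} (hD : ∀ i, D.v i = H.v' i)
    (hj : D.j = TriVal.jd L (m * q * q) 1 (one_dvd _))
    {w : modularFunctionFieldFullC L (m * q * q) ≃ₐ[L] modularFunctionFieldFullC L (m * q * q)}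
    (hw : I2 hq hm L = (e0 L (m * q * q)).comp (RingHomClass.toRingHom w)) :
    TriInput A L m q (zt q) (I1 hq hm L) w D where
  h0 := by
    rw [hD]
    exact IsGauss.exh H 0 (by rw [hP]; exact isGauss_vv0 hq hm hA hL)
  h1 := by
    rw [hD]
    exact IsGauss.exh H 1 (by rw [hP]; exact isGauss_vv1 hq hm hA hL)
  h2 := by
    rw [hD, ← hw]
    exact IsGauss.exh H 2 (by rw [hP]; exact isGauss_vv2 hq hm hA hL)
  hj := hj

end Fermat.Agent.S36norm
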