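import Fermat.Agent.TriVal.V
import Fermat.Agent.TriVal.GlueKz
import Fermat.Agent.TriComp.GlueDefs
import Fermat.Agent.S36.GlueInst
import Fermat.Agent.S36.SetupKz
import Fermat.Agent.GoodRed.GenusAll

/-!
# The records `Data.Glue` and `GlueMod` for `X₀(q²m)`
-/

set_option autoImplicit false
set_option linter.unusedSectionVars false
set_option linter.style.haveILetI false

noncomputable section

open ModularCurve HahnSeries Module Polynomial AlgebraicCurve
open scoped IntermediateField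

namespace Fermat.Agent.S36rec

open Fermat.Agent.GaussVal Fermat.Agent.S36norm Fermat.Agent.LocE Fermat.Agent.TriGlue
open Fermat.Agent.TriVal
open Fermat.Agent.TwoGauss (Dv iotaBar verMap coe_verMap)
open Fermat.Agent.TriGauss Fermat.Agent.TriComp

section Gen

variable {A : ValuationSubring Qb} {F : Type*} [Field F] {ϖ : Qb} {ι : F →+* LaurentSeries Qb}

/-- the residue field -/
local notation "κ" => IsLocalRing.ResidueField A

variable {m : ℕ} {V : DV F (modularFunctionFieldFullC (IsLocalRing.ResidueField A) m)}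

theorem gauss_redTo (h : IsGauss A ϖ ι V (algebraMap (modularFunctionFieldFullC κ m) (LaurentSeries κ)))
    {f : F} {g : modularFunctionFieldFullC κ m} (hf : RedTo A ι f (g : LaurentSeries κ)) :
    f ∈ V.O ∧ V.red f = g := by
  obtain ⟨h1, h2⟩ := hf
  refine ⟨(h.mem_iff f).2 h1, ?_⟩
  exact (algebraMap (modularFunctionFieldFullC κ m) (LaurentSeries κ)).injective
    ((h.red f h1).trans h2)

theorem gauss_ord_zero
    (h : IsGauss A ϖ ι V (algebraMap (modularFunctionFieldFullC κ m) (LaurentSeries κ)))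
    {f : F} {g : modularFunctionFieldFullC κ m} (hf : RedTo A ι f (g : LaurentSeries κ))
    (hg : g ≠ 0) : V.ord f = 0 := by
  obtain ⟨h1, h2⟩ := gauss_redTo h hf
  have hf0 : f ≠ 0 := by
    rintro rfl
    rw [V.red_zero] at h2
    exact hg h2.symm
  exact (V.red_ne_zero_iff hf0 h1).1 (h2 ▸ hg)

end Gen

section Level

variable {A : ValuationSubring Qb} {L : Type*} [Field L] [Algebra L Qb] [CharZero L] {q m : ℕ}
  [NeZero m] [NeZero (m * q * q)] [NeZero q] (hq : q.Prime) (hm : ¬ q ∣ m) (hA : A.LiesOverPrime q)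
  (hL : TriGlue.IsK0 A L)

/-- the residue field -/
local notation "κ" => IsLocalRing.ResidueField A

/-- the `j`-function of the residue function field -/
def jt (A : ValuationSubring Qb) (m : ℕ) :
    modularFunctionFieldFullC (IsLocalRing.ResidueField A) m :=
  ⟨jqModC (IsLocalRing.ResidueField A), jqModC_mem_full _ m⟩

theorem coe_jt : ((jt A m : modularFunctionFieldFullC κ m) : LaurentSeries κ) = jqModC κ := rfl

theorem jt_ne_zero : jt A m ≠ 0 := by
  intro h
  have h1 : (qExpand κ 1 (jqModC κ)) ≠ 0 := qExpand_jq_ne_zero κ 1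
  rw [qExpand_one_apply] at h1
  exact h1 (congrArg Subtype.val h)

variable {Er : Type*} [CommRing Er] [Algebra (IsLocalRing.ResidueField A) Er]

/-- The three-component data comes from the three Gauss valuations. -/
structure TriRec (D : Data L (modularFunctionFieldFullC L (m * q * q)) κ Er
    (modularFunctionFieldFullC κ m) q) : Prop where
  g0 : IsGauss A (q : Qb) (i0 L Qb (m * q * q)) (D.v 0)
    (algebraMap (modularFunctionFieldFullC κ m) (LaurentSeries κ))
  g1 : IsGauss A (((zt q : Qbˣ) : Qb) - 1) (I1 hq hm L) (D.v 1)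
    (algebraMap (modularFunctionFieldFullC κ m) (LaurentSeries κ))
  g2 : IsGauss A (q : Qb) (I2 hq hm L) (D.v 2)
    (algebraMap (modularFunctionFieldFullC κ m) (LaurentSeries κ))
  j : D.j = jF L (m * q * q)
  jt : D.jt = S36rec.jt A m
  u₁ : D.u₁ = TriGauss.u₁ L q m
  u₂ : D.u₂ = TriGauss.u₂ L q m
  Pu : aeval (jqModC κ) D.Pu = S28aux.deltaInvC κ ^ (q - 1)

variable {D : Data L (modularFunctionFieldFullC L (m * q * q)) (IsLocalRing.ResidueField A) Er
    (modularFunctionFieldFullC (IsLocalRing.ResidueField A) m) q}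

/-- the genus inequality for the reduction of `X₀(m)` -/
def GenIn (A : ValuationSubring Qb) (m : ℕ) : Prop :=
  genusFF Qb (modularFunctionFieldFullC Qb m) ≤
    genusFF (IsLocalRing.ResidueField A) (modularFunctionFieldFullC (IsLocalRing.ResidueField A) m)

include hq hA in
omit [NeZero (m * q * q)] [NeZero q] in
theorem genIn (hm : ¬ q ∣ m) : GenIn A m := by
  have h := GoodRed.genus_le_all hq hA m hm
  have h1 : genusFF Qb (modularFunctionFieldFullC Qb m) =
      genusFF Qb (modularFunctionFieldBar m) := by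
    have e : modularFunctionFieldBar m = modularFunctionFieldFullC Qb m := S18aux.bar_eq m
    have h2 : ∀ {E E' : IntermediateField Qb (LaurentSeries Qb)}, E = E' →
        genusFF Qb E = genusFF Qb E' := by
      rintro E _ rfl; rfl
    exact (h2 e).symm
  rw [GenIn, h1]
  exact h

variable (hD : TriRec (Er := Er) hq hm D)

include hD

theorem mem_O_of {f : modularFunctionFieldFullC L (m * q * q)}
    (h0 : f ∈ (D.v 0).O) (h1 : f ∈ (D.v 1).O) (h2 : f ∈ (D.v 2).O) : f ∈ D.R.O :=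
  (D.mem_O_iff f).2 fun i => by fin_cases i <;> assumption

variable [Fact q.Prime] [CharP (IsLocalRing.ResidueField A) q]

include hA hL in
/-- lifts from level `m`, first kind -/
theorem lift_al [IsAlgClosed κ] (g : modularFunctionFieldFullC κ m)
    (hg : IsIntegral (Algebra.adjoin κ {D.jt}) g) : ∃ f ∈ D.R.O,
      IsIntegral (Algebra.adjoin L {D.j}) f ∧ (D.v 0).red f = g ∧ (D.v 1).red f = g ∧
      (D.v 2).red f = verMap κ q m (verMap κ q m g) := by
  have : NeZero (q * q) := Dv.neZero (N := m * q * q) ⟨q * q, dvd_qq⟩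
  rw [hD.jt] at hg
  obtain ⟨f, hf, h0, h1, h2⟩ := exists_al hq hA hL hm (eQ_jd hq hm) (mul_assoc _ _ _)
    (qq_ne_zero hq) (coprime_sq hq hm) (wQ_jd hq hm) (NeZero.ne m)
    (Igusa.finrank_full Qb m (Nat.cast_ne_zero.mpr (NeZero.ne m)))
    (Igusa.finrank_full L m (Nat.cast_ne_zero.mpr (NeZero.ne m)))
    (Igusa.finrank_full κ m (S18aux.natCast_ne_zero hq hA hm)) (genIn hq hA hm) g hg
  have h2' : RedTo A (i2 L (wQ hq hm)) f
      ((verMap κ q m (verMap κ q m g) : modularFunctionFieldFullC κ m) : LaurentSeries κ) := by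
    rw [coe_verMap, coe_verMap, ← qExpand_sq_eq]
    exact h2
  obtain ⟨a0, b0⟩ := gauss_redTo hD.g0 h0
  obtain ⟨a1, b1⟩ := gauss_redTo hD.g1 h1
  obtain ⟨a2, b2⟩ := gauss_redTo hD.g2 h2'
  exact ⟨f, mem_O_of hq hm hD a0 a1 a2, by rw [hD.j]; exact hf, b0, b1, b2⟩

include hA hL in
/-- lifts from level `m`, first kind, at the cusps -/
theorem lift_al_inv [IsAlgClosed κ] (g : modularFunctionFieldFullC κ m)
    (hg : IsIntegral (Algebra.adjoin κ {D.jt⁻¹}) g) : ∃ f ∈ D.R.O,
      IsIntegral (Algebra.adjoin L {D.j⁻¹}) f ∧ (D.v 0).red f = g ∧ (D.v 1).red f = g := by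
  have : NeZero (q * q) := Dv.neZero (N := m * q * q) ⟨q * q, dvd_qq⟩
  rw [hD.jt] at hg
  obtain ⟨f, hf, h0, h1, h2⟩ := exists_al_inv hq hA hL hm (eQ_jd hq hm) (mul_assoc _ _ _)
    (qq_ne_zero hq) (coprime_sq hq hm) (wQ_jd hq hm) (NeZero.ne m)
    (Igusa.finrank_full Qb m (Nat.cast_ne_zero.mpr (NeZero.ne m)))
    (Igusa.finrank_full L m (Nat.cast_ne_zero.mpr (NeZero.ne m)))
    (Igusa.finrank_full κ m (S18aux.natCast_ne_zero hq hA hm)) (genIn hq hA hm) g hg
  have h2' : RedTo A (i2 L (wQ hq hm)) f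
      ((verMap κ q m (verMap κ q m g) : modularFunctionFieldFullC κ m) : LaurentSeries κ) := by
    rw [coe_verMap, coe_verMap, ← qExpand_sq_eq]
    exact h2
  obtain ⟨a0, b0⟩ := gauss_redTo hD.g0 h0
  obtain ⟨a1, b1⟩ := gauss_redTo hD.g1 h1
  obtain ⟨a2, b2⟩ := gauss_redTo hD.g2 h2'
  exact ⟨f, mem_O_of hq hm hD a0 a1 a2, by rw [hD.j]; exact hf, b0, b1⟩

include hA hL in
/-- lifts from level `m`, second kind -/
theorem lift_be [IsAlgClosed κ] (g : modularFunctionFieldFullC κ m)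
    (hg : IsIntegral (Algebra.adjoin κ {D.jt}) g) : ∃ f ∈ D.R.O,
      IsIntegral (Algebra.adjoin L {D.j}) f ∧ (D.v 1).red f = g ∧ (D.v 2).red f = g := by
  have : NeZero (q * q) := Dv.neZero (N := m * q * q) ⟨q * q, dvd_qq⟩
  rw [hD.jt] at hg
  obtain ⟨f, hf, h0, h1, h2⟩ := exists_be hq hA hL (zt_spec' hq) (eQ_jd hq hm) (mul_assoc _ _ _)
    (qq_ne_zero hq) (coprime_sq hq hm) (wQ_jd hq hm) (wQ_wQ hq hm) (NeZero.ne m)
    (Igusa.finrank_full Qb m (Nat.cast_ne_zero.mpr (NeZero.ne m)))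
    (Igusa.finrank_full L m (Nat.cast_ne_zero.mpr (NeZero.ne m)))
    (Igusa.finrank_full κ m (S18aux.natCast_ne_zero hq hA hm)) (genIn hq hA hm) g hg
  have h0' : RedTo A (i0 L Qb (m * q * q)) f
      ((verMap κ q m (verMap κ q m g) : modularFunctionFieldFullC κ m) : LaurentSeries κ) := by
    rw [coe_verMap, coe_verMap, ← qExpand_sq_eq]
    exact h0
  obtain ⟨a0, b0⟩ := gauss_redTo hD.g0 h0'
  obtain ⟨a1, b1⟩ := gauss_redTo hD.g1 h1
  obtain ⟨a2, b2⟩ := gauss_redTo hD.g2 h2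
  exact ⟨f, mem_O_of hq hm hD a0 a1 a2, by rw [hD.j]; exact hf, b1, b2⟩

include hA hL in
/-- lifts from level `m`, second kind, at the cusps -/
theorem lift_be_inv [IsAlgClosed κ] (g : modularFunctionFieldFullC κ m)
    (hg : IsIntegral (Algebra.adjoin κ {D.jt⁻¹}) g) : ∃ f ∈ D.R.O,
      IsIntegral (Algebra.adjoin L {(TriGauss.jq2 L q m)⁻¹}) f ∧ (D.v 2).red f = g := by
  have : NeZero (q * q) := Dv.neZero (N := m * q * q) ⟨q * q, dvd_qq⟩
  rw [hD.jt] at hg
  obtain ⟨f, hf, h0, h1, h2⟩ := exists_be_inv hq hA hL (zt_spec' hq) (eQ_jd hq hm)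
    (mul_assoc _ _ _)
    (qq_ne_zero hq) (coprime_sq hq hm) (wQ_jd hq hm) (wQ_wQ hq hm) (NeZero.ne m)
    (Igusa.finrank_full Qb m (Nat.cast_ne_zero.mpr (NeZero.ne m)))
    (Igusa.finrank_full L m (Nat.cast_ne_zero.mpr (NeZero.ne m)))
    (Igusa.finrank_full κ m (S18aux.natCast_ne_zero hq hA hm)) (genIn hq hA hm) g hg
  have h0' : RedTo A (i0 L Qb (m * q * q)) f
      ((verMap κ q m (verMap κ q m g) : modularFunctionFieldFullC κ m) : LaurentSeries κ) := by
    rw [coe_verMap, coe_verMap, ← qExpand_sq_eq]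
    exact h0
  obtain ⟨a0, b0⟩ := gauss_redTo hD.g0 h0'
  obtain ⟨a1, b1⟩ := gauss_redTo hD.g1 h1
  obtain ⟨a2, b2⟩ := gauss_redTo hD.g2 h2
  exact ⟨f, mem_O_of hq hm hD a0 a1 a2, hf, b2⟩

omit hD in
/-- the reduction of `j` at level `m` -/
theorem redTo_jm : RedTo A (iota0 L m)
    (⟨jqModC L, jqModC_mem_full L m⟩ : modularFunctionFieldFullC L m)
    ((jt A m : modularFunctionFieldFullC κ m) : LaurentSeries κ) := by
  have h1 : iota0 L m (⟨jqModC L, jqModC_mem_full L m⟩ : modularFunctionFieldFullC L m) =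
      incl A (jqModC A) := by
    rw [iota0_apply]
    exact (coeffMap_jqModC _).trans (coeffMap_jqModC _).symm
  have h2 : iota0 L m (⟨jqModC L, jqModC_mem_full L m⟩ : modularFunctionFieldFullC L m) ∈
      gaussSubring A := by rw [h1]; exact incl_mem _
  refine ⟨h2, ?_⟩
  have h3 : (⟨_, h2⟩ : gaussSubring A) = ⟨incl A (jqModC A), incl_mem _⟩ := Subtype.ext h1
  rw [h3, gaussRed_incl, coe_jt]
  exact coeffMap_jqModC _

omit hD in
theorem verMap_jt : verMap κ q m (jt A m) = jt A m ^ q := by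
  apply Subtype.ext
  rw [coe_verMap, coe_jt]
  change qExpand κ q (jqModC κ) = (jqModC κ) ^ q
  rw [← TwoGauss.jd_one_eq]
  exact TwoGauss.qExpand_jd_eq_pow κ q 1

omit hD [Fact q.Prime] [CharP (IsLocalRing.ResidueField A) q] in
theorem coe_aeval_jt (P : (IsLocalRing.ResidueField A)[X]) :
    ((aeval (jt A m) P : modularFunctionFieldFullC κ m) : LaurentSeries κ) =
      aeval (jqModC κ) P := by
  have h := Polynomial.aeval_algHom_apply (modularFunctionFieldFullC κ m).val (jt A m) P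
  exact h.symm

omit hD in
theorem verMap_Pu {P : (IsLocalRing.ResidueField A)[X]}
    (hP : aeval (jqModC κ) P = S28aux.deltaInvC κ ^ (q - 1)) :
    verMap κ q m (aeval (jt A m) P) = aeval (jt A m) P ^ q := by
  apply Subtype.ext
  rw [coe_verMap, coe_aeval_jt, TriMod.qExpand_aeval_Pu hP, ← coe_aeval_jt (m := m)]
  rfl

include hA hL in
/-- **The record `GlueMod`.** -/
theorem glueMod [IsAlgClosed κ] : GlueMod D (verMap κ q m) where
  Vq_jt := by rw [hD.jt]; exact verMap_jt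
  Vq_ut := by rw [hD.jt]; exact verMap_Pu hD.Pu
  al := lift_al hq hm hA hL hD
  be := lift_be hq hm hA hL hD

include hA in
theorem redTo_jq2 : RedTo A (i0 L Qb (m * q * q)) (TriGauss.jq2 L q m)
      ((verMap κ q m (verMap κ q m (jt A m)) : modularFunctionFieldFullC κ m) :
        LaurentSeries κ) ∧
    RedTo A (I1 hq hm L) (TriGauss.jq2 L q m)
      ((jt A m : modularFunctionFieldFullC κ m) : LaurentSeries κ) ∧
    RedTo A (I2 hq hm L) (TriGauss.jq2 L q m)
      ((jt A m : modularFunctionFieldFullC κ m) : LaurentSeries κ) := by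
  have : NeZero (q * q) := Dv.neZero (N := m * q * q) ⟨q * q, dvd_qq⟩
  have h := redTo_jm (A := A) (L := L) (m := m)
  have h0 := red0_be2 (q := q) h
  have h1 := red1_be2 hq (zt_spec' hq) (eQ_jd hq hm) h
  have h2 := red2_be2 (mul_assoc m q q) (qq_ne_zero hq) (coprime_sq hq hm) (wQ_jd hq hm)
    (wQ_wQ hq hm) h
  rw [be2_jm] at h0 h1 h2
  refine ⟨?_, h1, h2⟩
  rw [coe_verMap, coe_verMap, ← qExpand_sq_eq]
  exact h0

include hA in
theorem jq2_ord_red : (∀ i, (D.v i).ord (TriGauss.jq2 L q m) = 0) ∧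
    (D.v 2).red (TriGauss.jq2 L q m) = D.jt := by
  obtain ⟨h0, h1, h2⟩ := redTo_jq2 hq hm hA hD
  have hj : jt A m ≠ 0 := jt_ne_zero
  have hv : verMap κ q m (verMap κ q m (jt A m)) ≠ 0 :=
    (_root_.map_ne_zero _).2 ((_root_.map_ne_zero _).2 hj)
  refine ⟨fun i => ?_, ?_⟩
  · fin_cases i
    · exact gauss_ord_zero hD.g0 h0 hv
    · exact gauss_ord_zero hD.g1 h1 hj
    · exact gauss_ord_zero hD.g2 h2 hj
  · rw [hD.jt]
    exact (gauss_redTo hD.g2 h2).2

theorem expanL : TriMod.Expan q (zt q) (i0 L Qb (m * q * q)) (I1 hq hm L) (I2 hq hm L)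
    (δF L q m) (TriGauss.u₁ L q m) (TriGauss.u₂ L q m) :=
  expan hq hm (eQ_jd hq hm) (eQ_u₁ hq hm) (eQ_u₂ hq hm) (wQ_u₁ hq hm) (wQ_u₂ hq hm)

include hA hL in
theorem red_q_div_u₂' :
    (D.v 2).red ((q : modularFunctionFieldFullC L (m * q * q)) ^ 12 / D.u₂) =
      aeval D.jt D.Pu := by
  have E := expanL (L := L) hq hm hD
  have h1 := TriMod.red2_div_u₂ E hA (isUnif_K0 hq hA) (I2_mem hq hm hL)
  have h2 : (q : modularFunctionFieldFullC L (m * q * q)) ^ 12 / TriGauss.u₂ L q m ∈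
      (gdv hq hA (isUnif_K0 hq hA) (I2 hq hm L) (I2_mem hq hm hL)).O := by
    by_contra h3
    rw [DV.red, dif_neg h3] at h1
    exact TriMod.U_ne_zero q _ h1.symm
  have h3 : I2 hq hm L ((q : modularFunctionFieldFullC L (m * q * q)) ^ 12 /
      TriGauss.u₂ L q m) ∈ gaussSubring A := h2
  have h4 := hD.g2.red _ h3
  rw [← gdv_red_eq (hℓ := hq) (hA := hA) (h := isUnif_K0 hq hA) (hι := I2_mem hq hm hL) h3] at h4
  apply (algebraMap (modularFunctionFieldFullC κ m) (LaurentSeries κ)).injective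
  rw [hD.u₂, hD.jt]
  refine h4.trans (h1.trans ?_)
  rw [TriMod.U_eq hD.Pu]
  exact (coe_aeval_jt _).symm

/-- the embedding of `L` in `ℂ` -/
def iotaL' (L : Type*) [Field L] [Algebra L Qb] : L →+* ℂ := iotaBar.comp (algebraMap L Qb)

include hA hL in
/-- **The record `Data.Glue`.** -/
def glue [IsAlgClosed κ] : D.Glue where
  al g hg := by
    obtain ⟨f, h1, h2, h3, h4, -⟩ := lift_al hq hm hA hL hD g hg
    exact ⟨f, h1, h2, h3, h4⟩
  al_inv := lift_al_inv hq hm hA hL hD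
  be := lift_be hq hm hA hL hD
  jq2 := TriGauss.jq2 L q m
  jq2_ne_zero := TriGauss.jq2_ne_zero L q m
  ord_jq2 := (jq2_ord_red hq hm hA hD).1
  red_jq2 := (jq2_ord_red hq hm hA hD).2
  be_inv := lift_be_inv hq hm hA hL hD
  red_q_div_u₂ := red_q_div_u₂' hq hm hA hL hD
  u₁_inv := by
    rw [hD.j, hD.u₁]
    exact isIntegral_u₁_cusp (iotaL' L) hq
  u₂_inv := by
    rw [hD.j, hD.u₂]
    exact isIntegral_u₂_cusp (iotaL' L) hq
  Y_int := by
    rw [hD.j, hD.u₁, hD.u₂]
    exact isIntegral_Y (iotaL' L)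
  W_int := by
    rw [hD.j, hD.u₁, hD.u₂]
    exact isIntegral_W (iotaL' L)

omit hD [CharP (IsLocalRing.ResidueField A) q] [Fact q.Prime] in
/-- **`TriRec`** from the exhaustion data. -/
theorem triRec
    {P : Pre L (modularFunctionFieldFullC L (m * q * q)) (IsLocalRing.ResidueField A)
      (LaurentSeries (IsLocalRing.ResidueField A)) (Fin 3)} (hP : P.v = vv hq hm hA hL)
    (H : Exh P (modularFunctionFieldFullC (IsLocalRing.ResidueField A) m))
    (hv : ∀ i, D.v i = H.v' i) (hj : D.j = jF L (m * q * q)) (hjt : D.jt = jt A m)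
    (hu₁ : D.u₁ = TriGauss.u₁ L q m) (hu₂ : D.u₂ = TriGauss.u₂ L q m)
    (hPu : aeval (jqModC (IsLocalRing.ResidueField A)) D.Pu =
      S28aux.deltaInvC (IsLocalRing.ResidueField A) ^ (q - 1)) : TriRec (Er := Er) hq hm D where
  g0 := by
    rw [hv]
    exact IsGauss.exh H 0 (by rw [hP]; exact isGauss_vv0 hq hm hA hL)
  g1 := by
    rw [hv]
    exact IsGauss.exh H 1 (by rw [hP]; exact isGauss_vv1 hq hm hA hL)
  g2 := by
    rw [hv]
    exact IsGauss.exh H 2 (by rw [hP]; exact isGauss_vv2 hq hm hA hL)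
  j := hj
  jt := hjt
  u₁ := hu₁
  u₂ := hu₂
  Pu := hPu

end Level

end Fermat.Agent.S36rec
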