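import Fermat.Agent.S36.RevTransfer
import Fermat.Agent.Cofaith.Main
import Fermat.Agent.GalRep.JZ9_Map
import Fermat.Agent.HeckeComm.Commute

/-!
# The Hecke action on the torsion of `J₀(N)` factors through the Hecke algebra of cusp forms
-/

set_option autoImplicit false

noncomputable section

open CuspForm ModularCurve Fermat.Agent.GalRep Fermat.Agent.HeckeComm

namespace Fermat.Agent.S36red

theorem heckeFactors_JZero (N p : ℕ) [NeZero N] (hp : p ≠ 0) (S : Set ℕ)
    (hNS : ∀ r : ℕ, r.Prime → r ∣ N → r ∈ S) :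
    letI := heckeModuleBar N
    HeckeFactors N p S (JZero N) := by
  letI := heckeModuleBar N
  obtain ⟨e, he, h⟩ := Fermat.Agent.Cofaith.cofaithful N
  refine ⟨e, he, fun t ht m x hx => ?_⟩
  refine h S (fun ℓ hℓ => ?_) (heckeOperatorsCommuteBar N) t ht (p ^ m) (pow_ne_zero m hp) x hx
  haveI : Fact (ℓ : ℕ).Prime := ⟨ℓ.2⟩
  exact heckeBridge (ℓ : ℕ) (fun hd => hℓ (hNS ℓ ℓ.2 hd))

end Fermat.Agent.S36red

end
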