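import Fermat.Agent.S36.Equiv

/-!
# Theorem A for a multiple of the level implies Theorem A
-/

set_option autoImplicit false
set_option linter.style.haveILetI false
set_option linter.unusedSectionVars false

noncomputable section

open HahnSeries ModularCurve AlgebraicCurve IntermediateField Fermat.Agent.RR Fermat.Agent.TEll
  Fermat.Agent.X0Emb Fermat.Agent.HeckeComm Fermat.Agent.QX4 Fermat.Agent.GalRep

namespace Fermat.Agent.S36red

local notation "KK" => AlgebraicClosure ℚ

section Pull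

variable {K F F' G G' : Type*} [Field K] [Field F] [Field F'] [Field G] [Field G']
  [Algebra K F] [Algebra K F'] [Algebra K G] [Algebra K G']
  [HasPrincipalDivisors K F] [HasPrincipalDivisors K F'] [HasPrincipalDivisors K G]
  [HasPrincipalDivisors K G']

/-- the pull-back of degree zero divisors. -/
def pullDegZero (φ : F →ₐ[K] F') (hφ : φ.toRingHom.IsIntegral)
    (hFI : FundamentalIdentityAlong K φ hφ) :
    Divisor.degZero (K := K) (F := F) →+ Divisor.degZero (K := K) (F := F') :=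
  ((Divisor.pullbackAlong φ hφ).domRestrict (Divisor.degZero (K := K) (F := F))).codRestrict _
    (fun D => Divisor.pullbackAlong_mem_degZero φ hφ hFI D.2)

@[simp]
theorem coe_pullDegZero (φ : F →ₐ[K] F') (hφ : φ.toRingHom.IsIntegral)
    (hFI : FundamentalIdentityAlong K φ hφ) (D : Divisor.degZero (K := K) (F := F)) :
    (pullDegZero φ hφ hFI D : Divisor K F') = Divisor.pullbackAlong φ hφ (D : Divisor K F) := rfl

/-- the pull-back on `Pic⁰`. -/
def pullPic0 (φ : F →ₐ[K] F') (hφ : φ.toRingHom.IsIntegral)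
    (hFI : FundamentalIdentityAlong K φ hφ) : Pic0 K F →+ Pic0 K F' :=
  QuotientAddGroup.map _ _ (pullDegZero φ hφ hFI) (by
    rintro ⟨D, hD0⟩ hD
    simp only [AddSubgroup.mem_addSubgroupOf] at hD ⊢
    exact Divisor.isPrincipal_pullbackAlong φ hφ hD)

@[simp]
theorem pullPic0_mk (φ : F →ₐ[K] F') (hφ : φ.toRingHom.IsIntegral)
    (hFI : FundamentalIdentityAlong K φ hφ) (D : Divisor.degZero (K := K) (F := F)) :
    pullPic0 φ hφ hFI (Pic0.mk D) = Pic0.mk (pullDegZero φ hφ hFI D) := rfl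

theorem pullPic0_smul (φ : F →ₐ[K] F') (hφ : φ.toRingHom.IsIntegral)
    (hFI : FundamentalIdentityAlong K φ hφ) (g : SemilinearAut K F) (g' : SemilinearAut K F')
    (h : SemilinearAut.IntertwinesAlong (φ : F →+* F') g g') (x : Pic0 K F) :
    pullPic0 φ hφ hFI (g • x) = g' • pullPic0 φ hφ hFI x := by
  obtain ⟨D, rfl⟩ := Pic0.mk_surjective x
  rw [SemilinearAut.pic0_smul_mk, pullPic0_mk, pullPic0_mk, SemilinearAut.pic0_smul_mk]
  refine congrArg Pic0.mk (Subtype.ext ?_)
  rw [coe_pullDegZero, SemilinearAut.coe_degZeroSMulHom, SemilinearAut.coe_degZeroSMulHom,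
    coe_pullDegZero, pullbackAlong_smul φ hφ g g' h]

/-- **Base change on divisors.** -/
theorem pullback_pushforward (φ : F →ₐ[K] F') (φ' : G →ₐ[K] G') (ψ : F →ₐ[K] G)
    (ψ' : F' →ₐ[K] G') (hφ : φ.toRingHom.IsIntegral) (hφ' : φ'.toRingHom.IsIntegral)
    (hψ : ψ.toRingHom.IsIntegral) (hψ' : ψ'.toRingHom.IsIntegral)
    (hfin : FiniteAlong K φ) (hN : NormFormulaAlong K φ hfin)
    (hfin' : FiniteAlong K φ') (hN' : NormFormulaAlong K φ' hfin')
    (h : ∀ x, ψ (normAlong φ x) = normAlong φ' (ψ' x)) (D : Divisor K F') :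
    Divisor.pullbackAlong ψ hψ (Divisor.pushforwardAlong φ hφ D) =
      Divisor.pushforwardAlong φ' hφ' (Divisor.pullbackAlong ψ' hψ' D) := by
  have h1 : (Divisor.pullbackAlong ψ hψ).comp (Divisor.pushforwardAlong φ hφ) =
      (Divisor.pushforwardAlong φ' hφ').comp (Divisor.pullbackAlong ψ' hψ') := by
    refine eq_of_principal ((finiteRows_pullbackAlong _ _).comp (finiteRows_pushforwardAlong _ _))
      ((finiteRows_pushforwardAlong _ _).comp (finiteRows_pullbackAlong _ _)) fun f hf => ?_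
    have hf' : ψ' f ≠ 0 := (map_ne_zero_iff ψ' ψ'.toRingHom.injective).mpr hf
    rw [AddMonoidHom.comp_apply, AddMonoidHom.comp_apply, pushforwardAlong_div φ hφ hfin hN hf,
      pullbackAlong_div, pullbackAlong_div, pushforwardAlong_div φ' hφ' hfin' hN' hf', h]
  exact DFunLike.congr_fun h1 D

theorem div_pow (f : F) (n : ℕ) : (div (f ^ n) : Divisor K F) = n • div f := by
  ext v
  rw [Finsupp.smul_apply, div_apply, div_apply, nsmul_eq_mul, ← zpow_natCast, v.ord_zpow]

/-- `φ_* φ^* = deg φ`. -/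
theorem pushforward_pullback (φ : F →ₐ[K] F') (hφ : φ.toRingHom.IsIntegral)
    (hfin : FiniteAlong K φ) (hN : NormFormulaAlong K φ hfin) (D : Divisor K F) :
    Divisor.pushforwardAlong φ hφ (Divisor.pullbackAlong φ hφ D) = finrankAlong K φ • D := by
  have h1 : (Divisor.pushforwardAlong φ hφ).comp (Divisor.pullbackAlong φ hφ) =
      finrankAlong K φ • AddMonoidHom.id _ := by
    refine eq_of_principal ((finiteRows_pushforwardAlong _ _).comp (finiteRows_pullbackAlong _ _))
      ?_ fun f hf => ?_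
    · intro Q
      refine (Set.finite_singleton Q).subset fun R hR => ?_
      by_contra hne
      apply hR
      rw [AddMonoidHom.smul_apply, AddMonoidHom.id_apply, Finsupp.smul_apply,
        Finsupp.single_eq_of_ne' (by simpa using hne), smul_zero]
    · have hf' : φ f ≠ 0 := (map_ne_zero_iff φ φ.toRingHom.injective).mpr hf
      rw [AddMonoidHom.comp_apply, pullbackAlong_div, pushforwardAlong_div φ hφ hfin hN hf']
      have h2 : normAlong φ (φ f) = f ^ finrankAlong K φ := by
        let _ := algebraAlong φ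
        exact Algebra.norm_algebraMap (S := F') f
      rw [h2, div_pow, AddMonoidHom.smul_apply, AddMonoidHom.id_apply]
  rw [← AddMonoidHom.comp_apply, h1, AddMonoidHom.smul_apply, AddMonoidHom.id_apply]

theorem pushPic0_pullPic0 (φ : F →ₐ[K] F') (hφ : φ.toRingHom.IsIntegral)
    (hfin : FiniteAlong K φ) (hN : NormFormulaAlong K φ hfin)
    (hFI : FundamentalIdentityAlong K φ hφ) (x : Pic0 K F) :
    pushPic0 φ hφ hfin hN (pullPic0 φ hφ hFI x) = finrankAlong K φ • x := by
  obtain ⟨D, rfl⟩ := Pic0.mk_surjective x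
  rw [pullPic0_mk, pushPic0_mk]
  have : finrankAlong K φ • Pic0.mk D = Pic0.mk (finrankAlong K φ • D) := rfl
  rw [this]
  refine congrArg Pic0.mk (Subtype.ext ?_)
  rw [coe_pushDegZero, coe_pullDegZero, pushforward_pullback φ hφ hfin hN]
  rfl

theorem pull_push_square (φ : F →ₐ[K] F') (φ' : G →ₐ[K] G') (ψ : F →ₐ[K] G)
    (ψ' : F' →ₐ[K] G') (hφ : φ.toRingHom.IsIntegral) (hφ' : φ'.toRingHom.IsIntegral)
    (hψ : ψ.toRingHom.IsIntegral) (hψ' : ψ'.toRingHom.IsIntegral)
    (hfin : FiniteAlong K φ) (hN : NormFormulaAlong K φ hfin)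
    (hfin' : FiniteAlong K φ') (hN' : NormFormulaAlong K φ' hfin')
    (hFI : FundamentalIdentityAlong K ψ hψ) (hFI' : FundamentalIdentityAlong K ψ' hψ')
    (h : ∀ x, ψ (normAlong φ x) = normAlong φ' (ψ' x)) (x : Pic0 K F') :
    pushPic0 φ' hφ' hfin' hN' (pullPic0 ψ' hψ' hFI' x) =
      pullPic0 ψ hψ hFI (pushPic0 φ hφ hfin hN x) := by
  obtain ⟨D, rfl⟩ := Pic0.mk_surjective x
  rw [pullPic0_mk, pushPic0_mk, pushPic0_mk, pullPic0_mk]
  refine congrArg Pic0.mk (Subtype.ext ?_)
  rw [coe_pushDegZero, coe_pullDegZero, coe_pullDegZero, coe_pushDegZero]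
  exact (pullback_pushforward φ φ' ψ ψ' hφ hφ' hψ hψ' hfin hN hfin' hN' h _).symm

end Pull

section Level

variable (N q p : ℕ) [NeZero N] [NeZero q] [NeZero p]

theorem intertwines_alpha' (σ : GQ) :
    SemilinearAut.IntertwinesAlong (alpha' N q p : _ →+* _)
      (arithmeticGalois (modularFunctionFieldFull (N * q)) σ)
      (arithmeticGalois (modularFunctionFieldFull (N * p * q)) σ) := by
  intro x
  apply Subtype.ext
  rw [coe_arithmeticGalois_smul]
  exact (congrArg (coeffMap (σ : KK →+* KK)) (coe_alpha' N q p x)).trans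
    (coe_alpha' N q p (arithmeticGalois (modularFunctionFieldFull (N * q)) σ • x)).symm

/-- the pull-back `J₀(Nq) → J₀(Npq)`. -/
def pullQ : JZero (N * q) →+ JZero (N * p * q) :=
  pullPic0 (alpha' N q p) (FF.isIntegralAlong _) (FF.fundamentalIdentityAlong _ _)

/-- the pull-back `J₀(N) → J₀(Np)`. -/
def pull1 : JZero N →+ JZero (N * p) :=
  pullPic0 (heckeAlphaBar KK N p) (intA N p) (FF.fundamentalIdentityAlong _ _)

theorem pullQ_galois (σ : GQ) (x : JZero (N * q)) :
    pullQ N q p (σ • x) = σ • pullQ N q p x :=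
  pullPic0_smul (alpha' N q p) (FF.isIntegralAlong _) (FF.fundamentalIdentityAlong _ _)
    (arithmeticGalois (modularFunctionFieldFull (N * q)) σ)
    (arithmeticGalois (modularFunctionFieldFull (N * p * q)) σ) (intertwines_alpha' N q p σ) x

theorem alPush_pullQ (hq : q.Prime) (hqp : Nat.Coprime q p) (x : JZero (N * q)) :
    alPush (N * p) q (pullQ N q p x) = pull1 N p (alPush N q x) :=
  pull_push_square (heckeAlphaBar KK N q) (heckeAlphaBar KK (N * p) q) (heckeAlphaBar KK N p)
    (alpha' N q p) (intA N q) (intA (N * p) q) (intA N p) (FF.isIntegralAlong _) (finAlpha N q)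
    (nfAlpha N q) (finAlpha (N * p) q) (nfAlpha (N * p) q) (FF.fundamentalIdentityAlong _ _)
    (FF.fundamentalIdentityAlong _ _) (alpha_norm_alpha N q p hq hqp) x

theorem bePush_pullQ (hp : p.Prime) (hpq : ¬ p ∣ q) (x : JZero (N * q)) :
    bePush (N * p) q (pullQ N q p x) = pull1 N p (bePush N q x) :=
  pull_push_square (heckeBetaBar KK N q) (heckeBetaBar KK (N * p) q) (heckeAlphaBar KK N p)
    (alpha' N q p) (intB N q) (intB (N * p) q) (intA N p) (FF.isIntegralAlong _) (finBeta N q)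
    (nfBeta N q) (finBeta (N * p) q) (nfBeta (N * p) q) (FF.fundamentalIdentityAlong _ _)
    (FF.fundamentalIdentityAlong _ _) (alpha_norm_beta N q p hp hpq) x

theorem exists_nsmul_of_pullQ : ∃ d : ℕ, d ≠ 0 ∧ ∀ x : JZero (N * q),
    pullQ N q p x = 0 → d • x = 0 := by
  have hfin : FiniteAlong KK (alpha' N q p) := FF.finiteAlong _
  refine ⟨finrankAlong KK (alpha' N q p), (finrankAlong_pos' _ hfin).ne', fun x hx => ?_⟩
  have h := pushPic0_pullPic0 (alpha' N q p) (FF.isIntegralAlong _) hfin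
    (FF.normFormulaAlong _ _) (FF.fundamentalIdentityAlong _ _) x
  rw [← h]
  have h2 : pullPic0 (alpha' N q p) (FF.isIntegralAlong _) (FF.fundamentalIdentityAlong _ _) x
    = 0 := hx
  rw [h2, map_zero]

/-- an element killed by `lam^n` and by `d ≠ 0` is killed by a bounded power of `lam`. -/
theorem exists_bound {lam d : ℕ} (hlam : lam.Prime) (hd : d ≠ 0) : ∃ c : ℕ,
    ∀ {J : Type} [AddCommGroup J] (n : ℕ) (x : J), lam ^ n • x = 0 → d • x = 0 →
      lam ^ c • x = 0 := by
  obtain ⟨c, m, hm, rfl⟩ := Nat.exists_eq_pow_mul_and_not_dvd hd lam hlam.ne_one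
  refine ⟨c, fun {J} _ n x hx hdx => ?_⟩
  have hcop : Nat.Coprime (lam ^ n) m := Nat.Coprime.pow_left n ((Nat.Prime.coprime_iff_not_dvd hlam).mpr hm)
  have h1 : lam ^ n • (lam ^ c • x) = 0 := by rw [smul_comm, hx, smul_zero]
  have h2 : m • (lam ^ c • x) = 0 := by rw [← mul_smul, mul_comm]; exact hdx
  have h3 : addOrderOf (lam ^ c • x) ∣ Nat.gcd (lam ^ n) m :=
    Nat.dvd_gcd (addOrderOf_dvd_of_nsmul_eq_zero h1) (addOrderOf_dvd_of_nsmul_eq_zero h2)
  rw [hcop.gcd_eq_one, Nat.dvd_one, AddMonoid.addOrderOf_eq_one_iff] at h3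
  exact h3

/-- **Theorem A for the level `Npq` implies Theorem A for the level `Nq`.** -/
theorem ThmA.of_mul {lam : ℕ} {A : ValuationSubring (AlgebraicClosure ℚ)} (hq : q.Prime)
    (hp : p.Prime) (hpq : p ≠ q) (hlam : lam.Prime) (h : ThmA (N * p) q lam A) :
    ThmA N q lam A := by
  obtain ⟨c, hc⟩ := h
  obtain ⟨d, hd, hd'⟩ := exists_nsmul_of_pullQ N q p
  obtain ⟨c', hc'⟩ := exists_bound hlam (mul_ne_zero hd (pow_ne_zero c hlam.ne_zero))
  have h1 : Nat.Coprime q p := (Nat.coprime_primes hq hp).mpr hpq.symm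
  have h2 : ¬ p ∣ q := fun h => hpq ((Nat.prime_dvd_prime_iff_eq hp hq).mp h)
  refine ⟨c', fun n x hx hI hal hbe => hc' n x hx ?_⟩
  rw [mul_smul]
  refine hd' _ ?_
  rw [map_nsmul]
  refine hc n _ ?_ ?_ ?_ ?_
  · rw [← map_nsmul, hx, map_zero]
  · intro σ hσ
    rw [← pullQ_galois, hI σ hσ]
  · rw [alPush_pullQ N q p hq h1, hal, map_zero]
  · rw [bePush_pullQ N q p hp h2, hbe, map_zero]

end Level

end Fermat.Agent.S36red

end
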