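import Fermat.Agent.S36.Unip
import Fermat.Agent.S36.LevelDown
import Fermat.Agent.S36.HeckeFac
import Fermat.Agent.Cofaith.ES
import Fermat.Agent.S35_Assembly

/-!
# S36 from Theorem A, S30 and S37
-/

set_option autoImplicit false
set_option linter.style.haveILetI false
set_option linter.unusedSectionVars false

noncomputable section

open ModularCurve AlgebraicCurve IntermediateField Polynomial CuspForm
open Fermat.Agent.GalRep Fermat.Agent.S35aux
open Fermat.Agent.Cofaith (smulCommClass_JZero)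

namespace Fermat.Agent.S36red

/-- Theorem A with an auxiliary level. -/
def ThmAInput (lam : ℕ) : Prop :=
  ∀ (m q : ℕ) [NeZero m] [NeZero q], q.Prime → q ≠ lam → ¬ q ∣ m → (4 ∣ m ∨ 9 ∣ m) →
    ∃ A : ValuationSubring (AlgebraicClosure ℚ), A.LiesOverPrime q ∧ ThmA (m * q) q lam A

/-- S37 for all levels and primes. -/
def SpecInput : Prop := ∀ (N p : ℕ) [NeZero N],
  letI := heckeModuleBar N
  haveI := smulCommClass_JZero N
  p.Prime → SpecializationExists (K := ℚ) (L := AlgebraicClosure ℚ) N p (JZero N)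

theorem ThmA.congr {N N' q lam : ℕ} [NeZero N] [NeZero N'] [NeZero q] (h : N = N')
    {A : ValuationSubring (AlgebraicClosure ℚ)} (hA : ThmA N q lam A) : ThmA N' q lam A := by
  subst h
  exact hA

/-- **Theorem A** without auxiliary level. -/
theorem thmA_of_input {lam : ℕ} (hlam : lam.Prime) (H : ThmAInput lam) (m q : ℕ) [NeZero m]
    [NeZero q] (hq : q.Prime) (hqlam : q ≠ lam) (hqm : ¬ q ∣ m) :
    ∃ A : ValuationSubring (AlgebraicClosure ℚ), A.LiesOverPrime q ∧ ThmA (m * q) q lam A := by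
  obtain ⟨p, hp, hpq, h49⟩ : ∃ p : ℕ, p.Prime ∧ p ≠ q ∧ (4 ∣ m * p * p ∨ 9 ∣ m * p * p) := by
    by_cases h2 : q = 2
    · exact ⟨3, Nat.prime_three, by omega, Or.inr ⟨m, by ring⟩⟩
    · exact ⟨2, Nat.prime_two, fun h => h2 h.symm, Or.inl ⟨m, by ring⟩⟩
  haveI : NeZero p := ⟨hp.ne_zero⟩
  have hqp : ¬ q ∣ p := fun h => hpq ((Nat.prime_dvd_prime_iff_eq hq hp).mp h).symm
  have hqm' : ¬ q ∣ m * p * p := by
    intro h
    rcases (Nat.Prime.dvd_mul hq).mp h with h | h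
    · rcases (Nat.Prime.dvd_mul hq).mp h with h | h
      · exact hqm h
      · exact hqp h
    · exact hqp h
  obtain ⟨A, hA, h⟩ := H (m * p * p) q hq hqlam hqm' h49
  refine ⟨A, hA, ?_⟩
  have h1 : ThmA (m * p * q) q lam A :=
    ThmA.of_mul (m * p * q) q p hq hp hpq hlam (h.congr (by ring))
  exact ThmA.of_mul (m * q) q p hq hp hpq hlam (h1.congr (by ring))

/-- the rationality hypothesis. -/
theorem hrat_of_spec (hspec : SpecInput) {M : ℕ} [NeZero M] (S : Finset ℕ) :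
    ∀ (ℓ : ℕ) (hℓ : ℓ.Prime) (hℓM : ¬ ℓ ∣ M), ∃ c : ℤ, c ≠ 0 ∧
      c • heckeTLin 2 hℓ hℓM ∈ heckeAlgebra M 2 (↑S : Set ℕ) := by
  refine exists_smul_heckeTLin_mem S (fun ℓ hℓ hℓM => ?_)
  obtain ⟨p, hpM, hp⟩ := Nat.exists_infinite_primes (ℓ + 1)
  have hpℓ : ℓ ≠ p := by omega
  refine ⟨p, insert p M.primeFactors, JZero M, inferInstance, heckeModuleBar M, inferInstance,
    smulCommClass_JZero M, ?_, hp, Finset.mem_insert_self _ _, fun q hq hqM => ?_, ?_⟩
  · exact Fermat.Agent.Cofaith.esInput_JZero M hp _ (fun q hq hqM => by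
      rw [Finset.mem_coe, Finset.mem_insert, Nat.mem_primeFactors]
      exact Or.inr ⟨hq, hqM, NeZero.ne M⟩) (hspec M p hp)
  · rw [Finset.mem_insert, Nat.mem_primeFactors]
    exact Or.inr ⟨hq, hqM, NeZero.ne M⟩
  · rw [Finset.mem_insert, Nat.mem_primeFactors]
    rintro (h | h)
    · exact hpℓ h
    · exact hℓM h.2.1

/-- **Non-unipotence** for the representations attached to a newform. -/
theorem not_unipotent_of_newform
    {M : ℕ} [NeZero M] {g : CuspForm (CongruenceSubgroup.Gamma0 M) 2} (hg : g.IsNewform)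
    (lam : ℕ) [Fact lam.Prime] (hA : ThmAInput lam) (hspec : SpecInput)
    (S : Finset ℕ)
    (chig : CuspForm.heckeAlgebra M 2 (↑S : Set ℕ) →+* ℂ)
    (hchig : ∀ (ℓ : ℕ) (hℓ : ℓ.Prime) (hℓM : ¬ ℓ ∣ M) (hℓS : ℓ ∉ (↑S : Set ℕ)),
      chig (CuspForm.heckeAlgebra.T hℓ hℓM hℓS) = ModularFormClass.qCoeff g ℓ)
    (hlamS : lam ∈ S) (hMS : ∀ q : ℕ, q.Prime → q ∣ M → q ∈ S)
    {O'' : Type} [CommRing O''] [IsDomain O''] [IsDiscreteValuationRing O'']
    [IsAdicComplete (IsLocalRing.maximalIdeal O'') O''] [CharZero O'']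
    (hpT : (lam : O'') ∈ IsLocalRing.maximalIdeal O'')
    (j : chig.range →+* O'') (hj : Function.Injective j) {ρ : GaloisRepAdic O''}
    (hfrob : HasFrobCharpoly (j.comp chig.rangeRestrict) ρ)
    (habs : ρ.residual.IsAbsolutelyIrreducible)
    (q : ℕ) (hq : q.Prime) (hqlam : q ≠ lam) (hqM : M.factorization q = 2) :
    ¬ ρ.IsUnipotentOnInertiaAt q := by
  have hlam : lam.Prime := Fact.out
  obtain ⟨m, rfl, hqm⟩ : ∃ m, M = m * q * q ∧ ¬ q ∣ m := by
    have hM0 : M ≠ 0 := NeZero.ne M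
    refine ⟨M / q ^ 2, ?_, ?_⟩
    · have h1 : q ^ 2 ∣ M := (hq.pow_dvd_iff_le_factorization hM0).mpr hqM.ge
      rw [mul_assoc, ← pow_two, Nat.div_mul_cancel h1]
    · have := Nat.not_dvd_ordCompl hq hM0
      rwa [hqM] at this
  haveI hq0 : NeZero q := ⟨hq.ne_zero⟩
  haveI hm0 : NeZero m := ⟨fun h => NeZero.ne (m * q * q) (by rw [h, zero_mul, zero_mul])⟩
  obtain ⟨A, hAq, c, hc⟩ := thmA_of_input hlam hA m q hq hqlam hqm
  letI := heckeModuleBar (m * q * q)
  haveI := smulCommClass_JZero (m * q * q)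
  letI := heckeModuleBar (m * q)
  have hJ : ESInput (m * q * q) lam (↑S : Set ℕ) (JZero (m * q * q)) :=
    Fermat.Agent.Cofaith.esInput_JZero (m * q * q) hlam _ (fun q hq hqM => hMS q hq hqM)
      (hspec (m * q * q) lam hlam)
  haveI : Module.Finite ℤ (heckeAlgebra (m * q * q) 2 (↑S : Set ℕ)) :=
    Fermat.Agent.S22.result (m * q * q) 2 _
  obtain ⟨t, ht0, htg⟩ := exists_separating (M' := m * q) (Dvd.intro q rfl)
    (Nat.ne_of_lt (lt_mul_of_one_lt_right (Nat.pos_of_ne_zero (NeZero.ne (m * q))) hq.one_lt))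
    hg S hMS (hrat_of_spec hspec S) chig hchig
  refine not_isUnipotentOnInertiaAt (N := m * q * q) (N' := m * q) (J := JZero (m * q * q))
    (J' := JZero (m * q)) hJ
    (heckeFactors_JZero (m * q * q) lam hlam.ne_zero _ (fun r hr hd => hMS r hr hd)) hlamS hMS
    hpT hfrob habs
    (heckeFactors_JZero (m * q) lam hlam.ne_zero _ (fun r hr hd => hMS r hr (hd.mul_right q)))
    (alPush (m * q) q) (bePush (m * q) q)
    (alPush_inclS (m * q) q hq _ (fun r hr hd => hMS r hr hd))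
    (bePush_inclS (m * q) q hq _ (fun r hr hd => hMS r hr hd))
    (alPush_galois (m * q) q) (bePush_galois (m * q) q) t ht0 ?_ hAq c hc
  intro h0
  rw [RingHom.comp_apply] at h0
  have h1 := hj (h0.trans (map_zero _).symm)
  exact htg (congrArg Subtype.val h1)

/-- **S36** from Theorem A, S30 and S37. -/
theorem stmt36 (hAall : ∀ lam : ℕ, lam.Prime → lam ≠ 2 → ThmAInput lam) (hspec : SpecInput)
    (h30 : Stmt30)
    {M : ℕ} [NeZero M] {g : CuspForm (CongruenceSubgroup.Gamma0 M) 2} (hg : g.IsNewform)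
    (lam : ℕ) [Fact lam.Prime]
    (S : Finset ℕ)
    (O' : Type) [CommRing O'] [IsDomain O'] [IsDiscreteValuationRing O']
    [IsAdicComplete (IsLocalRing.maximalIdeal O') O'] [Finite (IsLocalRing.ResidueField O')]
    [CharZero O'] (hlamO' : (lam : O') ∈ IsLocalRing.maximalIdeal O')
    (hlam2 : lam ≠ 2)
    (chig : CuspForm.heckeAlgebra M 2 (↑S : Set ℕ) →+* ℂ)
    (hchig : ∀ (ℓ : ℕ) (hℓ : ℓ.Prime) (hℓM : ¬ ℓ ∣ M) (hℓS : ℓ ∉ (↑S : Set ℕ)),
      chig (CuspForm.heckeAlgebra.T hℓ hℓM hℓS) = ModularFormClass.qCoeff g ℓ)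
    (iota : chig.range →+* O')
    (hlamS : lam ∈ S) (hMS : ∀ q : ℕ, q.Prime → q ∣ M → q ∈ S)
    (hres : ∀ (O'' : Type) [CommRing O''] [IsDomain O''] [IsDiscreteValuationRing O'']
      [IsAdicComplete (IsLocalRing.maximalIdeal O'') O''] [Finite (IsLocalRing.ResidueField O'')] [CharZero O'']
      [Algebra O' O''] [Module.Finite O' O''] [IsLocalHom (algebraMap O' O'')],
      Function.Injective (algebraMap O' O'') → ∀ (ρ : GaloisRepAdic O''),
      (∀ (ℓ : ℕ) (hℓ : ℓ.Prime) (hℓlam : ℓ ≠ lam) (hℓM : ¬ ℓ ∣ M) (hℓS : ℓ ∉ (↑S : Set ℕ)),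
        ∀ A : ValuationSubring (AlgebraicClosure ℚ), A.LiesOverPrime ℓ →
          ∀ σ : AlgebraicClosure ℚ ≃ₐ[ℚ] AlgebraicClosure ℚ, A.IsFrobeniusAt σ ℓ →
            LinearMap.charpoly (ρ.ρ σ) =
              X ^ 2 - C (algebraMap O' O'' ((iota.comp chig.rangeRestrict) (CuspForm.heckeAlgebra.T hℓ hℓM hℓS))) * X
                + C ((ℓ : O'')))
      → ρ.residual.IsAbsolutelyIrreducible ∧ ρ.residual.IsOdd)
    :
    ∃ (O'' : Type) (_ : CommRing O'') (_ : IsDomain O'') (_ : IsDiscreteValuationRing O'')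
      (_ : IsAdicComplete (IsLocalRing.maximalIdeal O'') O'') (_ : Finite (IsLocalRing.ResidueField O''))
      (_ : CharZero O'') (_ : Algebra O' O'') (_ : Module.Finite O' O'') (_ : IsLocalHom (algebraMap O' O'')),
      Function.Injective (algebraMap O' O'') ∧
      ∃ ρ : GaloisRepAdic O'',
        (∀ (ℓ : ℕ) (hℓ : ℓ.Prime) (hℓM : ¬ ℓ ∣ M) (hℓS : ℓ ∉ (↑S : Set ℕ)),
          ∀ A : ValuationSubring (AlgebraicClosure ℚ), A.LiesOverPrime ℓ →
            ∀ σ : AlgebraicClosure ℚ ≃ₐ[ℚ] AlgebraicClosure ℚ, A.IsFrobeniusAt σ ℓ →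
              LinearMap.charpoly (ρ.ρ σ) =
                X ^ 2 - C (algebraMap O' O'' ((iota.comp chig.rangeRestrict) (CuspForm.heckeAlgebra.T hℓ hℓM hℓS))) * X
                  + C ((ℓ : O''))) ∧
        (∀ q : ℕ, q.Prime → q ≠ lam → M.factorization q = 2 → ¬ ρ.IsUnipotentOnInertiaAt q) := by
  obtain ⟨O'', i1, i2, i3, i4, i5, i6, i7, i8, i9, hinj, ρ, hρ, -⟩ :=
    h30 lam M S hlamS hMS O' hlamO' (iota.comp chig.rangeRestrict)
  refine ⟨O'', i1, i2, i3, i4, i5, i6, i7, i8, i9, hinj, ρ, hρ, ?_⟩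
  intro q hq hqlam hqM
  have habs : ρ.residual.IsAbsolutelyIrreducible :=
    (hres O'' hinj ρ (fun ℓ hℓ _ hℓM hℓS A hA σ hσ => hρ ℓ hℓ hℓM hℓS A hA σ hσ)).1
  have hpT : (lam : O'') ∈ IsLocalRing.maximalIdeal O'' := by
    have h := map_nonunit (algebraMap O' O'') (lam : O') hlamO'
    rwa [map_natCast] at h
  haveI : Module.Finite ℤ (heckeAlgebra M 2 (↑S : Set ℕ)) := Fermat.Agent.S22.result M 2 _
  have hint : Algebra.IsIntegral ℤ chig.range := by
    refine ⟨?_⟩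
    rintro ⟨_, x, rfl⟩
    have h1 : IsIntegral ℤ x := Algebra.IsIntegral.isIntegral x
    have h2 := h1.map chig.rangeRestrict.toIntAlgHom
    exact h2
  have hiota : Function.Injective iota := injective_of_isIntegral hint iota
  exact not_unipotent_of_newform hg lam (hAall lam Fact.out hlam2) hspec S chig hchig hlamS hMS
    hpT ((algebraMap O' O'').comp iota) (hinj.comp hiota) (ρ := ρ) hρ habs q hq hqlam hqM

end Fermat.Agent.S36red

end
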