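import Fermat.Agent.S36.LastMile
import Fermat.Agent.S37aux.Level
import Fermat.Agent.GoodRed.Uncond
import Fermat.Agent.TriVal.Kz

/-!
# The numerical hypotheses for `X₀(q²m)` over the fixed field of inertia
-/

set_option autoImplicit false

open AlgebraicCurve WithZero Module Polynomial ModularCurve
open scoped IntermediateField
open Fermat.Agent.FF Fermat.Agent.TwoComp Fermat.Agent.LocE
open Fermat.Agent.TriVal hiding Qb
open Fermat.Agent.TriDim Fermat.Agent.TriComp Fermat.Agent.Deuring
open Fermat.Agent.S36norm Fermat.Agent.S36K0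

noncomputable section

namespace Fermat.Agent.S36mile

/-- Transport of the genus along equality of fields. -/
theorem genusFF_transport {K Ω : Type*} [Field K] [Field Ω] [Algebra K Ω]
    {E E' : IntermediateField K Ω} (h : E = E') : genusFF K E = genusFF K E' := by
  subst h
  rfl

section Res

variable {A : ValuationSubring (AlgebraicClosure ℚ)} {q m : ℕ} [NeZero m]

/-- **Good reduction at level `m`**: equality of genera. -/
theorem genus_res_eq (hq : q.Prime) (hA : A.LiesOverPrime q) (hm : ¬ q ∣ m) (h49 : 4 ∣ m ∨ 9 ∣ m) :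
    genusFF Qb (modularFunctionFieldFullC Qb m) =
      genusFF (IsLocalRing.ResidueField A)
        (modularFunctionFieldFullC (IsLocalRing.ResidueField A) m) := by
  have hne : (m : IsLocalRing.ResidueField A) ≠ 0 := S18aux.natCast_ne_zero hq hA hm
  have hdeg : S37aux.DegC A m := Igusa.finrank_full (IsLocalRing.ResidueField A) m hne
  have hFF1 : IsFF (IsLocalRing.ResidueField A)
    (modularFunctionFieldFullC (IsLocalRing.ResidueField A) m) := hdeg.isFF
  have hFF2 : IsFF (AlgebraicClosure ℚ) (modularFunctionFieldBar m) := TEll.isFF_bar m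
  have h1 : genusFF Qb (modularFunctionFieldFullC Qb m) = genusFF Qb (modularFunctionFieldBar m) :=
    (genusFF_transport (fullC_eq_bar m)).symm
  rw [h1]
  apply le_antisymm
  · rcases h49 with h | h
    · exact GoodRed.genusFF_le_of_four_dvd hq hA m h hm
    · exact GoodRed.genusFF_le_of_nine_dvd hq hA m h hm
  · exact (S37aux.gauss hq hA m hdeg).genus_le

theorem isFF_res (hq : q.Prime) (hA : A.LiesOverPrime q) (hm : ¬ q ∣ m) :
    IsFF (IsLocalRing.ResidueField A)
      (modularFunctionFieldFullC (IsLocalRing.ResidueField A) m) :=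
  isFF_full _ m (S18aux.natCast_ne_zero hq hA hm)

/-- **The numerical hypotheses.** -/
theorem num_of (hq : q.Prime) (hA : A.LiesOverPrime q) (hm : ¬ q ∣ m) (h49 : 4 ∣ m ∨ 9 ∣ m)
    {L : Type*} [Field L] [Algebra L Qb]
    (hL : ∀ x : Qb, x ∈ Set.range (algebraMap L Qb) ↔ x ∈ K0 A)
    [IsFF L (modularFunctionFieldFullC L (m * q * q))]
    [IsFF (IsLocalRing.ResidueField A) (modularFunctionFieldFullC (IsLocalRing.ResidueField A) m)]
    {Er : Type*} [CommRing Er] [Algebra (IsLocalRing.ResidueField A) Er]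
    (D : Data L (modularFunctionFieldFullC L (m * q * q)) (IsLocalRing.ResidueField A) Er
      (modularFunctionFieldFullC (IsLocalRing.ResidueField A) m) q)
    (hj : D.j = jE L (m * q * q)) (hψ : D.ψ = dedekindPsi m) : D.Num := by
  have : NeZero q := ⟨hq.ne_zero⟩
  have hmq : NeZero (m * q) := ⟨mul_ne_zero (NeZero.ne m) (NeZero.ne q)⟩
  have hmqq : NeZero (m * q * q) := ⟨mul_ne_zero (NeZero.ne (m * q)) (NeZero.ne q)⟩
  have hΓ : ∀ x : Qb, (∀ σ ∈ inertiaSet A, σ x = x) → x ∈ Set.range (algebraMap L Qb) := by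
    intro x hx
    rw [hL]
    obtain ⟨y, hy⟩ := inertiaSet_fixed A x hx
    rw [← hy]
    exact y.2
  have hΓL : ∀ σ ∈ inertiaSet A, ∀ a : L, σ (algebraMap L Qb a) = algebraMap L Qb a := by
    intro σ hσ a
    exact inertiaSet_algebraMap A σ hσ ⟨_, (hL _).1 ⟨a, rfl⟩⟩
  refine ⟨?_, ?_, ?_, ?_⟩
  · rw [hj]
    exact transcendental_jE L _
  · rw [hj, finrank_jE L (m * q * q) (natCast_ne_zero_of_algebra L _), dedekindPsi_mul_sq hq hm, hψ]
  · exact S36K0.ell_zero
  · rw [S36K0.genus_eq (inertiaSet A) hΓ hΓL, hψ]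
    exact genus_identity' hq hm h49 (genus_res_eq hq hA hm h49)

end Res

end Fermat.Agent.S36mile
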