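import Fermat.Agent.S36.SetupKz
import Fermat.Agent.S36.NumInst
import Fermat.Agent.S36.Final
import Fermat.Agent.TriVal.Kz
import Fermat.Agent.Frob.Exists

set_option autoImplicit false
set_option linter.unusedSectionVars false
set_option linter.style.haveILetI false

/-!
# S36 from the existence of the three-component records
-/

noncomputable section

open AlgebraicCurve ModularCurve Module
open scoped IntermediateField
open Fermat.Agent.FF Fermat.Agent.TwoComp Fermat.Agent.LocE Fermat.Agent.TriComp
  Fermat.Agent.S36norm Fermat.Agent.Deuring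

namespace Fermat.Agent.S36mile

section

variable {A : ValuationSubring (AlgebraicClosure ℚ)} {L : Type*} [Field L]
    [Algebra L (AlgebraicClosure ℚ)] {m q : ℕ}
    [NeZero m] [NeZero q] [NeZero (m * q)] [NeZero (m * q * q)]

/-- The three-component records for the level `q²m` at the place `A`. -/
structure Records (hq : q.Prime) (hm : ¬ q ∣ m) (hA : A.LiesOverPrime q)
    (hL : TriGlue.IsK0 A L)
    (P : Pre L (modularFunctionFieldFullC L (m * q * q)) (IsLocalRing.ResidueField A)
      (LaurentSeries (IsLocalRing.ResidueField A)) (Fin 3))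
    (H : Exh P (modularFunctionFieldFullC (IsLocalRing.ResidueField A) m))
    {Er : Type*} [CommRing Er] [Algebra (IsLocalRing.ResidueField A) Er]
    (D : Data L (modularFunctionFieldFullC L (m * q * q)) (IsLocalRing.ResidueField A) Er
      (modularFunctionFieldFullC (IsLocalRing.ResidueField A) m) q) : Prop where
  hP : P.v = TriVal.vv hq hm hA hL
  hD : ∀ i, D.v i = H.v' i
  hj : D.j = TriVal.jd L (m * q * q) 1 (one_dvd _)
  hψ : D.ψ = dedekindPsi m

variable (hq : q.Prime) (hm : ¬ q ∣ m) (hA : A.LiesOverPrime q) (hL : TriGlue.IsK0 A L)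

theorem thmA_of_records (h49 : 4 ∣ m ∨ 9 ∣ m)
    {P : Pre L (modularFunctionFieldFullC L (m * q * q)) (IsLocalRing.ResidueField A)
      (LaurentSeries (IsLocalRing.ResidueField A)) (Fin 3)}
    {H : Exh P (modularFunctionFieldFullC (IsLocalRing.ResidueField A) m)}
    {Er : Type*} [CommRing Er] [Algebra (IsLocalRing.ResidueField A) Er]
    {D : Data L (modularFunctionFieldFullC L (m * q * q)) (IsLocalRing.ResidueField A) Er
      (modularFunctionFieldFullC (IsLocalRing.ResidueField A) m) q}
    (hR : Records hq hm hA hL P H D) (G : D.Glue)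
    (M : letI : Fact q.Prime := ⟨hq⟩
      haveI : CharP (IsLocalRing.ResidueField A) q := FrobDensity.charP_residue hq hA
      GlueMod D (TwoGauss.verMap (IsLocalRing.ResidueField A) q m))
    {lam : ℕ} (hlam : lam.Prime) (hne : q ≠ lam) : S36red.ThmA (m * q) q lam A := by
  have : Fact q.Prime := ⟨hq⟩
  have : CharP (IsLocalRing.ResidueField A) q := FrobDensity.charP_residue hq hA
  have h1 : IsFF L (modularFunctionFieldFullC L (m * q * q)) :=
    TriDim.isFF_full L _ (S36K0.natCast_ne_zero_of_algebra L _)
  have h2 := isFF_res (A := A) hq hA hm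
  have : CharZero L := (algebraMap L (AlgebraicClosure ℚ)).charZero
  have hj : D.j = TriDim.jE L (m * q * q) := by
    rw [hR.hj]
    apply Subtype.ext
    exact ModularCurve.qExpand_one_apply _
  obtain ⟨w, w', hw, hw', he⟩ := exists_w hq hm L
  exact thmA_of hq (fun x => hL x) D (setup (levelInput hq hm hA hL hw hw')
    (triInput hq hm hA hL hR.hP H hR.hD hR.hj he))
    (levelQ (levelInput hq hm hA hL hw hw') (triInput hq hm hA hL hR.hP H hR.hD hR.hj he)
      (iotaL L)) M (num_of hq hA hm h49 (fun x => hL x) D hj hR.hψ) G (fun _ => rfl)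
    (fun _ => rfl) hlam hne

end

/-- Existence of the three-component records for all levels. -/
def AllRecords : Prop :=
  ∀ (m q : ℕ) [NeZero m] [NeZero q] [NeZero (m * q)] [NeZero (m * q * q)] (hq : q.Prime)
    (hm : ¬ q ∣ m) (A : ValuationSubring (AlgebraicClosure ℚ)) (hA : A.LiesOverPrime q),
    (4 ∣ m ∨ 9 ∣ m) →
    ∃ (L : Type) (_ : Field L) (_ : Algebra L (AlgebraicClosure ℚ)) (hL : TriGlue.IsK0 A L)
      (P : Pre L (modularFunctionFieldFullC L (m * q * q)) (IsLocalRing.ResidueField A)
        (LaurentSeries (IsLocalRing.ResidueField A)) (Fin 3))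
      (H : Exh P (modularFunctionFieldFullC (IsLocalRing.ResidueField A) m))
      (Er : Type) (_ : CommRing Er) (_ : Algebra (IsLocalRing.ResidueField A) Er)
      (D : Data L (modularFunctionFieldFullC L (m * q * q)) (IsLocalRing.ResidueField A) Er
        (modularFunctionFieldFullC (IsLocalRing.ResidueField A) m) q),
      Records hq hm hA hL P H D ∧ Nonempty D.Glue ∧
      (letI : Fact q.Prime := ⟨hq⟩
      haveI : CharP (IsLocalRing.ResidueField A) q := FrobDensity.charP_residue hq hA
      GlueMod D (TwoGauss.verMap (IsLocalRing.ResidueField A) q m))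

theorem thmAInput_of (HR : AllRecords) {lam : ℕ} (hlam : lam.Prime) : S36red.ThmAInput lam := by
  intro m q hm0 hq0 hq hqlam hqm h49
  have h1 : NeZero (m * q) := ⟨mul_ne_zero (NeZero.ne m) (NeZero.ne q)⟩
  have h2 : NeZero (m * q * q) := ⟨mul_ne_zero (NeZero.ne (m * q)) (NeZero.ne q)⟩
  obtain ⟨A, hA⟩ := Frob.exists_liesOverPrime q hq
  obtain ⟨L, _, _, hL, P, H, Er, _, _, D, hR, ⟨G⟩, M⟩ := HR m q hq hqm A hA h49
  exact ⟨A, hA, thmA_of_records hq hqm hA hL h49 hR G M hlam hqlam⟩

end Fermat.Agent.S36mile
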