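import Fermat.Agent.TriVal.DataInst
import Fermat.Agent.S36.Records
import Fermat.Agent.S36.WireA

/-!
# Existence of the three-component records for all levels
-/

set_option autoImplicit false

noncomputable section

open ModularCurve Module
open Fermat.Agent.TriVal Fermat.Agent.TriComp Fermat.Agent.S36norm

namespace Fermat.Agent.S36mile

theorem allRecords : AllRecords := by
  intro m q _ _ _ _ hq hm A hA h49
  have : Fact q.Prime := ⟨hq⟩
  have : CharP (IsLocalRing.ResidueField A) q := FrobDensity.charP_residue hq hA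
  have hL : TriGlue.IsK0 A (Kz A) := TriGlue.isK0_Kz A
  have hT : S36rec.TriRec hq hm (triData hq hm hA hL) :=
    S36rec.triRec hq hm hA hL (P := pre hq hm hA hL) rfl (exh hq hm hA hL) (fun _ => rfl) rfl rfl
      rfl rfl (PuC_spec hq hA).2.2
  exact ⟨Kz A, inferInstance, inferInstance, hL, pre hq hm hA hL, exh hq hm hA hL, _, _, _,
    triData hq hm hA hL, ⟨rfl, fun _ => rfl, rfl, rfl⟩,
    ⟨S36rec.glue hq hm hA hL hT⟩, S36rec.glueMod hq hm hA hL hT⟩

end Fermat.Agent.S36mile
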