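import Fermat.Agent.S36.SetupInst
import Fermat.Agent.TriDim.Twist

set_option autoImplicit false
set_option linter.unusedSectionVars false
set_option linter.style.haveILetI false

/-!
# The instances of `Setup` and `LevelQ`
-/

noncomputable section

open AlgebraicCurve ModularCurve HahnSeries Fermat.Agent.TEll Fermat.Agent.TriGauss
  Fermat.Agent.TriVal Fermat.Agent.LocE Fermat.Agent.GaussVal Fermat.Agent.TwoGauss
  Fermat.Agent.TriComp

namespace Fermat.Agent.S36norm

variable {A : ValuationSubring Qb} {K : Type*} [Field K] [Algebra K Qb] {m q : ℕ}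
    [NeZero m] [NeZero q] [NeZero (m * q)] [NeZero (m * q * q)] {ζ : Qbˣ}
    {e₁ : modularFunctionFieldFullC K (m * q * q) →+* LaurentSeries Qb}
    {w : modularFunctionFieldFullC K (m * q * q) ≃ₐ[K] modularFunctionFieldFullC K (m * q * q)}
    {w' : modularFunctionFieldFullC K (m * q) ≃ₐ[K] modularFunctionFieldFullC K (m * q)}
    [CharZero K] {Er : Type*} [CommRing Er] [Algebra (IsLocalRing.ResidueField A) Er]
    {D : Data K (modularFunctionFieldFullC K (m * q * q)) (IsLocalRing.ResidueField A) Er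
      (modularFunctionFieldFullC (IsLocalRing.ResidueField A) m) q}
    [Fact q.Prime] [CharP (IsLocalRing.ResidueField A) q]

open Classical in
/-- total residue map of the constants -/
def resT (D : Data K (modularFunctionFieldFullC K (m * q * q)) (IsLocalRing.ResidueField A) Er
      (modularFunctionFieldFullC (IsLocalRing.ResidueField A) m) q) (c : K) :
    IsLocalRing.ResidueField A :=
  if h : c ∈ D.R.A then D.R.res ⟨c, h⟩ else 0

variable (I : LevelInput A K m q ζ e₁ w w') (T : TriInput A K m q ζ e₁ w D)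

include I T in
theorem red_const (i : Fin 3) {c : K} (h : c = 0 ∨ 0 ≤ (D.v 0).ord (algebraMap K _ c)) :
    (D.v i).red (algebraMap K _ c) = algebraMap (IsLocalRing.ResidueField A)
      (modularFunctionFieldFullC (IsLocalRing.ResidueField A) m) (resT D c) := by
  have hc : c ∈ D.R.A := (mem_A_iff I T).2 h
  rw [resT, dif_pos hc]
  exact D.red_algebraMap i ⟨c, hc⟩

theorem exists_unif (D : Data K (modularFunctionFieldFullC K (m * q * q))
      (IsLocalRing.ResidueField A) Er
      (modularFunctionFieldFullC (IsLocalRing.ResidueField A) m) q) (i : Fin 3) :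
    ∃ x, x ≠ 0 ∧ (D.v i).ord x = 1 := by
  have hq := q_ne D
  fin_cases i
  · exact ⟨_, hq, D.ord_q0⟩
  · exact ⟨_, D.δ_ne_zero, D.ord_δ⟩
  · exact ⟨_, hq, D.ord_q2⟩

theorem v_ne (D : Data K (modularFunctionFieldFullC K (m * q * q))
      (IsLocalRing.ResidueField A) Er
      (modularFunctionFieldFullC (IsLocalRing.ResidueField A) m) q) (i j : Fin 3) (hij : i ≠ j) :
    (D.v i).O ≠ (D.v j).O := by
  classical
  intro h
  obtain ⟨f, hfO, hf⟩ := D.surj (fun l => if l = i then 1 else 0)
  have h1 := hf i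
  have h2 := hf j
  rw [if_pos rfl] at h1
  rw [if_neg hij.symm] at h2
  have hO := (D.mem_O_iff f).1 hfO
  have hf0 : f ≠ 0 := by
    rintro rfl
    rw [(D.v i).red_zero] at h1
    exact zero_ne_one h1
  have h3 : (D.v i).ord f = 0 := ((D.v i).red_ne_zero_iff hf0 (hO i)).1 (by
    rw [h1]; exact one_ne_zero)
  have h4 : f⁻¹ ∈ (D.v j).O := h ▸ (D.v i).inv_mem_of_ord_eq_zero hf0 h3
  have h5 := ((D.v j).mem_iff _ (inv_ne_zero hf0)).1 h4
  have h6 := ((D.v j).mem_iff _ hf0).1 (hO j)
  rw [(D.v j).ord_inv hf0] at h5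
  have h7 : (D.v j).ord f = 0 := by omega
  exact ((D.v j).red_ne_zero_iff hf0 (hO j)).2 h7 h2

/-- **The instance of `Setup`.** -/
def setup (I : LevelInput A K m q ζ e₁ w w') (T : TriInput A K m q ζ e₁ w D) :
    Setup K (modularFunctionFieldFullC K (m * q)) (modularFunctionFieldFullC K (m * q * q))
      (modularFunctionFieldFullC (IsLocalRing.ResidueField A) m)
      (IsLocalRing.ResidueField A) q where
  V0 := D.v 0
  V1 := D.v 1
  V2 := D.v 2
  W0 := W0 D
  W1 := W1 D
  ordK c := (D.v 0).ord (algebraMap K _ c)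
  res := resT D
  ordK_mul a b ha hb := by
    rw [map_mul]
    exact (D.v 0).ord_mul _ _ ((map_ne_zero _).mpr ha) ((map_ne_zero _).mpr hb)
  exists_ordK a := by
    have hq0 : (q : K) ≠ 0 := D.q_ne_zero
    refine ⟨(q : K) ^ a, zpow_ne_zero _ hq0, ?_⟩
    rw [map_zpow₀, map_natCast, (D.v 0).ord_zpow (q_ne D), D.ord_q0, mul_one]
  V0_ord_const _ _ := rfl
  V1_ord_const c hc := by
    obtain ⟨n, h0, h1, -⟩ := exists_ord_const I T hc
    rw [h0, h1]
  V2_ord_const c hc := by
    obtain ⟨n, h0, -, h2, -⟩ := exists_ord_const I T hc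
    rw [h0, h2]
  W0_ord_const c hc := by
    obtain ⟨n, h0, -, -, h3, -⟩ := exists_ord_const I T hc
    rw [h0, h3]
  W1_ord_const c hc := by
    obtain ⟨n, h0, -, -, -, h4⟩ := exists_ord_const I T hc
    rw [h0, h4]
  V0_red_const _ h := red_const I T 0 h
  V1_red_const _ h := red_const I T 1 h
  V2_red_const _ h := red_const I T 2 h
  W0_red_const c h := by
    rw [W0, DV.comap_red]
    have h1 : (alphaC K (m * q) q : modularFunctionFieldFullC K (m * q) →+*
      modularFunctionFieldFullC K (m * q * q)) (algebraMap K _ c) = algebraMap K _ c :=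
      (alphaC K (m * q) q).commutes c
    rw [h1]
    exact red_const I T 0 h
  W1_red_const c h := by
    rw [W1, DV.comap_red]
    have h1 : (betaC K (m * q) q : modularFunctionFieldFullC K (m * q) →+*
      modularFunctionFieldFullC K (m * q * q)) (algebraMap K _ c) = algebraMap K _ c :=
      (betaC K (m * q) q).commutes c
    rw [h1]
    exact red_const I T 2 h
  res_surj a := by
    obtain ⟨c, rfl⟩ := D.R.res_surj a
    refine ⟨c, (mem_A_iff I T).1 c.2, ?_⟩
    rw [resT, dif_pos c.2]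
  Na := normAlong (alphaC K (m * q) q)
  Nb := normAlong (betaC K (m * q) q)
  Na_ne_zero _ hf := I.Na_ne_zero hf
  Nb_ne_zero _ hf := I.Nb_ne_zero hf
  Na_const c := ⟨_, LevelInput.Na_const c⟩
  Nb_const c := ⟨_, LevelInput.Nb_const c⟩
  W0_ord_Na _ hf := W0_ord_Na I T hf
  W1_ord_Na _ hf := W1_ord_Na I T hf
  W1_ord_Nb _ hf := W1_ord_Nb I T hf
  W0_ord_Nb _ hf := W0_ord_Nb I T hf
  σ := coeffEnd (frobenius (IsLocalRing.ResidueField A) q) m
  Vq := verMap (IsLocalRing.ResidueField A) q m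
  Vq_σ x := by
    apply Subtype.ext
    rw [coe_verMap, coe_coeffEnd]
    exact qExpand_coeffMap_frobenius q _
  W0_red_Na _ h0 h1 := W0_red_Na I T h0 h1
  W1_red_Na _ h2 := W1_red_Na I T h2
  W1_red_Nb _ h2 h1 := W1_red_Nb I T h2 h1
  W0_red_Nb _ h0 := W0_red_Nb I T h0
  approx_ord a b c := by
    obtain ⟨g, hg, h⟩ := DV.exists_ord D.v (exists_unif D) (v_ne D) ![a, b, c]
    exact ⟨g, hg, h 0, h 1, h 2⟩
  approx_red a b c ha hb hc := by
    obtain ⟨g, hgO, hg⟩ := D.surj ![a, b, c]
    have h0 : (D.v 0).red g = a := hg 0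
    have h1 : (D.v 1).red g = b := hg 1
    have h2 : (D.v 2).red g = c := hg 2
    have hO := (D.mem_O_iff g).1 hgO
    have hg0 : g ≠ 0 := by
      rintro rfl
      rw [(D.v 0).red_zero] at h0
      exact ha h0.symm
    exact ⟨g, hg0, ⟨((D.v 0).red_ne_zero_iff hg0 (hO 0)).1 (h0 ▸ ha),
      ((D.v 1).red_ne_zero_iff hg0 (hO 1)).1 (h1 ▸ hb),
      ((D.v 2).red_ne_zero_iff hg0 (hO 2)).1 (h2 ▸ hc)⟩, h0, h1, h2⟩

/-! ### Integrality of `j` over `K[j_q]` -/

theorem isIntegral_jq (ι : K →+* ℂ) : IsIntegral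
    (Algebra.adjoin K {TriVal.jd K (m * q) 1 (one_dvd _)})
    (TriVal.jd K (m * q) q (dvd_mul_left q m)) := by
  obtain ⟨n, P, h1, -, h3⟩ := exists_modPoly ι q
  set x := TriVal.jd K (m * q) 1 (one_dvd _) with hx
  set y := TriVal.jd K (m * q) q (dvd_mul_left q m) with hy
  have hrel : ∑ i ∈ Finset.range (n + 1), Polynomial.aeval x (P i) * y ^ i = 0 := by
    apply (algebraMap (modularFunctionFieldFullC K (m * q)) (LaurentSeries K)).injective
    rw [map_sum, map_zero, ← h3]
    refine Finset.sum_congr rfl fun i _ => ?_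
    rw [map_mul, map_pow]
    congr 1
    have hx' : algebraMap (modularFunctionFieldFullC K (m * q)) (LaurentSeries K) x =
        jqModC K := qExpand_one_apply _
    rw [← hx']
    exact (Polynomial.aeval_algebraMap_apply (LaurentSeries K) x (P i)).symm
  rw [Finset.sum_range_succ, h1, map_one, one_mul] at hrel
  have hrel2 : y ^ n + ∑ i ∈ Finset.range n, Polynomial.aeval x (P i) * y ^ i = 0 := by
    rw [add_comm]; exact hrel
  exact (TriDim.isIntegral_adjoin_iff x y).2 ⟨n, P, hrel2⟩

include I in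
theorem isIntegral_j_of_jq (ι : K →+* ℂ) : IsIntegral
    (Algebra.adjoin K {TriVal.jd K (m * q * q) q (dvd_mul_left q (m * q))})
    (TriVal.jd K (m * q * q) 1 (one_dvd _)) := by
  have h1 := isIntegral_jq (K := K) (m := m) (q := q) ι
  have h2 := isIntegral_adjoin_map (w' : _ →ₐ[K] modularFunctionFieldFullC K (m * q)) h1
  have h3 := isIntegral_adjoin_map (alphaC K (m * q) q) h2
  have e1 : w' (TriVal.jd K (m * q) 1 (one_dvd _)) =
      TriVal.jd K (m * q) q (dvd_mul_left q m) := by
    have : NeZero (1 * 1) := ⟨by norm_num⟩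
    have : NeZero (1 * q) := ⟨by rw [one_mul]; exact NeZero.ne q⟩
    have h := I.hw'.jd 1 1 q (one_dvd _) (mul_one q) (by rw [mul_one]; exact one_dvd _)
      (by rw [one_mul]; exact dvd_mul_left q m)
    rw [jd_congr_index (K := K) (mul_one 1) _ (one_dvd _),
      jd_congr_index (K := K) (one_mul q) _ (dvd_mul_left q m)] at h
    exact h
  have e2 : w' (TriVal.jd K (m * q) q (dvd_mul_left q m)) =
      TriVal.jd K (m * q) 1 (one_dvd _) := by
    rw [← e1, I.hw'.invol rfl]
  have e3 : alphaC K (m * q) q (TriVal.jd K (m * q) q (dvd_mul_left q m)) =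
      TriVal.jd K (m * q * q) q (dvd_mul_left q (m * q)) :=
    Subtype.ext (by rw [coe_alphaC]; rfl)
  have e4 : alphaC K (m * q) q (TriVal.jd K (m * q) 1 (one_dvd _)) =
      TriVal.jd K (m * q * q) 1 (one_dvd _) :=
    Subtype.ext (by rw [coe_alphaC]; rfl)
  change IsIntegral (Algebra.adjoin K {alphaC K (m * q) q (w' (TriVal.jd K (m * q) 1
    (one_dvd _)))}) (alphaC K (m * q) q (w' (TriVal.jd K (m * q) q (dvd_mul_left q m)))) at h3
  rw [e1, e2, e3, e4] at h3
  exact h3

/-- **The instance of `LevelQ`.** -/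
def levelQ (I : LevelInput A K m q ζ e₁ w w') (T : TriInput A K m q ζ e₁ w D) (ι : K →+* ℂ) :
    LevelQ D (setup I T) where
  V0_eq := rfl
  V1_eq := rfl
  V2_eq := rfl
  al := alphaC K (m * q) q
  mem0 _ := Iff.rfl
  mem1 y hy := by
    change alphaC K (m * q) q y ∈ (D.v 1).O
    rw [T.h1.mem_iff, I.e1_alpha]
    exact ((W0_gauss T).mem_iff y).1 hy
  mem2 y := by
    change alphaC K (m * q) q y ∈ (D.v 2).O ↔ y ∈ (W1 D).O
    rcases eq_or_ne y 0 with rfl | hy
    · rw [map_zero]
      exact iff_of_true (zero_mem _) (zero_mem _)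
    have hy' : alphaC K (m * q) q y ≠ 0 := (map_ne_zero _).mpr hy
    rw [(D.v 2).mem_iff _ hy', (W1 D).mem_iff _ hy]
    have h1 : (D.v 2).ord (alphaC K (m * q) q y) = (W1 D).ord y := by
      refine T.h2.ord_eq I.hK.unif hy' ?_
      change HasOrd A (q : Qb) (e0 K (m * q * q) (w (alphaC K (m * q) q y))) _
      rw [I.e0_w_alpha]
      exact ((W1_gauss I T).hasOrd y hy).qExpand q
    rw [h1]
  red0 y _ := (DV.comap_red _ _ y).symm
  red2 y hy := by
    change y ∈ (W1 D).O at hy
    change (D.v 2).red (alphaC K (m * q) q y) =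
      verMap (IsLocalRing.ResidueField A) q m ((W1 D).red y)
    have h1 : e0 K (m * q) (w' y) ∈ gaussSubring A := ((W1_gauss I T).mem_iff y).1 hy
    have h2 := (W1_gauss I T).red y h1
    have h3 : e0 K (m * q * q) (w (alphaC K (m * q) q y)) ∈ gaussSubring A := by
      rw [I.e0_w_alpha]; exact qExpand_mem_gaussSubring q h1
    have h4 := T.h2.red (alphaC K (m * q) q y) h3
    apply (rr A m).injective
    refine h4.trans ?_
    have h5 : (⟨e0 K (m * q * q) (w (alphaC K (m * q) q y)), h3⟩ : gaussSubring A) =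
        ⟨_, qExpand_mem_gaussSubring q h1⟩ := Subtype.ext (I.e0_w_alpha y)
    refine (congrArg (gaussRed A) h5).trans ?_
    refine (gaussRed_qExpand q ⟨_, h1⟩).trans ?_
    have h6 : gaussRed A ⟨e0 K (m * q) (w' y), h1⟩ = rr A m ((W1 D).red y) := h2.symm
    rw [h6]
    rfl
  Na_int b hb := by
    rw [T.hj] at hb ⊢
    exact isIntegral_normAlong_al (alphaC K (m * q) q)
      (jE := TriVal.jd K (m * q) 1 (one_dvd _)) (Subtype.ext (by rw [coe_alphaC]; rfl)) hb
  Nb_int b hb := by
    rw [T.hj] at hb ⊢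
    refine isIntegral_normAlong_be (alphaC K (m * q) q) (betaC K (m * q) q)
      (jE := TriVal.jd K (m * q) 1 (one_dvd _))
      (jq := TriVal.jd K (m * q * q) q (dvd_mul_left q (m * q)))
      (Subtype.ext (by rw [coe_alphaC]; rfl)) (Subtype.ext ?_)
      (isIntegral_j_of_jq I ι) hb
    rw [coe_betaC, TriVal.coe_jd, TriVal.coe_jd, qExpand_qExpand]
    exact congrArg Subtype.val (jd_congr_index (K := K) (N := m * q * q) (mul_one q)
      (by rw [mul_one]; exact dvd_mul_left q (m * q)) (dvd_mul_left q (m * q)))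

end Fermat.Agent.S36norm
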