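import Fermat.Agent.TriVal.K0Unif
import Fermat.Agent.TwoGauss.QExp
import Fermat.Agent.MultRed.InertiaVal

set_option autoImplicit false

/-!
# Inertia acts transitively on the primitive `q`-th roots of unity
-/

noncomputable section

open Fermat.Agent.TriVal Fermat.Agent.LocE Fermat.Agent.GaussVal Fermat.Agent.TwoGauss

namespace Fermat.Agent.S36norm

variable {q : ℕ} {A : ValuationSubring Qb}

theorem val_zeta_sub_one_lt (hq : q.Prime) (hA : A.LiesOverPrime q) {ζ : Qb}
    (hζ : IsPrimitiveRoot ζ q) : A.valuation (ζ - 1) < 1 :=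
  (isUnif_K1 hq hA hζ).lt_one

theorem zeta_residue_eq_one (hq : q.Prime) (hA : A.LiesOverPrime q) {ζ : Qb}
    (hζ : IsPrimitiveRoot ζ q) (h : ζ ∈ A) : IsLocalRing.residue A ⟨ζ, h⟩ = 1 := by
  have h1 : IsLocalRing.residue A (⟨ζ, h⟩ - 1) = 0 := by
    rw [IsLocalRing.residue_eq_zero_iff, IsLocalRing.mem_maximalIdeal]
    apply (ValuationSubring.coe_mem_nonunits_iff (A := A)).1
    rw [ValuationSubring.mem_nonunits_iff]
    exact val_zeta_sub_one_lt hq hA hζ
  rw [map_sub, map_one, sub_eq_zero] at h1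
  exact h1

/-- Inertia acts transitively on the primitive `q`-th roots of unity. -/
theorem exists_inertia_zeta (hq : q.Prime) (hA : A.LiesOverPrime q) {ζ : Qb}
    (hζ : IsPrimitiveRoot ζ q) {η : Qb} (hη : IsPrimitiveRoot η q) :
    ∃ σ ∈ A.inertiaSubgroupIn ℚ, σ ζ = η := by
  classical
  have hpos := hq.pos
  have : NeZero q := ⟨hq.ne_zero⟩
  set R : Finset Qb := primitiveRoots q Qb with hR
  set O : Finset Qb := R.filter (fun y => ∃ σ ∈ A.inertiaSubgroupIn ℚ, σ ζ = y) with hO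
  have hζO : ζ ∈ O := by
    rw [hO, Finset.mem_filter, hR, mem_primitiveRoots hpos]
    exact ⟨hζ, 1, one_mem _, rfl⟩
  have hprim : ∀ y ∈ O, IsPrimitiveRoot y q := fun y hy => by
    rw [hO, Finset.mem_filter, hR, mem_primitiveRoots hpos] at hy
    exact hy.1
  set P : Qb := ∏ y ∈ O, (1 - y) with hP
  have hP0 : P ≠ 0 := by
    rw [hP, Finset.prod_ne_zero_iff]
    intro y hy
    exact sub_ne_zero.mpr ((hprim y hy).ne_one hq.one_lt).symm
  have hPfix : P ∈ K0 A := by
    rw [mem_K0_iff]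
    intro τ hτ
    rw [hP, map_prod]
    refine Finset.prod_bij (fun y _ => τ y) ?_ ?_ ?_ ?_
    · intro y hy
      rw [hO, Finset.mem_filter, hR, mem_primitiveRoots hpos] at hy ⊢
      obtain ⟨h1, σ, hσ, h2⟩ := hy
      refine ⟨h1.map_of_injective τ.injective, τ * σ, mul_mem hτ hσ, ?_⟩
      rw [AlgEquiv.mul_apply, h2]
    · intro a _ b _ h
      exact τ.injective h
    · intro y hy
      rw [hO, Finset.mem_filter, hR, mem_primitiveRoots hpos] at hy
      obtain ⟨h1, σ, hσ, h2⟩ := hy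
      refine ⟨τ⁻¹ y, ?_, ?_⟩
      · rw [hO, Finset.mem_filter, hR, mem_primitiveRoots hpos]
        refine ⟨h1.map_of_injective (τ⁻¹).injective, τ⁻¹ * σ, mul_mem (inv_mem hτ) hσ, ?_⟩
        rw [AlgEquiv.mul_apply, h2]
      · exact AlgEquiv.apply_symm_apply τ y
    · intro y _
      rw [map_sub, map_one]
  have hval : ∀ y ∈ O, A.valuation (1 - y) = A.valuation (ζ - 1) := by
    intro y hy
    obtain ⟨i, hi, rfl⟩ := hζ.eq_pow_of_pow_eq_one (hprim y hy).pow_eq_one
    have hi0 : i ≠ 0 := by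
      rintro rfl
      exact (hprim _ hy).ne_one hq.one_lt (pow_zero ζ)
    have hc : i.Coprime q := (Nat.Coprime.symm ((Nat.Prime.coprime_iff_not_dvd hq).mpr
      fun hd => absurd (Nat.le_of_dvd (Nat.pos_of_ne_zero hi0) hd) (by omega)))
    rw [val_one_sub_pow_eq hζ hq hc, ← Valuation.map_neg, neg_sub]
  have hvP : A.valuation P = A.valuation (ζ - 1) ^ (O.card : ℤ) := by
    rw [hP, map_prod, Finset.prod_congr rfl hval, Finset.prod_const, zpow_natCast]
  obtain ⟨n, hn⟩ := (isUnif_K0 hq hA).exists_zpow P hPfix hP0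
  rw [hvP, ← val_zeta_sub_one_pow (A := A) hζ hq, ← zpow_natCast, ← zpow_mul] at hn
  have hcard := (isUnif_K1 hq hA hζ).zpow_injective hn
  have hOpos : 0 < O.card := Finset.card_pos.2 ⟨ζ, hζO⟩
  have hn1 : 1 ≤ n := by
    by_contra h
    push Not at h
    have h1 : n ≤ 0 := by omega
    have h2 : (((q - 1 : ℕ) : ℤ)) * n ≤ 0 :=
      mul_nonpos_of_nonneg_of_nonpos (by positivity) h1
    omega
  have hle : q - 1 ≤ O.card := by
    have h2 : (((q - 1 : ℕ) : ℤ)) * 1 ≤ ((q - 1 : ℕ) : ℤ) * n :=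
      mul_le_mul_of_nonneg_left hn1 (by positivity)
    omega
  have hRcard : R.card = q - 1 := by
    rw [hR, hζ.card_primitiveRoots, Nat.totient_prime hq]
  have hOR : O = R := Finset.eq_of_subset_of_card_le (Finset.filter_subset _ _) (by omega)
  have hηR : η ∈ O := by
    rw [hOR, hR, mem_primitiveRoots hpos]; exact hη
  rw [hO, Finset.mem_filter] at hηR
  exact hηR.2

end Fermat.Agent.S36norm
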