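import Mathlib

set_option autoImplicit false

/-!
# The Deuring (Hasse) polynomial

`H n = ∑_{i ≤ n} (n choose i)² Xⁱ`.  In characteristic `p = 2 n + 1` it is separable, with
nonzero values at `0` and `1`.
-/

open Polynomial Finset

namespace Fermat.Agent.S36deur

/-- The Deuring polynomial `∑_{i ≤ n} (n choose i)² Xⁱ`. -/
noncomputable def deuring (R : Type*) [CommRing R] (n : ℕ) : R[X] :=
  ∑ i ∈ range (n + 1), C ((n.choose i : R) ^ 2) * X ^ i

section Basic

variable (R : Type*) [CommRing R] (n : ℕ)

lemma coeff_deuring (i : ℕ) : (deuring R n).coeff i = (n.choose i : R) ^ 2 := by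
  rw [deuring, finsetSum_coeff]
  simp only [coeff_C_mul, coeff_X_pow, mul_ite, mul_one, mul_zero]
  rw [Finset.sum_ite_eq]
  split_ifs with h
  · rfl
  · have : n < i := by simpa using h
    rw [Nat.choose_eq_zero_of_lt this]; simp

lemma natDegree_deuring_le : (deuring R n).natDegree ≤ n := by
  rw [natDegree_le_iff_coeff_eq_zero]
  intro i hi
  rw [coeff_deuring, Nat.choose_eq_zero_of_lt hi]; simp

lemma monic_deuring : (deuring R n).Monic := by
  refine monic_of_natDegree_le_of_coeff_eq_one n (natDegree_deuring_le R n) ?_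
  rw [coeff_deuring]; simp

lemma natDegree_deuring [Nontrivial R] : (deuring R n).natDegree = n := by
  refine le_antisymm (natDegree_deuring_le R n) (le_natDegree_of_ne_zero ?_)
  rw [coeff_deuring]; simp

lemma eval_zero_deuring : (deuring R n).eval 0 = 1 := by
  rw [← coeff_zero_eq_eval_zero, coeff_deuring]; simp

lemma eval_one_deuring : (deuring R n).eval 1 = ((2 * n).choose n : R) := by
  have h : (2 * n).choose n = ∑ i ∈ range (n + 1), (n.choose i) ^ 2 := by
    rw [two_mul, Nat.add_choose_eq, Finset.Nat.sum_antidiagonal_eq_sum_range_succ_mk]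
    refine Finset.sum_congr rfl fun i hi => ?_
    have : i ≤ n := by simpa [Nat.lt_succ_iff] using hi
    rw [Nat.choose_symm this, sq]
  rw [deuring, eval_finsetSum, h]
  push_cast
  exact Finset.sum_congr rfl fun i _ => by simp

lemma map_deuring {S : Type*} [CommRing S] (f : R →+* S) :
    (deuring R n).map f = deuring S n := by
  ext i
  rw [coeff_map, coeff_deuring, coeff_deuring]
  simp

end Basic

section CharP

variable {K : Type*} [Field K] {p n : ℕ} [Fact p.Prime] [CharP K p]

include p in
lemma eval_one_deuring_ne_zero (hn : 2 * n + 1 = p) : (deuring K n).eval 1 ≠ 0 := by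
  rw [eval_one_deuring]
  intro h
  have h1 : p ∣ (2 * n).choose n := (CharP.cast_eq_zero_iff K p _).1 h
  have hp : p.Prime := Fact.out
  have h2 : ¬ p ∣ (2 * n).choose n := by
    intro h3
    have h4 : p ∣ (2 * n).factorial := by
      have := Nat.choose_mul_factorial_mul_factorial (n := 2 * n) (k := n) (by omega)
      rw [← this]
      exact Dvd.dvd.mul_right (Dvd.dvd.mul_right h3 _) _
    have h5 := (hp.dvd_factorial).1 h4
    omega
  exact h2 h1

/-- The Gauss differential equation satisfied by the Deuring polynomial. -/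
lemma deuring_ode (hn : 2 * n + 1 = p) :
    4 * X * (1 - X) * derivative (derivative (deuring K n)) +
      4 * (1 - 2 * X) * derivative (deuring K n) - deuring K n = 0 := by
  have hp0 : ((2 * n + 1 : ℕ) : K) = 0 := by rw [hn]; exact CharP.cast_eq_zero K p
  set H := deuring K n with hH
  have e : 4 * X * (1 - X) * derivative (derivative H) + 4 * (1 - 2 * X) * derivative H - H =
      C 4 * (X * derivative (derivative H)) - C 4 * (X * (X * derivative (derivative H)))
        + C 4 * derivative H - C 8 * (X * derivative H) - H := by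
    have h4 : (C 4 : K[X]) = 4 := map_ofNat C 4
    have h8 : (C 8 : K[X]) = 8 := map_ofNat C 8
    rw [h4, h8]; ring
  rw [e]
  ext i
  have key : ((i : K) + 1) ^ 2 * (n.choose (i + 1) : K) ^ 2 =
      ((n : K) - i) ^ 2 * (n.choose i : K) ^ 2 := by
    rcases le_or_gt i n with h | h
    · have h1 := Nat.choose_succ_right_eq n i
      have h2 : (n.choose (i + 1) : K) * ((i : K) + 1) = (n.choose i : K) * ((n : K) - i) := by
        have := congrArg (fun m : ℕ => (m : K)) h1
        push_cast [Nat.cast_sub h] at this
        exact this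
      linear_combination ((n.choose (i + 1) : K) * ((i : K) + 1) +
        (n.choose i : K) * ((n : K) - i)) * h2
    · rw [Nat.choose_eq_zero_of_lt h, Nat.choose_eq_zero_of_lt (by omega)]; simp
  have hn' : (2 : K) * n + 1 = 0 := by
    have := hp0
    push_cast at this
    exact this
  simp only [coeff_sub, coeff_add, coeff_C_mul, coeff_zero]
  rcases i with _ | _ | i
  · simp only [mul_coeff_zero, coeff_X_zero, zero_mul, coeff_derivative, hH,
      coeff_deuring]
    simp at key ⊢
    linear_combination 4 * key + (2 * (n : K) - 1) * hn'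
  · simp only [coeff_X_mul, mul_coeff_zero, coeff_X_zero, zero_mul, coeff_derivative, hH,
      coeff_deuring]
    push_cast at key ⊢
    linear_combination 4 * key + (n.choose 1 : K) ^ 2 * (2 * (n : K) - 5) * hn'
  · simp only [coeff_X_mul, coeff_derivative, hH, coeff_deuring]
    push_cast at key ⊢
    linear_combination 4 * key +
      (n.choose (i + 2) : K) ^ 2 * (2 * (n : K) - 4 * (i + 2) - 1) * hn'

/-- A root of the Deuring polynomial is a simple root. -/
theorem derivative_eval_ne_zero (hn : 2 * n + 1 = p) {a : K} (ha : (deuring K n).eval a = 0) :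
    (derivative (deuring K n)).eval a ≠ 0 := by
  intro ha'
  set H := deuring K n with hH
  have hH0 : H ≠ 0 := (monic_deuring K n).ne_zero
  have hp : p.Prime := Fact.out
  have ha0 : a ≠ 0 := by
    rintro rfl
    rw [hH, eval_zero_deuring] at ha
    exact one_ne_zero ha
  have ha1 : a ≠ 1 := by
    rintro rfl
    exact eval_one_deuring_ne_zero hn ha
  obtain ⟨g, hg, hgd⟩ := exists_eq_pow_rootMultiplicity_mul_and_not_dvd H hH0 a
  have hm : 1 < H.rootMultiplicity a :=
    (one_lt_rootMultiplicity_iff_isRoot hH0).2 ⟨ha, ha'⟩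
  have hmn : H.rootMultiplicity a ≤ n := by
    have h1 := natDegree_le_of_dvd (pow_rootMultiplicity_dvd H a) hH0
    rw [natDegree_pow, natDegree_X_sub_C, mul_one] at h1
    exact h1.trans (natDegree_deuring_le K n)
  obtain ⟨k, hk⟩ : ∃ k, H.rootMultiplicity a = k + 2 := ⟨_, (Nat.sub_add_cancel hm).symm⟩
  rw [hk] at hg hmn
  have ode := deuring_ode (K := K) hn
  rw [← hH, hg] at ode
  have hXa : (X - C a : K[X]) ≠ 0 := X_sub_C_ne_zero a
  have hd1 : derivative ((X - C a) ^ (k + 2) * g) =
      (X - C a) ^ (k + 1) * (C ((k : K) + 2) * g + (X - C a) * derivative g) := by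
    rw [derivative_mul, derivative_pow]
    simp only [derivative_sub, derivative_X, derivative_C, sub_zero, mul_one, map_add]
    push_cast
    simp only [map_add, map_natCast, map_ofNat]
    ring
  have hd2 : derivative ((X - C a) ^ (k + 1) * (C ((k : K) + 2) * g + (X - C a) * derivative g)) =
      (X - C a) ^ k * (C (((k : K) + 1) * ((k : K) + 2)) * g +
        (X - C a) * (C (2 * ((k : K) + 2)) * derivative g + (X - C a) * derivative (derivative g))) := by
    rw [derivative_mul, derivative_pow]
    simp only [derivative_sub, derivative_X, derivative_C, sub_zero, mul_one, map_add,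
      derivative_mul, zero_mul, zero_add]
    push_cast
    simp only [map_natCast, map_ofNat, map_mul, map_add, map_one]
    ring
  rw [hd1, hd2] at ode
  have h0 : (X - C a) ^ k * (4 * X * (1 - X) * (C (((k : K) + 1) * ((k : K) + 2)) * g +
      (X - C a) * (C (2 * ((k : K) + 2)) * derivative g + (X - C a) * derivative (derivative g))) +
      (X - C a) * (4 * (1 - 2 * X) * (C ((k : K) + 2) * g + (X - C a) * derivative g)) -
      (X - C a) ^ 2 * g) = 0 := by
    rw [← ode]; ring
  have h1 := (mul_eq_zero.1 h0).resolve_left (pow_ne_zero _ hXa)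
  have h2 := congrArg (eval a) h1
  simp only [eval_sub, eval_add, eval_mul, eval_X, eval_C, eval_pow, sub_self, zero_mul,
    eval_zero, add_zero, eval_one, eval_ofNat, ne_eq, OfNat.ofNat_ne_zero, not_false_eq_true,
    zero_pow, sub_zero] at h2
  have hga : g.eval a ≠ 0 := fun h => hgd (dvd_iff_isRoot.2 h)
  have h4 : (4 : K) ≠ 0 := by
    have h2' : (2 : K) ≠ 0 := by
      intro h
      have : p ∣ 2 := (CharP.cast_eq_zero_iff K p 2).1 (by exact_mod_cast h)
      have := (Nat.prime_dvd_prime_iff_eq hp Nat.prime_two).1 this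
      omega
    have : (4 : K) = 2 * 2 := by norm_num
    rw [this]; exact mul_ne_zero h2' h2'
  have hk1 : (k : K) + 1 ≠ 0 := by
    intro h
    have : p ∣ k + 1 := (CharP.cast_eq_zero_iff K p _).1 (by exact_mod_cast h)
    have := Nat.le_of_dvd (by omega) this
    omega
  have hk2 : (k : K) + 2 ≠ 0 := by
    intro h
    have : p ∣ k + 2 := (CharP.cast_eq_zero_iff K p _).1 (by exact_mod_cast h)
    have := Nat.le_of_dvd (by omega) this
    omega
  have ha1' : 1 - a ≠ 0 := sub_ne_zero.2 ha1.symm
  exact (mul_ne_zero (mul_ne_zero (mul_ne_zero h4 ha0) ha1')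
    (mul_ne_zero (mul_ne_zero hk1 hk2) hga)) h2

/-- The Deuring polynomial is separable in characteristic `p = 2 n + 1`. -/
theorem separable_deuring (hn : 2 * n + 1 = p) : (deuring K n).Separable := by
  have hmap : ((deuring K n).map (algebraMap K (AlgebraicClosure K))).Separable := by
    rw [map_deuring]
    have : CharP (AlgebraicClosure K) p := charP_of_injective_algebraMap
      (algebraMap K (AlgebraicClosure K)).injective p
    rw [Polynomial.Separable]
    refine isCoprime_of_dvd _ _ (fun h => (monic_deuring (AlgebraicClosure K) n).ne_zero h.1) ?_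
    intro z hz hz0 hz1 hz2
    obtain ⟨a, ha⟩ := IsAlgClosed.exists_root z (fun hd => hz ((isUnit_iff_degree_eq_zero).2 hd))
    obtain ⟨w, hw⟩ := hz1
    obtain ⟨w2, hw2⟩ := hz2
    have e1 : (deuring (AlgebraicClosure K) n).eval a = 0 := by
      rw [hw, eval_mul, ha.eq_zero, zero_mul]
    have e2 : (derivative (deuring (AlgebraicClosure K) n)).eval a = 0 := by
      rw [hw2, eval_mul, ha.eq_zero, zero_mul]
    exact derivative_eval_ne_zero hn e1 e2
  exact (separable_map _).1 hmap

end CharP

end Fermat.Agent.S36deur
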