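import Mathlib

set_option autoImplicit false

/-!
# Hilbert 90 for a group acting on a field with a finite orbit
-/

namespace Fermat.Agent.S36desc

/-- Linear independence of powers at distinct points: if `∑ γ(y) yⁱ = 0` for all `i` then
`γ = 0` (`s` finite). -/
theorem eq_zero_of_sum_mul_pow {F : Type*} [Field F] (s : Finset F) (γ : F → F)
    (h : ∀ i : ℕ, ∑ y ∈ s, γ y * y ^ i = 0) : ∀ y ∈ s, γ y = 0 := by
  classical
  -- for every polynomial
  have h1 : ∀ p : Polynomial F, ∑ y ∈ s, γ y * p.eval y = 0 := by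
    intro p
    induction p using Polynomial.induction_on' with
    | add p q hp hq =>
      simp only [Polynomial.eval_add, mul_add, Finset.sum_add_distrib, hp, hq, add_zero]
    | monomial n a =>
      have : ∑ y ∈ s, γ y * (Polynomial.monomial n a).eval y = a * ∑ y ∈ s, γ y * y ^ n := by
        rw [Finset.mul_sum]
        refine Finset.sum_congr rfl fun y _ => ?_
        rw [Polynomial.eval_monomial]; ring
      rw [this, h n, mul_zero]
  intro y hy
  have h2 := h1 (∏ z ∈ s.erase y, (Polynomial.X - Polynomial.C z))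
  rw [Finset.sum_eq_single y] at h2
  · rcases mul_eq_zero.1 h2 with h3 | h3
    · exact h3
    · exfalso
      rw [Polynomial.eval_prod, Finset.prod_eq_zero_iff] at h3
      obtain ⟨z, hz, hz0⟩ := h3
      rw [Polynomial.eval_sub, Polynomial.eval_X, Polynomial.eval_C, sub_eq_zero] at hz0
      exact (Finset.mem_erase.1 hz).1 hz0.symm
  · intro z hz hzy
    rw [Polynomial.eval_prod, Finset.prod_eq_zero (Finset.mem_erase.2 ⟨hzy, hz⟩), mul_zero]
    simp
  · intro h3; exact absurd hy h3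

/-- Hilbert 90: a cocycle which is trivial on the stabiliser of an element with finite orbit is a
coboundary. -/
theorem exists_coboundary {G F : Type*} [Group G] [Field F] [MulSemiringAction G F] (g : G → F)
    (hg0 : ∀ σ, g σ ≠ 0) (hg : ∀ σ τ, g (σ * τ) = g σ * σ • g τ) (f : F)
    (hfin : (MulAction.orbit G f).Finite) (hstab : ∀ σ : G, σ • f = f → g σ = 1) :
    ∃ h : F, h ≠ 0 ∧ ∀ σ : G, g σ * σ • h = h := by
  classical
  -- well defined on the orbit
  have h1 : ∀ σ τ : G, σ • f = τ • f → g σ = g τ := by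
    intro σ τ h
    have h2 : (τ⁻¹ * σ) • f = f := by rw [mul_smul, h, inv_smul_smul]
    have h3 := hg τ (τ⁻¹ * σ)
    rw [mul_inv_cancel_left, hstab _ h2, smul_one, mul_one] at h3
    exact h3
  set s : Finset F := hfin.toFinset with hs
  have hmem : ∀ y, y ∈ s ↔ ∃ σ : G, σ • f = y := by
    intro y
    rw [hs, Set.Finite.mem_toFinset]
    exact Iff.rfl
  let γ : F → F := fun y => if h : ∃ σ : G, σ • f = y then g h.choose else 1
  have hγ : ∀ σ : G, γ (σ • f) = g σ := by
    intro σ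
    have hex : ∃ τ : G, τ • f = σ • f := ⟨σ, rfl⟩
    have : γ (σ • f) = g hex.choose := dif_pos hex
    rw [this]
    exact h1 _ _ hex.choose_spec
  have hγs : ∀ σ : G, ∀ y ∈ s, γ (σ • y) = g σ * σ • γ y := by
    intro σ y hy
    obtain ⟨τ, rfl⟩ := (hmem y).1 hy
    rw [← mul_smul, hγ, hγ, hg]
  obtain ⟨i, hi⟩ : ∃ i : ℕ, ∑ y ∈ s, γ y * y ^ i ≠ 0 := by
    by_contra hcon
    push Not at hcon
    have := eq_zero_of_sum_mul_pow s γ hcon f ((hmem f).2 ⟨1, one_smul G f⟩)
    have h2 := hγ 1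
    rw [one_smul] at h2
    exact hg0 1 (h2 ▸ this)
  refine ⟨_, hi, fun σ => ?_⟩
  rw [Finset.smul_sum, Finset.mul_sum]
  refine Finset.sum_bij (fun y _ => σ • y) ?_ ?_ ?_ ?_
  · intro y hy
    obtain ⟨τ, rfl⟩ := (hmem y).1 hy
    exact (hmem _).2 ⟨σ * τ, mul_smul _ _ _⟩
  · intro y _ z _ h
    exact MulAction.injective σ h
  · intro y hy
    obtain ⟨τ, rfl⟩ := (hmem y).1 hy
    exact ⟨(σ⁻¹ * τ) • f, (hmem _).2 ⟨_, rfl⟩, by rw [← mul_smul, mul_inv_cancel_left]⟩
  · intro y hy
    rw [hγs σ y hy, smul_mul', smul_pow']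
    ring

end Fermat.Agent.S36desc
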