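import Fermat.Agent.S36.H90
import Fermat.Agent.QX4.Norm
import Fermat.Agent.FF.AlgClosed
import Fermat.Prelude.Def_AlgebraicCurve_BaseChangeGalois

set_option autoImplicit false
set_option linter.style.haveILetI false

/-!
# Invariant representatives of invariant torsion classes
-/

noncomputable section

open AlgebraicCurve Fermat.Agent.TEll Fermat.Agent.QX4

namespace Fermat.Agent.S36desc

section Abstract

variable {K F : Type*} [Field K] [Field F] [Algebra K F]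

/-- A normalisation (leading coefficient at a rational point). -/
structure Lead (K F : Type*) [Field K] [Field F] [Algebra K F] where
  lc : F → K
  lc_mul : ∀ x y : F, lc (x * y) = lc x * lc y
  lc_const : ∀ c : K, lc (algebraMap K F c) = c
  lc_ne_zero : ∀ x : F, x ≠ 0 → lc x ≠ 0

namespace Lead

variable (Λ : Lead K F)

theorem lc_one : Λ.lc 1 = 1 := by
  have := Λ.lc_const 1
  rwa [map_one] at this

theorem lc_inv {x : F} (hx : x ≠ 0) : Λ.lc x⁻¹ = (Λ.lc x)⁻¹ := by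
  have h := Λ.lc_mul x x⁻¹
  rw [mul_inv_cancel₀ hx, Λ.lc_one] at h
  exact eq_inv_of_mul_eq_one_right h.symm

theorem lc_pow (x : F) (n : ℕ) : Λ.lc (x ^ n) = Λ.lc x ^ n := by
  induction n with
  | zero => simp [Λ.lc_one]
  | succ n ih => rw [pow_succ, Λ.lc_mul, ih, pow_succ]

/-- Two functions with the same divisor and the same leading coefficient agree. -/
theorem eq_of_ord_eq [IsAlgClosed K] [FF.IsFF K F] {f g : F} (hf : f ≠ 0) (hg : g ≠ 0)
    (h : ∀ v : Place K F, v.ord f = v.ord g) (hlc : Λ.lc f = Λ.lc g) : f = g := by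
  have h1 : ∀ v : Place K F, v.ord (f * g⁻¹) = 0 := by
    intro v
    rw [v.ord_mul hf (inv_ne_zero hg), v.ord_inv, h v]; ring
  obtain ⟨c, hc⟩ := exists_const_of_ord_eq_zero (mul_ne_zero hf (inv_ne_zero hg)) h1
  have h2 : Λ.lc (f * g⁻¹) = 1 := by
    rw [Λ.lc_mul, Λ.lc_inv hg, hlc, mul_inv_cancel₀ (Λ.lc_ne_zero g hg)]
  rw [← hc, Λ.lc_const] at h2
  rw [h2, map_one] at hc
  rw [eq_comm, mul_inv_eq_one₀ hg] at hc
  exact hc

/-- Every nonzero function can be normalised. -/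
theorem exists_normalised {f : F} (hf : f ≠ 0) :
    ∃ g : F, g ≠ 0 ∧ (∀ v : Place K F, v.ord g = v.ord f) ∧ Λ.lc g = 1 ∧
      ∃ c : K, c ≠ 0 ∧ g = algebraMap K F c * f := by
  have h0 := Λ.lc_ne_zero f hf
  refine ⟨algebraMap K F (Λ.lc f)⁻¹ * f, mul_ne_zero (by simpa using h0) hf, fun v => ?_, ?_,
    _, inv_ne_zero h0, rfl⟩
  · rw [v.ord_mul (by simpa using h0) hf, ord_algebraMap_eq_zero v (inv_ne_zero h0), zero_add]
  · rw [Λ.lc_mul, Λ.lc_const, inv_mul_cancel₀ h0]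

end Lead

variable {G : Type*} [Group G] (ρ : G →* SemilinearAut K F) (Λ : Lead K F)

/-- The valuation of a translate. -/
theorem ord_smul' (g : SemilinearAut K F) (v : Place K F) (f : F) :
    v.ord (g • f) = (g⁻¹ • v).ord f := by
  have := SemilinearAut.ord_smul g (g⁻¹ • v) f
  rwa [smul_inv_smul] at this

/-- **Invariant representatives.** -/
theorem exists_invariant_rep [IsAlgClosed K] [FF.IsFF K F]
    (hlc : ∀ (σ : G) (f : F), Λ.lc f = 1 → Λ.lc (ρ σ • f) = 1)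
    (hfin : ∀ f : F, (Set.range (fun σ : G => ρ σ • f)).Finite)
    {n : ℕ} (hn : 0 < n) (x : Pic0 K F) (hx : n • x = 0) (hI : ∀ σ : G, ρ σ • x = x) :
    ∃ (D : Divisor.degZero (K := K) (F := F)) (f : F), f ≠ 0 ∧ x = Pic0.mk D ∧
      (∀ v : Place K F, v.ord f = n * (D : Divisor K F) v) ∧ Λ.lc f = 1 ∧
      ∀ σ : G, ρ σ • f = f := by
  classical
  obtain ⟨D, rfl⟩ := Pic0.mk_surjective x
  obtain ⟨φ, hφ0, hφ⟩ := exists_ord_eq_of_nsmul_eq_zero hx
  obtain ⟨f, hf0, hfo, hfl, -⟩ := Λ.exists_normalised hφ0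
  have hf : ∀ v : Place K F, v.ord f = n * (D : Divisor K F) v := fun v => by rw [hfo, hφ]
  -- the cocycle
  have h1 : ∀ σ : G, ∃ g : F, g ≠ 0 ∧ Λ.lc g = 1 ∧
      ∀ v : Place K F, v.ord g = (D : Divisor K F) ((ρ σ)⁻¹ • v) - (D : Divisor K F) v := by
    intro σ
    have h2 := hI σ
    rw [SemilinearAut.pic0_smul_mk] at h2
    have h3 : Pic0.mk (SemilinearAut.degZeroSMulHom (ρ σ) D - D) = 0 := by
      have : Pic0.mk (SemilinearAut.degZeroSMulHom (ρ σ) D - D) =
          Pic0.mk (SemilinearAut.degZeroSMulHom (ρ σ) D) - Pic0.mk D := rfl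
      rw [this, h2, sub_self]
    obtain ⟨g, hg0, hg⟩ := (mk_eq_zero_iff _).mp h3
    obtain ⟨g', hg'0, hg'o, hg'l, -⟩ := Λ.exists_normalised hg0
    refine ⟨g', hg'0, hg'l, fun v => ?_⟩
    rw [hg'o, ← hg v, AddSubgroup.coe_sub, Finsupp.sub_apply, SemilinearAut.coe_degZeroSMulHom,
      SemilinearAut.divisor_smul_apply]
  choose g hg0 hgl hgo using h1
  -- the cocycle relation
  have hcoc : ∀ σ τ : G, g (σ * τ) = g σ * ρ σ • g τ := by
    intro σ τ
    have hne : ρ σ • g τ ≠ 0 := by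
      intro h
      exact hg0 τ (by simpa using h)
    refine Λ.eq_of_ord_eq (hg0 _) (mul_ne_zero (hg0 _) hne) (fun v => ?_) ?_
    · rw [v.ord_mul (hg0 _) hne, hgo, hgo, ord_smul', hgo, map_mul, mul_inv_rev, mul_smul]
      ring
    · rw [hgl, Λ.lc_mul, hgl, hlc σ _ (hgl τ), one_mul]
  have hstab : ∀ σ : G, ρ σ • f = f → g σ = 1 := by
    intro σ hσ
    refine Λ.eq_of_ord_eq (hg0 _) one_ne_zero (fun v => ?_) (by rw [hgl, Λ.lc_one])
    rw [hgo, v.ord_one]
    have h2 : v.ord f = n * (D : Divisor K F) ((ρ σ)⁻¹ • v) := by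
      conv_lhs => rw [← hσ]
      rw [ord_smul', hf]
    rw [hf v] at h2
    have hn' : (n : ℤ) ≠ 0 := by exact_mod_cast hn.ne'
    have := mul_left_cancel₀ hn' h2
    omega
  -- Hilbert 90
  letI : MulSemiringAction G F := MulSemiringAction.compHom F ρ
  have hsm : ∀ (σ : G) (y : F), σ • y = ρ σ • y := fun σ y => rfl
  obtain ⟨h, hh0, hh⟩ := exists_coboundary (G := G) (F := F) g hg0 (fun σ τ => by
    rw [hsm]; exact hcoc σ τ) f (hfin f) (fun σ h => hstab σ h)
  -- the new function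
  obtain ⟨h', hh'0, hh'o, hh'l, c, hc0, hc⟩ := Λ.exists_normalised hh0
  obtain ⟨E, hE, hEdeg⟩ := HasPrincipalDivisors.exists_divisor (K := K) h' hh'0
  have hE0 : E ∈ Divisor.degZero (K := K) (F := F) := hEdeg
  have hne : f * h' ^ n ≠ 0 := mul_ne_zero hf0 (pow_ne_zero _ hh'0)
  refine ⟨D + ⟨E, hE0⟩, f * h' ^ n, hne, ?_, fun v => ?_, ?_, fun σ => ?_⟩
  · rw [Pic0.mk_add]
    have : Pic0.mk (⟨E, hE0⟩ : Divisor.degZero (K := K) (F := F)) = 0 :=
      (mk_eq_zero_iff _).mpr ⟨h', hh'0, hE⟩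
    rw [this, add_zero]
  · rw [v.ord_mul hf0 (pow_ne_zero _ hh'0), hf v, ← zpow_natCast, v.ord_zpow,
      AddSubgroup.coe_add, Finsupp.add_apply]
    change _ = (n : ℤ) * ((D : Divisor K F) v + E v)
    rw [hE v]; ring
  · rw [Λ.lc_mul, Λ.lc_pow, hfl, hh'l, one_pow, one_mul]
  · have hne' : ρ σ • (f * h' ^ n) ≠ 0 := by
      intro h2; exact hne (by simpa using h2)
    refine Λ.eq_of_ord_eq hne' hne (fun v => ?_) ?_
    · -- compare divisors
      have e1 : ∀ w : Place K F, w.ord (f * h' ^ n) = n * ((D : Divisor K F) w + w.ord h) := by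
        intro w
        rw [w.ord_mul hf0 (pow_ne_zero _ hh'0), hf w, ← zpow_natCast, w.ord_zpow, hh'o]; ring
      rw [ord_smul', e1, e1]
      have e2 := congrArg v.ord (hh σ)
      have hne2 : ρ σ • h ≠ 0 := by
        intro h2; exact hh0 (by simpa using h2)
      rw [hsm, v.ord_mul (hg0 σ) hne2, hgo, ord_smul'] at e2
      have : (D : Divisor K F) ((ρ σ)⁻¹ • v) + ((ρ σ)⁻¹ • v).ord h =
          (D : Divisor K F) v + v.ord h := by linarith
      rw [this]
    · rw [hlc σ _ (by rw [Λ.lc_mul, Λ.lc_pow, hfl, hh'l, one_pow, one_mul]), Λ.lc_mul, Λ.lc_pow,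
        hfl, hh'l, one_pow, one_mul]

/-- If a principal divisor is invariant then the normalised function is invariant. -/
theorem invariant_of_ord [IsAlgClosed K] [FF.IsFF K F]
    (hlc : ∀ (σ : G) (f : F), Λ.lc f = 1 → Λ.lc (ρ σ • f) = 1) {f : F} (hf0 : f ≠ 0)
    (hfl : Λ.lc f = 1) (h : ∀ (σ : G) (v : Place K F), (((ρ σ)⁻¹ : SemilinearAut K F) • v).ord f = v.ord f)
    (σ : G) : ρ σ • f = f := by
  have hne : ρ σ • f ≠ 0 := by
    intro h2; exact hf0 (by simpa using h2)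
  refine Λ.eq_of_ord_eq hne hf0 (fun v => ?_) (by rw [hlc σ f hfl, hfl])
  rw [ord_smul', h]

end Abstract

end Fermat.Agent.S36desc
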