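import Fermat.Agent.TriDim.Concrete
import Fermat.Agent.TriComp.IC

/-!
# Divisors of the function field over the fixed field of inertia

`L ⊂ ℚ̄` is the fixed field of a set `Γ` of endomorphisms.  Constants, genus, divisibility of
divisors and transfer of principal divisors between `L` and `ℚ̄`.
-/

set_option autoImplicit false

open AlgebraicCurve WithZero Module Polynomial ModularCurve
open scoped IntermediateField
open Fermat.Agent.FF Fermat.Agent.TwoComp Fermat.Agent.TriVal Fermat.Agent.LocE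
open Fermat.Agent.TriDim Fermat.Agent.TriComp Fermat.Agent.Deuring Fermat.Agent.QX

noncomputable section

namespace Fermat.Agent.S36K0

theorem exists_const_closed {K F : Type*} [Field K] [Field F] [Algebra K F] [IsAlgClosed K]
    [IsFF K F] {f : F} (hf : ∀ v : Place K F, 0 ≤ v.ord f) : ∃ c : K, f = algebraMap K F c := by
  have hne : Nonempty (Place K F) := exists_place
  have hfr : ∀ v : Place K F, v.FiniteResidue := fun v => ⟨inferInstance⟩
  have hfin : Module.Finite K (RR.constants K F) := RR.finite_constants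
  have h1 : Algebra.IsIntegral K (RR.constants K F) := Algebra.IsIntegral.of_finite K _
  have hmem : f ∈ RR.constants K F := fun v =>
    (v.adicValuation_le_one_iff (f := f)).mpr (Or.inr (hf v))
  have h2 : IsIntegral K f := by
    have h3 := h1.isIntegral (⟨f, hmem⟩ : RR.constants K F)
    exact h3.map (RR.constants K F).val
  obtain ⟨c, hc⟩ := mem_range_of_isAlgebraic h2.isAlgebraic
  exact ⟨c, hc.symm⟩

section General

variable {L : Type*} [Field L] [Algebra L Qb] {N : ℕ} [NeZero N]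

local notation "FL" => modularFunctionFieldFullC L N
local notation "FQ" => modularFunctionFieldFullC Qb N

theorem natCast_ne_zero_of_algebra (L : Type*) [Field L] [Algebra L Qb] (N : ℕ) [NeZero N] :
    (N : L) ≠ 0 := by
  intro h
  have h1 : algebraMap L Qb (N : L) = 0 := by rw [h, map_zero]
  rw [map_natCast] at h1
  exact NeZero.ne N (by exact_mod_cast h1)

theorem nopole_iff {K F : Type*} [Field K] [Field F] [Algebra K F] [IsFF K F] {y f : F}
    (hy : y ≠ 0) (hf : f ≠ 0) : (∀ v : Place K F, 0 ≤ v.ord f) ↔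
      IsIntegral (Algebra.adjoin K {y}) f ∧ IsIntegral (Algebra.adjoin K {y⁻¹}) f := by
  constructor
  · intro h
    exact ⟨(mem_ic_iff_place hy hf).2 fun w _ => h w,
      (mem_ic_iff_place (inv_ne_zero hy) hf).2 fun w _ => h w⟩
  · rintro ⟨h1, h2⟩ w
    rcases le_total 0 (w.ord y) with h | h
    · exact (mem_ic_iff_place hy hf).1 h1 w h
    · exact (mem_ic_iff_place (inv_ne_zero hy) hf).1 h2 w (by rw [w.ord_inv]; omega)

/-- An element without poles over `L` has no poles over `ℚ̄`, and conversely. -/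
theorem nopole_bc_iff [IsFF L FL] {f : FL} :
    (∀ v : Place Qb FQ, 0 ≤ v.ord (bc L Qb N f)) ↔ ∀ v : Place L FL, 0 ≤ v.ord f := by
  rcases eq_or_ne f 0 with rfl | hf0
  · simp
  have hy := jE_ne_zero L N
  have hf0' : bc L Qb N f ≠ 0 := (_root_.map_ne_zero _).mpr hf0
  have hy' : bc L Qb N (jE L N) ≠ 0 := (_root_.map_ne_zero _).mpr hy
  have e' : bc L Qb N (jE L N)⁻¹ = (bc L Qb N (jE L N))⁻¹ := map_inv₀ _ _
  rw [nopole_iff hy' hf0', nopole_iff hy hf0, ← e', isIntegral_bc_iff, isIntegral_bc_iff]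

theorem coeff_coe_algebraMap (K : Type*) [Field K] (N : ℕ) (c : K) (n : ℤ) :
    ((algebraMap K (modularFunctionFieldFullC K N) c : modularFunctionFieldFullC K N) :
      LaurentSeries K).coeff n = c * (1 : LaurentSeries K).coeff n := by
  have h1 : ((algebraMap K (modularFunctionFieldFullC K N) c : modularFunctionFieldFullC K N) :
      LaurentSeries K) = algebraMap K (LaurentSeries K) c * 1 := by
    rw [mul_one]; rfl
  rw [h1]
  exact Fermat.Agent.GaussVal.coeff_algebraMap_mul c 1 n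

/-- An element without poles is a constant. -/
theorem exists_const [IsFF L FL] {f : FL} (hf : ∀ v : Place L FL, 0 ≤ v.ord f) :
    ∃ c : L, f = algebraMap L FL c := by
  obtain ⟨c, hc⟩ := exists_const_closed (nopole_bc_iff.2 hf)
  have h1 : ∀ n, algebraMap L Qb ((f : LaurentSeries L).coeff n) =
      c * (1 : LaurentSeries Qb).coeff n := by
    intro n
    rw [← coeff_coe_algebraMap Qb N, ← hc, coeff_bc]
  have h0 : algebraMap L Qb ((f : LaurentSeries L).coeff 0) = c := by
    rw [h1, HahnSeries.coeff_one, if_pos rfl, mul_one]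
  refine ⟨(f : LaurentSeries L).coeff 0, ?_⟩
  apply Subtype.ext
  ext n
  rw [coeff_coe_algebraMap]
  apply (algebraMap L Qb).injective
  rw [h1, map_mul, h0, HahnSeries.coeff_one, HahnSeries.coeff_one]
  split_ifs <;> simp

/-- **Constants.** -/
theorem ell_zero [IsFF L FL] : RR.ell (0 : Divisor L FL) = 1 := by
  have h1 : riemannRochSpace (0 : Divisor L FL) = Submodule.span L {(1 : FL)} := by
    apply le_antisymm
    · intro f hf
      rcases eq_or_ne f 0 with rfl | hf0
      · exact Submodule.zero_mem _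
      rw [mem_L_iff hf0] at hf
      obtain ⟨c, hc⟩ := exists_const (L := L) (N := N) (f := f) (fun v => by
        have := hf v
        simpa using this)
      rw [Submodule.mem_span_singleton]
      exact ⟨c, by rw [Algebra.smul_def, mul_one, hc]⟩
    · rw [Submodule.span_le, Set.singleton_subset_iff]
      change (1 : FL) ∈ riemannRochSpace (0 : Divisor L FL)
      rw [mem_L_iff one_ne_zero]
      intro v
      simp
  rw [RR.ell, h1]
  exact finrank_span_singleton one_ne_zero

/-- **Riemann–Roch over `L`.** -/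
theorem finrank_L_of_large [IsFF L FL] {D : Divisor L FL}
    (h : 2 * (genusFF L FL : ℤ) - 2 < Divisor.degree D) :
    (finrank L (riemannRochSpace D) : ℤ) = Divisor.degree D + 1 - genusFF L FL := by
  have htr := transcendental_jE L N
  have : FiniteDimensional L⟮jE L N⟯ FL := IsFF.finite_adjoin _ htr
  have : Nonempty (Place L FL) := exists_place
  have : ∀ v : Place L FL, v.FiniteResidue := finiteResidue_place
  have h1 := RR.ell_eq (K := L) (F := FL) (jE L N) htr (D := D) (by rw [ell_zero]; push_cast; linarith)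
  rw [ell_zero] at h1
  rw [RR.ell] at h1
  push_cast at h1
  exact h1

/-- The round-up of `(1/n) div φ`. -/
def ceilDiv {K F : Type*} [Field K] [Field F] [Algebra K F] [IsFF K F] (n : ℕ) (φ : F) :
    Divisor K F :=
  Finsupp.mapRange (fun z : ℤ => -(-z / n)) (by simp) (divOf φ)

theorem ceilDiv_apply {K F : Type*} [Field K] [Field F] [Algebra K F] [IsFF K F] (n : ℕ) (φ : F)
    (v : Place K F) : ceilDiv n φ v = -(-(v.ord φ) / n) := by
  rw [ceilDiv, Finsupp.mapRange_apply, divOf_apply]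

theorem ceilDiv_le_iff {K F : Type*} [Field K] [Field F] [Algebra K F] [IsFF K F] {n : ℕ}
    (hn : 0 < n) (φ : F) (v : Place K F) (b : ℤ) : ceilDiv n φ v ≤ b ↔ v.ord φ ≤ n * b := by
  have hn' : (0 : ℤ) < n := by exact_mod_cast hn
  rw [ceilDiv_apply, neg_le, Int.le_ediv_iff_mul_le hn']
  constructor <;> intro h <;> nlinarith

/-- The twisted space as a Riemann–Roch space. -/
theorem mem_rr_iff {K F : Type*} [Field K] [Field F] [Algebra K F] [IsFF K F] {n : ℕ}
    (hn : 0 < n) {y φ : F} (hy : y ≠ 0) (hφ : φ ≠ 0) {r : ℕ} (h : F) :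
    h ∈ riemannRochSpace ((r : ℤ) • poleD (K := K) y - ceilDiv n φ) ↔
      IsIntegral (Algebra.adjoin K {y}) (h ^ n / φ) ∧
        IsIntegral (Algebra.adjoin K {y⁻¹}) (h ^ n / φ * y⁻¹ ^ (n * r)) := by
  rw [← mem_Lp_iff_isIntegral hy]
  rcases eq_or_ne h 0 with rfl | h0
  · rw [zero_pow hn.ne', zero_div]
    exact iff_of_true (Submodule.zero_mem _) (Submodule.zero_mem _)
  rw [mem_L_iff h0, mem_Lp' (div_ne_zero (pow_ne_zero n h0) hφ)]
  refine forall_congr' fun v => ?_
  have e2 : v.ord (h ^ n / φ) = n * v.ord h - v.ord φ := by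
    rw [div_eq_mul_inv, v.ord_mul (pow_ne_zero n h0) (inv_ne_zero hφ), v.ord_inv, QX.ord_pow]
    ring
  rw [Finsupp.sub_apply, Finsupp.smul_apply, poleD_apply, e2, smul_eq_mul]
  have h1 := ceilDiv_le_iff hn φ v (v.ord h + r * max (-v.ord y) 0)
  push_cast
  constructor
  · intro H
    have h2 := h1.1 (by linarith)
    linarith
  · intro H
    have h2 := h1.2 (by linarith)
    linarith

section Gam

variable (Γ : Set (Qb →+* Qb))
    (hΓ : ∀ x : Qb, (∀ σ ∈ Γ, σ x = x) → x ∈ Set.range (algebraMap L Qb))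
    (hΓL : ∀ σ ∈ Γ, ∀ a : L, σ (algebraMap L Qb a) = algebraMap L Qb a)

include hΓ hΓL

/-- The basic dimension comparison. -/
theorem degree_ceilDiv_aux [IsFF L FL] {n : ℕ} (hn : 0 < n) {φ : FL} (hφ0 : φ ≠ 0)
    (hφ : ∀ v : Place Qb FQ, (n : ℤ) ∣ v.ord (bc L Qb N φ)) :
    (genusFF L FL : ℤ) + Divisor.degree (ceilDiv n φ : Divisor L FL) = genusFF Qb FQ := by
  have hψ := dedekindPsi_pos N
  have hdeg : finrank L⟮jE L N⟯ FL = dedekindPsi N :=
    finrank_jE L N (natCast_ne_zero_of_algebra L N)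
  -- large r
  obtain ⟨r, hr1, hr2⟩ : ∃ r : ℕ, 2 * (genusFF Qb FQ : ℤ) - 2 < r * dedekindPsi N ∧
      2 * (genusFF L FL : ℤ) - 2 + Divisor.degree (ceilDiv n φ : Divisor L FL) <
        r * dedekindPsi N := by
    set a : ℤ := 2 * (genusFF Qb FQ : ℤ) - 2
    set b : ℤ := 2 * (genusFF L FL : ℤ) - 2 + Divisor.degree (ceilDiv n φ : Divisor L FL)
    refine ⟨(max a b).toNat + 1, ?_, ?_⟩
    · have h1 := Int.self_le_toNat (max a b)
      have h2 : (1 : ℤ) ≤ dedekindPsi N := by exact_mod_cast hψ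
      have h3 := le_max_left a b
      push_cast
      nlinarith [Int.natCast_nonneg (max a b).toNat]
    · have h1 := Int.self_le_toNat (max a b)
      have h2 : (1 : ℤ) ≤ dedekindPsi N := by exact_mod_cast hψ
      have h3 := le_max_right a b
      push_cast
      nlinarith [Int.natCast_nonneg (max a b).toNat]
  obtain ⟨W, hW, -, hdim⟩ := exists_W_aux (L := L) Γ hΓ hΓL hn hφ0 hφ hr1
  have hWeq : W = riemannRochSpace ((r : ℤ) • poleD (K := L) (jE L N) - ceilDiv n φ) := by
    ext h
    rw [hW, mem_rr_iff hn (jE_ne_zero L N) hφ0]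
  have hdegD : Divisor.degree ((r : ℤ) • poleD (K := L) (jE L N) - ceilDiv n φ) =
      r * dedekindPsi N - Divisor.degree (ceilDiv n φ : Divisor L FL) := by
    rw [map_sub, map_zsmul, degree_poleD (transcendental_jE L N), hdeg, smul_eq_mul]
  have h2 := finrank_L_of_large (L := L) (N := N)
    (D := (r : ℤ) • poleD (K := L) (jE L N) - ceilDiv n φ) (by rw [hdegD]; linarith)
  rw [← hWeq, hdim, hdegD] at h2
  linarith

/-- **Genus.** -/
theorem genus_eq [IsFF L FL] : genusFF L FL = genusFF Qb FQ := by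
  have h := degree_ceilDiv_aux (L := L) (N := N) Γ hΓ hΓL (n := 1) one_pos (φ := 1) one_ne_zero
    (fun v => by rw [Nat.cast_one]; exact one_dvd _)
  have h2 : (ceilDiv 1 (1 : FL) : Divisor L FL) = 0 := by
    ext v
    rw [ceilDiv_apply]
    simp
  rw [h2, map_zero, add_zero] at h
  exact_mod_cast h

/-- **Divisibility of divisors descends.** -/
theorem dvd_ord [IsFF L FL] {n : ℕ} (hn : 0 < n) {φ : FL} (hφ0 : φ ≠ 0)
    (hφ : ∀ v : Place Qb FQ, (n : ℤ) ∣ v.ord (bc L Qb N φ)) (v : Place L FL) :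
    (n : ℤ) * ceilDiv n φ v = v.ord φ := by
  have h1 := degree_ceilDiv_aux Γ hΓ hΓL hn hφ0 hφ
  rw [genus_eq Γ hΓ hΓL] at h1
  have h2 : Divisor.degree (ceilDiv n φ : Divisor L FL) = 0 := by linarith
  have h3 : divOf φ ≤ (n : ℤ) • (ceilDiv n φ : Divisor L FL) := by
    intro w
    rw [divOf_apply, Finsupp.smul_apply, smul_eq_mul]
    exact (ceilDiv_le_iff hn φ w _).1 le_rfl
  have : Nonempty (Place L FL) := exists_place
  have : ∀ v : Place L FL, v.FiniteResidue := finiteResidue_place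
  have h4 : divOf φ = (n : ℤ) • (ceilDiv n φ : Divisor L FL) :=
    RR.eq_of_le_of_degree_le h3 (by rw [map_zsmul, h2, smul_zero, degree_divOf])
  have h5 := congrArg (fun D : Divisor L FL => D v) h4
  simp only [divOf_apply, Finsupp.smul_apply, smul_eq_mul] at h5
  exact h5.symm

/-- **Descent of divisors.** -/
theorem exists_divisor [IsFF L FL] {n : ℕ} (hn : 0 < n) {φ : FL} (hφ0 : φ ≠ 0)
    (hφ : ∀ v : Place Qb FQ, (n : ℤ) ∣ v.ord (bc L Qb N φ)) :
    ∃ D : Divisor L FL, Divisor.degree D = 0 ∧ ∀ v : Place L FL, (n : ℤ) * D v = v.ord φ := by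
  refine ⟨ceilDiv n φ, ?_, fun v => dvd_ord Γ hΓ hΓL hn hφ0 hφ v⟩
  have h1 := degree_ceilDiv_aux Γ hΓ hΓL hn hφ0 hφ
  rw [genus_eq Γ hΓ hΓL] at h1
  linarith

/-- **Degrees.** -/
theorem finrank_bc [IsFF L FL] {y : FL} (hy : Transcendental Qb (bc L Qb N y)) :
    finrank L⟮y⟯ FL = finrank Qb⟮bc L Qb N y⟯ FQ := by
  have hy0 : y ≠ 0 := by
    rintro rfl
    rw [map_zero] at hy
    exact hy isAlgebraic_zero
  have hyL : Transcendental L y := by
    intro h
    apply hy
    obtain ⟨p, hp, hpy⟩ := h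
    refine ⟨p.map (algebraMap L Qb), (Polynomial.map_ne_zero_iff (algebraMap L Qb).injective).2 hp,
      ?_⟩
    have h2 : aeval (bc L Qb N y) (p.map (algebraMap L Qb)) = bc L Qb N (aeval y p) := by
      rw [aeval_def, eval₂_map, aeval_def, Polynomial.hom_eval₂]
      congr 1
      exact RingHom.ext fun c => (bc_algebraMap L Qb N c).symm
    rw [h2, hpy, map_zero]
  have hfin1 := IsFF.finite_adjoin y hyL
  have hfin2 := IsFF.finite_adjoin (bc L Qb N y) hy
  have hp1 : 0 < finrank L⟮y⟯ FL := Module.finrank_pos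
  have hp2 : 0 < finrank Qb⟮bc L Qb N y⟯ FQ := Module.finrank_pos
  set d := finrank Qb⟮bc L Qb N y⟯ FQ
  set e := finrank L⟮y⟯ FL
  have key : ∀ r : ℕ, 2 * (genusFF Qb FQ : ℤ) - 2 < r → (r : ℤ) * d = r * e := by
    intro r hr
    have hg := genus_eq Γ hΓ hΓL (L := L) (N := N)
    have h1 := (finrank_twistL (L := L) (K := Qb) (N := N) Γ hΓ hΓL hy (n := 1) one_pos (φ := 1)
      one_ne_zero (fun v => by rw [Nat.cast_one]; exact one_dvd _) (r := r) (by
        have h2 : (1 : ℤ) ≤ d := by exact_mod_cast hp2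
        have h3 : (0 : ℤ) ≤ r := Int.natCast_nonneg r
        change _ < (r : ℤ) * (d : ℤ)
        nlinarith)).2
    have h2 : twistL L N Qb y 1 1 r =
        riemannRochSpace ((r : ℤ) • poleD (K := L) y - ceilDiv 1 (1 : FL)) := by
      ext h
      rw [mem_twistL (L := L) (K := Qb) (N := N) hy0 one_pos one_ne_zero
        (fun v => by rw [Nat.cast_one]; exact one_dvd _), mem_rr_iff one_pos hy0 one_ne_zero]
    have h3 : (ceilDiv 1 (1 : FL) : Divisor L FL) = 0 := by
      ext v
      rw [ceilDiv_apply]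
      simp
    have hdegD : Divisor.degree ((r : ℤ) • poleD (K := L) y - ceilDiv 1 (1 : FL)) = r * e := by
      rw [h3, sub_zero, map_zsmul, degree_poleD hyL, smul_eq_mul]
    have h4 := finrank_L_of_large (L := L) (N := N)
      (D := (r : ℤ) • poleD (K := L) y - ceilDiv 1 (1 : FL)) (by
        rw [hdegD, hg]
        have h2 : (1 : ℤ) ≤ e := by exact_mod_cast hp1
        have h3 : (0 : ℤ) ≤ r := Int.natCast_nonneg r
        nlinarith)
    rw [← h2, h1, hdegD, hg] at h4
    change (r : ℤ) * (d : ℤ) + 1 - _ = _ at h4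
    linarith
  set r : ℕ := (2 * (genusFF Qb FQ : ℤ) - 2).toNat + 1 with hr
  have h1 := key r (by
    have := Int.self_le_toNat (2 * (genusFF Qb FQ : ℤ) - 2)
    rw [hr]; push_cast; omega)
  have hr0 : (r : ℤ) ≠ 0 := by rw [hr]; push_cast; omega
  have h2 := mul_left_cancel₀ hr0 h1
  exact_mod_cast h2.symm

end Gam

/-- **Transfer of principal divisors.** -/
theorem isPrincipal_of [IsFF L FL] {n : ℕ} (hn : 0 < n) {φ : FL} (hφ0 : φ ≠ 0)
    {D : Divisor Qb FQ} (hD : ∀ v : Place Qb FQ, v.ord (bc L Qb N φ) = n * D v)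
    {D' : Divisor L FL} (hD' : ∀ v : Place L FL, (n : ℤ) * D' v = v.ord φ) {a : ℤ}
    (h : Divisor.IsPrincipal (a • D')) : Divisor.IsPrincipal (a • D) := by
  obtain ⟨g, hg0, hg⟩ := h
  have hn' : (n : ℤ) ≠ 0 := by exact_mod_cast hn.ne'
  have hne : φ ^ a / g ^ n ≠ 0 := div_ne_zero (zpow_ne_zero _ hφ0) (pow_ne_zero _ hg0)
  have h1 : ∀ v : Place L FL, v.ord (φ ^ a / g ^ n) = 0 := by
    intro v
    rw [div_eq_mul_inv, v.ord_mul (zpow_ne_zero _ hφ0) (inv_ne_zero (pow_ne_zero _ hg0)), v.ord_inv,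
      v.ord_zpow, QX.ord_pow, ← hg v, ← hD' v, Finsupp.smul_apply, smul_eq_mul]
    ring
  obtain ⟨c, hc⟩ := exists_const (L := L) (N := N) (f := φ ^ a / g ^ n) (fun v => (h1 v).ge)
  have hc0 : c ≠ 0 := by
    rintro rfl
    rw [map_zero] at hc
    exact hne hc
  have hg0' : bc L Qb N g ≠ 0 := (_root_.map_ne_zero _).mpr hg0
  have hφ0' : bc L Qb N φ ≠ 0 := (_root_.map_ne_zero _).mpr hφ0
  refine ⟨bc L Qb N g, hg0', fun v => ?_⟩
  have h2 : bc L Qb N φ ^ a = algebraMap Qb FQ (algebraMap L Qb c) * bc L Qb N g ^ n := by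
    have h3 : φ ^ a = algebraMap L FL c * g ^ n := by
      rw [← hc, div_mul_cancel₀ _ (pow_ne_zero _ hg0)]
    rw [← map_zpow₀, h3, map_mul, map_pow, bc_algebraMap]
  have hcc : algebraMap Qb FQ (algebraMap L Qb c) ≠ 0 := by
    simpa using hc0
  have h4 := congrArg v.ord h2
  rw [v.ord_zpow, v.ord_mul hcc (pow_ne_zero _ hg0'), FF.ord_algebraMap, QX.ord_pow, hD v,
    zero_add] at h4
  rw [Finsupp.smul_apply, smul_eq_mul]
  exact mul_left_cancel₀ hn' (by rw [← h4]; ring)

end General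

end Fermat.Agent.S36K0
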