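import Fermat.Agent.S36.NormGauss
import Fermat.Agent.TriGauss.Full

set_option autoImplicit false

/-!
# Atkin--Lehner involutions and the degeneracy maps
-/

noncomputable section

open AlgebraicCurve ModularCurve HahnSeries Fermat.Agent.TEll Fermat.Agent.TriGauss
  Fermat.Agent.TriVal Fermat.Agent.LocE Fermat.Agent.GaussVal Fermat.Agent.TwoGauss

namespace Fermat.Agent.S36norm

theorem jd_congr_index {K : Type*} [Field K] {N a b : ℕ} [NeZero a] [NeZero b] (h : a = b)
    (ha : a ∣ N) (hb : b ∣ N) : TriVal.jd K N a ha = TriVal.jd K N b hb := by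
  subst h; rfl

/-- `w` is the Atkin--Lehner involution `w_Q` of level `N = m Q`. -/
structure IsSwap (K : Type*) [Field K] (N Q m : ℕ)
    (w : modularFunctionFieldFullC K N ≃ₐ[K] modularFunctionFieldFullC K N) : Prop where
  jd : ∀ (a b b' : ℕ) (_ : a ∣ m) (_ : b' * b = Q) [NeZero (a * b)] [NeZero (a * b')]
    (h : a * b ∣ N) (h' : a * b' ∣ N),
    w (TriVal.jd K N (a * b) h) = TriVal.jd K N (a * b') h'

theorem IsSwap.of_swapQ {K : Type*} [Field K] {N Q m : ℕ} [NeZero N] {hN : N = m * Q}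
    {hQ : Q ≠ 0} {hc : Q.Coprime m}
    {w : modularFunctionFieldFullC K N ≃ₐ[K] modularFunctionFieldFullC K N}
    (hw : ∀ d : Dv N, w (TriVal.jd K N d.1 d.2) =
      TriVal.jd K N (swapQ N Q m hN hQ hc d).1 (swapQ N Q m hN hQ hc d).2) :
    IsSwap K N Q m w where
  jd a b b' ha hb hn hn' h h' := by
    have h1 := hw ⟨a * b, h⟩
    have h2 := swapQ_mul hN hQ hc ha hb h h'
    refine h1.trans ?_
    exact jd_congr_index (congrArg Subtype.val h2) _ _

theorem exists_isSwap (K : Type*) [Field K] [Algebra ℚ K] (ι : K →+* ℂ) {N Q m : ℕ} [NeZero N]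
    (hN : N = m * Q) (hQ : Q ≠ 0) (hc : Q.Coprime m) :
    ∃ w : modularFunctionFieldFullC K N ≃ₐ[K] modularFunctionFieldFullC K N, IsSwap K N Q m w := by
  obtain ⟨w, hw, -⟩ := exists_atkinLehnerQ (K := K) ι hN hQ hc
  refine ⟨((fullEquiv K N).symm.trans w).trans (fullEquiv K N),
    IsSwap.of_swapQ (hN := hN) (hQ := hQ) (hc := hc) fun d => ?_⟩
  rw [AlgEquiv.trans_apply, AlgEquiv.trans_apply, fullEquiv_symm_jd, hw, fullEquiv_jdB]

section Rel

variable {K : Type*} [Field K] {m q : ℕ} [NeZero m] [NeZero q] [NeZero (m * q)]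
  [NeZero (m * q * q)]
  {w : modularFunctionFieldFullC K (m * q * q) ≃ₐ[K] modularFunctionFieldFullC K (m * q * q)}
  {w' : modularFunctionFieldFullC K (m * q) ≃ₐ[K] modularFunctionFieldFullC K (m * q)}

/-- every divisor of `m Q` is `a b` with `a ∣ m` and `b ∣ Q` -/
theorem exists_fac {m Q d : ℕ} (hd : d ∣ m * Q) : ∃ a b b' : ℕ, a ∣ m ∧ b' * b = Q ∧ d = a * b := by
  obtain ⟨a, b, ha, ⟨b', hb⟩, rfl⟩ := Nat.dvd_mul.mp hd
  exact ⟨a, b, b', ha, by rw [hb, mul_comm], rfl⟩

theorem neZero_of_dvd {N d : ℕ} [NeZero N] (h : d ∣ N) : NeZero d :=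
  ⟨fun h0 => NeZero.ne N (Nat.eq_zero_of_zero_dvd (h0 ▸ h))⟩

omit [NeZero m] in
/-- `w ∘ α = β ∘ w'` -/
theorem swap_alpha (hw : IsSwap K (m * q * q) (q * q) m w) (hw' : IsSwap K (m * q) q m w')
    (x : modularFunctionFieldFullC K (m * q)) :
    w (alphaC K (m * q) q x) = betaC K (m * q) q (w' x) := by
  have key : ((w : _ →ₐ[K] modularFunctionFieldFullC K (m * q * q)).comp
      (alphaC K (m * q) q) : modularFunctionFieldFullC K (m * q) →+*
        modularFunctionFieldFullC K (m * q * q)) =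
      (((betaC K (m * q) q).comp
        (w' : _ →ₐ[K] modularFunctionFieldFullC K (m * q)) :
          modularFunctionFieldFullC K (m * q) →ₐ[K] modularFunctionFieldFullC K (m * q * q)) :
        modularFunctionFieldFullC K (m * q) →+* modularFunctionFieldFullC K (m * q * q)) := by
    apply fullC_ringHom_ext
    · intro c
      change w (alphaC K (m * q) q (algebraMap K _ c)) =
        betaC K (m * q) q (w' (algebraMap K _ c))
      rw [AlgHom.commutes, AlgEquiv.commutes, AlgEquiv.commutes, AlgHom.commutes]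
    · intro d hne hd
      obtain ⟨a, b, b', ha, hb, rfl⟩ := exists_fac hd
      have h1 : a * b' ∣ m * q := mul_dvd_mul ha ⟨b, hb.symm⟩
      have hne1 : NeZero (a * b') := neZero_of_dvd h1
      have h2 : a * b ∣ m * q * q := hd.mul_right _
      have h3 : a * (q * b') ∣ m * q * q := by
        have : m * q * q = m * (q * q) := by ring
        rw [this]
        exact mul_dvd_mul ha (mul_dvd_mul_left q ⟨b, hb.symm⟩)
      have hne3 : NeZero (a * (q * b')) := neZero_of_dvd h3
      change w (alphaC K (m * q) q (TriVal.jd K (m * q) (a * b) hd)) =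
        betaC K (m * q) q (w' (TriVal.jd K (m * q) (a * b) hd))
      have h4 : alphaC K (m * q) q (TriVal.jd K (m * q) (a * b) hd) =
          TriVal.jd K (m * q * q) (a * b) h2 := Subtype.ext (by rw [coe_alphaC]; rfl)
      rw [h4, hw.jd a b (q * b') ha (by rw [mul_assoc, hb]) h2 h3, hw'.jd a b b' ha hb hd h1]
      apply Subtype.ext
      rw [coe_betaC, TriVal.coe_jd, TriVal.coe_jd, qExpand_qExpand]
      exact congrArg Subtype.val (jd_congr_index (K := K) (N := m * q * q)
        (show a * (q * b') = q * (a * b') by ring) h3 (by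
          rw [show q * (a * b') = a * (q * b') by ring]; exact h3))
  exact congrArg (fun g : modularFunctionFieldFullC K (m * q) →+*
    modularFunctionFieldFullC K (m * q * q) => g x) key

/-- `w` is an involution. -/
theorem IsSwap.invol {N Q m : ℕ} [NeZero N] (hN : N = m * Q)
    {w : modularFunctionFieldFullC K N ≃ₐ[K] modularFunctionFieldFullC K N}
    (hw : IsSwap K N Q m w) (x : modularFunctionFieldFullC K N) : w (w x) = x := by
  have key : RingHomClass.toRingHom (w.trans w) = RingHom.id (modularFunctionFieldFullC K N) := by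
    apply fullC_ringHom_ext
    · intro c
      change w (w (algebraMap K _ c)) = algebraMap K _ c
      rw [AlgEquiv.commutes, AlgEquiv.commutes]
    · intro d hne hd
      have hd' : d ∣ m * Q := hN ▸ hd
      obtain ⟨a, b, b', ha, hb, rfl⟩ := exists_fac hd'
      have h1 : a * b' ∣ N := by rw [hN]; exact mul_dvd_mul ha ⟨b, hb.symm⟩
      have hne1 : NeZero (a * b') := neZero_of_dvd h1
      change w (w (TriVal.jd K N (a * b) hd)) = TriVal.jd K N (a * b) hd
      rw [hw.jd a b b' ha hb hd h1, hw.jd a b' b ha (by rw [mul_comm]; exact hb) h1 hd]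
  exact congrArg (fun g : modularFunctionFieldFullC K N →+* modularFunctionFieldFullC K N => g x)
    key

omit [NeZero m] in
/-- `w ∘ β = α ∘ w'` -/
theorem swap_beta (hw : IsSwap K (m * q * q) (q * q) m w) (hw' : IsSwap K (m * q) q m w')
    (x : modularFunctionFieldFullC K (m * q)) :
    w (betaC K (m * q) q x) = alphaC K (m * q) q (w' x) := by
  have h1 := swap_alpha hw hw' (w' x)
  rw [hw'.invol rfl] at h1
  rw [← h1, hw.invol (by ring)]

omit [NeZero m] in
theorem norm_beta_w (hw : IsSwap K (m * q * q) (q * q) m w) (hw' : IsSwap K (m * q) q m w')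
    (f : modularFunctionFieldFullC K (m * q * q)) :
    normAlong (betaC K (m * q) q) (w f) = w' (normAlong (alphaC K (m * q) q) f) :=
  normAlong_swap (alphaC K (m * q) q) (betaC K (m * q) q) w'.toRingEquiv w.toRingEquiv
    (fun x => swap_alpha hw hw' x) f

omit [NeZero m] in
theorem norm_alpha_w (hw : IsSwap K (m * q * q) (q * q) m w) (hw' : IsSwap K (m * q) q m w')
    (f : modularFunctionFieldFullC K (m * q * q)) :
    normAlong (alphaC K (m * q) q) (w f) = w' (normAlong (betaC K (m * q) q) f) :=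
  normAlong_swap (betaC K (m * q) q) (alphaC K (m * q) q) w'.toRingEquiv w.toRingEquiv
    (fun x => swap_beta hw hw' x) f

end Rel

section E1

theorem twist_twist {R : Type*} [CommRing R] (a b : Rˣ) (G : LaurentSeries R) :
    X0Emb.twist a (X0Emb.twist b G) = X0Emb.twist (a * b) G := by
  ext n
  simp only [X0Emb.twist_coeff]
  rw [mul_zpow, Units.val_mul, mul_assoc]

theorem twist_one' {R : Type*} [CommRing R] (G : LaurentSeries R) :
    X0Emb.twist (1 : Rˣ) G = G := by
  ext n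
  simp

variable {K : Type*} [Field K] [Algebra K Qb] {A : ValuationSubring Qb}
  {m q : ℕ} [NeZero (m * q * q)]
  {w : modularFunctionFieldFullC K (m * q * q) ≃ₐ[K] modularFunctionFieldFullC K (m * q * q)}
  {ζ : Qbˣ} {e₁ : modularFunctionFieldFullC K (m * q * q) →+* LaurentSeries Qb}

/-- `e₁(w f)(t) = e₁(f)^σ (ζ t)` for `σ` in the inertia group with `σ ζ = ζ⁻¹`. -/
theorem e1_w (hq : q.Prime) (hm : ¬ q ∣ m) (hK : IsK0 A q K) (hζ : ζ ^ q = 1)
    (hw : IsSwap K (m * q * q) (q * q) m w) (he₁ : Emb1 K m q ζ e₁)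
    {σ : Qb ≃ₐ[ℚ] Qb} (hσ : σ ∈ A.inertiaSubgroupIn ℚ)
    (hσζ : Units.map ((σ : Qb →+* Qb) : Qb →* Qb) ζ = ζ⁻¹)
    (f : modularFunctionFieldFullC K (m * q * q)) :
    e₁ (w f) = X0Emb.twist ζ (coeffMap (σ : Qb →+* Qb) (e₁ f)) := by
  have he₂ := he₁.coeffMap hK hσ
  rw [hσζ] at he₂
  have key : e₁.comp (RingHomClass.toRingHom w) =
      (X0Emb.twist ζ).comp ((coeffMap (σ : Qb →+* Qb)).comp e₁) := by
    apply fullC_ringHom_ext
    · intro c
      change e₁ (w (algebraMap K _ c)) =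
        X0Emb.twist ζ (((coeffMap (σ : Qb →+* Qb)).comp e₁) (algebraMap K _ c))
      rw [AlgEquiv.commutes, he₁.const, he₂.const, algebraMap_laurentSeries_eq_single]
      ext n
      rw [X0Emb.twist_coeff, HahnSeries.coeff_single]
      split_ifs with h
      · subst h; simp
      · simp
    · intro d hne hd
      have hd' : d ∣ m * (q * q) := by rw [← mul_assoc]; exact hd
      obtain ⟨a, b, b', ha, hb, rfl⟩ := exists_fac hd'
      have h1 : a * b' ∣ m * q * q := by
        rw [mul_assoc]; exact mul_dvd_mul ha ⟨b, hb.symm⟩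
      have hne1 : NeZero (a * b') := neZero_of_dvd h1
      have hne0 : NeZero a := ⟨fun h0 => NeZero.ne (a * b) (by rw [h0, zero_mul])⟩
      change e₁ (w (TriVal.jd K _ (a * b) hd)) =
        X0Emb.twist ζ (((coeffMap (σ : Qb →+* Qb)).comp e₁) (TriVal.jd K _ (a * b) hd))
      rw [hw.jd a b b' ha hb hd h1, he₁.jd, he₂.jd]
      -- the three cases
      have hbd : b ∣ q ^ 2 := by rw [sq]; exact ⟨b', by rw [← hb, mul_comm]⟩
      obtain ⟨i, hi, rfl⟩ := (Nat.dvd_prime_pow hq).mp hbd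
      have hq0 := hq.pos
      have hs : ∀ (z : Qbˣ) (c : ℕ) (hc : c = q * q * a) (hcd : c ∣ m * q * q),
          S1 z (⟨c, hcd⟩ : Dv (m * q * q)) = X0Emb.twist z (TwoGauss.jd Qb a) := by
        rintro z c rfl hcd
        exact S1_sq_mul hq z a hcd
      interval_cases i
      · -- `b = 1`
        have hb' : b' = q * q := by rw [pow_zero, mul_one] at hb; exact hb
        subst hb'
        rw [hs ζ (a * (q * q)) (by ring) h1]
        have h2 : a * q ^ 0 ∣ m * q := by rw [pow_zero, mul_one]; exact ha.mul_right _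
        rw [S1_of_dvd_mq hq hm _ ⟨a * q ^ 0, hd⟩ h2]
        congr 1
        have h3 : a = a * q ^ 0 := by rw [pow_zero, mul_one]
        exact TriGauss.jd_congr h3
      · -- `b = q`
        have hb' : b' = q := by
          rw [pow_one] at hb
          exact Nat.eq_of_mul_eq_mul_right hq0 hb
        subst hb'
        have h2 : a * b' ^ 1 ∣ m * b' := by rw [pow_one]; exact mul_dvd_mul_right ha _
        have h3 : a * b' ∣ m * b' := mul_dvd_mul_right ha _
        rw [S1_of_dvd_mq hq hm _ ⟨a * b', h1⟩ h3, S1_of_dvd_mq hq hm _ ⟨a * b' ^ 1, hd⟩ h2]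
        have h4 : TwoGauss.jd Qb (a * b' ^ 1) = TwoGauss.jd Qb (a * b') :=
          TriGauss.jd_congr (by rw [pow_one])
        have : (NeZero.of_gt hq0 : NeZero b') = (NeZero.of_gt hq0 : NeZero b') := rfl
        rw [h4]
        symm
        ext n
        rw [X0Emb.twist_coeff]
        by_cases hn : ((a * b' : ℕ) : ℤ) ∣ n
        · obtain ⟨k, rfl⟩ := hn
          have h5 : (ζ ^ (((a * b' : ℕ) : ℤ) * k) : Qbˣ) = 1 := by
            rw [zpow_mul, zpow_natCast, mul_comm a b', pow_mul, hζ, one_pow, one_zpow]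
          rw [h5, Units.val_one, one_mul]
        · rw [TwoGauss.jd, qExpand_coeff_of_not_dvd _ _ hn, mul_zero]
      · -- `b = q²`
        have hb' : b' = 1 := by
          have h2 : 0 < q ^ 2 := pow_pos hq0 2
          have h3 : b' * q ^ 2 = 1 * q ^ 2 := by rw [hb, one_mul, sq]
          exact Nat.eq_of_mul_eq_mul_right h2 h3
        subst hb'
        rw [hs ζ⁻¹ (a * q ^ 2) (by ring) hd, twist_twist, mul_inv_cancel, twist_one']
        have h2 : a * 1 ∣ m * q := by rw [mul_one]; exact ha.mul_right _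
        rw [S1_of_dvd_mq hq hm _ ⟨a * 1, h1⟩ h2]
        exact TriGauss.jd_congr (mul_one a)
  exact congrArg (fun g : modularFunctionFieldFullC K (m * q * q) →+* LaurentSeries Qb => g f) key

section Gauss

variable (hq : q.Prime) (hm : ¬ q ∣ m) (hA : A.LiesOverPrime q) (hK : IsK0 A q K)
  (hζ : IsPrimitiveRoot ζ q) (hw : IsSwap K (m * q * q) (q * q) m w) (he₁ : Emb1 K m q ζ e₁)

include hq hA hζ in
theorem exists_sigma_inv : ∃ σ ∈ A.inertiaSubgroupIn ℚ,
    Units.map ((σ : Qb →+* Qb) : Qb →* Qb) ζ = ζ⁻¹ := by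
  have h1 : IsPrimitiveRoot (ζ : Qb) q := IsPrimitiveRoot.coe_units_iff.mpr hζ
  obtain ⟨σ, hσ, h⟩ := exists_inertia_zeta hq hA h1 h1.inv
  refine ⟨σ, hσ, Units.ext ?_⟩
  rw [Units.val_inv_eq_inv_val]
  exact h

include hq hm hA hK hζ hw he₁ in
theorem hasOrd_e1_w {ϖ : Qb} {f : modularFunctionFieldFullC K (m * q * q)} {n : ℤ}
    (h : HasOrd A ϖ (e₁ f) n) : HasOrd A ϖ (e₁ (w f)) n := by
  obtain ⟨σ, hσ, hσζ⟩ := exists_sigma_inv (A := A) hq hA hζ
  rw [e1_w hq hm hK hζ.pow_eq_one hw he₁ hσ hσζ]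
  obtain ⟨h1, h2, h3⟩ := zeta_pow_unit (A := A) hq hA hζ 1
  have h4 := HasOrd.twist (ζ ^ 1) h1 h2 h3
    (HasOrd.coeffMap (residueCompat_of_inertia hσ) (MultRed.val_inertia_eq hσ) h)
  rwa [pow_one] at h4

include hq hm hA hK hζ hw he₁ in
theorem e1_w_mem {f : modularFunctionFieldFullC K (m * q * q)} (h : e₁ f ∈ gaussSubring A) :
    ∃ h' : e₁ (w f) ∈ gaussSubring A, gaussRed A ⟨_, h'⟩ = gaussRed A ⟨_, h⟩ := by
  obtain ⟨σ, hσ, hσζ⟩ := exists_sigma_inv (A := A) hq hA hζ
  have h0 := e1_w hq hm hK hζ.pow_eq_one hw he₁ hσ hσζ f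
  obtain ⟨h1, h2, h3⟩ := zeta_pow_unit (A := A) hq hA hζ 1
  have h5 := (residueCompat_of_inertia hσ).coeffMap_mem h
  have h6 := twist_mem (ζ ^ 1) h1 h2 h3 h5
  have h7 : e₁ (w f) = X0Emb.twist (ζ ^ 1) (coeffMap (σ : Qb →+* Qb) (e₁ f)) := by
    rw [pow_one, h0]
  have h8 : e₁ (w f) ∈ gaussSubring A := by rw [h7]; exact h6
  refine ⟨h8, ?_⟩
  have h9 : (⟨e₁ (w f), h8⟩ : gaussSubring A) = ⟨_, h6⟩ := Subtype.ext h7
  rw [h9, gaussRed_twist (ζ ^ 1) h1 h2 h3 ⟨_, h5⟩ h6,
    (residueCompat_of_inertia hσ).gaussRed_coeffMap ⟨_, h⟩ h5, coeffMap_id]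

end Gauss

end E1

end Fermat.Agent.S36norm
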