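import Fermat.Agent.TriVal.GaussDV
import Fermat.Agent.TriVal.K0Unif
import Fermat.Agent.TwoGauss.QExp
import Fermat.Agent.X0Emb.LExp

set_option autoImplicit false

/-!
# Gauss orders under coefficient automorphisms, `f(t) ↦ f(t^d)`, and twists
-/

noncomputable section

open ModularCurve HahnSeries Fermat.Agent.GaussVal Fermat.Agent.TwoGauss Fermat.Agent.X0Emb

namespace Fermat.Agent.TriVal

variable {K : Type*} [Field K] {A : ValuationSubring K} {ϖ : K}

theorem HasOrd.ne_zero {y : LaurentSeries K} {n : ℤ} (h : HasOrd A ϖ y n) : y ≠ 0 := by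
  obtain ⟨c, Y₁, Y₂, hc0, -, h₁, h₂, hy⟩ := h
  rintro rfl
  rw [zero_mul] at hy
  exact mul_ne_zero ((map_ne_zero_iff _ (algebraMap K (LaurentSeries K)).injective).mpr hc0)
    (incl_ne_zero h₁) hy.symm

theorem hasOrd_one : HasOrd A ϖ (1 : LaurentSeries K) 0 := by
  have := hasOrd_algebraMap (A := A) (ϖ := ϖ) (c := (1 : K)) (n := 0) one_ne_zero
    (by rw [map_one, zpow_zero])
  rwa [map_one] at this

theorem HasOrd.prod (hϖ : ϖ ≠ 0) {ι : Type*} (s : Finset ι) {y : ι → LaurentSeries K}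
    {n : ι → ℤ} (h : ∀ i ∈ s, HasOrd A ϖ (y i) (n i)) :
    HasOrd A ϖ (∏ i ∈ s, y i) (∑ i ∈ s, n i) := by
  classical
  induction s using Finset.induction_on with
  | empty => simpa using hasOrd_one
  | insert a s ha ih =>
    rw [Finset.prod_insert ha, Finset.sum_insert ha]
    exact (h a (Finset.mem_insert_self a s)).mul hϖ
      (ih fun i hi => h i (Finset.mem_insert_of_mem hi))

/-- change of uniformizer -/
theorem HasOrd.of_pow {ϖ' : K} {e : ℕ} (hv : A.valuation ϖ' ^ e = A.valuation ϖ)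
    {y : LaurentSeries K} {n : ℤ} (h : HasOrd A ϖ y n) : HasOrd A ϖ' y (e * n) := by
  obtain ⟨c, Y₁, Y₂, hc0, hc, h₁, h₂, hy⟩ := h
  refine ⟨c, Y₁, Y₂, hc0, ?_, h₁, h₂, hy⟩
  rw [hc, ← hv, zpow_mul, zpow_natCast]

theorem HasOrd.congr_unif {ϖ' : K} (hv : A.valuation ϖ' = A.valuation ϖ)
    {y : LaurentSeries K} {n : ℤ} (h : HasOrd A ϖ y n) : HasOrd A ϖ' y n := by
  obtain ⟨c, Y₁, Y₂, hc0, hc, h₁, h₂, hy⟩ := h
  exact ⟨c, Y₁, Y₂, hc0, by rw [hc, hv], h₁, h₂, hy⟩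

/-- Coefficient maps preserving the valuation. -/
theorem HasOrd.coeffMap {σ : K →+* K} {s : IsLocalRing.ResidueField A →+* IsLocalRing.ResidueField A}
    (h : ResidueCompat A σ s) (hv : ∀ c, A.valuation (σ c) = A.valuation c)
    {y : LaurentSeries K} {n : ℤ} (hy : HasOrd A ϖ y n) :
    HasOrd A ϖ (ModularCurve.coeffMap σ y) n := by
  obtain ⟨c, Y₁, Y₂, hc0, hc, h₁, h₂, hy⟩ := hy
  refine ⟨σ c, ModularCurve.coeffMap h.restr Y₁, ModularCurve.coeffMap h.restr Y₂,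
    (map_ne_zero σ).mpr hc0, ?_, h.redS_restr_ne_zero h₁, h.redS_restr_ne_zero h₂, ?_⟩
  · rw [hv, hc]
  · have hcc : ModularCurve.coeffMap σ (algebraMap K (LaurentSeries K) c) =
        algebraMap K (LaurentSeries K) (σ c) := by
      rw [algebraMap_laurentSeries_eq_single, algebraMap_laurentSeries_eq_single]
      ext n
      rw [coeffMap_coeff, HahnSeries.coeff_single, HahnSeries.coeff_single]
      split_ifs
      · rfl
      · rw [map_zero]
    rw [h.incl_restr, h.incl_restr, ← map_mul, hy, map_mul, hcc]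

theorem HasOrd.qExpand (d : ℕ) [NeZero d] {y : LaurentSeries K} {n : ℤ} (hy : HasOrd A ϖ y n) :
    HasOrd A ϖ (ModularCurve.qExpand K d y) n := by
  obtain ⟨c, Y₁, Y₂, hc0, hc, h₁, h₂, hy⟩ := hy
  refine ⟨c, ModularCurve.qExpand A d Y₁, ModularCurve.qExpand A d Y₂, hc0, hc,
    redS_ne_zero_qExpand d h₁, redS_ne_zero_qExpand d h₂, ?_⟩
  rw [coeffMap_qExpand, coeffMap_qExpand, ← map_mul, hy, map_mul]
  congr 1
  rw [algebraMap_laurentSeries_eq_single, qExpand_single, mul_zero]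

section Twist

variable (ζ : Kˣ) (hζ : (ζ : K) ∈ A) (hζ' : ((ζ⁻¹ : Kˣ) : K) ∈ A)

/-- a unit of `K` which is a unit of `A` -/
def unitOf : Aˣ where
  val := ⟨ζ, hζ⟩
  inv := ⟨((ζ⁻¹ : Kˣ) : K), hζ'⟩
  val_inv := Subtype.ext (by simp)
  inv_val := Subtype.ext (by simp)

theorem map_unitOf : Units.map (A.subtype : A →* K) (unitOf ζ hζ hζ') = ζ := by
  ext; rfl

theorem incl_twist (Y : LaurentSeries A) :
    incl A (twist (unitOf ζ hζ hζ') Y) = twist ζ (incl A Y) := by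
  rw [twist_coeffMap]
  congr 1

theorem redS_twist (h1 : IsLocalRing.residue A ⟨ζ, hζ⟩ = 1) (Y : LaurentSeries A) :
    redS A (twist (unitOf ζ hζ hζ') Y) = redS A Y := by
  rw [twist_coeffMap]
  have : Units.map (IsLocalRing.residue A : A →* IsLocalRing.ResidueField A)
      (unitOf ζ hζ hζ') = 1 := by
    ext; exact h1
  have h2 : twist (Units.map (IsLocalRing.residue A : A →* IsLocalRing.ResidueField A)
      (unitOf ζ hζ hζ')) (redS A Y) = twist 1 (redS A Y) := by rw [this]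
  refine h2.trans ?_
  ext n
  rw [Fermat.Agent.X0Emb.twist_coeff, one_zpow, Units.val_one, one_mul]

include hζ' in
theorem HasOrd.twist (h1 : IsLocalRing.residue A ⟨ζ, hζ⟩ = 1) {y : LaurentSeries K} {n : ℤ}
    (hy : HasOrd A ϖ y n) : HasOrd A ϖ (Fermat.Agent.X0Emb.twist ζ y) n := by
  obtain ⟨c, Y₁, Y₂, hc0, hc, h₁, h₂, hy⟩ := hy
  refine ⟨c, Fermat.Agent.X0Emb.twist (unitOf ζ hζ hζ') Y₁,
    Fermat.Agent.X0Emb.twist (unitOf ζ hζ hζ') Y₂, hc0, hc, ?_, ?_, ?_⟩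
  · rwa [redS_twist ζ hζ hζ' h1]
  · rwa [redS_twist ζ hζ hζ' h1]
  · rw [incl_twist, incl_twist, ← map_mul, hy, map_mul]
    congr 1
    rw [algebraMap_laurentSeries_eq_single]
    ext n
    rw [Fermat.Agent.X0Emb.twist_coeff, HahnSeries.coeff_single]
    split_ifs with h
    · subst h; simp
    · simp

include hζ' in
theorem twist_mem (h1 : IsLocalRing.residue A ⟨ζ, hζ⟩ = 1) {y : LaurentSeries K}
    (hy : y ∈ gaussSubring A) : Fermat.Agent.X0Emb.twist ζ y ∈ gaussSubring A := by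
  obtain ⟨Y₁, Y₂, hY, h⟩ := hy
  refine ⟨Fermat.Agent.X0Emb.twist (unitOf ζ hζ hζ') Y₁,
    Fermat.Agent.X0Emb.twist (unitOf ζ hζ hζ') Y₂, ?_, ?_⟩
  · rwa [redS_twist ζ hζ hζ' h1]
  · rw [incl_twist, incl_twist, ← map_mul, h]

include hζ' in
theorem gaussRed_twist (h1 : IsLocalRing.residue A ⟨ζ, hζ⟩ = 1) (y : gaussSubring A)
    (hy : Fermat.Agent.X0Emb.twist ζ (y : LaurentSeries K) ∈ gaussSubring A) :
    gaussRed A ⟨_, hy⟩ = gaussRed A y := by
  obtain ⟨Y₁, Y₂, hY, h⟩ := y.2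
  rw [gaussRed_eq hY h, gaussRed_eq (Y₁ := Fermat.Agent.X0Emb.twist (unitOf ζ hζ hζ') Y₁)
    (Y₂ := Fermat.Agent.X0Emb.twist (unitOf ζ hζ hζ') Y₂)
    (by rwa [redS_twist ζ hζ hζ' h1])
    (by
      change Fermat.Agent.X0Emb.twist ζ (y : LaurentSeries K) * _ = _
      rw [incl_twist, incl_twist, ← map_mul, h]),
    redS_twist ζ hζ hζ' h1, redS_twist ζ hζ hζ' h1]

end Twist

/-- The reduction of a finite product. -/
theorem gaussRed_prod {ι : Type*} (s : Finset ι) (y : ι → LaurentSeries K)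
    (hy : ∀ i, y i ∈ gaussSubring A) (h : ∏ i ∈ s, y i ∈ gaussSubring A) :
    gaussRed A ⟨_, h⟩ = ∏ i ∈ s, gaussRed A ⟨y i, hy i⟩ := by
  rw [← map_prod]
  congr 1
  apply Subtype.ext
  change _ = ((∏ i ∈ s, (⟨y i, hy i⟩ : gaussSubring A) : gaussSubring A) : LaurentSeries K)
  exact (map_prod (gaussSubring A).subtype (fun i => (⟨y i, hy i⟩ : gaussSubring A)) s).symm

end Fermat.Agent.TriVal
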