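import Fermat.Agent.S36.NormProd
import Fermat.Agent.S36.NormOrd
import Fermat.Agent.S36.NormInertia
import Fermat.Agent.TwoGauss.Frob

set_option autoImplicit false

/-!
# Gauss orders and reductions of norms along the degeneracy maps
-/

noncomputable section

open AlgebraicCurve ModularCurve HahnSeries Fermat.Agent.TEll Fermat.Agent.TriGauss
  Fermat.Agent.TriVal Fermat.Agent.LocE Fermat.Agent.GaussVal Fermat.Agent.TwoGauss

namespace Fermat.Agent.S36norm

section General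

variable {K E F : Type*} [Field K] [Field E] [Field F] [Algebra K E] [Algebra K F]

/-- Norms along two homomorphisms exchanged by automorphisms. -/
theorem normAlong_swap (φ ψ : E →ₐ[K] F) (e₁ : E ≃+* E) (e₂ : F ≃+* F)
    (h : ∀ x, e₂ (φ x) = ψ (e₁ x)) (f : F) : normAlong ψ (e₂ f) = e₁ (normAlong φ f) := by
  have h1 := @Algebra.norm_eq_of_equiv_equiv E F E F _ _ _ _
    (algebraAlong φ) (algebraAlong ψ) e₁ e₂ (RingHom.ext fun x => (h x).symm) f
  have h2 : e₁ (@Algebra.norm E F _ _ (algebraAlong φ) f) =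
      @Algebra.norm E F _ _ (algebraAlong ψ) (e₂ f) := by
    rw [h1, RingEquiv.apply_symm_apply]
  exact h2.symm

end General

variable {q m : ℕ} {A : ValuationSubring Qb}

/-- `K` behaves like the fixed field of the inertia group of `A`. -/
structure IsK0 (A : ValuationSubring Qb) (q : ℕ) (K : Type*) [Field K] [Algebra K Qb] : Prop where
  fix : ∀ σ ∈ A.inertiaSubgroupIn ℚ, ∀ c : K, σ (algebraMap K Qb c) = algebraMap K Qb c
  unif : IsUnif A (algebraMap K Qb).fieldRange (q : Qb)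

variable {K : Type*} [Field K] [Algebra K Qb]

variable (K) in
/-- The `q`-expansion over `Q̄`. -/
def e0 (N : ℕ) : modularFunctionFieldFullC K N →+* LaurentSeries Qb :=
  (coeffMap (algebraMap K Qb)).comp (algebraMap (modularFunctionFieldFullC K N) (LaurentSeries K))

theorem e0_apply (N : ℕ) (x : modularFunctionFieldFullC K N) :
    e0 K N x = coeffMap (algebraMap K Qb) (x : LaurentSeries K) := rfl

theorem e0_algebraMap (N : ℕ) (c : K) :
    e0 K N (algebraMap _ _ c) = algebraMap Qb (LaurentSeries Qb) (algebraMap K Qb c) :=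
  coeffMap_algebraMap' K Qb c

theorem e0_jd (N d : ℕ) [NeZero d] (hd : d ∣ N) :
    e0 K N (TriVal.jd K N d hd) = TwoGauss.jd Qb d := by
  rw [e0_apply, TriVal.coe_jd, coeffMap_qExpand, coeffMap_jqModC]; rfl

theorem e0_injective (N : ℕ) : Function.Injective (e0 K N) := (e0 K N).injective

omit [Algebra K Qb] in
/-- a homomorphism which maps generators into `ratSer L` has values in `ratSer L` -/
theorem mem_ratSer_of_gen {N : ℕ} {L : Subfield Qb}
    (e : modularFunctionFieldFullC K N →+* LaurentSeries Qb)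
    (hc : ∀ c : K, e (algebraMap _ _ c) ∈ ratSer L)
    (hj : ∀ (d : ℕ) [NeZero d] (hd : d ∣ N), e (TriVal.jd K N d hd) ∈ ratSer L)
    (x : modularFunctionFieldFullC K N) : e x ∈ ratSer L := by
  obtain ⟨x, hx⟩ := x
  induction hx using IntermediateField.adjoin_induction with
  | mem y hy =>
    obtain ⟨d, hne, hd, rfl⟩ := hy
    exact hj d hd
  | algebraMap a => exact hc a
  | add y z hy' hz' hy hz =>
    have : (⟨y + z, add_mem hy' hz'⟩ : modularFunctionFieldFullC K N) =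
      ⟨y, hy'⟩ + ⟨z, hz'⟩ := rfl
    rw [this, map_add]
    exact add_mem hy hz
  | mul y z hy' hz' hy hz =>
    have : (⟨y * z, mul_mem hy' hz'⟩ : modularFunctionFieldFullC K N) =
      ⟨y, hy'⟩ * ⟨z, hz'⟩ := rfl
    rw [this, map_mul]
    exact mul_mem hy hz
  | inv y hy' hy =>
    have : (⟨y⁻¹, inv_mem hy'⟩ : modularFunctionFieldFullC K N) =
      ⟨y, hy'⟩⁻¹ := rfl
    rw [this, map_inv₀]
    exact inv_mem hy

theorem e0_mem_ratSer (N : ℕ) (x : modularFunctionFieldFullC K N) :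
    e0 K N x ∈ ratSer (algebraMap K Qb).fieldRange := by
  refine mem_ratSer_of_gen _ (fun c => ?_) (fun d _ hd => ?_) x
  · rw [e0_algebraMap]
    exact algebraMap_mem_ratSer ⟨c, rfl⟩
  · rw [e0_jd]
    exact jqd_mem_ratSer d

theorem exists_hasOrd_e0 (hq : q.Prime) (hA : A.LiesOverPrime q) (hK : IsK0 A q K) (N : ℕ)
    {x : modularFunctionFieldFullC K N} (hx : x ≠ 0) :
    ∃ n, HasOrd A (q : Qb) (e0 K N x) n :=
  exists_hasOrd hq hA hK.unif (e0_mem_ratSer N x)
    ((map_ne_zero_iff _ (e0_injective N)).mpr hx)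

section Emb

variable [NeZero (m * q * q)]

/-- The expansion at the third cusp. -/
structure Emb1 (K : Type*) [Field K] [Algebra K Qb] (m q : ℕ) [NeZero (m * q * q)] (ζ : Qbˣ)
    (e : modularFunctionFieldFullC K (m * q * q) →+* LaurentSeries Qb) : Prop where
  const : ∀ c : K, e (algebraMap _ _ c) = algebraMap Qb (LaurentSeries Qb) (algebraMap K Qb c)
  jd : ∀ (d : ℕ) [NeZero d] (hd : d ∣ m * q * q),
    e (TriVal.jd K (m * q * q) d hd) = S1 ζ ⟨d, hd⟩

theorem Emb1.coeffMap (hK : IsK0 A q K) {ζ : Qbˣ}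
    {e : modularFunctionFieldFullC K (m * q * q) →+* LaurentSeries Qb}
    (he : Emb1 K m q ζ e) {σ : Qb ≃ₐ[ℚ] Qb} (hσ : σ ∈ A.inertiaSubgroupIn ℚ) :
    Emb1 K m q (Units.map ((σ : Qb →+* Qb) : Qb →* Qb) ζ)
      ((ModularCurve.coeffMap (σ : Qb →+* Qb)).comp e) where
  const c := by
    change ModularCurve.coeffMap (σ : Qb →+* Qb) (e _) = _
    rw [he.const, algebraMap_laurentSeries_eq_single, coeffMap_single]
    have : (σ : Qb →+* Qb) (algebraMap K Qb c) = algebraMap K Qb c := hK.fix σ hσ c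
    rw [this]
  jd d _ hd := by
    change ModularCurve.coeffMap (σ : Qb →+* Qb) (e _) = _
    rw [he.jd, coeffMap_S1]

theorem Emb1.unique {ζ : Qbˣ}
    {e e' : modularFunctionFieldFullC K (m * q * q) →+* LaurentSeries Qb}
    (he : Emb1 K m q ζ e) (he' : Emb1 K m q ζ e') : e = e' := by
  apply fullC_ringHom_ext
  · intro c; rw [he.const, he'.const]
  · intro d _ hd; rw [he.jd, he'.jd]

end Emb

section Zeta

variable (hq : q.Prime) (hA : A.LiesOverPrime q) {ζ : Qbˣ} (hζ : IsPrimitiveRoot ζ q)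

include hq hA hζ in
/-- a system of inertia elements moving `ζ` to all primitive roots. -/
theorem exists_inertia_fam : ∃ σ : Fin (q - 1) → (Qb ≃ₐ[ℚ] Qb),
    (∀ k, σ k ∈ A.inertiaSubgroupIn ℚ) ∧
    ∀ k, Units.map ((σ k : Qb →+* Qb) : Qb →* Qb) ζ = ζ ^ ((k : ℕ) + 1) := by
  have h1 : IsPrimitiveRoot (ζ : Qb) q := IsPrimitiveRoot.coe_units_iff.mpr hζ
  have key : ∀ k : Fin (q - 1), ∃ σ ∈ A.inertiaSubgroupIn ℚ,
      σ (ζ : Qb) = (ζ : Qb) ^ ((k : ℕ) + 1) := by
    intro k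
    have hk := k.2
    refine exists_inertia_zeta hq hA h1 (h1.pow_of_coprime _
      (Nat.Coprime.symm ((Nat.Prime.coprime_iff_not_dvd hq).mpr
        fun hd => absurd (Nat.le_of_dvd (Nat.succ_pos _) hd) (by omega))))
  choose σ hσ hσ' using key
  refine ⟨σ, hσ, fun k => Units.ext ?_⟩
  rw [Units.val_pow_eq_pow_val]
  exact hσ' k

include hq hA hζ in
theorem zeta_pow_unit (k : ℕ) : ∃ (h : ((ζ ^ k : Qbˣ) : Qb) ∈ A)
    (_ : (((ζ ^ k)⁻¹ : Qbˣ) : Qb) ∈ A), IsLocalRing.residue A ⟨_, h⟩ = 1 := by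
  have h1 : IsPrimitiveRoot (ζ : Qb) q := IsPrimitiveRoot.coe_units_iff.mpr hζ
  have hζA : (ζ : Qb) ∈ A := pow_mem_of_root h1.pow_eq_one hq.pos
  have h2 : ((ζ⁻¹ : Qbˣ) : Qb) ∈ A := by
    refine pow_mem_of_root (q := q) ?_ hq.pos
    rw [← Units.val_pow_eq_pow_val, inv_pow, hζ.pow_eq_one, inv_one, Units.val_one]
  have h3 : ((ζ ^ k : Qbˣ) : Qb) ∈ A := by
    rw [Units.val_pow_eq_pow_val]; exact pow_mem hζA k
  refine ⟨h3, by
    rw [← inv_pow, Units.val_pow_eq_pow_val]; exact pow_mem h2 k, ?_⟩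
  have h4 : (⟨((ζ ^ k : Qbˣ) : Qb), h3⟩ : A) = ⟨(ζ : Qb), hζA⟩ ^ k :=
    Subtype.ext (Units.val_pow_eq_pow_val ζ k)
  rw [h4, map_pow, zeta_residue_eq_one hq hA h1, one_pow]

end Zeta

section Norm

variable [CharZero K] [NeZero m] [NeZero q] [NeZero (m * q)] [NeZero (m * q * q)]
variable (hq : q.Prime) (hm : ¬ q ∣ m) (hA : A.LiesOverPrime q) (hK : IsK0 A q K)
  {ζ : Qbˣ} (hζ : IsPrimitiveRoot ζ q)
  {e₁ : modularFunctionFieldFullC K (m * q * q) →+* LaurentSeries Qb}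
  (he₁ : Emb1 K m q ζ e₁)

include hq hm hA hK hζ he₁ in
/-- The norm along `α` in terms of `e₀` and the inertia conjugates of `e₁`. -/
theorem exists_norm_alpha
    (hdeg : finrankAlong K (alphaC K (m * q) q) = q) :
    ∃ σ : Fin (q - 1) → (Qb ≃ₐ[ℚ] Qb), (∀ k, σ k ∈ A.inertiaSubgroupIn ℚ) ∧
      ∀ f : modularFunctionFieldFullC K (m * q * q),
        e0 K (m * q) (normAlong (alphaC K (m * q) q) f) =
          e0 K (m * q * q) f * ∏ k, ModularCurve.coeffMap (σ k : Qb →+* Qb) (e₁ f) := by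
  obtain ⟨σ, hσ, hσ'⟩ := exists_inertia_fam hq hA hζ
  refine ⟨σ, hσ, fun f => ?_⟩
  have h := coe_norm_alpha (K := K) (L := Qb) hq hm ζ hζ hdeg
    (fun k => (ModularCurve.coeffMap (σ k : Qb →+* Qb)).comp e₁)
    (fun k c => (he₁.coeffMap hK (hσ k)).const c)
    (fun k d _ hd => by
      rw [← hσ' k]
      exact (he₁.coeffMap hK (hσ k)).jd d hd) f
  exact h

include hq hm hA hK hζ he₁ in
theorem hasOrd_norm_alpha
    (hdeg : finrankAlong K (alphaC K (m * q) q) = q)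
    {f : modularFunctionFieldFullC K (m * q * q)} {a b : ℤ}
    (ha : HasOrd A (q : Qb) (e0 K (m * q * q) f) a)
    (hb : HasOrd A ((ζ : Qb) - 1) (e₁ f) b) :
    HasOrd A (q : Qb) (e0 K (m * q) (normAlong (alphaC K (m * q) q) f)) (a + b) := by
  have h1 : IsPrimitiveRoot (ζ : Qb) q := IsPrimitiveRoot.coe_units_iff.mpr hζ
  obtain ⟨σ, hσ, h⟩ := exists_norm_alpha hq hm hA hK hζ he₁ hdeg
  have hπ : ((ζ : Qb) - 1) ≠ 0 := (isUnif_K1 hq hA h1).ne_zero
  have hv := val_zeta_sub_one_pow (A := A) h1 hq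
  have h2 : HasOrd A ((ζ : Qb) - 1)
      (∏ k : Fin (q - 1), ModularCurve.coeffMap (σ k : Qb →+* Qb) (e₁ f))
      (∑ _k : Fin (q - 1), b) :=
    HasOrd.prod hπ _ fun k _ => HasOrd.coeffMap (residueCompat_of_inertia (hσ k))
      (MultRed.val_inertia_eq (hσ k)) hb
  have h3 : HasOrd A ((ζ : Qb) - 1) (e0 K (m * q) (normAlong (alphaC K (m * q) q) f))
      (((q - 1 : ℕ) : ℤ) * (a + b)) := by
    rw [h f]
    have := (HasOrd.of_pow hv ha).mul hπ h2
    rw [Finset.sum_const, Finset.card_univ, Fintype.card_fin, nsmul_eq_mul] at this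
    rwa [mul_add]
  have hf0 : normAlong (alphaC K (m * q) q) f ≠ 0 := by
    intro h0
    rw [h0, map_zero] at h3
    exact h3.ne_zero rfl
  obtain ⟨n, hn⟩ := exists_hasOrd_e0 hq hA hK (m * q) hf0
  have h4 := HasOrd.of_pow hv hn
  have h5 := HasOrd.unique (isUnif_K1 hq hA h1) h3 h4
  have hq1 : ((q - 1 : ℕ) : ℤ) ≠ 0 := by
    have := hq.two_le
    omega
  rw [mul_left_cancel₀ hq1 h5]
  exact hn

include hq hm hA hK hζ he₁ in
theorem norm_alpha_mem
    (hdeg : finrankAlong K (alphaC K (m * q) q) = q)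
    {f : modularFunctionFieldFullC K (m * q * q)}
    (h0 : e0 K (m * q * q) f ∈ gaussSubring A) (h1 : e₁ f ∈ gaussSubring A) :
    ∃ h : e0 K (m * q) (normAlong (alphaC K (m * q) q) f) ∈ gaussSubring A,
      gaussRed A ⟨_, h⟩ = gaussRed A ⟨_, h0⟩ * gaussRed A ⟨_, h1⟩ ^ (q - 1) := by
  obtain ⟨σ, hσ, h⟩ := exists_norm_alpha hq hm hA hK hζ he₁ hdeg
  have h2 : ∀ k : Fin (q - 1), ModularCurve.coeffMap (σ k : Qb →+* Qb) (e₁ f) ∈ gaussSubring A :=
    fun k => (residueCompat_of_inertia (hσ k)).coeffMap_mem h1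
  have h3 : ∏ k : Fin (q - 1), ModularCurve.coeffMap (σ k : Qb →+* Qb) (e₁ f) ∈ gaussSubring A :=
    prod_mem fun k _ => h2 k
  have h4 : e0 K (m * q) (normAlong (alphaC K (m * q) q) f) ∈ gaussSubring A := by
    rw [h f]; exact mul_mem h0 h3
  refine ⟨h4, ?_⟩
  have h5 : (⟨_, h4⟩ : gaussSubring A) = ⟨_, h0⟩ * ⟨_, h3⟩ := Subtype.ext (h f)
  rw [h5, map_mul, gaussRed_prod _ _ h2 h3]
  congr 1
  have h6 : ∀ k : Fin (q - 1), gaussRed A ⟨_, h2 k⟩ = gaussRed A ⟨_, h1⟩ := by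
    intro k
    rw [(residueCompat_of_inertia (hσ k)).gaussRed_coeffMap ⟨_, h1⟩ (h2 k), coeffMap_id]
  rw [Finset.prod_congr rfl (fun k _ => h6 k), Finset.prod_const, Finset.card_univ,
    Fintype.card_fin]

include hq hA hK hζ in
theorem hasOrd_norm_beta
    (hdeg : finrankAlong K (betaC K (m * q) q) = q)
    {f : modularFunctionFieldFullC K (m * q * q)} {a : ℤ}
    (ha : HasOrd A (q : Qb) (e0 K (m * q * q) f) a) :
    HasOrd A (q : Qb) (e0 K (m * q) (normAlong (betaC K (m * q) q) f)) (q * a) := by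
  have h := coe_norm_beta (K := K) (L := Qb) hq ζ hζ hdeg f
  have hq0 : (q : Qb) ≠ 0 := hK.unif.ne_zero
  have h2 : HasOrd A (q : Qb) (∏ k : Fin q, X0Emb.twist (ζ ^ (k : ℕ)) (e0 K (m * q * q) f))
      (∑ _k : Fin q, a) := by
    refine HasOrd.prod hq0 _ fun k _ => ?_
    obtain ⟨hk, hk', hk1⟩ := zeta_pow_unit (A := A) hq hA hζ (k : ℕ)
    exact HasOrd.twist _ hk hk' hk1 ha
  rw [Finset.sum_const, Finset.card_univ, Fintype.card_fin, nsmul_eq_mul] at h2
  have h3 : HasOrd A (q : Qb)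
      (qExpand Qb q (e0 K (m * q) (normAlong (betaC K (m * q) q) f))) (q * a) := by
    have h' : qExpand Qb q (e0 K (m * q) (normAlong (betaC K (m * q) q) f)) = _ := h
    rw [h']
    exact h2
  have hf0 : normAlong (betaC K (m * q) q) f ≠ 0 := by
    intro h0
    rw [h0, map_zero, map_zero] at h3
    exact h3.ne_zero rfl
  obtain ⟨n, hn⟩ := exists_hasOrd_e0 hq hA hK (m * q) hf0
  rw [HasOrd.unique hK.unif h3 (hn.qExpand q)]
  exact hn

include hq hA hK hζ in
theorem norm_beta_mem [Fact q.Prime] [CharP (IsLocalRing.ResidueField A) q]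
    (hdeg : finrankAlong K (betaC K (m * q) q) = q)
    {f : modularFunctionFieldFullC K (m * q * q)}
    (h0 : e0 K (m * q * q) f ∈ gaussSubring A) :
    ∃ h : e0 K (m * q) (normAlong (betaC K (m * q) q) f) ∈ gaussSubring A,
      gaussRed A ⟨_, h⟩ = coeffMap (frobenius (IsLocalRing.ResidueField A) q)
        (gaussRed A ⟨_, h0⟩) := by
  have h : qExpand Qb q (e0 K (m * q) (normAlong (betaC K (m * q) q) f)) =
      ∏ k : Fin q, X0Emb.twist (ζ ^ (k : ℕ)) (e0 K (m * q * q) f) :=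
    coe_norm_beta (K := K) (L := Qb) hq ζ hζ hdeg f
  have h4 : e0 K (m * q) (normAlong (betaC K (m * q) q) f) ∈ gaussSubring A := by
    rcases eq_or_ne f 0 with rfl | hf
    · have : qExpand Qb q (e0 K (m * q) (normAlong (betaC K (m * q) q) 0)) = 0 := by
        rw [h]
        exact Finset.prod_eq_zero (Finset.mem_univ (⟨0, hq.pos⟩ : Fin q))
          (by rw [map_zero, map_zero])
      have h5 := qExpand_injective q (this.trans (map_zero (qExpand Qb q)).symm)
      rw [h5]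
      exact zero_mem _
    · obtain ⟨a, ha⟩ := exists_hasOrd_e0 hq hA hK (m * q * q) hf
      have h5 := hasOrd_norm_beta hq hA hK hζ hdeg ha
      rw [h5.mem_iff hK.unif]
      rw [ha.mem_iff hK.unif] at h0
      positivity
  refine ⟨h4, ?_⟩
  have h2 : ∀ k : Fin q, X0Emb.twist (ζ ^ (k : ℕ)) (e0 K (m * q * q) f) ∈ gaussSubring A := by
    intro k
    obtain ⟨hk, hk', hk1⟩ := zeta_pow_unit (A := A) hq hA hζ (k : ℕ)
    exact twist_mem _ hk hk' hk1 h0
  have h3 : ∏ k : Fin q, X0Emb.twist (ζ ^ (k : ℕ)) (e0 K (m * q * q) f) ∈ gaussSubring A :=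
    prod_mem fun k _ => h2 k
  apply qExpand_injective (R := IsLocalRing.ResidueField A) q
  rw [← gaussRed_qExpand q ⟨_, h4⟩]
  have h5 : (⟨qExpand Qb q (e0 K (m * q) (normAlong (betaC K (m * q) q) f)),
      qExpand_mem_gaussSubring q h4⟩ : gaussSubring A) = ⟨_, h3⟩ := Subtype.ext h
  change gaussRed A (⟨qExpand Qb q (e0 K (m * q) (normAlong (betaC K (m * q) q) f)),
      qExpand_mem_gaussSubring q h4⟩ : gaussSubring A) = _
  rw [h5, gaussRed_prod _ _ h2 h3, qExpand_coeffMap_frobenius]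
  have h6 : ∀ k : Fin q, gaussRed A ⟨_, h2 k⟩ = gaussRed A ⟨_, h0⟩ := by
    intro k
    obtain ⟨hk, hk', hk1⟩ := zeta_pow_unit (A := A) hq hA hζ (k : ℕ)
    exact gaussRed_twist _ hk hk' hk1 ⟨_, h0⟩ (h2 k)
  rw [Finset.prod_congr rfl (fun k _ => h6 k), Finset.prod_const, Finset.card_univ,
    Fintype.card_fin]

end Norm

end Fermat.Agent.S36norm
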