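import Fermat.Agent.S36.GlueInst
import Fermat.Agent.TEll.Along

/-!
# Norms of elements integral over `K[j]`
-/

set_option autoImplicit false
set_option linter.style.haveILetI false

open Polynomial

namespace Fermat.Agent.S36norm

open Fermat.Agent.TEll

variable {K E F : Type*} [Field K] [Field E] [Field F] [Algebra K E] [Algebra K F]

/-- The norm along `φ` of an element integral over `K[φ(y)]` is integral over `K[y]`. -/
theorem isIntegral_normAlong (φ : E →ₐ[K] F) {y : E} {b : F}
    (hb : IsIntegral (Algebra.adjoin K {φ y}) b) :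
    IsIntegral (Algebra.adjoin K {y}) (normAlong φ b) := by
  letI : Algebra E F := φ.toRingHom.toAlgebra
  have h1 : IsIntegral (Algebra.adjoin K {y}) b := by
    obtain ⟨p, hp, hp0⟩ := hb
    have h3 : (Algebra.adjoin K {y}).map φ = Algebra.adjoin K {φ y} := by
      rw [AlgHom.map_adjoin, Set.image_singleton]
    have h2 : ∀ z : Algebra.adjoin K {y}, φ (z : E) ∈ Algebra.adjoin K {φ y} := by
      rintro ⟨z, hz⟩
      rw [← h3]
      exact ⟨z, hz, rfl⟩
    let ψ : Algebra.adjoin K {y} →+* Algebra.adjoin K {φ y} :=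
      ((φ.comp (Algebra.adjoin K {y}).val).codRestrict _ h2 :
        Algebra.adjoin K {y} →ₐ[K] Algebra.adjoin K {φ y})
    have hψ : Function.Surjective ψ := by
      rintro ⟨z, hz⟩
      rw [← h3] at hz
      obtain ⟨w, hw, hwz⟩ := hz
      exact ⟨⟨w, hw⟩, Subtype.ext hwz⟩
    obtain ⟨p', hp', hdeg, hmon⟩ :=
      Polynomial.lifts_and_degree_eq_and_monic (f := ψ) (p := p)
        (by
          obtain ⟨p0, hp0⟩ := Polynomial.map_surjective ψ hψ p
          exact (Polynomial.mem_lifts p).2 ⟨p0, hp0⟩) hp
    refine ⟨p', hmon, ?_⟩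
    rw [← hp', Polynomial.eval₂_map] at hp0
    exact hp0
  exact Algebra.isIntegral_norm E h1

/-- The case of the first degeneracy map. -/
theorem isIntegral_normAlong_al (al : E →ₐ[K] F) {jE : E} {j : F} (hj : al jE = j) {b : F}
    (hb : IsIntegral (Algebra.adjoin K {j}) b) :
    IsIntegral (Algebra.adjoin K {j}) (al (normAlong al b)) := by
  subst hj
  exact isIntegral_adjoin_map al (isIntegral_normAlong al hb)

/-- The case of the second degeneracy map. -/
theorem isIntegral_normAlong_be (al be : E →ₐ[K] F) {jE : E} {j jq : F} (hj : al jE = j)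
    (hjq : be jE = jq) (hjj : IsIntegral (Algebra.adjoin K {jq}) j) {b : F}
    (hb : IsIntegral (Algebra.adjoin K {j}) b) :
    IsIntegral (Algebra.adjoin K {j}) (al (normAlong be b)) := by
  subst hj
  subst hjq
  exact isIntegral_adjoin_map al (isIntegral_normAlong be (isIntegral_adjoin_trans hb hjj))

end Fermat.Agent.S36norm
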