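import Fermat.Agent.S36.NormsDV

set_option autoImplicit false

/-!
# Comparison of valuations, residues and roots of unity via norms

`F` = function field of level `q² m`, `E` = function field of level `q m`, `κ` = function field of
level `m` over the residue field `k`.
-/

namespace Fermat.Agent.S36norm

/-- The valuations `V0, V1, V2` of `F`, `W0, W1` of `E` and the two norms `Na, Nb : F → E`. -/
structure Setup (K E F κ k : Type*) [Field K] [Field E] [Field F] [Field κ] [Field k]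
    [Algebra K E] [Algebra K F] [Algebra k κ] (q : ℕ) where
  V0 : DV F κ
  V1 : DV F κ
  V2 : DV F κ
  W0 : DV E κ
  W1 : DV E κ
  ordK : K → ℤ
  res : K → k
  ordK_mul : ∀ a b : K, a ≠ 0 → b ≠ 0 → ordK (a * b) = ordK a + ordK b
  exists_ordK : ∀ a : ℤ, ∃ c : K, c ≠ 0 ∧ ordK c = a
  V0_ord_const : ∀ c : K, c ≠ 0 → V0.ord (algebraMap K F c) = ordK c
  V1_ord_const : ∀ c : K, c ≠ 0 → V1.ord (algebraMap K F c) = ((q : ℤ) - 1) * ordK c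
  V2_ord_const : ∀ c : K, c ≠ 0 → V2.ord (algebraMap K F c) = ordK c
  W0_ord_const : ∀ c : K, c ≠ 0 → W0.ord (algebraMap K E c) = ordK c
  W1_ord_const : ∀ c : K, c ≠ 0 → W1.ord (algebraMap K E c) = ordK c
  V0_red_const : ∀ c : K, (c = 0 ∨ 0 ≤ ordK c) → V0.red (algebraMap K F c) = algebraMap k κ (res c)
  V1_red_const : ∀ c : K, (c = 0 ∨ 0 ≤ ordK c) → V1.red (algebraMap K F c) = algebraMap k κ (res c)
  V2_red_const : ∀ c : K, (c = 0 ∨ 0 ≤ ordK c) → V2.red (algebraMap K F c) = algebraMap k κ (res c)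
  W0_red_const : ∀ c : K, (c = 0 ∨ 0 ≤ ordK c) → W0.red (algebraMap K E c) = algebraMap k κ (res c)
  W1_red_const : ∀ c : K, (c = 0 ∨ 0 ≤ ordK c) → W1.red (algebraMap K E c) = algebraMap k κ (res c)
  res_surj : ∀ a : k, ∃ c : K, (c = 0 ∨ 0 ≤ ordK c) ∧ res c = a
  Na : F →* E
  Nb : F →* E
  Na_ne_zero : ∀ f : F, f ≠ 0 → Na f ≠ 0
  Nb_ne_zero : ∀ f : F, f ≠ 0 → Nb f ≠ 0
  Na_const : ∀ c : K, ∃ c' : K, Na (algebraMap K F c) = algebraMap K E c'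
  Nb_const : ∀ c : K, ∃ c' : K, Nb (algebraMap K F c) = algebraMap K E c'
  W0_ord_Na : ∀ f : F, f ≠ 0 → W0.ord (Na f) = V0.ord f + V1.ord f
  W1_ord_Na : ∀ f : F, f ≠ 0 → W1.ord (Na f) = q * V2.ord f
  W1_ord_Nb : ∀ f : F, f ≠ 0 → W1.ord (Nb f) = V2.ord f + V1.ord f
  W0_ord_Nb : ∀ f : F, f ≠ 0 → W0.ord (Nb f) = q * V0.ord f
  σ : κ →+* κ
  Vq : κ →ₐ[k] κ
  Vq_σ : ∀ x : κ, Vq (σ x) = x ^ q
  W0_red_Na : ∀ f : F, f ∈ V0.O → f ∈ V1.O → W0.red (Na f) = V0.red f * V1.red f ^ (q - 1)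
  W1_red_Na : ∀ f : F, f ∈ V2.O → W1.red (Na f) = σ (V2.red f)
  W1_red_Nb : ∀ f : F, f ∈ V2.O → f ∈ V1.O → W1.red (Nb f) = V2.red f * V1.red f ^ (q - 1)
  W0_red_Nb : ∀ f : F, f ∈ V0.O → W0.red (Nb f) = σ (V0.red f)
  approx_ord : ∀ a b c : ℤ, ∃ g : F, g ≠ 0 ∧ V0.ord g = a ∧ V1.ord g = b ∧ V2.ord g = c
  approx_red : ∀ a b c : κ, a ≠ 0 → b ≠ 0 → c ≠ 0 → ∃ g : F, g ≠ 0 ∧
    (V0.ord g = 0 ∧ V1.ord g = 0 ∧ V2.ord g = 0) ∧ V0.red g = a ∧ V1.red g = b ∧ V2.red g = c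

namespace Setup

variable {K E F κ k : Type*} [Field K] [Field E] [Field F] [Field κ] [Field k]
    [Algebra K E] [Algebra K F] [Algebra k κ] {q : ℕ} (X : Setup K E F κ k q)

/-- `φ = c f^a g^n`. -/
def RelPow (K : Type*) {F : Type*} [Field K] [Field F] [Algebra K F] (n : ℕ) (f φ : F) (a : ℕ) :
    Prop :=
  ∃ (c : K) (g : F), c ≠ 0 ∧ g ≠ 0 ∧ φ = algebraMap K F c * f ^ a * g ^ n

theorem RelPow.refl (n : ℕ) (f : F) : RelPow K n f f 1 :=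
  ⟨1, 1, one_ne_zero, one_ne_zero, by simp⟩

theorem RelPow.trans {n : ℕ} {f φ ψ : F} {a b : ℕ} (h1 : RelPow K n f φ a)
    (h2 : RelPow K n φ ψ b) : RelPow K n f ψ (a * b) := by
  obtain ⟨c, g, hc, hg, rfl⟩ := h1
  obtain ⟨d, h, hd, hh, rfl⟩ := h2
  refine ⟨d * c ^ b, g ^ b * h, mul_ne_zero hd (pow_ne_zero _ hc),
    mul_ne_zero (pow_ne_zero _ hg) hh, ?_⟩
  simp only [map_mul, map_pow]
  ring

theorem RelPow.mul_pow_right {n : ℕ} {f : F} {g : F} (hg : g ≠ 0) : RelPow K n f (f * g ^ n) 1 :=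
  ⟨1, g, one_ne_zero, hg, by simp⟩

theorem RelPow.const_mul {n : ℕ} {f : F} {c : K} (hc : c ≠ 0) :
    RelPow K n f (algebraMap K F c * f) 1 :=
  ⟨c, 1, hc, one_ne_zero, by simp⟩

theorem RelPow.pow {n : ℕ} {f : F} (a : ℕ) : RelPow K n f (f ^ a) a :=
  ⟨1, 1, one_ne_zero, one_ne_zero, by simp⟩

theorem RelPow.ne_zero {n : ℕ} {f φ : F} {a : ℕ} (h : RelPow K n f φ a) (hf : f ≠ 0) : φ ≠ 0 := by
  obtain ⟨c, g, hc, hg, rfl⟩ := h
  exact mul_ne_zero (mul_ne_zero (by simpa using hc) (pow_ne_zero _ hf)) (pow_ne_zero _ hg)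

/-- `y` is a constant times an `n`-th power. -/
def IsKPow (K : Type*) {E : Type*} [Field K] [Field E] [Algebra K E] (n : ℕ) (y : E) : Prop :=
  ∃ (c : K) (g : E), c ≠ 0 ∧ g ≠ 0 ∧ y = algebraMap K E c * g ^ n

theorem IsKPow.Na_of_relPow {n : ℕ} {f φ : F} {a : ℕ} (h : IsKPow K n (X.Na f))
    (h2 : RelPow K n f φ a) : IsKPow K n (X.Na φ) := by
  obtain ⟨c, g, hc, hg, h⟩ := h
  obtain ⟨d, e, hd, he, rfl⟩ := h2
  obtain ⟨d', hd'⟩ := X.Na_const d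
  have hd'0 : d' ≠ 0 := by
    rintro rfl
    rw [map_zero] at hd'
    exact X.Na_ne_zero _ (by simpa using hd) hd'
  refine ⟨d' * c ^ a, g ^ a * X.Na e, mul_ne_zero hd'0 (pow_ne_zero _ hc),
    mul_ne_zero (pow_ne_zero _ hg) (X.Na_ne_zero _ he), ?_⟩
  rw [map_mul, map_mul, map_pow, map_pow, h, hd']
  simp only [map_mul, map_pow]
  ring

theorem IsKPow.Nb_of_relPow {n : ℕ} {f φ : F} {a : ℕ} (h : IsKPow K n (X.Nb f))
    (h2 : RelPow K n f φ a) : IsKPow K n (X.Nb φ) := by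
  obtain ⟨c, g, hc, hg, h⟩ := h
  obtain ⟨d, e, hd, he, rfl⟩ := h2
  obtain ⟨d', hd'⟩ := X.Nb_const d
  have hd'0 : d' ≠ 0 := by
    rintro rfl
    rw [map_zero] at hd'
    exact X.Nb_ne_zero _ (by simpa using hd) hd'
  refine ⟨d' * c ^ a, g ^ a * X.Nb e, mul_ne_zero hd'0 (pow_ne_zero _ hc),
    mul_ne_zero (pow_ne_zero _ hg) (X.Nb_ne_zero _ he), ?_⟩
  rw [map_mul, map_mul, map_pow, map_pow, h, hd']
  simp only [map_mul, map_pow]
  ring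

/-! ### Valuations -/

theorem ordK_one : X.ordK 1 = 0 := by
  have := X.ordK_mul 1 1 one_ne_zero one_ne_zero
  rw [one_mul] at this
  omega

theorem ordK_inv {c : K} (hc : c ≠ 0) : X.ordK c⁻¹ = - X.ordK c := by
  have := X.ordK_mul c c⁻¹ hc (inv_ne_zero hc)
  rw [mul_inv_cancel₀ hc, X.ordK_one] at this
  omega

theorem ordK_pow {c : K} (hc : c ≠ 0) (n : ℕ) : X.ordK (c ^ n) = n * X.ordK c := by
  induction n with
  | zero => simp [X.ordK_one]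
  | succ n ih =>
    rw [pow_succ, X.ordK_mul _ _ (pow_ne_zero _ hc) hc, ih]
    push_cast; ring

/-- **Step 1.**  After a power, a constant and an `n`-th power, `f` is a unit at `V0, V1, V2`. -/
theorem exists_unit {n : ℕ} {f : F} (hf : f ≠ 0) (ha : IsKPow K n (X.Na f))
    (hb : IsKPow K n (X.Nb f)) :
    ∃ φ : F, RelPow K n f φ (q + 1) ∧ X.V0.ord φ = 0 ∧ X.V1.ord φ = 0 ∧ X.V2.ord φ = 0 := by
  obtain ⟨ca, ga, hca, hga, ha⟩ := ha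
  obtain ⟨cb, gb, hcb, hgb, hb⟩ := hb
  have hE : ∀ {c : K}, c ≠ 0 → algebraMap K E c ≠ 0 := fun h => by simpa using h
  have hF : ∀ {c : K}, c ≠ 0 → algebraMap K F c ≠ 0 := fun h => by simpa using h
  have e1 := X.W0_ord_Na f hf
  rw [ha, X.W0.ord_mul _ _ (hE hca) (pow_ne_zero _ hga), X.W0_ord_const _ hca,
    X.W0.ord_pow hga] at e1
  have e2 := X.W1_ord_Na f hf
  rw [ha, X.W1.ord_mul _ _ (hE hca) (pow_ne_zero _ hga), X.W1_ord_const _ hca,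
    X.W1.ord_pow hga] at e2
  have e3 := X.W1_ord_Nb f hf
  rw [hb, X.W1.ord_mul _ _ (hE hcb) (pow_ne_zero _ hgb), X.W1_ord_const _ hcb,
    X.W1.ord_pow hgb] at e3
  have e4 := X.W0_ord_Nb f hf
  rw [hb, X.W0.ord_mul _ _ (hE hcb) (pow_ne_zero _ hgb), X.W0_ord_const _ hcb,
    X.W0.ord_pow hgb] at e4
  -- the constant
  obtain ⟨c, hc, hcv⟩ := X.exists_ordK ((q + 1) * X.V0.ord f)
  obtain ⟨g, hg, hg0, hg1, hg2⟩ := X.approx_ord 0
    ((q : ℤ) * (X.W0.ord ga - X.W1.ord ga - X.W1.ord gb + X.W0.ord gb) -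
      ((q : ℤ) + 1) * (X.W0.ord ga - X.W1.ord ga))
    (X.W0.ord ga - X.W1.ord ga - X.W1.ord gb + X.W0.ord gb)
  refine ⟨algebraMap K F c⁻¹ * f ^ (q + 1) * g ^ n, ⟨c⁻¹, g, inv_ne_zero hc, hg, rfl⟩, ?_, ?_, ?_⟩
  · rw [X.V0.ord_mul _ _ (mul_ne_zero (hF (inv_ne_zero hc)) (pow_ne_zero _ hf)) (pow_ne_zero _ hg),
      X.V0.ord_mul _ _ (hF (inv_ne_zero hc)) (pow_ne_zero _ hf), X.V0_ord_const _ (inv_ne_zero hc),
      X.ordK_inv hc, X.V0.ord_pow hf, X.V0.ord_pow hg, hcv, hg0]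
    push_cast; ring
  · rw [X.V1.ord_mul _ _ (mul_ne_zero (hF (inv_ne_zero hc)) (pow_ne_zero _ hf)) (pow_ne_zero _ hg),
      X.V1.ord_mul _ _ (hF (inv_ne_zero hc)) (pow_ne_zero _ hf), X.V1_ord_const _ (inv_ne_zero hc),
      X.ordK_inv hc, X.V1.ord_pow hf, X.V1.ord_pow hg, hcv, hg1]
    push_cast
    linear_combination (q : ℤ) * (e1 - e2 - e3 + e4) - ((q : ℤ) + 1) * (e1 - e2)
  · rw [X.V2.ord_mul _ _ (mul_ne_zero (hF (inv_ne_zero hc)) (pow_ne_zero _ hf)) (pow_ne_zero _ hg),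
      X.V2.ord_mul _ _ (hF (inv_ne_zero hc)) (pow_ne_zero _ hf), X.V2_ord_const _ (inv_ne_zero hc),
      X.ordK_inv hc, X.V2.ord_pow hf, X.V2.ord_pow hg, hcv, hg2]
    push_cast
    linear_combination e1 - e2 - e3 + e4

/-! ### Residues -/

/-- An element of `κ` with an `n`-th power in the constants is constant. -/
theorem exists_const_of_pow [IsAlgClosed k] {n : ℕ} (hn : n ≠ 0) {x : κ} {c : k}
    (h : x ^ n = algebraMap k κ c) : ∃ d : k, algebraMap k κ d = x := by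
  have h1 : IsIntegral k x := by
    refine ⟨Polynomial.X ^ n - Polynomial.C c, Polynomial.monic_X_pow_sub_C _ hn, ?_⟩
    simp [h]
  have h3 : Algebra.IsIntegral k (Algebra.adjoin k {x}) :=
    Algebra.IsIntegral.adjoin (by simpa using h1)
  have h2 := IsAlgClosed.algebraMap_bijective_of_isIntegral (k := k) (K := Algebra.adjoin k {x})
  obtain ⟨d, hd⟩ := h2.2 ⟨x, Algebra.self_mem_adjoin_singleton k x⟩
  exact ⟨d, congrArg Subtype.val hd⟩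

/-- A unit which is a constant times an `n`-th power reduces to an `n`-th power. -/
theorem exists_red_eq_pow_W0 [IsAlgClosed k] {n : ℕ} (hn : n ≠ 0) {y : E} (hy : IsKPow K n y)
    (h0 : X.W0.ord y = 0) : ∃ z : κ, X.W0.red y = z ^ n := by
  obtain ⟨c, g, hc, hg, rfl⟩ := hy
  obtain ⟨d, hd, hdv⟩ := X.exists_ordK (X.W0.ord g)
  have hE : ∀ {c : K}, c ≠ 0 → algebraMap K E c ≠ 0 := fun h => by simpa using h
  rw [X.W0.ord_mul _ _ (hE hc) (pow_ne_zero _ hg), X.W0_ord_const _ hc, X.W0.ord_pow hg] at h0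
  have e1 : algebraMap K E c * g ^ n = algebraMap K E (c * d ^ n) * (algebraMap K E d⁻¹ * g) ^ n := by
    simp only [map_mul, map_pow, map_inv₀]
    rw [mul_pow, inv_pow]
    field_simp [hE hd]
  have hcd : X.ordK (c * d ^ n) = 0 := by
    rw [X.ordK_mul _ _ hc (pow_ne_zero _ hd), X.ordK_pow hd, hdv]; linarith
  have hdg : X.W0.ord (algebraMap K E d⁻¹ * g) = 0 := by
    rw [X.W0.ord_mul _ _ (hE (inv_ne_zero hd)) hg, X.W0_ord_const _ (inv_ne_zero hd),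
      X.ordK_inv hd, hdv]; ring
  have hdg0 : algebraMap K E d⁻¹ * g ≠ 0 := mul_ne_zero (hE (inv_ne_zero hd)) hg
  have hm := X.W0.mem_of_ord_eq_zero hdg0 hdg
  have hcd0 : c * d ^ n ≠ 0 := mul_ne_zero hc (pow_ne_zero _ hd)
  obtain ⟨z, hz⟩ := IsAlgClosed.exists_pow_nat_eq (X.res (c * d ^ n)) (Nat.pos_of_ne_zero hn)
  refine ⟨algebraMap k κ z * X.W0.red (algebraMap K E d⁻¹ * g), ?_⟩
  rw [e1, X.W0.red_mul (X.W0.mem_of_ord_eq_zero (hE hcd0) (by rw [X.W0_ord_const _ hcd0, hcd]))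
    (pow_mem hm n), X.W0_red_const _ (Or.inr hcd.ge), ← hz, X.W0.red_pow hm, mul_pow, map_pow]

theorem exists_red_eq_pow_W1 [IsAlgClosed k] {n : ℕ} (hn : n ≠ 0) {y : E} (hy : IsKPow K n y)
    (h0 : X.W1.ord y = 0) : ∃ z : κ, X.W1.red y = z ^ n := by
  obtain ⟨c, g, hc, hg, rfl⟩ := hy
  obtain ⟨d, hd, hdv⟩ := X.exists_ordK (X.W1.ord g)
  have hE : ∀ {c : K}, c ≠ 0 → algebraMap K E c ≠ 0 := fun h => by simpa using h
  rw [X.W1.ord_mul _ _ (hE hc) (pow_ne_zero _ hg), X.W1_ord_const _ hc, X.W1.ord_pow hg] at h0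
  have e1 : algebraMap K E c * g ^ n = algebraMap K E (c * d ^ n) * (algebraMap K E d⁻¹ * g) ^ n := by
    simp only [map_mul, map_pow, map_inv₀]
    rw [mul_pow, inv_pow]
    field_simp [hE hd]
  have hcd : X.ordK (c * d ^ n) = 0 := by
    rw [X.ordK_mul _ _ hc (pow_ne_zero _ hd), X.ordK_pow hd, hdv]; linarith
  have hdg : X.W1.ord (algebraMap K E d⁻¹ * g) = 0 := by
    rw [X.W1.ord_mul _ _ (hE (inv_ne_zero hd)) hg, X.W1_ord_const _ (inv_ne_zero hd),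
      X.ordK_inv hd, hdv]; ring
  have hdg0 : algebraMap K E d⁻¹ * g ≠ 0 := mul_ne_zero (hE (inv_ne_zero hd)) hg
  have hm := X.W1.mem_of_ord_eq_zero hdg0 hdg
  have hcd0 : c * d ^ n ≠ 0 := mul_ne_zero hc (pow_ne_zero _ hd)
  obtain ⟨z, hz⟩ := IsAlgClosed.exists_pow_nat_eq (X.res (c * d ^ n)) (Nat.pos_of_ne_zero hn)
  refine ⟨algebraMap k κ z * X.W1.red (algebraMap K E d⁻¹ * g), ?_⟩
  rw [e1, X.W1.red_mul (X.W1.mem_of_ord_eq_zero (hE hcd0) (by rw [X.W1_ord_const _ hcd0, hcd]))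
    (pow_mem hm n), X.W1_red_const _ (Or.inr hcd.ge), ← hz, X.W1.red_pow hm, mul_pow, map_pow]

/-- If `σ x` is an `n`-th power then so is `x` (`n` prime to `q`). -/
theorem exists_pow_of_σ {n : ℕ} (hq : Nat.Coprime q n) {x z : κ} (h : X.σ x = z ^ n)
    (hx : x ≠ 0) : ∃ y : κ, x = y ^ n := by
  have h1 : x ^ q = X.Vq z ^ n := by rw [← X.Vq_σ, h, map_pow]
  have h2 : (q : ℤ) * Nat.gcdA q n + n * Nat.gcdB q n = 1 := by
    have := Nat.gcd_eq_gcd_ab q n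
    rw [hq] at this
    exact_mod_cast this.symm
  refine ⟨X.Vq z ^ Nat.gcdA q n * x ^ Nat.gcdB q n, ?_⟩
  calc x = x ^ ((q : ℤ) * Nat.gcdA q n + n * Nat.gcdB q n) := by rw [h2, zpow_one]
    _ = (x ^ q) ^ Nat.gcdA q n * (x ^ n) ^ Nat.gcdB q n := by
        rw [zpow_add₀ hx, zpow_mul, zpow_mul, zpow_natCast, zpow_natCast]
    _ = _ := by
        rw [h1, mul_pow, ← zpow_natCast (X.Vq z), ← zpow_mul, ← zpow_natCast x, ← zpow_mul,
          ← zpow_natCast (X.Vq z ^ _), ← zpow_mul, ← zpow_natCast (x ^ _), ← zpow_mul,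
          mul_comm (n : ℤ), mul_comm (n : ℤ)]

/-- **Step 2.**  After a power, a constant and an `n`-th power, `f ≡ 1` at `V0, V1, V2`. -/
theorem exists_red_one [IsAlgClosed k] {n : ℕ} (hn : n ≠ 0) (hqn : Nat.Coprime q n)
    {f : F} (hf : f ≠ 0) (ha : IsKPow K n (X.Na f)) (hb : IsKPow K n (X.Nb f)) :
    ∃ φ : F, RelPow K n f φ ((q + 1) * (q - 1)) ∧
      (X.V0.ord φ = 0 ∧ X.V1.ord φ = 0 ∧ X.V2.ord φ = 0) ∧
      X.V0.red φ = 1 ∧ X.V1.red φ = 1 ∧ X.V2.red φ = 1 := by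
  obtain ⟨φ, hφ, h0, h1, h2⟩ := X.exists_unit hf ha hb
  have hφ0 := hφ.ne_zero hf
  have m0 := X.V0.mem_of_ord_eq_zero hφ0 h0
  have m1 := X.V1.mem_of_ord_eq_zero hφ0 h1
  have m2 := X.V2.mem_of_ord_eq_zero hφ0 h2
  have r0 := X.V0.red_ne_zero hφ0 h0
  have r1 := X.V1.red_ne_zero hφ0 h1
  have r2 := X.V2.red_ne_zero hφ0 h2
  have hNa := ha.Na_of_relPow X hφ
  have hNb := hb.Nb_of_relPow X hφ
  obtain ⟨z1, hz1⟩ := X.exists_red_eq_pow_W0 hn hNa (by rw [X.W0_ord_Na _ hφ0, h0, h1]; rfl)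
  obtain ⟨z2, hz2⟩ := X.exists_red_eq_pow_W1 hn hNa (by rw [X.W1_ord_Na _ hφ0, h2]; simp)
  obtain ⟨z3, hz3⟩ := X.exists_red_eq_pow_W1 hn hNb (by rw [X.W1_ord_Nb _ hφ0, h2, h1]; rfl)
  obtain ⟨z4, hz4⟩ := X.exists_red_eq_pow_W0 hn hNb (by rw [X.W0_ord_Nb _ hφ0, h0]; simp)
  rw [X.W0_red_Na _ m0 m1] at hz1
  rw [X.W1_red_Na _ m2] at hz2
  rw [X.W1_red_Nb _ m2 m1] at hz3
  rw [X.W0_red_Nb _ m0] at hz4
  obtain ⟨y0, hy0⟩ := X.exists_pow_of_σ hqn hz4 r0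
  obtain ⟨y2, hy2⟩ := X.exists_pow_of_σ hqn hz2 r2
  have hy00 : y0 ≠ 0 := by
    rintro rfl
    rw [zero_pow hn] at hy0; exact r0 hy0
  have hy20 : y2 ≠ 0 := by
    rintro rfl
    rw [zero_pow hn] at hy2; exact r2 hy2
  have hy1 : X.V1.red φ ^ (q - 1) = (z1 / y0) ^ n := by
    rw [hy0] at hz1
    rw [div_pow, ← hz1]
    field_simp
  have hy10 : z1 / y0 ≠ 0 := by
    intro h
    rw [h, zero_pow hn] at hy1
    exact pow_ne_zero _ r1 hy1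
  obtain ⟨g, hg, ⟨g0, g1, g2⟩, hr0, hr1, hr2⟩ := X.approx_red (y0 ^ (q - 1)) (z1 / y0)
    (y2 ^ (q - 1)) (pow_ne_zero _ hy00) hy10 (pow_ne_zero _ hy20)
  refine ⟨φ ^ (q - 1) * (g⁻¹) ^ n, ?_, ⟨?_, ?_, ?_⟩, ?_, ?_, ?_⟩
  · have := hφ.trans ((RelPow.pow (K := K) (n := n) (f := φ) (q - 1)).trans
      (RelPow.mul_pow_right (inv_ne_zero hg)))
    simpa using this
  · rw [X.V0.ord_mul _ _ (pow_ne_zero _ hφ0) (pow_ne_zero _ (inv_ne_zero hg)), X.V0.ord_pow hφ0,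
      X.V0.ord_pow (inv_ne_zero hg), X.V0.ord_inv hg, h0, g0]; simp
  · rw [X.V1.ord_mul _ _ (pow_ne_zero _ hφ0) (pow_ne_zero _ (inv_ne_zero hg)), X.V1.ord_pow hφ0,
      X.V1.ord_pow (inv_ne_zero hg), X.V1.ord_inv hg, h1, g1]; simp
  · rw [X.V2.ord_mul _ _ (pow_ne_zero _ hφ0) (pow_ne_zero _ (inv_ne_zero hg)), X.V2.ord_pow hφ0,
      X.V2.ord_pow (inv_ne_zero hg), X.V2.ord_inv hg, h2, g2]; simp
  · have gi := X.V0.inv_mem_of_ord_eq_zero hg g0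
    rw [X.V0.red_mul (pow_mem m0 _) (pow_mem gi _), X.V0.red_pow m0, X.V0.red_pow gi,
      X.V0.red_inv hg g0, hr0, hy0, inv_pow, ← pow_mul, ← pow_mul, mul_comm n (q - 1)]
    exact mul_inv_cancel₀ (pow_ne_zero _ hy00)
  · have gi := X.V1.inv_mem_of_ord_eq_zero hg g1
    rw [X.V1.red_mul (pow_mem m1 _) (pow_mem gi _), X.V1.red_pow m1, X.V1.red_pow gi,
      X.V1.red_inv hg g1, hr1, hy1, inv_pow]
    exact mul_inv_cancel₀ (pow_ne_zero _ hy10)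
  · have gi := X.V2.inv_mem_of_ord_eq_zero hg g2
    rw [X.V2.red_mul (pow_mem m2 _) (pow_mem gi _), X.V2.red_pow m2, X.V2.red_pow gi,
      X.V2.red_inv hg g2, hr2, hy2, inv_pow, ← pow_mul, ← pow_mul, mul_comm n (q - 1)]
    exact mul_inv_cancel₀ (pow_ne_zero _ hy20)

end Setup

end Fermat.Agent.S36norm
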