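import Fermat.Agent.S36.Norms
import Fermat.Agent.TriComp.Weak

set_option autoImplicit false

/-!
# Hensel modification
-/

namespace Fermat.Agent.S36norm

namespace DV

variable {F κ : Type*} [Field F] [Field κ] (v : DV F κ)

/-- `x ≡ y` modulo elements of valuation `≥ N`. -/
def Cong (N : ℤ) (x y : F) : Prop := x = y ∨ N ≤ v.ord (x - y)

theorem Cong.mono {v : DV F κ} {N M : ℤ} {x y : F} (h : v.Cong N x y) (hM : M ≤ N) :
    v.Cong M x y := h.imp_right (fun h => hM.trans h)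

theorem ord_nonneg_of_mem {x : F} (h : x ∈ v.O) : x = 0 ∨ 0 ≤ v.ord x := by
  rcases eq_or_ne x 0 with rfl | hx
  · exact Or.inl rfl
  · exact Or.inr ((v.mem_iff x hx).1 h)

/-- If the reduction vanishes then the valuation is at least one. -/
theorem one_le_ord_of_red {x : F} (hx : x ∈ v.O) (h : v.red x = 0) : x = 0 ∨ 1 ≤ v.ord x := by
  rcases eq_or_ne x 0 with rfl | hx0
  · exact Or.inl rfl
  right
  have h1 := (v.mem_iff x hx0).1 hx
  have h2 : v.ord x ≠ 0 := fun h3 => (v.red_ne_zero hx0 h3) h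
  omega

theorem red_eq_zero_of_one_le {x : F} (h : x = 0 ∨ 1 ≤ v.ord x) : v.red x = 0 := by
  rcases eq_or_ne x 0 with rfl | hx0
  · exact v.red_zero
  have h1 := h.resolve_left hx0
  have h2 : x ∈ v.O := (v.mem_iff x hx0).2 (by omega)
  by_contra h3
  have := (v.red_ne_zero_iff hx0 h2).1 h3
  omega

theorem ord_neg_of_ne {x : F} (hx : x ≠ 0) : v.ord (-x) = v.ord x := by
  have h1 : v.ord (-1 : F) = 0 := by
    have := v.ord_mul (-1) (-1) (by simp) (by simp)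
    rw [neg_one_mul, neg_neg, v.ord_one] at this
    omega
  rw [← neg_one_mul, v.ord_mul _ _ (by simp) hx, h1, zero_add]

/-- One Newton step. -/
theorem newton_step {n : ℕ} (hn : (n : κ) ≠ 0) {φ g : F} {N : ℤ} (hN : 1 ≤ N) (hg : g ≠ 0)
    (hg0 : v.ord g = 0) (h : v.Cong N φ (g ^ n)) :
    let g' := g + (φ - g ^ n) / (n * g ^ (n - 1))
    g' ≠ 0 ∧ v.ord g' = 0 ∧ v.red g' = v.red g ∧ v.Cong (N + 1) φ (g' ^ n) := by
  intro g'
  have hn0 : (n : F) ≠ 0 := by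
    intro h0
    apply hn
    rw [← v.red_natCast, h0, v.red_zero]
  have hnO : (n : F) ∈ v.O := natCast_mem _ n
  have hn1 : v.ord (n : F) = 0 := (v.red_ne_zero_iff hn0 hnO).1 (by rwa [v.red_natCast])
  have hgp : g ^ (n - 1) ≠ 0 := pow_ne_zero _ hg
  have hden : (n : F) * g ^ (n - 1) ≠ 0 := mul_ne_zero hn0 hgp
  have hdenv : v.ord ((n : F) * g ^ (n - 1)) = 0 := by
    rw [v.ord_mul _ _ hn0 hgp, hn1, v.ord_pow hg, hg0]; simp
  set e : F := (φ - g ^ n) / (n * g ^ (n - 1)) with he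
  have he1 : e = 0 ∨ N ≤ v.ord e := by
    rcases h with h | h
    · left; rw [he, h, sub_self, zero_div]
    · by_cases h0 : φ - g ^ n = 0
      · left; rw [he, h0, zero_div]
      · right; rw [he, v.ord_div h0 hden, hdenv]; omega
  have hgO : g ∈ v.O := v.mem_of_ord_eq_zero hg hg0
  have heO : e ∈ v.O := v.mem_of_ord_nonneg (he1.imp_right (fun h => by omega))
  have hered : v.red e = 0 := v.red_eq_zero_of_one_le (he1.imp_right (fun h => by omega))
  have hred : v.red g' = v.red g := by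
    change v.red (g + e) = _
    rw [v.red_add hgO heO, hered, add_zero]
  have hg'O : g' ∈ v.O := add_mem hgO heO
  have hg'0 : g' ≠ 0 := by
    intro h0
    have h1 := v.red_ne_zero hg hg0
    rw [← hred, h0, v.red_zero] at h1
    exact h1 rfl
  refine ⟨hg'0, (v.red_ne_zero_iff hg'0 hg'O).1 (by rw [hred]; exact v.red_ne_zero hg hg0), hred, ?_⟩
  obtain ⟨k, hk⟩ := Polynomial.powAddExpansion (⟨g, hgO⟩ : v.O) ⟨e, heO⟩ n
  have hk' : g' ^ n = g ^ n + n * g ^ (n - 1) * e + (k : F) * e ^ 2 := by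
    have := congrArg Subtype.val hk
    simpa using this
  have hk'' : φ - g' ^ n = -((k : F) * e ^ 2) := by
    rw [hk', he, mul_div_cancel₀ _ hden]; ring
  rcases he1 with he0 | he1
  · left
    rw [he0] at hk''
    have : φ - g' ^ n = 0 := by rw [hk'']; simp
    exact sub_eq_zero.1 this
  · by_cases h0 : φ - g' ^ n = 0
    · exact Or.inl (sub_eq_zero.1 h0)
    · right
      rw [hk''] at h0 ⊢
      have h1 : (k : F) * e ^ 2 ≠ 0 := fun h => h0 (by rw [h, neg_zero])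
      have hkne : (k : F) ≠ 0 := left_ne_zero_of_mul h1
      have hene : e ≠ 0 := by
        intro h; rw [h] at h1; simp at h1
      rw [v.ord_neg_of_ne h1, v.ord_mul _ _ hkne (pow_ne_zero _ hene), v.ord_pow hene]
      have h2 := (v.mem_iff _ hkne).1 k.2
      push_cast
      linarith

end DV

namespace Setup

variable {K E F κ k : Type*} [Field K] [Field E] [Field F] [Field κ] [Field k]
    [Algebra K E] [Algebra K F] [Algebra k κ] {q : ℕ} (X : Setup K E F κ k q)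

/-- **Step 3.**  If `φ ≡ 1` at the three valuations then `φ ≡ gⁿ` to any precision. -/
theorem exists_hensel {n : ℕ} (hn : (n : κ) ≠ 0) {φ : F}
    (h0 : X.V0.Cong 1 φ 1) (h1 : X.V1.Cong 1 φ 1) (h2 : X.V2.Cong 1 φ 1) (N : ℕ) :
    ∃ g : F, g ≠ 0 ∧ (X.V0.ord g = 0 ∧ X.V1.ord g = 0 ∧ X.V2.ord g = 0) ∧
      (X.V0.red g = 1 ∧ X.V1.red g = 1 ∧ X.V2.red g = 1) ∧
      X.V0.Cong (N + 1) φ (g ^ n) ∧ X.V1.Cong (N + 1) φ (g ^ n) ∧ X.V2.Cong (N + 1) φ (g ^ n) := by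
  induction N with
  | zero =>
    refine ⟨1, one_ne_zero, ⟨X.V0.ord_one, X.V1.ord_one, X.V2.ord_one⟩,
      ⟨X.V0.red_one, X.V1.red_one, X.V2.red_one⟩, ?_, ?_, ?_⟩ <;> simpa
  | succ N ih =>
    obtain ⟨g, hg, ⟨g0, g1, g2⟩, ⟨r0, r1, r2⟩, c0, c1, c2⟩ := ih
    obtain ⟨a0, b0, d0, e0⟩ := X.V0.newton_step hn (by omega) hg g0 c0
    obtain ⟨a1, b1, d1, e1⟩ := X.V1.newton_step hn (by omega) hg g1 c1
    obtain ⟨a2, b2, d2, e2⟩ := X.V2.newton_step hn (by omega) hg g2 c2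
    refine ⟨_, a0, ⟨b0, b1, b2⟩, ⟨d0.trans r0, d1.trans r1, d2.trans r2⟩, ?_, ?_, ?_⟩
    · push_cast; exact e0
    · push_cast; exact e1
    · push_cast; exact e2

theorem cong_div {v : DV F κ} {N : ℤ} {φ y : F} (hy : y ≠ 0) (hy0 : v.ord y = 0)
    (h : v.Cong N φ y) : v.Cong N (φ * y⁻¹) 1 := by
  rcases h with h | h
  · left; rw [h, mul_inv_cancel₀ hy]
  · by_cases h0 : φ - y = 0
    · left; rw [sub_eq_zero.1 h0, mul_inv_cancel₀ hy]
    · right
      have : φ * y⁻¹ - 1 = (φ - y) * y⁻¹ := by field_simp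
      rw [this, v.ord_mul _ _ h0 (inv_ne_zero hy), v.ord_inv hy, hy0]
      simpa using h

theorem cong_one_of_red {v : DV F κ} {φ : F} (hφ : φ ∈ v.O) (h : v.red φ = 1) :
    v.Cong 1 φ 1 := by
  have h1 : v.red (φ - 1) = 0 := by rw [v.red_sub hφ (one_mem _), h, v.red_one, sub_self]
  rcases v.one_le_ord_of_red (sub_mem hφ (one_mem _)) h1 with h2 | h2
  · exact Or.inl (sub_eq_zero.1 h2)
  · exact Or.inr h2

theorem red_of_cong_one {v : DV F κ} {φ : F} (h : v.Cong 1 φ 1) :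
    φ ≠ 0 ∧ v.ord φ = 0 ∧ v.red φ = 1 := by
  have h1 : φ - 1 = 0 ∨ 1 ≤ v.ord (φ - 1) := h.imp_left (fun h => by rw [h, sub_self])
  have hO : φ - 1 ∈ v.O := v.mem_of_ord_nonneg (h1.imp_right (fun h => by omega))
  have hr := v.red_eq_zero_of_one_le h1
  have hφO : φ ∈ v.O := by
    have := add_mem hO (one_mem v.O)
    rwa [sub_add_cancel] at this
  have hred : v.red φ = 1 := by
    rw [v.red_sub hφO (one_mem _), v.red_one, sub_eq_zero] at hr
    exact hr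
  have hφ0 : φ ≠ 0 := by
    rintro rfl
    rw [v.red_zero] at hred
    exact zero_ne_one hred
  exact ⟨hφ0, (v.red_ne_zero_iff hφ0 hφO).1 (by rw [hred]; exact one_ne_zero), hred⟩

/-- **Step 3'.**  The modified function. -/
theorem exists_cong_one {n : ℕ} (hn : (n : κ) ≠ 0) {φ : F}
    (h0 : X.V0.Cong 1 φ 1) (h1 : X.V1.Cong 1 φ 1) (h2 : X.V2.Cong 1 φ 1) (N : ℕ) :
    ∃ g : F, g ≠ 0 ∧ (X.V0.ord g = 0 ∧ X.V1.ord g = 0 ∧ X.V2.ord g = 0) ∧
      (X.V0.red g = 1 ∧ X.V1.red g = 1 ∧ X.V2.red g = 1) ∧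
      X.V0.Cong N (φ * (g ^ n)⁻¹) 1 ∧ X.V1.Cong N (φ * (g ^ n)⁻¹) 1 ∧
      X.V2.Cong N (φ * (g ^ n)⁻¹) 1 := by
  obtain ⟨g, hg, ⟨g0, g1, g2⟩, hr, c0, c1, c2⟩ := X.exists_hensel hn h0 h1 h2 N
  have hgn : g ^ n ≠ 0 := pow_ne_zero _ hg
  refine ⟨g, hg, ⟨g0, g1, g2⟩, hr, ?_, ?_, ?_⟩
  · exact cong_div hgn (by rw [X.V0.ord_pow hg, g0, mul_zero]) (c0.mono (by omega))
  · exact cong_div hgn (by rw [X.V1.ord_pow hg, g1, mul_zero]) (c1.mono (by omega))
  · exact cong_div hgn (by rw [X.V2.ord_pow hg, g2, mul_zero]) (c2.mono (by omega))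

end Setup

end Fermat.Agent.S36norm
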