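import Mathlib
import Fermat.Agent.S30_Cyclo

/-!
# The `p`-adic completion of a finite flat `ℤ`-algebra and an `O`-valued point

`H` is a finite torsion-free commutative `ℤ`-algebra, `π : H →+* O` a point in a complete local
domain of characteristic zero.  There is `s ∈ ℤ_p ⊗ H` whose annihilator is exactly the kernel of
`ℤ_p ⊗ H → O`; we record its finite-level consequences.
-/

set_option autoImplicit false
set_option linter.unusedSectionVars false
set_option linter.style.haveILetI false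

noncomputable section

open TensorProduct

namespace Fermat.Agent.S36red

variable {p : ℕ} [hp : Fact p.Prime]

/-! ### Compactness of finite free modules over `ℤ_[p]` -/

/-- cluster points of sequences in finite free `ℤ_[p]`-modules. -/
lemma exists_cluster {F : Type*} [AddCommGroup F] [Module ℤ_[p] F] [Module.Free ℤ_[p] F]
    [Module.Finite ℤ_[p] F] (x : ℕ → F) :
    ∃ y : F, ∀ m N : ℕ, ∃ n, N ≤ n ∧ ∃ z : F, x n - y = (p : ℤ_[p]) ^ m • z := by
  classical
  set b := Module.Free.chooseBasis ℤ_[p] F with hb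
  obtain ⟨a, φ, hφ, ha⟩ := CompactSpace.tendsto_subseq (fun n => (b.equivFun (x n)))
  refine ⟨b.equivFun.symm a, fun m N => ?_⟩
  have hev : ∀ i, ∀ᶠ n in Filter.atTop, ‖b.equivFun (x (φ n)) i - a i‖ ≤ (p : ℝ) ^ (-(m : ℤ)) := by
    intro i
    have h1 := (tendsto_pi_nhds.mp ha) i
    rw [Metric.tendsto_atTop] at h1
    have hpos : (0 : ℝ) < (p : ℝ) ^ (-(m : ℤ)) := by
      have : (0 : ℝ) < p := by exact_mod_cast hp.out.pos
      positivity
    obtain ⟨N₁, hN₁⟩ := h1 _ hpos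
    filter_upwards [Filter.eventually_ge_atTop N₁] with n hn
    have := hN₁ n hn
    rw [dist_eq_norm] at this
    exact this.le
  have hev2 := (Filter.eventually_all.mpr hev).and (Filter.eventually_ge_atTop N)
  obtain ⟨n, hn, hnN⟩ := hev2.exists
  refine ⟨φ n, hnN.trans (hφ.id_le n), ?_⟩
  have h2 : ∀ i, ∃ c : ℤ_[p], b.equivFun (x (φ n)) i - a i = (p : ℤ_[p]) ^ m * c := by
    intro i
    have h3 := (PadicInt.norm_le_pow_iff_mem_span_pow _ _).mp (hn i)
    rw [Ideal.mem_span_singleton] at h3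
    exact h3
  choose c hc using h2
  refine ⟨b.equivFun.symm c, ?_⟩
  apply b.equivFun.injective
  rw [map_sub, map_smul, LinearEquiv.apply_symm_apply, LinearEquiv.apply_symm_apply]
  funext i
  exact hc i

section Point

variable {H : Type*} [CommRing H] [Module.Finite ℤ H] [IsAddTorsionFree H]
  {O : Type*} [CommRing O] [IsDomain O] [IsLocalRing O] [IsNoetherianRing O]
  [IsAdicComplete (IsLocalRing.maximalIdeal O) O] [CharZero O]
  (hpO : (p : O) ∈ IsLocalRing.maximalIdeal O) (π : H →+* O)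

omit [IsDomain O] in
lemma free_int : Module.Free ℤ H := by
  haveI : Module.IsTorsionFree ℤ H := inferInstance
  infer_instance

variable (p) in
/-- The `p`-adic completion of `H`. -/
abbrev Hp (H : Type*) [CommRing H] : Type _ := ℤ_[p] ⊗[ℤ] H

/-- the extension of `π` to the completion -/
def piHat : Hp p H →+* O :=
  letI : Algebra ℤ_[p] O := (S30aux.padicMap p O hpO).toAlgebra
  (Algebra.TensorProduct.lift (Algebra.ofId ℤ_[p] O) (π.toIntAlgHom)
    (fun _ _ => Commute.all _ _) : Hp p H →ₐ[ℤ_[p]] O).toRingHom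

lemma piHat_tmul (a : ℤ_[p]) (h : H) : piHat hpO π (a ⊗ₜ h) = S30aux.padicMap p O hpO a * π h := by
  letI : Algebra ℤ_[p] O := (S30aux.padicMap p O hpO).toAlgebra
  exact Algebra.TensorProduct.lift_tmul _ _ _ _ _

lemma piHat_one_tmul (h : H) : piHat hpO π (1 ⊗ₜ h) = π h := by
  rw [piHat_tmul, map_one, one_mul]

lemma padicMap_injective : Function.Injective (S30aux.padicMap p O hpO) := by
  rw [RingHom.injective_iff_ker_eq_bot]
  by_contra hne
  obtain ⟨n, hn⟩ := PadicInt.ideal_eq_span_pow_p hne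
  have h1 : ((p : ℤ_[p]) ^ n) ∈ RingHom.ker (S30aux.padicMap p O hpO) := by
    rw [hn]; exact Ideal.mem_span_singleton_self _
  rw [RingHom.mem_ker, map_pow, map_natCast] at h1
  exact hp.out.ne_zero (by exact_mod_cast (pow_eq_zero_iff' (n := n)).mp h1 |>.1)

lemma piHat_algebraMap (a : ℤ_[p]) :
    piHat hpO π (algebraMap ℤ_[p] (Hp p H) a) = S30aux.padicMap p O hpO a := by
  rw [Algebra.TensorProduct.algebraMap_apply, Algebra.algebraMap_self_apply, piHat_tmul, map_one,
    mul_one]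

/-- an element whose annihilator is the kernel of `π̂`. -/
lemma exists_annihilator : ∃ s : Hp p H, ∀ x : Hp p H, x * s = 0 ↔ piHat hpO π x = 0 := by
  classical
  haveI : IsNoetherianRing (Hp p H) := IsNoetherianRing.of_finite ℤ_[p] (Hp p H)
  set 𝔮 := RingHom.ker (piHat hpO π) with h𝔮
  haveI h𝔮p : 𝔮.IsPrime := RingHom.ker_isPrime _
  have hcomap : 𝔮.comap (algebraMap ℤ_[p] (Hp p H)) = ⊥ := by
    rw [eq_bot_iff]
    intro a ha
    rw [Ideal.mem_comap, h𝔮, RingHom.mem_ker, piHat_algebraMap] at ha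
    exact (map_eq_zero_iff _ (padicMap_injective hpO)).mp ha
  have hmin : 𝔮 ∈ (Module.annihilator (Hp p H) (Hp p H)).minimalPrimes := by
    refine ⟨⟨h𝔮p, ?_⟩, ?_⟩
    · intro x hx
      have : x • (1 : Hp p H) = 0 := (Module.mem_annihilator.mp hx) 1
      rw [smul_eq_mul, mul_one] at this
      rw [this]; exact zero_mem _
    · rintro J ⟨hJ, -⟩ hle
      by_contra hnot
      have hlt : J < 𝔮 := lt_of_le_not_ge hle hnot
      have h2 := Ideal.IsIntegral.comap_lt_comap (R := ℤ_[p]) (A := Hp p H) hlt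
      rw [hcomap] at h2
      exact not_lt_bot h2
  obtain ⟨-, s, hs⟩ := isAssociatedPrime_iff.mp
    (Module.associatedPrimes.minimalPrimes_annihilator_subset_associatedPrimes
    (Hp p H) (Hp p H) hmin)
  refine ⟨s, fun x => ?_⟩
  rw [← RingHom.mem_ker, ← h𝔮, hs, Submodule.mem_colon_singleton, Submodule.mem_bot, smul_eq_mul]

/-- density of `H` in its completion. -/
lemma exists_approx (m : ℕ) (x : Hp p H) :
    ∃ (h : H) (y : Hp p H), x = 1 ⊗ₜ h + (p : ℤ_[p]) ^ m • y := by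
  induction x using TensorProduct.induction_on with
  | zero => exact ⟨0, 0, by simp⟩
  | tmul a h =>
    obtain ⟨c, hc⟩ := Ideal.mem_span_singleton.mp (PadicInt.appr_spec m a)
    refine ⟨(a.appr m : ℤ) • h, c ⊗ₜ h, ?_⟩
    have ha : a = (a.appr m : ℤ_[p]) + (p : ℤ_[p]) ^ m * c := by rw [← hc]; ring
    conv_lhs => rw [ha]
    rw [TensorProduct.add_tmul, TensorProduct.smul_tmul', smul_eq_mul, ← TensorProduct.smul_tmul,
      zsmul_eq_mul, mul_one, Int.cast_natCast]
  | add x y hx hy =>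
    obtain ⟨h₁, y₁, e₁⟩ := hx
    obtain ⟨h₂, y₂, e₂⟩ := hy
    refine ⟨h₁ + h₂, y₁ + y₂, ?_⟩
    rw [e₁, e₂, TensorProduct.tmul_add, smul_add]
    abel

/-- purity of `H` in its completion. -/
lemma dvd_of_tmul_eq (m : ℕ) (h : H) (y : Hp p H)
    (e : (1 : ℤ_[p]) ⊗ₜ[ℤ] h = (p : ℤ_[p]) ^ m • y) : ∃ u : H, h = (p : H) ^ m * u := by
  classical
  haveI := free_int (H := H)
  set b := Module.Free.chooseBasis ℤ H with hb
  have hdvd : ∀ i, ∃ c : ℤ, b.repr h i = (p : ℤ) ^ m * c := by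
    intro i
    have h1 := congrArg (fun z => (b.baseChange ℤ_[p]).repr z i) e
    simp only [map_smul, Finsupp.smul_apply, smul_eq_mul] at h1
    rw [Module.Basis.baseChange_repr_tmul] at h1
    have h2 : (p : ℤ_[p]) ^ m ∣ ((b.repr h i : ℤ) : ℤ_[p]) := by
      refine ⟨(b.baseChange ℤ_[p]).repr y i, ?_⟩
      rw [← h1]
      simp
    have h3 : ((p ^ m : ℕ) : ℤ) ∣ b.repr h i := by
      have h4 := (PadicInt.pow_p_dvd_int_iff m (b.repr h i)).mp h2
      exact_mod_cast h4
    obtain ⟨c, hc⟩ := h3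
    exact ⟨c, by rw [hc]; push_cast; ring⟩
  choose c hc using hdvd
  refine ⟨∑ i, c i • b i, ?_⟩
  conv_lhs => rw [← b.sum_repr h]
  rw [Finset.mul_sum]
  refine Finset.sum_congr rfl fun i _ => ?_
  rw [hc i, zsmul_eq_mul, zsmul_eq_mul]
  push_cast
  ring

/-- `x ∈ Hp` with `π̂ x` very small is congruent modulo `p^m` to an element of the kernel. -/
lemma exists_ker_approx [Module.Free ℤ H] (m : ℕ) : ∃ n : ℕ, ∀ x : Hp p H,
    piHat hpO π x ∈ IsLocalRing.maximalIdeal O ^ n →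
      ∃ y z : Hp p H, piHat hpO π y = 0 ∧ x = y + (p : ℤ_[p]) ^ m • z := by
  by_contra hcon
  push Not at hcon
  choose x hx hx' using hcon
  obtain ⟨y, hy⟩ := exists_cluster (p := p) x
  have hsmul : ∀ (k : ℕ) (z : Hp p H), piHat hpO π ((p : ℤ_[p]) ^ k • z) =
      (p : O) ^ k * piHat hpO π z := by
    intro k z
    have h0 : (p : ℤ_[p]) ^ k • z = algebraMap ℤ_[p] (Hp p H) ((p : ℤ_[p]) ^ k) * z :=
      Algebra.smul_def (R := ℤ_[p]) (A := Hp p H) ((p : ℤ_[p]) ^ k) z
    rw [h0, map_mul, piHat_algebraMap, map_pow, map_natCast]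
  have hy0 : piHat hpO π y = 0 := by
    have h1 : ∀ k, piHat hpO π y ∈ IsLocalRing.maximalIdeal O ^ k := by
      intro k
      obtain ⟨n, hn, z, hz⟩ := hy k k
      have h2 := congrArg (piHat hpO π) hz
      rw [map_sub, hsmul] at h2
      have h3 : piHat hpO π y = piHat hpO π (x n) - (p : O) ^ k * piHat hpO π z := by
        rw [← h2]; ring
      rw [h3]
      exact Ideal.sub_mem _ (Ideal.pow_le_pow_right hn (hx n))
        (Ideal.mul_mem_right _ _ (Ideal.pow_mem_pow hpO k))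
    have h4 := Ideal.iInf_pow_eq_bot_of_isLocalRing (IsLocalRing.maximalIdeal O)
      (Ideal.IsPrime.ne_top inferInstance)
    have h5 : piHat hpO π y ∈ ⨅ i : ℕ, IsLocalRing.maximalIdeal O ^ i := by
      rw [Submodule.mem_iInf]; exact h1
    rw [h4] at h5
    exact h5
  obtain ⟨n, -, z, hz⟩ := hy m 0
  exact hx' n y z hy0 (by rw [← hz]; abel)

lemma eq_zero_of_forall_pow_smul [Module.Free ℤ H] (x : Hp p H)
    (h : ∀ n : ℕ, ∃ y : Hp p H, x = (p : ℤ_[p]) ^ n • y) : x = 0 := by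
  classical
  set b := Module.Free.chooseBasis ℤ_[p] (Hp p H) with hb
  apply b.ext_elem
  intro i
  rw [map_zero, Finsupp.zero_apply]
  by_contra hne
  obtain ⟨n, hn⟩ : ∃ n : ℕ, ¬ ((p : ℤ_[p]) ^ n ∣ b.repr x i) := by
    by_contra hall
    push Not at hall
    refine hne ?_
    rw [← norm_le_zero_iff]
    refine le_of_forall_pos_le_add fun ε hε => ?_
    have hp1 : (1 : ℝ) < p := by exact_mod_cast hp.out.one_lt
    obtain ⟨n, hn⟩ := exists_pow_lt_of_lt_one hε (inv_lt_one_of_one_lt₀ hp1)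
    have h1 := (PadicInt.norm_le_pow_iff_mem_span_pow (b.repr x i) n).mpr
      (Ideal.mem_span_singleton.mpr (hall n))
    rw [zero_add]
    refine h1.trans (le_of_lt ?_)
    rw [zpow_neg, zpow_natCast, ← inv_pow]
    exact hn
  obtain ⟨y, hy⟩ := h n
  refine hn ⟨b.repr y i, ?_⟩
  rw [hy, map_smul, Finsupp.smul_apply, smul_eq_mul]

include hpO in
/-- **The cut-off elements.** -/
theorem exists_cut (t₁ : H) (ht₁ : π t₁ ≠ 0) : ∃ s : ℕ → H,
    (∀ m, ∃ n, ∀ e : H, π e ∈ IsLocalRing.maximalIdeal O ^ n →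
      ∃ u : H, e * s m = (p : H) ^ m * u) ∧
    (∀ m, ∀ u : H, IsUnit (π u) → ∃ v w : H, (u * v - 1) * s m = (p : H) ^ m * w) ∧
    (∀ c, ∃ n, ∀ m, n ≤ m → ∀ w : H, (p : H) ^ c * t₁ * s m ≠ (p : H) ^ n * w) := by
  classical
  haveI := free_int (H := H)
  obtain ⟨s, hs⟩ := exists_annihilator hpO π
  choose t y hy using fun m => exists_approx (p := p) m s
  have hpH : ∀ (k : ℕ) (h : H), (1 : ℤ_[p]) ⊗ₜ[ℤ] ((p : H) ^ k * h) =
      (p : ℤ_[p]) ^ k • ((1 : ℤ_[p]) ⊗ₜ[ℤ] h) := by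
    intro k h
    rw [TensorProduct.smul_tmul', smul_eq_mul, mul_one]
    have e1 : ((p : H) ^ k * h) = ((p : ℤ) ^ k) • h := by
      rw [zsmul_eq_mul]; push_cast; ring
    rw [e1, ← TensorProduct.smul_tmul, zsmul_eq_mul, mul_one]
    push_cast
    ring
  have hA : ∀ m, ∃ n, ∀ e : H, π e ∈ IsLocalRing.maximalIdeal O ^ n →
      ∃ u : H, e * t m = (p : H) ^ m * u := by
    intro m
    obtain ⟨n, hn⟩ := exists_ker_approx hpO π m
    refine ⟨n, fun e he => ?_⟩
    obtain ⟨a, z, ha, hz⟩ := hn (1 ⊗ₜ e) (by rwa [piHat_one_tmul])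
    have h1 : ((1 : ℤ_[p]) ⊗ₜ[ℤ] e) * s = (p : ℤ_[p]) ^ m • (z * s) := by
      rw [hz, add_mul, (hs a).mpr ha, zero_add, smul_mul_assoc]
    refine dvd_of_tmul_eq m _ (z * s - ((1 : ℤ_[p]) ⊗ₜ[ℤ] e) * y m) ?_
    rw [smul_sub, ← h1, ← mul_smul_comm, ← mul_sub]
    conv_rhs => rw [hy m]
    rw [add_sub_cancel_right, Algebra.TensorProduct.tmul_mul_tmul, mul_one]
  refine ⟨t, hA, ?_, ?_⟩
  · intro m u hu
    obtain ⟨n, hn⟩ := hA m
    -- the finite ring `range (H → O / 𝔪^n)`
    set f : H →+* O ⧸ IsLocalRing.maximalIdeal O ^ n := (Ideal.Quotient.mk _).comp π with hf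
    set R := f.range with hR
    haveI : Module.Finite ℤ R :=
      Module.Finite.of_surjective (f.rangeRestrict.toIntAlgHom.toLinearMap)
        f.rangeRestrict_surjective
    haveI : Finite R := by
      refine Module.finite_of_fg_torsion R ?_
      intro x
      refine ⟨⟨((p ^ n : ℕ) : ℤ), mem_nonZeroDivisors_of_ne_zero
        (by exact_mod_cast pow_ne_zero _ hp.out.ne_zero)⟩, ?_⟩
      apply Subtype.ext
      obtain ⟨x, h, rfl⟩ := x
      change ((p ^ n : ℕ) : ℤ) • f h = 0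
      rw [← map_zsmul, hf, RingHom.comp_apply, Ideal.Quotient.eq_zero_iff_mem, zsmul_eq_mul, map_mul]
      refine Ideal.mul_mem_right _ _ ?_
      push_cast
      rw [map_pow, map_natCast]
      exact Ideal.pow_mem_pow hpO n
    have hinj : Function.Injective (fun x : R => f.rangeRestrict u * x) := by
      intro a b hab
      have h1 : IsUnit (f u) := hu.map (Ideal.Quotient.mk _)
      apply Subtype.ext
      have h2 := congrArg Subtype.val hab
      exact h1.mul_left_cancel h2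
    obtain ⟨x, hx⟩ := (Finite.injective_iff_surjective.mp hinj) 1
    obtain ⟨x, v, rfl⟩ := x
    have h3 : f u * f v = 1 := congrArg Subtype.val hx
    obtain ⟨w, hw⟩ := hn (u * v - 1) (by
      rw [← Ideal.Quotient.eq_zero_iff_mem]
      change f (u * v - 1) = 0
      rw [map_sub, map_mul, h3, map_one, sub_self])
    exact ⟨v, w, hw⟩
  · intro c
    by_contra hcon
    push Not at hcon
    choose m hm w hw using hcon
    have h1 : ∀ n, ∃ z : Hp p H, ((1 : ℤ_[p]) ⊗ₜ[ℤ] ((p : H) ^ c * t₁)) * s =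
        (p : ℤ_[p]) ^ n • z := by
      intro n
      refine ⟨(1 : ℤ_[p]) ⊗ₜ[ℤ] w n + ((1 : ℤ_[p]) ⊗ₜ[ℤ] ((p : H) ^ c * t₁)) *
        ((p : ℤ_[p]) ^ (m n - n) • y (m n)), ?_⟩
      conv_lhs => rw [hy (m n)]
      rw [mul_add, Algebra.TensorProduct.tmul_mul_tmul, mul_one, hw n, hpH, smul_add,
        mul_smul_comm, mul_smul_comm, smul_smul, ← pow_add, Nat.add_sub_cancel' (hm n)]
    have h2 := eq_zero_of_forall_pow_smul _ h1
    rw [hs, piHat_one_tmul, map_mul, map_pow, map_natCast] at h2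
    rcases mul_eq_zero.mp h2 with h3 | h3
    · exact pow_ne_zero c (Nat.cast_ne_zero.mpr hp.out.ne_zero) h3
    · exact ht₁ h3

end Point

end Fermat.Agent.S36red
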