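import Fermat.Agent.GalRep.Density
import Fermat.Agent.S36.PadicHecke

/-!
# The reverse transfer principle

Let `ρ : GaloisRepAdic T` be residually absolutely irreducible with Frobenius characteristic
polynomials `X² - π(T_ℓ) X + ℓ`, and `J` an Eichler--Shimura module on which the Hecke action
factors through the Hecke algebra of cusp forms.  There are Hecke operators `σ_m` cutting out the
`ρ`-part of `J[p^m]`: every `y ∈ ℤ[G_ℚ]` with `ρ(y) = 0` kills `σ_m J[p^m]`.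
-/

set_option autoImplicit false
set_option linter.unusedSectionVars false
set_option linter.style.haveILetI false

noncomputable section

open CuspForm ModularCurve Polynomial Fermat.Agent.GalRep

namespace Fermat.Agent.S36red

section Star

variable {P E G : Type*} [CommRing P] [Ring E] [Algebra P E] [Group G]

/-- the reverse star argument. -/
lemma rev_star_key (a : G →* E) (s : G → E) (t : G → P)
    (hs : ∀ g h, s (g * h) = s h * s g) (hs1 : s 1 = 1)
    (hat : ∀ g, a g + s g = algebraMap P E (t g)) (w : P)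
    {ι : Type*} (I : Finset ι) (c : ι → ℤ) (g : ι → G)
    (h0 : ∀ h, algebraMap P E (w * ∑ i ∈ I, c i • t (g i * h)) = 0)
    (g₀ g₁ g₂ : G) :
    algebraMap P E (w * (t (g₀ * (g₁ * g₂)) - t (g₀ * (g₂ * g₁)))) * ∑ i ∈ I, c i • a (g i) = 0 := by
  set Y := ∑ i ∈ I, c i • a (g i) with hY
  set Ys := ∑ i ∈ I, c i • s (g i) with hYs
  set W := algebraMap P E w with hW
  have hWc : ∀ x : E, W * x = x * W := fun x => Algebra.commutes w x
  have e2 : ∀ h, W * (Y * a h + s h * Ys) = 0 := by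
    intro h
    rw [← h0 h, map_mul, map_sum]
    congr 1
    rw [hY, hYs, Finset.sum_mul, Finset.mul_sum, ← Finset.sum_add_distrib]
    refine Finset.sum_congr rfl fun i _ => ?_
    rw [map_zsmul, ← hat, map_mul, hs, smul_add, smul_mul_assoc, mul_smul_comm]
  have e1 : W * Ys = -(W * Y) := by
    have := e2 1
    rw [map_one, hs1, mul_one, one_mul, mul_add] at this
    exact (neg_eq_of_add_eq_zero_right this).symm
  -- `W Y a(h) = W s(h) Y`
  have e3 : ∀ h, W * (Y * a h) = W * (s h * Y) := by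
    intro h
    have h1 := e2 h
    rw [mul_add] at h1
    have h2 : W * (s h * Ys) = -(W * (s h * Y)) := by
      rw [← mul_assoc, hWc (s h), mul_assoc, e1, mul_neg, ← mul_assoc, ← hWc, mul_assoc]
    rw [h2, ← sub_eq_add_neg, sub_eq_zero] at h1
    exact h1
  have e4 : ∀ h h', W * (Y * (a h * a h')) = W * (s h * (s h' * Y)) := by
    intro h h'
    calc W * (Y * (a h * a h')) = (W * (Y * a h)) * a h' := by simp only [mul_assoc]
      _ = (W * (s h * Y)) * a h' := by rw [e3]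
      _ = s h * (W * (Y * a h')) := by
          rw [← mul_assoc, hWc (s h)]; simp only [mul_assoc]
      _ = s h * (W * (s h' * Y)) := by rw [e3]
      _ = W * (s h * (s h' * Y)) := by rw [← mul_assoc, ← hWc, mul_assoc]
  have e5 : ∀ h h', W * (s h * (s h' * Y)) = W * (s h' * (s h * Y)) := by
    intro h h'
    rw [← e4, ← map_mul, e3, hs, mul_assoc]
  have hC : ∀ h h', a h * a h' - a h' * a h = s h * s h' - s h' * s h := by
    intro h h'
    have e1 : a h = algebraMap P E (t h) - s h := by rw [← hat]; abel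
    have e2 : a h' = algebraMap P E (t h') - s h' := by rw [← hat]; abel
    rw [e1, e2, sub_mul, sub_mul, mul_sub, mul_sub, mul_sub, mul_sub,
      Algebra.commutes (t h) (s h'), Algebra.commutes (t h') (s h), ← map_mul, ← map_mul,
      mul_comm (t h) (t h')]
    abel
  have hT : algebraMap P E (t (g₀ * (g₁ * g₂)) - t (g₀ * (g₂ * g₁))) =
      a g₀ * (s g₁ * s g₂ - s g₂ * s g₁) - (s g₁ * s g₂ - s g₂ * s g₁) * s g₀ := by
    rw [map_sub, ← hat, ← hat, ← hC, map_mul, map_mul, map_mul, map_mul, hs, hs, hs, hs, hC]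
    rw [mul_sub, sub_mul]
    have e1 : a g₀ * (s g₁ * s g₂) - a g₀ * (s g₂ * s g₁) = a g₀ * (a g₁ * a g₂) - a g₀ * (a g₂ * a g₁) := by
      rw [← mul_sub, ← mul_sub, hC]
    rw [e1]
    abel
  have h1 : W * ((s g₁ * s g₂ - s g₂ * s g₁) * Y) = 0 := by
    rw [sub_mul, mul_sub, mul_assoc, mul_assoc, e5, sub_self]
  rw [map_mul, ← hW, hT, mul_assoc, sub_mul, mul_sub]
  have h2 : W * (a g₀ * (s g₁ * s g₂ - s g₂ * s g₁) * Y) = 0 := by
    rw [mul_assoc, ← mul_assoc, hWc (a g₀), mul_assoc, h1, mul_zero]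
  have h3 : W * ((s g₁ * s g₂ - s g₂ * s g₁) * s g₀ * Y) = 0 := by
    calc W * ((s g₁ * s g₂ - s g₂ * s g₁) * s g₀ * Y)
        = (s g₁ * s g₂ - s g₂ * s g₁) * (W * (s g₀ * Y)) := by
          rw [← mul_assoc (s g₁ * s g₂ - s g₂ * s g₁) W, ← hWc]; simp only [mul_assoc]
      _ = (s g₁ * s g₂ - s g₂ * s g₁) * (W * (Y * a g₀)) := by rw [e3]
      _ = (W * ((s g₁ * s g₂ - s g₂ * s g₁) * Y)) * a g₀ := by
          rw [← mul_assoc (s g₁ * s g₂ - s g₂ * s g₁) W, ← hWc]; simp only [mul_assoc]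
      _ = 0 := by rw [h1, zero_mul]
  rw [h2, h3, sub_zero]

end Star

/-- Up to a bounded factor, the Hecke action on the `p`-power torsion of `J` factors through the
Hecke algebra of weight-two cusp forms of level `N`. -/
def HeckeFactors (N p : ℕ) [NeZero N] (S : Set ℕ) (J : Type*) [AddCommGroup J]
    [Module HeckeAlg J] : Prop :=
  ∃ e : ℕ, e ≠ 0 ∧ ∀ t : HeckeAlgS S, evS N S t = 0 → ∀ (m : ℕ) (x : J), p ^ m • x = 0 →
    inclS S ((e : HeckeAlgS S) * t) • x = 0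

lemma evS_surjective (N : ℕ) [NeZero N] (S : Set ℕ) : Function.Surjective (evS N S) := by
  have key : ∀ x : Module.End ℂ (CuspForm (CongruenceSubgroup.Gamma0 N) 2),
      x ∈ Algebra.adjoin ℤ (heckeGenerators N 2 S) →
        ∃ t : HeckeAlgS S, ((evS N S t : heckeAlgebra N 2 S) :
          Module.End ℂ (CuspForm (CongruenceSubgroup.Gamma0 N) 2)) = x := by
    intro x hx
    induction hx using Algebra.adjoin_induction with
    | mem x hx =>
      rcases hx with ⟨ℓ, hℓ, hℓN, hℓS, rfl⟩ | ⟨q, hqN, hq, hqS, rfl⟩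
      · refine ⟨MvPolynomial.X ⟨⟨ℓ, hℓ⟩, hℓS⟩, ?_⟩
        rw [evS_X_of_not_dvd N S ⟨⟨ℓ, hℓ⟩, hℓS⟩ hℓN]
        rfl
      · refine ⟨MvPolynomial.X ⟨⟨q, hq⟩, hqS⟩, ?_⟩
        rw [evS, MvPolynomial.aeval_X, genS, dif_pos hqN]
        rfl
    | algebraMap r =>
      refine ⟨algebraMap ℤ _ r, ?_⟩
      rw [AlgHom.commutes]
      rfl
    | add x y _ _ ihx ihy =>
      obtain ⟨a, rfl⟩ := ihx
      obtain ⟨b, rfl⟩ := ihy
      exact ⟨a + b, by rw [map_add]; rfl⟩
    | mul x y _ _ ihx ihy =>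
      obtain ⟨a, rfl⟩ := ihx
      obtain ⟨b, rfl⟩ := ihy
      exact ⟨a * b, by rw [map_mul]; rfl⟩
  rintro ⟨x, hx⟩
  obtain ⟨t, ht⟩ := key x hx
  exact ⟨t, Subtype.ext ht⟩

section Main

variable {N p : ℕ} [NeZero N] [hp : Fact p.Prime] {S : Finset ℕ}
  {J : Type*} [AddCommGroup J] [Module HeckeAlg J] [DistribMulAction GQ J]
  [SMulCommClass GQ HeckeAlg J]
  {T : Type} [CommRing T] [IsDomain T] [IsLocalRing T] [IsNoetherianRing T]
  [IsAdicComplete (IsLocalRing.maximalIdeal T) T] [CharZero T]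

/-- `evS t ∈ p^m T` implies that `e t` kills `J[p^m]`. -/
lemma smul_eq_zero_of_evS_eq {e : ℕ} (hK : ∀ t : HeckeAlgS (↑S : Set ℕ),
      evS N (↑S : Set ℕ) t = 0 → ∀ (m : ℕ) (x : J), p ^ m • x = 0 →
        inclS (↑S : Set ℕ) ((e : HeckeAlgS (↑S : Set ℕ)) * t) • x = 0)
    {t : HeckeAlgS (↑S : Set ℕ)}
    {m : ℕ} {u : heckeAlgebra N 2 (↑S : Set ℕ)}
    (h : evS N (↑S : Set ℕ) t = (p : heckeAlgebra N 2 (↑S : Set ℕ)) ^ m * u) {x : J}
    (hx : p ^ m • x = 0) : inclS (↑S : Set ℕ) ((e : HeckeAlgS (↑S : Set ℕ)) * t) • x = 0 := by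
  obtain ⟨v, rfl⟩ := evS_surjective N (↑S : Set ℕ) u
  have h1 : evS N (↑S : Set ℕ) (t - (p : HeckeAlgS (↑S : Set ℕ)) ^ m * v) = 0 := by
    rw [map_sub, map_mul, map_pow, map_natCast, h, sub_self]
  have h2 := hK _ h1 m x hx
  have e1 : (e : HeckeAlgS (↑S : Set ℕ)) * (t - (p : HeckeAlgS (↑S : Set ℕ)) ^ m * v) =
      (e : HeckeAlgS (↑S : Set ℕ)) * t - (e : HeckeAlgS (↑S : Set ℕ)) * v *
        (p : HeckeAlgS (↑S : Set ℕ)) ^ m := by ring
  rw [e1, map_sub, map_mul (inclS (↑S : Set ℕ)) _ ((p : HeckeAlgS (↑S : Set ℕ)) ^ m), map_pow,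
    map_natCast, sub_smul, mul_smul _ ((p : HeckeAlg) ^ m)] at h2
  have h3 : ((p : HeckeAlg) ^ m) • x = 0 := by
    rw [← Nat.cast_pow, Nat.cast_smul_eq_nsmul]; exact hx
  rwa [h3, smul_zero, sub_zero] at h2

set_option maxHeartbeats 1600000 in
/-- **Reverse transfer.** -/
theorem exists_revTransfer [Module.Finite ℤ (heckeAlgebra N 2 (↑S : Set ℕ))]
    (hJ : ESInput N p (↑S : Set ℕ) J)
    (hK : HeckeFactors N p (↑S : Set ℕ) J)
    (hpS : p ∈ S) (hNS : ∀ q : ℕ, q.Prime → q ∣ N → q ∈ S)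
    (hpT : (p : T) ∈ IsLocalRing.maximalIdeal T)
    {π : heckeAlgebra N 2 (↑S : Set ℕ) →+* T} {ρ : GaloisRepAdic T}
    (hfrob : HasFrobCharpoly π ρ) (habs : ρ.residual.IsAbsolutelyIrreducible)
    (t₁ : HeckeAlgS (↑S : Set ℕ)) (ht₁ : π (evS N (↑S : Set ℕ) t₁) ≠ 0) :
    ∃ σ : ℕ → HeckeAlgS (↑S : Set ℕ),
      (∀ (m : ℕ) {ι : Type} (I : Finset ι) (c : ι → ℤ) (g : ι → GQ),
        (∑ i ∈ I, c i • ρ.ρ (g i) = 0) → ∀ x : J, p ^ m • x = 0 →
          ∑ i ∈ I, c i • (g i • (inclS (↑S : Set ℕ) (σ m) • x)) = 0) ∧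
      (∀ c : ℕ, ∃ m : ℕ, ∃ x : J, p ^ m • x = 0 ∧
        inclS (↑S : Set ℕ) ((p : HeckeAlgS (↑S : Set ℕ)) ^ c * t₁ * σ m) • x ≠ 0) := by
  classical
  obtain ⟨e, he, hK⟩ := hK
  have ht₁e : π (evS N (↑S : Set ℕ) ((e : HeckeAlgS (↑S : Set ℕ)) * t₁)) ≠ 0 := by
    rw [map_mul, map_mul, map_natCast, map_natCast]
    exact mul_ne_zero (Nat.cast_ne_zero.mpr he) ht₁
  obtain ⟨s, hs1, hs2, hs3⟩ :=
    exists_cut hpT π (evS N (↑S : Set ℕ) ((e : HeckeAlgS (↑S : Set ℕ)) * t₁)) ht₁e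
  choose σ hσ using fun m => evS_surjective N (↑S : Set ℕ) (s m)
  refine ⟨fun m => (e : HeckeAlgS (↑S : Set ℕ)) * σ m, ?_, ?_⟩
  · intro m ι I c g h0 x₀ hx₀
    obtain ⟨n', hn'⟩ := hs1 m
    have hpm0 : p ^ m ≠ 0 := pow_ne_zero _ hp.out.ne_zero
    haveI : NeZero (p ^ m) := ⟨hpm0⟩
    obtain ⟨ζ, hζ⟩ := HasEnoughRootsOfUnity.exists_primitiveRoot (AlgebraicClosure ℚ) (p ^ m)
    obtain ⟨L₁, hL₁fin, hL₁⟩ := ρ.isAdicContinuous (n' + 1)
    obtain ⟨L₂, hL₂fin, hL₂⟩ := hJ.finiteLevel m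
    set L₃ : IntermediateField ℚ (AlgebraicClosure ℚ) := IntermediateField.adjoin ℚ {ζ} with hL₃
    haveI hL₃fin : FiniteDimensional ℚ L₃ :=
      IntermediateField.adjoin.finiteDimensional ((Algebra.IsAlgebraic.isAlgebraic ζ).isIntegral)
    set L : IntermediateField ℚ (AlgebraicClosure ℚ) := L₁ ⊔ L₂ ⊔ L₃ with hLdef
    have hle₁ : L₁ ≤ L := le_sup_left.trans le_sup_left
    have hle₂ : L₂ ≤ L := le_sup_right.trans le_sup_left
    have hle₃ : L₃ ≤ L := le_sup_right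
    have hζL : ζ ∈ L := hle₃ (IntermediateField.mem_adjoin_simple_self ℚ ζ)
    choose ℓ hℓ hℓS A hA φ hφ k hk using fun h : GQ => frobeniusDensity L inferInstance h S
    have hnd : ∀ {ℓ : ℕ}, ℓ.Prime → ℓ ∉ S → ¬ ℓ ∣ N * p := by
      intro ℓ hℓ hℓS hdvd
      rcases (Nat.Prime.dvd_mul hℓ).mp hdvd with h | h
      · exact hℓS (hNS ℓ hℓ h)
      · exact hℓS (((Nat.prime_dvd_prime_iff_eq hℓ hp.out).mp h) ▸ hpS)
    have hne : ∀ {ℓ : ℕ}, ℓ ∉ S → ℓ ≠ p := fun h h' => h (h' ▸ hpS)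
    set t' : GQ → HeckeAlgS (↑S : Set ℕ) := fun h => tracePoly S (ℓ h) (hℓ h) (hℓS h) (k h) with ht'
    set a : GQ →* Module.End HeckeAlg (torsSub J p m) := actTors J p m with ha
    set b : GQ → Module.End HeckeAlg (torsSub J p m) := fun h =>
      algebraMap HeckeAlg (Module.End HeckeAlg (torsSub J p m)) (cycExp p hp.out m hζ h : HeckeAlg) *
        a h⁻¹ with hb
    have hbmul : ∀ g h, b (g * h) = b h * b g := by
      intro g h
      have h1 := algebraMap_eq_of_congr (J := J) (p := p) m (cycExp_mul p hp.out m hζ g h)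
      rw [Nat.cast_mul, map_mul] at h1
      simp only [hb]
      rw [h1, mul_inv_rev, map_mul]
      rw [mul_assoc, mul_assoc, ← mul_assoc (a h⁻¹), ← Algebra.commutes _ (a h⁻¹), mul_assoc]
    have hb1 : b 1 = 1 := by
      have h1 : ζ ^ (cycExp p hp.out m hζ 1) = ζ ^ 1 := by
        rw [← cycExp_spec, pow_one]; rfl
      have h2 := algebraMap_eq_of_congr (J := J) (p := p) m (natCast_eq_of_pow_eq p hp.out m hζ h1)
      simp only [hb]
      rw [h2, Nat.cast_one, map_one, inv_one, map_one, one_mul]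
    have hat : ∀ h, a h + b h = algebraMap HeckeAlg (Module.End HeckeAlg (torsSub J p m))
        (inclS (↑S : Set ℕ) (t' h)) := by
      intro h
      have hg : actTors J p m ((φ h) ^ (k h)) = a h :=
        actTors_eq_of_agree hL₂ fun x hx => hk h x (hle₂ hx)
      have e := actTors_quadratic (N := N) (J := J) hJ.frobenius m (hℓ h) (hnd (hℓ h) (hℓS h))
        (hA h) (hφ h) (k h)
      rw [hg] at e
      have hz : ζ ^ (ℓ h ^ k h) = ζ ^ (cycExp p hp.out m hζ h) := by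
        rw [← frobenius_pow_zeta p hp.out m hζ (hℓ h) (hne (hℓS h)) (hA h) (hφ h), hk h ζ hζL,
          ← cycExp_spec]
      have hz' := algebraMap_eq_of_congr (J := J) (p := p) m (natCast_eq_of_pow_eq p hp.out m hζ hz)
      rw [Nat.cast_pow] at hz'
      rw [hz'] at e
      have e3 : inclS (↑S : Set ℕ) (t' h) = tk (heckeGen ⟨ℓ h, hℓ h⟩) ((ℓ h : ℕ) : HeckeAlg) (k h) :=
        inclS_tracePoly _ _ _ _
      rw [← e3] at e
      have e4 : a h * a h⁻¹ = 1 := by rw [← map_mul, mul_inv_cancel, map_one]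
      exact scalar_of_quadratic (P := HeckeAlg) (E := Module.End HeckeAlg (torsSub J p m))
        (a h) (a h⁻¹) _ _ e e4
    have htr : ∀ h : GQ, LinearMap.trace T ρ.V (ρ.ρ h) - π (evS N (↑S : Set ℕ) (t' h)) ∈
        IsLocalRing.maximalIdeal T ^ (n' + 1) := by
      intro h
      have d := trace_sub_mem ρ hL₁ (σ := (φ h) ^ (k h)) (σ' := h)
        fun x hx => hk h x (hle₁ hx)
      rw [trace_frobenius_pow hfrob hNS (hℓ h) (hℓS h) (hA h) (hφ h)] at d
      rw [← neg_sub]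
      exact (Ideal.neg_mem_iff _).mpr d
    -- killing
    have hkill : ∀ {t : HeckeAlgS (↑S : Set ℕ)} {u : heckeAlgebra N 2 (↑S : Set ℕ)},
        evS N (↑S : Set ℕ) t = (p : heckeAlgebra N 2 (↑S : Set ℕ)) ^ m * u →
        algebraMap HeckeAlg (Module.End HeckeAlg (torsSub J p m))
          (inclS (↑S : Set ℕ) ((e : HeckeAlgS (↑S : Set ℕ)) * t)) = 0 := by
      intro t u h
      refine LinearMap.ext fun x => Subtype.ext ?_
      exact smul_eq_zero_of_evS_eq hK h x.2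
    set σe : HeckeAlgS (↑S : Set ℕ) := (e : HeckeAlgS (↑S : Set ℕ)) * σ m with hσe
    have h0' : ∀ h : GQ, algebraMap HeckeAlg (Module.End HeckeAlg (torsSub J p m))
        (inclS (↑S : Set ℕ) σe * ∑ i ∈ I, c i • inclS (↑S : Set ℕ) (t' (g i * h))) = 0 := by
      intro h
      have hx : inclS (↑S : Set ℕ) ((e : HeckeAlgS (↑S : Set ℕ)) *
          (σ m * ∑ i ∈ I, c i • t' (g i * h))) =
          inclS (↑S : Set ℕ) σe * ∑ i ∈ I, c i • inclS (↑S : Set ℕ) (t' (g i * h)) := by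
        rw [← mul_assoc, ← hσe, map_mul, map_sum]
        congr 1
        refine Finset.sum_congr rfl fun i _ => ?_
        rw [map_zsmul]
      rw [← hx]
      have h1 : ∑ i ∈ I, c i • LinearMap.trace T ρ.V (ρ.ρ (g i * h)) = 0 := by
        have h2 : ∑ i ∈ I, c i • LinearMap.trace T ρ.V (ρ.ρ (g i * h)) =
            LinearMap.trace T ρ.V ((∑ i ∈ I, c i • ρ.ρ (g i)) * ρ.ρ h) := by
          rw [Finset.sum_mul, map_sum]
          refine Finset.sum_congr rfl fun i _ => ?_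
          rw [smul_mul_assoc, map_zsmul, map_mul]
        rw [h2, h0, zero_mul, map_zero]
      obtain ⟨u, hu⟩ := hn' (evS N (↑S : Set ℕ) (∑ i ∈ I, c i • t' (g i * h))) (by
        have h3 : π (evS N (↑S : Set ℕ) (∑ i ∈ I, c i • t' (g i * h))) =
            -(∑ i ∈ I, c i • (LinearMap.trace T ρ.V (ρ.ρ (g i * h)) -
              π (evS N (↑S : Set ℕ) (t' (g i * h))))) := by
          rw [Finset.sum_congr rfl (fun i _ => smul_sub _ _ _), Finset.sum_sub_distrib, h1,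
            zero_sub, neg_neg, map_sum, map_sum]
          refine Finset.sum_congr rfl fun i _ => ?_
          rw [map_zsmul, map_zsmul]
        rw [h3]
        refine (Ideal.neg_mem_iff _).mpr (Ideal.sum_mem _ fun i _ => ?_)
        rw [zsmul_eq_mul]
        exact Ideal.mul_mem_left _ _ (Ideal.pow_le_pow_right (Nat.le_succ n') (htr _)))
      refine hkill (u := u) ?_
      rw [map_mul, hσ, mul_comm, hu]
    obtain ⟨g₀, g₁, g₂, hu⟩ := exists_isUnit_trace_commutator ρ habs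
    have hkey := rev_star_key a b (fun h => inclS (↑S : Set ℕ) (t' h)) hbmul hb1 hat
      (inclS (↑S : Set ℕ) σe) I c g h0' g₀ g₁ g₂
    set u₀ := t' (g₀ * (g₁ * g₂)) - t' (g₀ * (g₂ * g₁)) with hu₀
    have hunit : IsUnit (π (evS N (↑S : Set ℕ) u₀)) := by
      have h1 : LinearMap.trace T ρ.V (ρ.ρ (g₀ * (g₁ * g₂))) -
          LinearMap.trace T ρ.V (ρ.ρ (g₀ * (g₂ * g₁))) - π (evS N (↑S : Set ℕ) u₀) ∈
          IsLocalRing.maximalIdeal T := by
        have h2 := Ideal.sub_mem _ (htr (g₀ * (g₁ * g₂))) (htr (g₀ * (g₂ * g₁)))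
        have h3 := Ideal.pow_le_self (Nat.succ_ne_zero n') h2
        rw [hu₀, map_sub, map_sub]
        convert h3 using 1
        ring
      by_contra hnu
      have h4 := Ideal.add_mem _ h1 ((IsLocalRing.mem_maximalIdeal _).mpr hnu)
      rw [sub_add_cancel] at h4
      exact ((IsLocalRing.mem_maximalIdeal _).mp h4) hu
    obtain ⟨v, w, hvw⟩ := hs2 m _ hunit
    obtain ⟨v', rfl⟩ := evS_surjective N (↑S : Set ℕ) v
    have hk1 : algebraMap HeckeAlg (Module.End HeckeAlg (torsSub J p m))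
        (inclS (↑S : Set ℕ) ((e : HeckeAlgS (↑S : Set ℕ)) * ((u₀ * v' - 1) * σ m))) = 0 := by
      refine hkill (u := w) ?_
      rw [map_mul, map_sub, map_mul, map_one, hσ, hvw]
    have hY : algebraMap HeckeAlg (Module.End HeckeAlg (torsSub J p m))
        (inclS (↑S : Set ℕ) σe) * ∑ i ∈ I, c i • a (g i) = 0 := by
      have e1 : inclS (↑S : Set ℕ) σe +
          inclS (↑S : Set ℕ) ((e : HeckeAlgS (↑S : Set ℕ)) * ((u₀ * v' - 1) * σ m)) =
          inclS (↑S : Set ℕ) v' * (inclS (↑S : Set ℕ) σe *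
          (inclS (↑S : Set ℕ) (t' (g₀ * (g₁ * g₂))) - inclS (↑S : Set ℕ) (t' (g₀ * (g₂ * g₁))))) := by
        rw [hu₀, hσe]
        simp only [map_mul, map_sub, map_one]
        ring
      have e2 : algebraMap HeckeAlg (Module.End HeckeAlg (torsSub J p m))
          (inclS (↑S : Set ℕ) σe) = algebraMap HeckeAlg (Module.End HeckeAlg (torsSub J p m))
          (inclS (↑S : Set ℕ) v') * algebraMap HeckeAlg (Module.End HeckeAlg (torsSub J p m))
          (inclS (↑S : Set ℕ) σe *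
          (inclS (↑S : Set ℕ) (t' (g₀ * (g₁ * g₂))) - inclS (↑S : Set ℕ) (t' (g₀ * (g₂ * g₁))))) := by
        have e3 := congrArg (algebraMap HeckeAlg (Module.End HeckeAlg (torsSub J p m))) e1
        rw [RingHom.map_add, hk1, RingHom.map_mul] at e3
        exact (add_zero _).symm.trans e3
      rw [e2, mul_assoc, hkey, mul_zero]
    have h5 := congrArg (fun f : Module.End HeckeAlg (torsSub J p m) =>
      ((f (⟨x₀, hx₀⟩ : torsSub J p m) : torsSub J p m) : J)) hY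
    have h6 : inclS (↑S : Set ℕ) σe • (((∑ i ∈ I, c i • a (g i)) (⟨x₀, hx₀⟩ : torsSub J p m) :
        torsSub J p m) : J) = 0 := h5
    have h7 : (((∑ i ∈ I, c i • a (g i)) (⟨x₀, hx₀⟩ : torsSub J p m) : torsSub J p m) : J) =
        ∑ i ∈ I, c i • (g i • x₀) := by
      rw [LinearMap.sum_apply, Submodule.coe_sum]
      refine Finset.sum_congr rfl fun i _ => ?_
      rfl
    rw [h7, Finset.smul_sum] at h6
    rw [← h6]
    refine Finset.sum_congr rfl fun i _ => ?_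
    rw [smul_comm (inclS (↑S : Set ℕ) σe) (c i), smul_comm (g i) (inclS (↑S : Set ℕ) σe)]
  · intro c
    obtain ⟨n, hn⟩ := hs3 c
    obtain ⟨m, hm⟩ := hJ.faithful n
    by_contra hcon
    push Not at hcon
    set m' := max m n with hm'
    have h1 := hm ((p : HeckeAlgS (↑S : Set ℕ)) ^ c * t₁ *
      ((e : HeckeAlgS (↑S : Set ℕ)) * σ m')) (fun x hx => hcon m' x (by
      have : p ^ m' = p ^ (m' - m) * p ^ m := by rw [← pow_add, Nat.sub_add_cancel (le_max_left _ _)]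
      rw [this, mul_smul, hx, smul_zero]))
    obtain ⟨w, hw⟩ := Ideal.mem_span_singleton'.mp h1
    have e1 : (p : HeckeAlgS (↑S : Set ℕ)) ^ c * t₁ * ((e : HeckeAlgS (↑S : Set ℕ)) * σ m') =
        (p : HeckeAlgS (↑S : Set ℕ)) ^ c * ((e : HeckeAlgS (↑S : Set ℕ)) * t₁) * σ m' := by ring
    rw [e1, map_mul, map_mul, map_pow, map_natCast, hσ] at hw
    exact hn m' (le_max_right _ _) w (by rw [← hw, mul_comm])

end Main

end Fermat.Agent.S36red

end
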