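import Fermat.Agent.S36.NormAL
import Fermat.Agent.S36.NormInt
import Fermat.Agent.TriComp.Exhaust
import Fermat.Agent.TwoGauss.Galois

set_option autoImplicit false
set_option linter.unusedSectionVars false
set_option linter.style.haveILetI false

/-!
# The instance of `Setup`
-/

noncomputable section

open AlgebraicCurve ModularCurve HahnSeries Fermat.Agent.TEll Fermat.Agent.TriGauss
  Fermat.Agent.TriVal Fermat.Agent.LocE Fermat.Agent.GaussVal Fermat.Agent.TwoGauss
  Fermat.Agent.TriComp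

namespace Fermat.Agent.S36norm

/-! ### Generalities on discrete valuations -/

section DVgen

theorem mem_nonunits_iff_inv_notMem' {F : Type*} [Field F] (B : ValuationSubring F) {y : F}
    (hy : y ≠ 0) : y⁻¹ ∈ B ↔ y ∉ B.nonunits := by
  rw [ValuationSubring.mem_nonunits_iff, not_lt, ← ValuationSubring.valuation_le_one_iff,
    map_inv₀, inv_le_one₀ (zero_lt_iff.mpr ((Valuation.ne_zero_iff _).mpr hy))]

/-- Pull back a discrete valuation along a homomorphism of fields. -/
def DV.comap {E F κ : Type*} [Field E] [Field F] [Field κ] (V : DV F κ) (φ : E →+* F) :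
    DV E κ where
  O := V.O.comap φ
  ρ := V.ρ.comp
    { toFun := fun x => ⟨φ x, x.2⟩
      map_one' := Subtype.ext (map_one φ)
      map_mul' := fun _ _ => Subtype.ext (map_mul φ _ _)
      map_zero' := Subtype.ext (map_zero φ)
      map_add' := fun _ _ => Subtype.ext (map_add φ _ _) }
  ρ_eq_zero_iff x := by
    rw [RingHom.comp_apply, V.ρ_eq_zero_iff]
    change φ (x : E) ∈ V.O.nonunits ↔ _
    rcases eq_or_ne (x : E) 0 with h0 | h0
    · rw [h0, map_zero]
      exact iff_of_true
        ((ValuationSubring.mem_nonunits_iff _).2 (by rw [map_zero]; exact zero_lt_one))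
        ((ValuationSubring.mem_nonunits_iff _).2 (by rw [map_zero]; exact zero_lt_one))
    have h1 : φ (x : E) ≠ 0 := (map_ne_zero φ).mpr h0
    rw [← not_iff_not, ← mem_nonunits_iff_inv_notMem' _ h1, ← mem_nonunits_iff_inv_notMem' _ h0,
      ← map_inv₀]
    rfl
  ord x := V.ord (φ x)
  ord_mul x y hx hy := by
    rw [map_mul]
    exact V.ord_mul _ _ ((map_ne_zero φ).mpr hx) ((map_ne_zero φ).mpr hy)
  mem_iff x hx := V.mem_iff _ ((map_ne_zero φ).mpr hx)

variable {E F κ : Type*} [Field E] [Field F] [Field κ] (V : DV F κ) (φ : E →+* F)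

theorem DV.mem_comap {x : E} : x ∈ (V.comap φ).O ↔ φ x ∈ V.O := Iff.rfl

theorem DV.comap_ord (x : E) : (V.comap φ).ord x = V.ord (φ x) := rfl

theorem DV.comap_red (x : E) : (V.comap φ).red x = V.red (φ x) := by
  by_cases h : φ x ∈ V.O
  · rw [V.red_of_mem h, (V.comap φ).red_of_mem (show x ∈ (V.comap φ).O from h)]
    rfl
  · have h' : x ∉ (V.comap φ).O := h
    rw [DV.red, dif_neg h', DV.red, dif_neg h]

theorem DV.ord_add_of_lt {x y : F} (hx : x ≠ 0) (h : y = 0 ∨ V.ord x < V.ord y) :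
    x + y ≠ 0 ∧ V.ord (x + y) = V.ord x := by
  rcases h with rfl | h
  · rw [add_zero]; exact ⟨hx, rfl⟩
  rcases eq_or_ne y 0 with rfl | hy
  · rw [add_zero]; exact ⟨hx, rfl⟩
  have h1 : V.ord (y / x) = V.ord y - V.ord x := V.ord_div hy hx
  have h2 : y / x ≠ 0 := div_ne_zero hy hx
  have h3 : y / x ∈ V.O := by rw [V.mem_iff _ h2]; omega
  have h4 : V.red (y / x) = 0 := by
    by_contra h5
    have := (V.red_ne_zero_iff h2 h3).1 h5
    omega
  have h5 : 1 + y / x ∈ V.O := add_mem (one_mem _) h3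
  have h6 : V.red (1 + y / x) = 1 := by
    rw [V.red_add (one_mem _) h3, h4, V.red_one, add_zero]
  have h7 : 1 + y / x ≠ 0 := by
    intro h8
    rw [h8, V.red_zero] at h6
    exact zero_ne_one h6
  have h8 : V.ord (1 + y / x) = 0 := (V.red_ne_zero_iff h7 h5).1 (by rw [h6]; exact one_ne_zero)
  have h9 : x + y = x * (1 + y / x) := by field_simp
  rw [h9, V.ord_mul _ _ hx h7, h8, add_zero]
  exact ⟨mul_ne_zero hx h7, rfl⟩

theorem DV.ord_zpow {x : F} (hx : x ≠ 0) (n : ℤ) : V.ord (x ^ n) = n * V.ord x := by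
  obtain ⟨m, rfl | rfl⟩ := n.eq_nat_or_neg
  · rw [zpow_natCast, V.ord_pow hx]
  · rw [zpow_neg, zpow_natCast, V.ord_inv (pow_ne_zero _ hx), V.ord_pow hx]; ring

/-- Elements with prescribed orders. -/
theorem DV.exists_ord {ι : Type*} [Finite ι] [Nonempty ι] (v : ι → DV F κ)
    (hv : ∀ i, ∃ x : F, x ≠ 0 ∧ (v i).ord x = 1) (hne : ∀ i j, i ≠ j → (v i).O ≠ (v j).O)
    (a : ι → ℤ) : ∃ g : F, g ≠ 0 ∧ ∀ i, (v i).ord g = a i := by
  cases nonempty_fintype ι
  choose π hπ0 hπ using id hv
  obtain ⟨x, hx⟩ := DV.exists_approx v hv hne (fun i => π i ^ a i) (∑ i, |a i|)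
  have key : ∀ i, x ≠ 0 ∧ (v i).ord x = a i := by
    intro i
    have h0 : π i ^ a i ≠ 0 := zpow_ne_zero _ (hπ0 i)
    have h1 : (v i).ord (π i ^ a i) = a i := by
      rw [(v i).ord_zpow (hπ0 i), hπ, mul_one]
    have h2 : x - π i ^ a i = 0 ∨ (v i).ord (π i ^ a i) < (v i).ord (x - π i ^ a i) := by
      refine (hx i).imp_right fun h => ?_
      rw [h1]
      have h3 : |a i| ≤ ∑ j, |a j| :=
        Finset.single_le_sum (f := fun j => |a j|) (fun j _ => abs_nonneg _) (Finset.mem_univ i)
      have h4 := le_abs_self (a i)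
      omega
    have h3 := (v i).ord_add_of_lt h0 h2
    rw [add_sub_cancel, h1] at h3
    exact h3
  exact ⟨x, (key (Classical.arbitrary ι)).1, fun i => (key i).2⟩

end DVgen

/-! ### Gauss valuations -/

section IsGauss

/-- `V` is the Gauss valuation attached to `ι`. -/
structure IsGauss {F κ : Type*} [Field F] [Field κ] (A : ValuationSubring Qb) (ϖ : Qb)
    (ι : F →+* LaurentSeries Qb) (V : DV F κ)
    (r : κ →+* LaurentSeries (IsLocalRing.ResidueField A)) : Prop where
  hasOrd : ∀ f, f ≠ 0 → HasOrd A ϖ (ι f) (V.ord f)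
  mem_iff : ∀ f, f ∈ V.O ↔ ι f ∈ gaussSubring A
  red : ∀ f (h : ι f ∈ gaussSubring A), r (V.red f) = gaussRed A ⟨ι f, h⟩

variable {F κ : Type*} [Field F] [Field κ] {A : ValuationSubring Qb} {ϖ : Qb}
    {ι : F →+* LaurentSeries Qb} {V : DV F κ}
    {r : κ →+* LaurentSeries (IsLocalRing.ResidueField A)}

theorem isGauss_gdv {ℓ : ℕ} {L : Subfield Qb} (hℓ : ℓ.Prime) (hA : A.LiesOverPrime ℓ)
    (h : IsUnif A L ϖ) (ι : F →+* LaurentSeries Qb) (hι : ∀ x, ι x ∈ ratSer L) :
    IsGauss A ϖ ι (gdv hℓ hA h ι hι) (RingHom.id _) where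
  hasOrd f hf := hasOrd_gord hℓ hA h (hι f) ((map_ne_zero ι).mpr hf)
  mem_iff _ := mem_gdv
  red _ hf := gdv_red_eq hf

theorem IsGauss.exh {K k ι' : Type*} [Field K] [Algebra K F] [Field k] [Fintype ι'] [Nonempty ι']
    [Algebra k (LaurentSeries (IsLocalRing.ResidueField A))]
    {P : Pre K F k (LaurentSeries (IsLocalRing.ResidueField A)) ι'}
    {F' : IntermediateField k (LaurentSeries (IsLocalRing.ResidueField A))} (H : Exh P F')
    (i : ι') (h : IsGauss A ϖ ι (P.v i) (RingHom.id _)) :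
    IsGauss A ϖ ι (H.v' i) (algebraMap F' (LaurentSeries (IsLocalRing.ResidueField A))) where
  hasOrd f hf := h.hasOrd f hf
  mem_iff f := h.mem_iff f
  red f hf := (H.coe_v'_red i f).trans (h.red f hf)

theorem IsGauss.ord_eq {L : Subfield Qb} (h : IsGauss A ϖ ι V r) (hU : IsUnif A L ϖ) {f : F}
    (hf : f ≠ 0) {n : ℤ} (hn : HasOrd A ϖ (ι f) n) : V.ord f = n :=
  HasOrd.unique hU (h.hasOrd f hf) hn

theorem IsGauss.comap {E : Type*} [Field E] (h : IsGauss A ϖ ι V r) (φ : E →+* F) :
    IsGauss A ϖ (ι.comp φ) (V.comap φ) r where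
  hasOrd f hf := h.hasOrd (φ f) ((map_ne_zero φ).mpr hf)
  mem_iff f := h.mem_iff (φ f)
  red f hf := by
    rw [DV.comap_red]
    exact h.red (φ f) hf

theorem IsGauss.of_eq {ι' : F →+* LaurentSeries Qb} (h : IsGauss A ϖ ι V r) (he : ι = ι') :
    IsGauss A ϖ ι' V r := he ▸ h

end IsGauss

/-! ### The data -/

section Inputs

/-- All the hypotheses on the degeneracy maps. -/
structure LevelInput (A : ValuationSubring Qb) (K : Type*) [Field K] [Algebra K Qb] (m q : ℕ)
    [NeZero m] [NeZero q] [NeZero (m * q)] [NeZero (m * q * q)] (ζ : Qbˣ)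
    (e₁ : modularFunctionFieldFullC K (m * q * q) →+* LaurentSeries Qb)
    (w : modularFunctionFieldFullC K (m * q * q) ≃ₐ[K] modularFunctionFieldFullC K (m * q * q))
    (w' : modularFunctionFieldFullC K (m * q) ≃ₐ[K] modularFunctionFieldFullC K (m * q)) :
    Prop where
  hq : q.Prime
  hm : ¬ q ∣ m
  hA : A.LiesOverPrime q
  hK : IsK0 A q K
  hζ : IsPrimitiveRoot ζ q
  he₁ : Emb1 K m q ζ e₁
  hw : IsSwap K (m * q * q) (q * q) m w
  hw' : IsSwap K (m * q) q m w'
  dega : finrankAlong K (alphaC K (m * q) q) = q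
  degb : finrankAlong K (betaC K (m * q) q) = q

variable {A : ValuationSubring Qb} {K : Type*} [Field K] [Algebra K Qb] {m q : ℕ}
    [NeZero m] [NeZero q] [NeZero (m * q)] [NeZero (m * q * q)] {ζ : Qbˣ}
    {e₁ : modularFunctionFieldFullC K (m * q * q) →+* LaurentSeries Qb}
    {w : modularFunctionFieldFullC K (m * q * q) ≃ₐ[K] modularFunctionFieldFullC K (m * q * q)}
    {w' : modularFunctionFieldFullC K (m * q) ≃ₐ[K] modularFunctionFieldFullC K (m * q)}

/-- the residue field -/
local notation "κ" => IsLocalRing.ResidueField A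

/-- The three Gauss valuations on the function field of level `q² m`. -/
structure TriInput (A : ValuationSubring Qb) (K : Type*) [Field K] [Algebra K Qb] (m q : ℕ)
    [NeZero m] [NeZero q] [NeZero (m * q)] [NeZero (m * q * q)] (ζ : Qbˣ)
    (e₁ : modularFunctionFieldFullC K (m * q * q) →+* LaurentSeries Qb)
    (w : modularFunctionFieldFullC K (m * q * q) ≃ₐ[K] modularFunctionFieldFullC K (m * q * q))
    {Er : Type*} [CommRing Er] [Algebra (IsLocalRing.ResidueField A) Er]
    (D : Data K (modularFunctionFieldFullC K (m * q * q)) (IsLocalRing.ResidueField A) Er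
      (modularFunctionFieldFullC (IsLocalRing.ResidueField A) m) q) : Prop where
  h0 : IsGauss A (q : Qb) (e0 K (m * q * q)) (D.v 0) (algebraMap
    (modularFunctionFieldFullC (IsLocalRing.ResidueField A) m)
    (LaurentSeries (IsLocalRing.ResidueField A)))
  h1 : IsGauss A ((ζ : Qb) - 1) e₁ (D.v 1) (algebraMap
    (modularFunctionFieldFullC (IsLocalRing.ResidueField A) m)
    (LaurentSeries (IsLocalRing.ResidueField A)))
  h2 : IsGauss A (q : Qb) ((e0 K (m * q * q)).comp (RingHomClass.toRingHom w)) (D.v 2) (algebraMap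
    (modularFunctionFieldFullC (IsLocalRing.ResidueField A) m)
    (LaurentSeries (IsLocalRing.ResidueField A)))
  hj : D.j = TriVal.jd K (m * q * q) 1 (one_dvd _)

/-! ### Expansions and degeneracy maps -/

theorem e0_alpha (x : modularFunctionFieldFullC K (m * q)) :
    e0 K (m * q * q) (alphaC K (m * q) q x) = e0 K (m * q) x := by
  rw [e0_apply, coe_alphaC, e0_apply]

theorem e0_beta (x : modularFunctionFieldFullC K (m * q)) :
    e0 K (m * q * q) (betaC K (m * q) q x) = qExpand Qb q (e0 K (m * q) x) := by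
  rw [e0_apply, coe_betaC, e0_apply, ModularCurve.coeffMap_qExpand]

namespace LevelInput

variable (I : LevelInput A K m q ζ e₁ w w')

include I

theorem e1_alpha (x : modularFunctionFieldFullC K (m * q)) :
    e₁ (alphaC K (m * q) q x) = e0 K (m * q) x := by
  have : e₁.comp (alphaC K (m * q) q : modularFunctionFieldFullC K (m * q) →+*
      modularFunctionFieldFullC K (m * q * q)) = e0 K (m * q) := by
    apply fullC_ringHom_ext
    · intro c
      change e₁ (alphaC K (m * q) q (algebraMap K _ c)) = _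
      rw [AlgHom.commutes, I.he₁.const, e0_algebraMap]
    · intro d hne hd
      have hd' : d ∣ m * q * q := hd.mul_right _
      change e₁ (alphaC K (m * q) q (TriVal.jd K (m * q) d hd)) = _
      have h1 : alphaC K (m * q) q (TriVal.jd K (m * q) d hd) =
          TriVal.jd K (m * q * q) d hd' := by
        apply Subtype.ext
        rw [coe_alphaC]; rfl
      rw [h1, I.he₁.jd, S1_of_dvd_mq I.hq I.hm _ ⟨d, hd'⟩ hd, e0_jd]
  exact congrArg (fun g : modularFunctionFieldFullC K (m * q) →+* LaurentSeries Qb => g x) this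

theorem e0_w_alpha (x : modularFunctionFieldFullC K (m * q)) :
    e0 K (m * q * q) (w (alphaC K (m * q) q x)) = qExpand Qb q (e0 K (m * q) (w' x)) := by
  rw [swap_alpha I.hw I.hw', e0_beta]

theorem e0_w_beta (x : modularFunctionFieldFullC K (m * q)) :
    e0 K (m * q * q) (w (betaC K (m * q) q x)) = e0 K (m * q) (w' x) := by
  rw [swap_beta I.hw I.hw', e0_alpha]

theorem Na_ne_zero {f : modularFunctionFieldFullC K (m * q * q)} (hf : f ≠ 0) :
    normAlong (alphaC K (m * q) q) f ≠ 0 :=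
  normAlong_ne_zero _ (by
    letI := algebraAlong (alphaC K (m * q) q)
    have h : Module.finrank (modularFunctionFieldFullC K (m * q))
      (modularFunctionFieldFullC K (m * q * q)) = q := I.dega
    exact Module.finite_of_finrank_pos (by rw [h]; exact I.hq.pos)) hf

theorem Nb_ne_zero {f : modularFunctionFieldFullC K (m * q * q)} (hf : f ≠ 0) :
    normAlong (betaC K (m * q) q) f ≠ 0 :=
  normAlong_ne_zero _ (by
    letI := algebraAlong (betaC K (m * q) q)
    have h : Module.finrank (modularFunctionFieldFullC K (m * q))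
      (modularFunctionFieldFullC K (m * q * q)) = q := I.degb
    exact Module.finite_of_finrank_pos (by rw [h]; exact I.hq.pos)) hf

omit I in
theorem Na_const (c : K) : normAlong (alphaC K (m * q) q) (algebraMap K _ c) =
    algebraMap K (modularFunctionFieldFullC K (m * q))
      (c ^ finrankAlong K (alphaC K (m * q) q)) := by
  rw [← AlgHom.commutes (alphaC K (m * q) q) c, normAlong_algebraMap, map_pow]

omit I in
theorem Nb_const (c : K) : normAlong (betaC K (m * q) q) (algebraMap K _ c) =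
    algebraMap K (modularFunctionFieldFullC K (m * q))
      (c ^ finrankAlong K (betaC K (m * q) q)) := by
  rw [← AlgHom.commutes (betaC K (m * q) q) c, normAlong_algebraMap, map_pow]

end LevelInput

/-! ### The record -/

variable [CharZero K] {Er : Type*} [CommRing Er] [Algebra (IsLocalRing.ResidueField A) Er]
    {D : Data K (modularFunctionFieldFullC K (m * q * q)) (IsLocalRing.ResidueField A) Er
      (modularFunctionFieldFullC (IsLocalRing.ResidueField A) m) q}

/-- `W₀` -/
def W0 (D : Data K (modularFunctionFieldFullC K (m * q * q)) (IsLocalRing.ResidueField A) Er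
      (modularFunctionFieldFullC (IsLocalRing.ResidueField A) m) q) :
    DV (modularFunctionFieldFullC K (m * q))
      (modularFunctionFieldFullC (IsLocalRing.ResidueField A) m) :=
  (D.v 0).comap (alphaC K (m * q) q : modularFunctionFieldFullC K (m * q) →+*
    modularFunctionFieldFullC K (m * q * q))

/-- `W₁` -/
def W1 (D : Data K (modularFunctionFieldFullC K (m * q * q)) (IsLocalRing.ResidueField A) Er
      (modularFunctionFieldFullC (IsLocalRing.ResidueField A) m) q) :
    DV (modularFunctionFieldFullC K (m * q))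
      (modularFunctionFieldFullC (IsLocalRing.ResidueField A) m) :=
  (D.v 2).comap (betaC K (m * q) q : modularFunctionFieldFullC K (m * q) →+*
    modularFunctionFieldFullC K (m * q * q))

/-- coercion of the function field of level `m` -/
abbrev rr (A : ValuationSubring Qb) (m : ℕ) :
    modularFunctionFieldFullC (IsLocalRing.ResidueField A) m →+*
      LaurentSeries (IsLocalRing.ResidueField A) :=
  algebraMap (modularFunctionFieldFullC (IsLocalRing.ResidueField A) m)
    (LaurentSeries (IsLocalRing.ResidueField A))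

section Lemmas

variable (I : LevelInput A K m q ζ e₁ w w') (T : TriInput A K m q ζ e₁ w D)

include T in
theorem W0_gauss : IsGauss A (q : Qb) (e0 K (m * q)) (W0 D) (rr A m) :=
  (T.h0.comap (alphaC K (m * q) q : modularFunctionFieldFullC K (m * q) →+*
    modularFunctionFieldFullC K (m * q * q))).of_eq (RingHom.ext fun x => e0_alpha x)

include I T in
theorem W1_gauss : IsGauss A (q : Qb) ((e0 K (m * q)).comp (RingHomClass.toRingHom w')) (W1 D)
    (rr A m) :=
  (T.h2.comap (betaC K (m * q) q : modularFunctionFieldFullC K (m * q) →+*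
    modularFunctionFieldFullC K (m * q * q))).of_eq (RingHom.ext fun x => I.e0_w_beta x)

include I T in
theorem W0_ord_Na {f : modularFunctionFieldFullC K (m * q * q)} (hf : f ≠ 0) :
    (W0 D).ord (normAlong (alphaC K (m * q) q) f) = (D.v 0).ord f + (D.v 1).ord f :=
  (W0_gauss T).ord_eq I.hK.unif (I.Na_ne_zero hf)
    (hasOrd_norm_alpha I.hq I.hm I.hA I.hK I.hζ I.he₁ I.dega (T.h0.hasOrd f hf) (T.h1.hasOrd f hf))

include I T in
theorem W0_ord_Nb {f : modularFunctionFieldFullC K (m * q * q)} (hf : f ≠ 0) :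
    (W0 D).ord (normAlong (betaC K (m * q) q) f) = q * (D.v 0).ord f :=
  (W0_gauss T).ord_eq I.hK.unif (I.Nb_ne_zero hf)
    (hasOrd_norm_beta I.hq I.hA I.hK I.hζ I.degb (T.h0.hasOrd f hf))

include I T in
theorem W1_ord_Na {f : modularFunctionFieldFullC K (m * q * q)} (hf : f ≠ 0) :
    (W1 D).ord (normAlong (alphaC K (m * q) q) f) = q * (D.v 2).ord f := by
  refine (W1_gauss I T).ord_eq I.hK.unif (I.Na_ne_zero hf) ?_
  change HasOrd A (q : Qb) (e0 K (m * q) (w' (normAlong (alphaC K (m * q) q) f))) _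
  rw [← norm_beta_w I.hw I.hw']
  exact hasOrd_norm_beta I.hq I.hA I.hK I.hζ I.degb (T.h2.hasOrd f hf)

include I T in
theorem W1_ord_Nb {f : modularFunctionFieldFullC K (m * q * q)} (hf : f ≠ 0) :
    (W1 D).ord (normAlong (betaC K (m * q) q) f) = (D.v 2).ord f + (D.v 1).ord f := by
  refine (W1_gauss I T).ord_eq I.hK.unif (I.Nb_ne_zero hf) ?_
  change HasOrd A (q : Qb) (e0 K (m * q) (w' (normAlong (betaC K (m * q) q) f))) _
  rw [← norm_alpha_w I.hw I.hw']
  exact hasOrd_norm_alpha I.hq I.hm I.hA I.hK I.hζ I.he₁ I.dega (T.h2.hasOrd f hf)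
    (hasOrd_e1_w I.hq I.hm I.hA I.hK I.hζ I.hw I.he₁ (T.h1.hasOrd f hf))

include I T in
theorem W0_red_Na {f : modularFunctionFieldFullC K (m * q * q)} (h0 : f ∈ (D.v 0).O)
    (h1 : f ∈ (D.v 1).O) : (W0 D).red (normAlong (alphaC K (m * q) q) f) =
      (D.v 0).red f * (D.v 1).red f ^ (q - 1) := by
  apply (rr A m).injective
  rw [T.h0.mem_iff] at h0
  rw [T.h1.mem_iff] at h1
  obtain ⟨h2, h3⟩ := norm_alpha_mem I.hq I.hm I.hA I.hK I.hζ I.he₁ I.dega h0 h1
  rw [(W0_gauss T).red _ h2, h3, map_mul, map_pow, T.h0.red _ h0, T.h1.red _ h1]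

include I T in
theorem W1_red_Nb {f : modularFunctionFieldFullC K (m * q * q)} (h2 : f ∈ (D.v 2).O)
    (h1 : f ∈ (D.v 1).O) : (W1 D).red (normAlong (betaC K (m * q) q) f) =
      (D.v 2).red f * (D.v 1).red f ^ (q - 1) := by
  apply (rr A m).injective
  rw [T.h2.mem_iff] at h2
  rw [T.h1.mem_iff] at h1
  obtain ⟨h1', h1''⟩ := e1_w_mem I.hq I.hm I.hA I.hK I.hζ I.hw I.he₁ h1
  have h2' : e0 K (m * q * q) (w f) ∈ gaussSubring A := h2
  obtain ⟨h3, h4⟩ := norm_alpha_mem I.hq I.hm I.hA I.hK I.hζ I.he₁ I.dega h2' h1'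
  have h5 : e0 K (m * q) (w' (normAlong (betaC K (m * q) q) f)) ∈ gaussSubring A := by
    rw [← norm_alpha_w I.hw I.hw']; exact h3
  have h6 := (W1_gauss I T).red (normAlong (betaC K (m * q) q) f) h5
  rw [h6, map_mul, map_pow, T.h2.red _ h2, T.h1.red _ h1, ← h1'']
  refine Eq.trans ?_ h4
  congr 1
  apply Subtype.ext
  change e0 K (m * q) (w' (normAlong (betaC K (m * q) q) f)) = _
  rw [← norm_alpha_w I.hw I.hw']

variable [Fact q.Prime] [CharP (IsLocalRing.ResidueField A) q]

include I T in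
theorem W0_red_Nb {f : modularFunctionFieldFullC K (m * q * q)} (h0 : f ∈ (D.v 0).O) :
    (W0 D).red (normAlong (betaC K (m * q) q) f) =
      coeffEnd (frobenius (IsLocalRing.ResidueField A) q) m ((D.v 0).red f) := by
  apply (rr A m).injective
  rw [T.h0.mem_iff] at h0
  obtain ⟨h3, h4⟩ := norm_beta_mem I.hq I.hA I.hK I.hζ I.degb h0
  rw [(W0_gauss T).red _ h3, h4, ← T.h0.red _ h0]
  rfl

include I T in
theorem W1_red_Na {f : modularFunctionFieldFullC K (m * q * q)} (h2 : f ∈ (D.v 2).O) :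
    (W1 D).red (normAlong (alphaC K (m * q) q) f) =
      coeffEnd (frobenius (IsLocalRing.ResidueField A) q) m ((D.v 2).red f) := by
  apply (rr A m).injective
  rw [T.h2.mem_iff] at h2
  have h2' : e0 K (m * q * q) (w f) ∈ gaussSubring A := h2
  obtain ⟨h3, h4⟩ := norm_beta_mem I.hq I.hA I.hK I.hζ I.degb h2'
  have h5 : e0 K (m * q) (w' (normAlong (alphaC K (m * q) q) f)) ∈ gaussSubring A := by
    rw [← norm_beta_w I.hw I.hw']; exact h3
  have h6 := (W1_gauss I T).red (normAlong (alphaC K (m * q) q) f) h5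
  rw [h6]
  have h7 : (⟨e0 K (m * q) (w' (normAlong (alphaC K (m * q) q) f)), h5⟩ : gaussSubring A) =
      ⟨_, h3⟩ := Subtype.ext (congrArg (e0 K (m * q)) (norm_beta_w I.hw I.hw' f)).symm
  refine (congrArg (gaussRed A) h7).trans (h4.trans ?_)
  have h8 := T.h2.red f h2
  have h9 : gaussRed A ⟨e0 K (m * q * q) (w f), h2'⟩ = rr A m ((D.v 2).red f) := h8.symm
  rw [h9]
  rfl

/-! #### constants -/

include I T in
theorem exists_ord_const {c : K} (hc : c ≠ 0) : ∃ n : ℤ,
    (D.v 0).ord (algebraMap K _ c) = n ∧ (D.v 1).ord (algebraMap K _ c) = ((q : ℤ) - 1) * n ∧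
    (D.v 2).ord (algebraMap K _ c) = n ∧ (W0 D).ord (algebraMap K _ c) = n ∧
    (W1 D).ord (algebraMap K _ c) = n := by
  have hc' : algebraMap K Qb c ≠ 0 := (map_ne_zero _).mpr hc
  obtain ⟨n, hn⟩ := I.hK.unif.exists_zpow (algebraMap K Qb c) ⟨c, rfl⟩ hc'
  have h1 := hasOrd_algebraMap (A := A) (ϖ := (q : Qb)) hc' hn
  have hζ1 : IsPrimitiveRoot (ζ : Qb) q := IsPrimitiveRoot.coe_units_iff.mpr I.hζ
  have h2 := HasOrd.of_pow (val_zeta_sub_one_pow (A := A) hζ1 I.hq) h1
  have hF : algebraMap K (modularFunctionFieldFullC K (m * q * q)) c ≠ 0 :=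
    (map_ne_zero _).mpr hc
  have hE : algebraMap K (modularFunctionFieldFullC K (m * q)) c ≠ 0 :=
    (map_ne_zero _).mpr hc
  have hq1 : ((q - 1 : ℕ) : ℤ) = (q : ℤ) - 1 := by
    have := I.hq.two_le
    omega
  have hv0 : (D.v 0).ord (algebraMap K _ c) = n :=
    T.h0.ord_eq I.hK.unif hF (by rw [e0_algebraMap]; exact h1)
  have hv2 : (D.v 2).ord (algebraMap K _ c) = n :=
    T.h2.ord_eq I.hK.unif hF (by
      change HasOrd A (q : Qb) (e0 K (m * q * q) (w (algebraMap K _ c))) n
      rw [AlgEquiv.commutes, e0_algebraMap]; exact h1)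
  refine ⟨n, hv0, ?_, hv2, ?_, ?_⟩
  · rw [← hq1]
    exact T.h1.ord_eq (isUnif_K1 I.hq I.hA hζ1) hF (by rw [I.he₁.const]; exact h2)
  · change (D.v 0).ord (alphaC K (m * q) q (algebraMap K _ c)) = n
    rw [AlgHom.commutes]; exact hv0
  · change (D.v 2).ord (betaC K (m * q) q (algebraMap K _ c)) = n
    rw [AlgHom.commutes]; exact hv2

include I T in
/-- constants in the valuation ring -/
theorem mem_A_iff {c : K} : c ∈ D.R.A ↔ (c = 0 ∨ 0 ≤ (D.v 0).ord (algebraMap K _ c)) := by
  rcases eq_or_ne c 0 with rfl | hc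
  · exact iff_of_true (zero_mem _) (Or.inl rfl)
  have hF : algebraMap K (modularFunctionFieldFullC K (m * q * q)) c ≠ 0 :=
    (map_ne_zero _).mpr hc
  rw [← D.R.mem_O_iff, D.mem_O_iff]
  constructor
  · intro h
    exact Or.inr (((D.v 0).mem_iff _ hF).1 (h 0))
  · intro h
    have h0 := h.resolve_left hc
    obtain ⟨n, e0, e1, e2, -, -⟩ := exists_ord_const I T hc
    have hq2 := I.hq.two_le
    intro i
    rw [(D.v i).mem_iff _ hF]
    rw [e0] at h0
    have h1 : (0 : ℤ) ≤ ((q : ℤ) - 1) * n := mul_nonneg (by omega) h0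
    fin_cases i
    · change 0 ≤ (D.v 0).ord _
      rw [e0]; exact h0
    · change 0 ≤ (D.v 1).ord _
      rw [e1]; exact h1
    · change 0 ≤ (D.v 2).ord _
      rw [e2]; exact h0

end Lemmas

end Inputs

end Fermat.Agent.S36norm
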