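import Fermat.Agent.HeckeComm.Commute
import Fermat.Agent.S36.ThmADef
import Fermat.Agent.QX4.SecComm

/-!
# Base change of norms for squares of degeneracy maps
-/

set_option autoImplicit false
set_option linter.style.haveILetI false
set_option linter.unusedSectionVars false

noncomputable section

open HahnSeries ModularCurve AlgebraicCurve IntermediateField Fermat.Agent.RR Fermat.Agent.TEll
  Fermat.Agent.X0Emb Fermat.Agent.HeckeComm

namespace Fermat.Agent.S36red

local notation "KK" => AlgebraicClosure ℚ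

section Tower

variable {K F F' F'' : Type*} [Field K] [Field F] [Field F'] [Field F''] [Algebra K F]
  [Algebra K F'] [Algebra K F'']

theorem finrankAlong_tower (φ : F →ₐ[K] F') (φ' : F' →ₐ[K] F'') :
    finrankAlong K (φ'.comp φ) = finrankAlong K φ * finrankAlong K φ' := by
  let _ := algebraAlong φ
  let _ := algebraAlong φ'
  let _ := algebraAlong (φ'.comp φ)
  have : IsScalarTower F F' F'' := IsScalarTower.of_algebraMap_eq fun _ => rfl
  exact (Module.finrank_mul_finrank F F' F'').symm

theorem finrankAlong_pos' (φ : F →ₐ[K] F') (h : FiniteAlong K φ) : 0 < finrankAlong K φ := by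
  let _ := algebraAlong φ
  have : Module.Finite F F' := h
  exact Module.finrank_pos

end Tower

section Gen

/-- the series `j(q^d)`. -/
def js (d : ℕ) [NeZero d] : LaurentSeries KK := qExpand KK d (jqModC KK)

theorem qExpand_js (m d k : ℕ) [NeZero m] [NeZero d] [NeZero k] (h : k = d * m) :
    qExpand KK m (js d) = js k := qExpand_qExpand_jqModC m d k h _

theorem coe_jF_eq_js (N : ℕ) [NeZero N] : (jF N : LaurentSeries KK) = js 1 := by
  rw [coe_jF]
  exact (qExpand_one_apply _).symm

theorem coe_jM_eq_js (N : ℕ) [NeZero N] : (jM N : LaurentSeries KK) = js N := coe_jM N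

/-- `j(q)` and `j(q^{pq})` are rational functions in `j(q^p)` and `j(q^q)`. -/
theorem js_mem_of_coprime (p q : ℕ) [NeZero p] [NeZero q] [NeZero (p * q)] (h : Nat.Coprime q p)
    (T : IntermediateField KK (LaurentSeries KK)) (hp : js p ∈ T) (hq : js q ∈ T) :
    js 1 ∈ T ∧ js (p * q) ∈ T := by
  -- work in the function field of `X₀(pq)`
  let w := swapHom (N := p) (ℓ := q) (L := KK) iota h
  let S : IntermediateField KK (modularFunctionFieldBar (p * q)) :=
    T.comap (modularFunctionFieldBar (p * q)).val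
  have hS : S.comap w = ⊤ := by
    refine eq_top_of_mem (p * q) _ ?_ ?_
    · have h1 : jF (p * q) = ⟨jser KK ((⟨1, Nat.one_mem_divisors.mpr (NeZero.ne p)⟩,
          ⟨1, Nat.one_mem_divisors.mpr (NeZero.ne q)⟩) : Ix p q), jser_mem KK _⟩ := by
        apply Subtype.ext
        rw [coe_jF_eq_js]
        rfl
      show w (jF (p * q)) ∈ S
      rw [h1, swapHom_jser]
      show jser KK _ ∈ T
      have h2 : jser KK (swapIx ((⟨1, Nat.one_mem_divisors.mpr (NeZero.ne p)⟩,
          ⟨1, Nat.one_mem_divisors.mpr (NeZero.ne q)⟩) : Ix p q)) = js q := by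
        unfold jser js
        exact qExpand_congr (by simp [swapIx]) _
      rw [h2]
      exact hq
    · have h1 : jM (p * q) = ⟨jser KK ((⟨p, Nat.mem_divisors_self p (NeZero.ne p)⟩,
          ⟨q, Nat.mem_divisors_self q (NeZero.ne q)⟩) : Ix p q), jser_mem KK _⟩ := by
        apply Subtype.ext
        rw [coe_jM_eq_js]
        rfl
      show w (jM (p * q)) ∈ S
      rw [h1, swapHom_jser]
      show jser KK _ ∈ T
      have h2 : jser KK (swapIx ((⟨p, Nat.mem_divisors_self p (NeZero.ne p)⟩,
          ⟨q, Nat.mem_divisors_self q (NeZero.ne q)⟩) : Ix p q)) = js p := by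
        unfold jser js
        exact qExpand_congr (by simp [swapIx, Nat.div_self (Nat.pos_of_ne_zero (NeZero.ne q))]) _
      rw [h2]
      exact hp
  have hall : ∀ x : modularFunctionFieldBar (p * q), (x : LaurentSeries KK) ∈ T := by
    intro x
    have h1 : w x ∈ S.comap w := by rw [hS]; trivial
    have h2 : w (w x) ∈ S := h1
    rw [swapHom_swapHom] at h2
    exact h2
  constructor
  · have := hall (jF (p * q))
    rwa [coe_jF_eq_js] at this
  · have := hall (jM (p * q))
    rwa [coe_jM_eq_js] at this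

/-- `j(q^N)`, `j(q^{Npq})` are rational functions in `j(q^{Np})` and `j(q^{Nq})`. -/
theorem js_mem_of_coprime_mul (N p q : ℕ) [NeZero N] [NeZero p] [NeZero q] (h : Nat.Coprime q p)
    (T : IntermediateField KK (LaurentSeries KK)) (hp : js (N * p) ∈ T) (hq : js (N * q) ∈ T) :
    js N ∈ T ∧ js (N * p * q) ∈ T := by
  have h1 := js_mem_of_coprime p q h (T.comap (qExpandAlgHomC KK N))
    (by
      show qExpand KK N (js p) ∈ T
      rw [qExpand_js N p (N * p) (by ring)]
      exact hp)
    (by
      show qExpand KK N (js q) ∈ T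
      rw [qExpand_js N q (N * q) (by ring)]
      exact hq)
  refine ⟨?_, ?_⟩
  · have h2 : qExpand KK N (js 1) ∈ T := h1.1
    rwa [qExpand_js N 1 N (by ring)] at h2
  · have h2 : qExpand KK N (js (p * q)) ∈ T := h1.2
    rwa [qExpand_js N (p * q) (N * p * q) (by ring)] at h2

theorem eq_top_of_js_mem (M : ℕ) [NeZero M]
    (S : IntermediateField KK (modularFunctionFieldBar M))
    (h1 : js 1 ∈ IntermediateField.lift S) (h2 : js M ∈ IntermediateField.lift S) : S = ⊤ := by
  refine eq_top_of_mem M S ?_ ?_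
  · rw [← coe_jF_eq_js M] at h1
    exact (IntermediateField.mem_lift _).mp h1
  · rw [← coe_jM_eq_js M] at h2
    exact (IntermediateField.mem_lift _).mp h2

end Gen

section Squares

variable (N q p : ℕ) [NeZero N] [NeZero q] [NeZero p]

/-- `f(q) ↦ f(q)` from level `Nq` to level `Npq`. -/
def alpha' : modularFunctionFieldBar (N * q) →ₐ[KK] modularFunctionFieldBar (N * p * q) :=
  (swapLevel N q p : _ →ₐ[KK] _).comp (heckeAlphaBar KK (N * q) p)

theorem coe_alpha' (x : modularFunctionFieldBar (N * q)) :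
    (alpha' N q p x : LaurentSeries KK) = (x : LaurentSeries KK) :=
  (coe_swapLevel N q p _).trans (coe_heckeAlphaBar (N * q) p x)

theorem finrankAlong_alpha' :
    finrankAlong KK (alpha' N q p) = finrankAlong KK (heckeAlphaBar KK (N * q) p) :=
  finrankAlong_comp _ (swapLevel N q p)

theorem finrankAlong_beta' :
    finrankAlong KK (beta' N q p) = finrankAlong KK (heckeBetaBar KK (N * q) p) :=
  finrankAlong_comp _ (swapLevel N q p)

/-- the square `(α_q, α_p)`. -/
theorem square_aa (x : modularFunctionFieldBar N) :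
    alpha' N q p (heckeAlphaBar KK N q x) =
      heckeAlphaBar KK (N * p) q (heckeAlphaBar KK N p x) :=
  Subtype.ext (by
    rw [coe_alpha', coe_heckeAlphaBar, coe_heckeAlphaBar, coe_heckeAlphaBar])

/-- the square `(β_q, α_p)`. -/
theorem square_ba (x : modularFunctionFieldBar N) :
    alpha' N q p (heckeBetaBar KK N q x) =
      heckeBetaBar KK (N * p) q (heckeAlphaBar KK N p x) :=
  Subtype.ext (by
    rw [coe_alpha', coe_heckeBetaBar, coe_heckeBetaBar, coe_heckeAlphaBar])

/-- the square `(β_q, β_p)`. -/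
theorem square_bb (x : modularFunctionFieldBar N) :
    beta' N q p (heckeBetaBar KK N q x) =
      heckeBetaBar KK (N * p) q (heckeBetaBar KK N p x) :=
  Subtype.ext (by
    rw [coe_beta', coe_heckeBetaBar, coe_heckeBetaBar, coe_heckeBetaBar]
    exact QX4.qExpand_comm p q _)

theorem mem_lift_of_mem {M : ℕ} {S : IntermediateField KK (modularFunctionFieldBar M)}
    {x : modularFunctionFieldBar M} (h : x ∈ S) {y : LaurentSeries KK}
    (hy : (x : LaurentSeries KK) = y) : y ∈ IntermediateField.lift S := by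
  subst hy
  exact (IntermediateField.mem_lift x).mpr h

/-- The trace to the first factor commutes with pulling back by `α_p` (first degeneracy). -/
theorem alpha_norm_alpha (hq : q.Prime) (hqp : Nat.Coprime q p)
    (x : modularFunctionFieldBar (N * q)) :
    heckeAlphaBar KK N p (normAlong (heckeAlphaBar KK N q) x) =
      normAlong (heckeAlphaBar KK (N * p) q) (alpha' N q p x) := by
  have hqp' : ¬ q ∣ p := fun h => by
    have := Nat.Coprime.eq_one_of_dvd hqp h
    exact hq.one_lt.ne' this
  refine normAlong_baseChange (heckeAlphaBar KK N q) (heckeAlphaBar KK (N * p) q)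
    (heckeAlphaBar KK N p) (alpha' N q p) (square_aa N q p) (finAlpha N q) (finAlpha (N * p) q)
    (finrankAlong_alpha_eq N q p hq hqp') (fun S h1 h2 => ?_) x
  have e1 : js (N * p) ∈ IntermediateField.lift S := by
    refine mem_lift_of_mem (h1 ⟨jM (N * p), rfl⟩) ?_
    exact (coe_heckeAlphaBar (N * p) q _).trans (coe_jM_eq_js (N * p))
  have e2 : js (N * q) ∈ IntermediateField.lift S := by
    refine mem_lift_of_mem (h2 ⟨jM (N * q), rfl⟩) ?_
    exact (coe_alpha' N q p _).trans (coe_jM_eq_js (N * q))
  refine eq_top_of_js_mem (N * p * q) S ?_ (js_mem_of_coprime_mul N p q hqp _ e1 e2).2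
  refine mem_lift_of_mem (h2 ⟨jF (N * q), rfl⟩) ?_
  exact (coe_alpha' N q p _).trans (coe_jF_eq_js (N * q))

theorem finrankAlong_beta_eq_of_alpha (hp : p.Prime) (hpq : ¬ p ∣ q) :
    finrankAlong KK (heckeBetaBar KK (N * p) q) = finrankAlong KK (heckeBetaBar KK N q) := by
  have h1 := finrankAlong_tower (heckeBetaBar KK N q) (alpha' N q p)
  have h2 := finrankAlong_tower (heckeAlphaBar KK N p) (heckeBetaBar KK (N * p) q)
  have h3 : (alpha' N q p).comp (heckeBetaBar KK N q) =
      (heckeBetaBar KK (N * p) q).comp (heckeAlphaBar KK N p) :=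
    AlgHom.ext (square_ba N q p)
  rw [h3, h2, finrankAlong_alpha', finrankAlong_alpha_eq N p q hp hpq, mul_comm] at h1
  exact Nat.eq_of_mul_eq_mul_right (finrankAlong_pos' _ (finAlpha N p)) h1

/-- The trace along `β_q` commutes with pulling back by `α_p`. -/
theorem alpha_norm_beta (hp : p.Prime) (hpq : ¬ p ∣ q)
    (x : modularFunctionFieldBar (N * q)) :
    heckeAlphaBar KK N p (normAlong (heckeBetaBar KK N q) x) =
      normAlong (heckeBetaBar KK (N * p) q) (alpha' N q p x) := by
  refine normAlong_baseChange (heckeBetaBar KK N q) (heckeBetaBar KK (N * p) q)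
    (heckeAlphaBar KK N p) (alpha' N q p) (square_ba N q p) (finBeta N q) (finBeta (N * p) q)
    (finrankAlong_beta_eq_of_alpha N q p hp hpq) (fun S h1 h2 => ?_) x
  refine eq_top_of_js_mem (N * p * q) S ?_ ?_
  · refine mem_lift_of_mem (h2 ⟨jF (N * q), rfl⟩) ?_
    exact (coe_alpha' N q p _).trans (coe_jF_eq_js (N * q))
  · refine mem_lift_of_mem (h1 ⟨jM (N * p), rfl⟩) ?_
    refine (coe_heckeBetaBar (N * p) q _).trans ?_
    rw [coe_jM_eq_js]
    exact qExpand_js q (N * p) (N * p * q) rfl

theorem finrankAlong_beta (hp : p.Prime) (h : ¬ p ∣ N) :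
    finrankAlong KK (heckeBetaBar KK N p) = p + 1 := by
  have hc : Nat.Coprime p N := (Nat.Prime.coprime_iff_not_dvd hp).mpr h
  have h1 : ((swapEquiv (N := N) (ℓ := p) (L := KK) iota hc : _ →ₐ[KK] _)).comp
      (heckeAlphaBar KK N p) = heckeBetaBar KK N p :=
    AlgHom.ext fun f => swapHom_alpha iota hc f
  rw [← h1, finrankAlong_comp, finrankAlong_alpha N p hp h]

theorem finrankAlong_beta_eq_of_beta (hp : p.Prime) (hpN : ¬ p ∣ N) (hpq : ¬ p ∣ q) :
    finrankAlong KK (heckeBetaBar KK (N * p) q) = finrankAlong KK (heckeBetaBar KK N q) := by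
  have h1 := finrankAlong_tower (heckeBetaBar KK N q) (beta' N q p)
  have h2 := finrankAlong_tower (heckeBetaBar KK N p) (heckeBetaBar KK (N * p) q)
  have h3 : (beta' N q p).comp (heckeBetaBar KK N q) =
      (heckeBetaBar KK (N * p) q).comp (heckeBetaBar KK N p) :=
    AlgHom.ext (square_bb N q p)
  have h4 : ¬ p ∣ N * q := fun h => ((Nat.Prime.dvd_mul hp).mp h).elim hpN hpq
  rw [h3, h2, finrankAlong_beta', finrankAlong_beta (N * q) p hp h4, finrankAlong_beta N p hp hpN,
    mul_comm] at h1
  exact Nat.eq_of_mul_eq_mul_right (Nat.succ_pos p) h1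

/-- The trace along `β_q` commutes with pulling back by `β_p`. -/
theorem beta_norm_beta (hp : p.Prime) (hpN : ¬ p ∣ N) (hqp : Nat.Coprime q p)
    (x : modularFunctionFieldBar (N * q)) :
    heckeBetaBar KK N p (normAlong (heckeBetaBar KK N q) x) =
      normAlong (heckeBetaBar KK (N * p) q) (beta' N q p x) := by
  have hpq : ¬ p ∣ q := fun h => by
    have := Nat.Coprime.eq_one_of_dvd hqp.symm h
    exact hp.one_lt.ne' this
  refine normAlong_baseChange (heckeBetaBar KK N q) (heckeBetaBar KK (N * p) q)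
    (heckeBetaBar KK N p) (beta' N q p) (square_bb N q p) (finBeta N q) (finBeta (N * p) q)
    (finrankAlong_beta_eq_of_beta N q p hp hpN hpq) (fun S h1 h2 => ?_) x
  have e1 : js q ∈ IntermediateField.lift S := by
    refine mem_lift_of_mem (h1 ⟨jF (N * p), rfl⟩) ?_
    refine (coe_heckeBetaBar (N * p) q _).trans ?_
    rw [coe_jF_eq_js]
    exact qExpand_js q 1 q (one_mul q).symm
  have e2 : js p ∈ IntermediateField.lift S := by
    refine mem_lift_of_mem (h2 ⟨jF (N * q), rfl⟩) ?_
    refine (coe_beta' N q p _).trans ?_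
    rw [coe_jF_eq_js]
    exact qExpand_js p 1 p (one_mul p).symm
  refine eq_top_of_js_mem (N * p * q) S (js_mem_of_coprime p q hqp _ e2 e1).1 ?_
  refine mem_lift_of_mem (h1 ⟨jM (N * p), rfl⟩) ?_
  refine (coe_heckeBetaBar (N * p) q _).trans ?_
  rw [coe_jM_eq_js]
  exact qExpand_js q (N * p) (N * p * q) rfl

end Squares

end Fermat.Agent.S36red

end
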