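import Fermat.Agent.S36.RevTransfer
import Fermat.Prelude.Def_GaloisRep_LocalConditions

/-!
# Non-unipotence from the statement on inertia invariants

If the inertia invariants of `J[p^∞]` killed by the two degeneracy maps `J → J'` have bounded
exponent, a representation attached to an eigensystem which is separated from the level of `J'`
is not unipotent on inertia.
-/

set_option autoImplicit false
set_option linter.unusedSectionVars false
set_option linter.style.haveILetI false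

noncomputable section

open CuspForm ModularCurve Polynomial Fermat.Agent.GalRep

namespace Fermat.Agent.S36red

section Mat

variable {T : Type*} [CommRing T] [IsDomain T]

lemma entries_of_charpoly {F : Matrix (Fin 2) (Fin 2) T} (hF : F.charpoly = (X - 1) ^ 2) :
    F 0 0 + F 1 1 = 2 ∧ F 0 0 * F 1 1 - F 0 1 * F 1 0 = 1 := by
  rw [Matrix.charpoly_fin_two, Matrix.trace_fin_two, Matrix.det_fin_two] at hF
  have h0 := congrArg (fun P : T[X] => P.eval 0) hF
  have h1 := congrArg (fun P : T[X] => P.eval 1) hF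
  simp only [eval_add, eval_sub, eval_mul, eval_pow, eval_X, eval_C, eval_one] at h0 h1
  constructor
  · linear_combination h0 - h1
  · linear_combination h0

lemma mat_mul_eq_zero {F G : Matrix (Fin 2) (Fin 2) T} (hF : F.charpoly = (X - 1) ^ 2)
    (hG : G.charpoly = (X - 1) ^ 2) (hFG : (F * G).charpoly = (X - 1) ^ 2) :
    (F - 1) * (G - 1) = 0 := by
  obtain ⟨f1, f2⟩ := entries_of_charpoly hF
  obtain ⟨g1, g2⟩ := entries_of_charpoly hG
  obtain ⟨h1, -⟩ := entries_of_charpoly hFG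
  rw [Matrix.mul_apply, Matrix.mul_apply, Fin.sum_univ_two, Fin.sum_univ_two] at h1
  obtain ⟨x, hx⟩ : ∃ x, x = F 0 0 - 1 := ⟨_, rfl⟩
  obtain ⟨x', hx'⟩ : ∃ x, x = G 0 0 - 1 := ⟨_, rfl⟩
  have hF00 : F 0 0 = 1 + x := by rw [hx]; ring
  have hG00 : G 0 0 = 1 + x' := by rw [hx']; ring
  have hF11 : F 1 1 = 1 - x := by linear_combination f1 - hF00
  have hG11 : G 1 1 = 1 - x' := by linear_combination g1 - hG00
  obtain ⟨y, hy⟩ : ∃ y, y = F 0 1 := ⟨_, rfl⟩
  obtain ⟨z, hz⟩ : ∃ y, y = F 1 0 := ⟨_, rfl⟩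
  obtain ⟨y', hy'⟩ : ∃ y, y = G 0 1 := ⟨_, rfl⟩
  obtain ⟨z', hz'⟩ : ∃ y, y = G 1 0 := ⟨_, rfl⟩
  rw [hF00, hF11, ← hy, ← hz] at f2
  rw [hG00, hG11, ← hy', ← hz'] at g2
  rw [hF00, hF11, ← hy, ← hz, hG00, hG11, ← hy', ← hz'] at h1
  have e1 : x * x + y * z = 0 := by linear_combination -f2
  have e2 : x' * x' + y' * z' = 0 := by linear_combination -g2
  have e3 : 2 * x * x' + y * z' + z * y' = 0 := by linear_combination h1
  have k1 : x * x' + y * z' = 0 := by
    apply pow_eq_zero_iff (two_ne_zero) |>.mp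
    linear_combination (x' * x') * e1 - (y * z) * e2 + (y * z') * e3
  have k2 : z * y' + x * x' = 0 := by linear_combination e3 - k1
  have k3 : x * y' - y * x' = 0 := by
    apply pow_eq_zero_iff (two_ne_zero) |>.mp
    linear_combination (y' * y') * e1 + (y * y) * e2 - (y * y') * e3
  have k4 : z * x' - x * z' = 0 := by
    apply pow_eq_zero_iff (two_ne_zero) |>.mp
    linear_combination (z' * z') * e1 + (z * z) * e2 - (z * z') * e3
  ext i j
  fin_cases i <;> fin_cases j <;>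
    simp [Matrix.mul_apply, Fin.sum_univ_two, hF00, hF11, hG00, hG11, ← hy, ← hz, ← hy', ← hz']
  · exact k1
  · linear_combination k3
  · linear_combination k4
  · linear_combination k2

/-- unipotent automorphisms of a rank two module with unipotent product. -/
lemma end_mul_eq_zero {V : Type*} [AddCommGroup V] [Module T V] [Module.Free T V]
    [Module.Finite T V] (hV : Module.finrank T V = 2) {f g : Module.End T V}
    (hf : f.charpoly = (X - 1) ^ 2) (hg : g.charpoly = (X - 1) ^ 2)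
    (hfg : (f * g).charpoly = (X - 1) ^ 2) : (f - 1) * (g - 1) = 0 := by
  classical
  set b : Module.Basis (Fin 2) T V := Module.finBasisOfFinrankEq T V hV with hb
  rw [← LinearMap.charpoly_toMatrix _ b] at hf hg hfg
  rw [LinearMap.toMatrix_mul] at hfg
  have h := mat_mul_eq_zero hf hg hfg
  apply (LinearMap.toMatrix b b).injective
  rw [LinearMap.toMatrix_mul, map_sub, map_sub, LinearMap.toMatrix_one, h, map_zero]

end Mat

section Main

variable {N p : ℕ} [NeZero N] [hp : Fact p.Prime] {S : Finset ℕ}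
  {J : Type*} [AddCommGroup J] [Module HeckeAlg J] [DistribMulAction GQ J]
  [SMulCommClass GQ HeckeAlg J]
  {T : Type} [CommRing T] [IsDomain T] [IsLocalRing T] [IsNoetherianRing T]
  [IsAdicComplete (IsLocalRing.maximalIdeal T) T] [CharZero T]

/-- **Non-unipotence.** -/
theorem not_isUnipotentOnInertiaAt [Module.Finite ℤ (heckeAlgebra N 2 (↑S : Set ℕ))]
    (hJ : ESInput N p (↑S : Set ℕ) J) (hK : HeckeFactors N p (↑S : Set ℕ) J)
    (hpS : p ∈ S) (hNS : ∀ q : ℕ, q.Prime → q ∣ N → q ∈ S)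
    (hpT : (p : T) ∈ IsLocalRing.maximalIdeal T)
    {π : heckeAlgebra N 2 (↑S : Set ℕ) →+* T} {ρ : GaloisRepAdic T}
    (hfrob : HasFrobCharpoly π ρ) (habs : ρ.residual.IsAbsolutelyIrreducible)
    {N' : ℕ} [NeZero N'] {J' : Type*} [AddCommGroup J'] [Module HeckeAlg J']
    [DistribMulAction GQ J'] (hK' : HeckeFactors N' p (↑S : Set ℕ) J')
    (al be : J →+ J')
    (hal : ∀ (t : HeckeAlgS (↑S : Set ℕ)) (x : J),
      al (inclS (↑S : Set ℕ) t • x) = inclS (↑S : Set ℕ) t • al x)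
    (hbe : ∀ (t : HeckeAlgS (↑S : Set ℕ)) (x : J),
      be (inclS (↑S : Set ℕ) t • x) = inclS (↑S : Set ℕ) t • be x)
    (halG : ∀ (σ : GQ) (x : J), al (σ • x) = σ • al x)
    (hbeG : ∀ (σ : GQ) (x : J), be (σ • x) = σ • be x)
    (t₁ : HeckeAlgS (↑S : Set ℕ)) (ht₁' : evS N' (↑S : Set ℕ) t₁ = 0)
    (ht₁ : π (evS N (↑S : Set ℕ) t₁) ≠ 0)
    {q : ℕ} {A : ValuationSubring (AlgebraicClosure ℚ)} (hA : A.LiesOverPrime q)
    (c : ℕ) (hc : ∀ (n : ℕ) (x : J), p ^ n • x = 0 →
      (∀ σ ∈ A.inertiaSubgroupIn ℚ, σ • x = x) → al x = 0 → be x = 0 → p ^ c • x = 0) :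
    ¬ ρ.IsUnipotentOnInertiaAt q := by
  intro hU
  have hU' := hU A hA
  obtain ⟨e', he', hK'⟩ := hK'
  have ht₁e : π (evS N (↑S : Set ℕ) ((e' : HeckeAlgS (↑S : Set ℕ)) * t₁)) ≠ 0 := by
    rw [map_mul, map_mul, map_natCast, map_natCast]
    exact mul_ne_zero (Nat.cast_ne_zero.mpr he') ht₁
  have hK'' := hK' t₁ ht₁'
  clear hK' ht₁'
  generalize (e' : HeckeAlgS (↑S : Set ℕ)) * t₁ = t₂ at ht₁e hK''
  obtain ⟨σ, hσ1, hσ2⟩ := exists_revTransfer hJ hK hpS hNS hpT hfrob habs t₂ ht₁e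
  obtain ⟨m, x, hx, hne⟩ := hσ2 (c + c)
  -- the product relation on `σ_m J[p^m]`
  have hprod : ∀ τ ∈ A.inertiaSubgroupIn ℚ, ∀ τ' ∈ A.inertiaSubgroupIn ℚ, ∀ y : J,
      p ^ m • y = 0 → τ • (τ' • (inclS (↑S : Set ℕ) (σ m) • y) - inclS (↑S : Set ℕ) (σ m) • y) =
        τ' • (inclS (↑S : Set ℕ) (σ m) • y) - inclS (↑S : Set ℕ) (σ m) • y := by
    intro τ hτ τ' hτ' y hy
    have h0 : (ρ.ρ τ - 1) * (ρ.ρ τ' - 1) = 0 := by
      refine end_mul_eq_zero ρ.finrank_eq (hU' τ hτ) (hU' τ' hτ') ?_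
      rw [← map_mul]
      exact hU' _ (mul_mem hτ hτ')
    have h1 := hσ1 m (Finset.univ : Finset (Fin 4)) ![1, -1, -1, 1] ![τ * τ', τ, τ', 1] (by
      simp only [Fin.sum_univ_four]
      simp only [Matrix.cons_val_zero, Matrix.cons_val_one, Matrix.cons_val]
      rw [map_mul, map_one]
      rw [← h0]
      noncomm_ring) y hy
    simp only [Fin.sum_univ_four, Matrix.cons_val_zero, Matrix.cons_val_one, Matrix.cons_val] at h1
    rw [one_smul, one_smul, one_smul, neg_smul, neg_smul, one_smul, one_smul, mul_smul] at h1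
    rw [smul_sub]
    rw [← sub_eq_zero, ← h1]
    abel
  set z : J := inclS (↑S : Set ℕ) (t₂ * σ m) • x with hz
  have hzy : z = inclS (↑S : Set ℕ) (σ m) • (inclS (↑S : Set ℕ) t₂ • x) := by
    rw [hz, mul_comm, map_mul, mul_smul]
  have hpz : p ^ m • z = 0 := by rw [hz, smul_comm, hx, smul_zero]
  have hkill : ∀ f : J →+ J', (∀ (t : HeckeAlgS (↑S : Set ℕ)) (x : J),
      f (inclS (↑S : Set ℕ) t • x) = inclS (↑S : Set ℕ) t • f x) → f z = 0 := by
    intro f hf
    rw [hz, map_mul, mul_smul, hf]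
    refine hK'' m _ ?_
    rw [← map_nsmul, smul_comm, hx, smul_zero, map_zero]
  have h1 : ∀ τ' ∈ A.inertiaSubgroupIn ℚ, p ^ c • (τ' • z - z) = 0 := by
    intro τ' hτ'
    refine hc m _ ?_ ?_ ?_ ?_
    · rw [smul_sub, smul_comm, hpz, smul_zero, sub_zero]
    · intro τ hτ
      rw [hzy]
      refine hprod τ hτ τ' hτ' _ ?_
      rw [smul_comm, hx, smul_zero]
    · rw [map_sub, halG, hkill al hal, smul_zero, sub_zero]
    · rw [map_sub, hbeG, hkill be hbe, smul_zero, sub_zero]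
  have h2 : p ^ c • (p ^ c • z) = 0 := by
    refine hc m _ ?_ ?_ ?_ ?_
    · rw [smul_comm, hpz, smul_zero]
    · intro τ' hτ'
      have := h1 τ' hτ'
      rw [smul_sub, sub_eq_zero] at this
      rw [smul_comm, this]
    · rw [map_nsmul, hkill al hal, smul_zero]
    · rw [map_nsmul, hkill be hbe, smul_zero]
  apply hne
  rw [mul_assoc, map_mul, map_pow, map_natCast, mul_smul, ← hz, ← Nat.cast_pow,
    Nat.cast_smul_eq_nsmul, pow_add, mul_smul]
  exact h2

end Main

end Fermat.Agent.S36red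

end
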